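import Fermat.Agent.F4.Dict.SUnits
import Fermat.Agent.F4.Coind.Prod

/-!
# F4 / Dict / Formation : the concrete formation modules `L_q`, `J`, `E → J`, `C = J / E`
(layer DICT, D0; definitions, sorry-free)

* `locAct q` : the action of the local Galois group at `q` on `PadicAlgCl q`;
* `LqS S q = smUnits (locLevelsS S q) (locAct q)` : the units of `(ℚ_S)_q = ℚ_q · ι(ℚ_S)`;
  `LqAll q = smUnits (locLevelsAll q) (locAct q)` : the units of `PadicAlgCl q` fixed by a level
  of the full local group;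
* `locUnit S q x` : the image in `LqS S q` of `x ∈ (ℚ_S)ˣ` under `ι = padicEmbedding q`;
* `Jrep S = ∏_{q ∈ S} coInd_{D_q → G_ℚ} (LqS S q)` : the `S`-idèles of `ℚ_S`;
* `diagJ S : (ℚ_S)ˣ → J`, `x ↦ (q ↦ (g ↦ ι (g x)))`, equivariant and injective;
* `Crep S = J / diagJ(E)` : the formation module `C`; `CMk S : J → C`.
-/

set_option autoImplicit false
set_option synthInstance.maxHeartbeats 400000

open CategoryTheory groupCohomology ExtCitation

namespace Fermat.Agent.F4

section Local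

variable (S : Finset Nat.Primes) (q : Nat.Primes)

/-- The action of the local Galois group at `q` on `PadicAlgCl q`. -/
noncomputable def locAct :
    primeLocalGaloisGroup q →* RingAut (@PadicAlgCl (q : ℕ) ⟨q.2⟩) :=
  letI : Fact (q : ℕ).Prime := ⟨q.2⟩
  { toFun := fun σ => (show PadicAlgCl (q : ℕ) ≃ₐ[ℚ_[(q : ℕ)]] PadicAlgCl (q : ℕ) from σ).toRingEquiv
    map_one' := rfl
    map_mul' := fun _ _ => rfl }

/-- The embedding `ι : ℚ̄ → PadicAlgCl q` of the Prelude. -/
noncomputable def locEmb : AlgebraicClosure ℚ →+* @PadicAlgCl (q : ℕ) ⟨q.2⟩ :=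
  letI : Fact (q : ℕ).Prime := ⟨q.2⟩
  (padicEmbedding (q : ℕ)).toRingHom

/-- `ι (r(d) x) = d (ι x)`. -/
lemma locEmb_primeLocalToGlobal (d : primeLocalGaloisGroup q) (x : AlgebraicClosure ℚ) :
    locEmb q (primeLocalToGlobal q d x) = locAct q d (locEmb q x) := by
  letI : Fact (q : ℕ).Prime := ⟨q.2⟩
  exact padicEmbedding_localGaloisToGlobal (q : ℕ) d x

lemma locEmb_injective : Function.Injective (locEmb q) := (locEmb q).injective

/-- **`L_q`**: the units of `(ℚ_S)_q`, a smooth module over the local group at `q`. -/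
noncomputable abbrev LqS : Rep.{0} ℤ (primeLocalGaloisGroup q) :=
  smUnits (locLevelsS S q) (locAct q)

/-- The units of `PadicAlgCl q` fixed by a level of the full local group. -/
noncomputable abbrev LqAll : Rep.{0} ℤ (primeLocalGaloisGroup q) :=
  smUnits (locLevelsAll q) (locAct q)

/-- `ι` on units. -/
noncomputable def locEmbU : (AlgebraicClosure ℚ)ˣ →* (@PadicAlgCl (q : ℕ) ⟨q.2⟩)ˣ :=
  Units.map (locEmb q).toMonoidHom

@[simp] lemma locEmbU_val (u : (AlgebraicClosure ℚ)ˣ) :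
    ((locEmbU q u : (@PadicAlgCl (q : ℕ) ⟨q.2⟩)ˣ) : @PadicAlgCl (q : ℕ) ⟨q.2⟩) =
      locEmb q (u : AlgebraicClosure ℚ) := rfl

/-- The image of a unit of `ℚ_S` in `PadicAlgCl q` is fixed by a level. -/
lemma locEmb_mem (u : (AlgebraicClosure ℚ)ˣ) (hu : u ∈ smUnitsSub (levelsS S) galAct) :
    locEmbU q u ∈ smUnitsSub (locLevelsS S q) (locAct q) := by
  obtain ⟨V, hV, h⟩ := hu
  refine ⟨V.comap (primeLocalToGlobal q), ⟨V, hV, rfl⟩, fun d hd => ?_⟩
  show locAct q d (locEmb q (u : AlgebraicClosure ℚ)) = locEmb q (u : AlgebraicClosure ℚ)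
  rw [← locEmb_primeLocalToGlobal]
  exact congrArg (locEmb q) (h _ hd)

/-- `x ↦ ι x`, `(ℚ_S)ˣ → L_q`. -/
noncomputable def locUnit : QSx S →+ LqS S q where
  toFun x := smUnits.mk (locEmbU q (smUnits.val x)) (locEmb_mem S q _ (smUnits.val_mem x))
  map_zero' := by
    apply smUnits.val_injective
    show locEmbU q 1 = 1
    exact map_one _
  map_add' x y := by
    apply smUnits.val_injective
    show locEmbU q (smUnits.val x * smUnits.val y) =
      locEmbU q (smUnits.val x) * locEmbU q (smUnits.val y)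
    exact map_mul _ _ _

@[simp] lemma locUnit_val (x : QSx S) :
    ((smUnits.val (locUnit S q x) : (@PadicAlgCl (q : ℕ) ⟨q.2⟩)ˣ) : @PadicAlgCl (q : ℕ) ⟨q.2⟩) =
      locEmb q ((smUnits.val x : (AlgebraicClosure ℚ)ˣ) : AlgebraicClosure ℚ) := rfl

lemma locUnit_injective : Function.Injective (locUnit S q) := by
  intro x y h
  apply smUnits.val_injective
  apply Units.ext
  apply locEmb_injective q
  rw [← locUnit_val, ← locUnit_val, h]

/-- `ι (r(d) x) = d (ι x)` on `(ℚ_S)ˣ`. -/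
lemma locUnit_comm (d : primeLocalGaloisGroup q) (x : QSx S) :
    locUnit S q ((QSx S).ρ (primeLocalToGlobal q d) x) = (LqS S q).ρ d (locUnit S q x) := by
  apply smUnits.val_injective
  apply Units.ext
  rw [locUnit_val, smUnits.val_ρ, smUnits.val_ρ, locUnit_val]
  exact locEmb_primeLocalToGlobal q d _

end Local

section Global

variable (S : Finset Nat.Primes)

/-- **`J`**: the `S`-idèles of `ℚ_S`, `∏_{q ∈ S} coInd_{D_q → G_ℚ} L_q`. -/
noncomputable abbrev Jrep : Rep.{0} ℤ GQ :=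
  cxPiRep fun q : ↥S => coInd (primeLocalToGlobal q.1) (levelsS S) (LqS S q.1)

lemma Jrep_smooth : IsSmooth (levelsS S) (Jrep S) := by
  classical
  intro x
  have h : ∀ q : ↥S, ∃ U ∈ (levelsS S).sets, ∀ g ∈ U,
      (coInd (primeLocalToGlobal q.1) (levelsS S) (LqS S q.1)).ρ g (x q) = x q :=
    fun q => coInd_smooth (LqS S q.1) (x q)
  obtain ⟨U, hU, hUq⟩ := (levelsS S).coind_exists_le_of_finite (Set.univ : Set ↥S)
    Set.finite_univ
    (fun q V => ∀ g ∈ V, (coInd (primeLocalToGlobal q.1) (levelsS S) (LqS S q.1)).ρ g (x q) = x q)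
    (fun q _ => h q) (fun q U V hVU hP g hg => hP g (hVU hg))
  exact ⟨U, hU, fun g hg => funext fun q => hUq q (Set.mem_univ _) g hg⟩

/-- The function `g ↦ ι_q (g x)` is a smooth coinduced function. -/
lemma diagJ_mem (q : ↥S) (x : QSx S) :
    (fun g : GQ => locUnit S q.1 ((QSx S).ρ g x)) ∈
      coIndSub (primeLocalToGlobal q.1) (levelsS S) (LqS S q.1) := by
  refine ⟨fun d g => ?_, ?_⟩
  · show locUnit S q.1 ((QSx S).ρ (primeLocalToGlobal q.1 d * g) x) = _
    rw [map_mul, Module.End.mul_apply]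
    exact locUnit_comm S q.1 d _
  · obtain ⟨U, hU, h⟩ := (smUnits_smooth : IsSmooth (levelsS S) (QSx S)) x
    refine ⟨U, hU, fun g s hs => ?_⟩
    show locUnit S q.1 ((QSx S).ρ (g * s) x) = locUnit S q.1 ((QSx S).ρ g x)
    rw [map_mul, Module.End.mul_apply, h s hs]

/-- **The diagonal embedding** `(ℚ_S)ˣ → J`. -/
noncomputable def diagJ : QSx S →+ Jrep S where
  toFun x := fun q => ⟨_, diagJ_mem S q x⟩
  map_zero' := by
    funext q
    apply Subtype.ext
    funext g
    show locUnit S q.1 ((QSx S).ρ g 0) = 0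
    rw [map_zero, map_zero]
  map_add' x y := by
    funext q
    apply Subtype.ext
    funext g
    show locUnit S q.1 ((QSx S).ρ g (x + y)) =
      locUnit S q.1 ((QSx S).ρ g x) + locUnit S q.1 ((QSx S).ρ g y)
    rw [map_add, map_add]

lemma diagJ_apply (x : QSx S) (q : ↥S) (g : GQ) :
    ((diagJ S x q : ↥(coIndSub (primeLocalToGlobal q.1) (levelsS S) (LqS S q.1))) : GQ → LqS S q.1) g
      = locUnit S q.1 ((QSx S).ρ g x) := rfl

lemma diagJ_comm (g : GQ) (x : QSx S) : diagJ S ((QSx S).ρ g x) = (Jrep S).ρ g (diagJ S x) := by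
  funext q
  apply Subtype.ext
  funext h
  show locUnit S q.1 ((QSx S).ρ h ((QSx S).ρ g x)) = locUnit S q.1 ((QSx S).ρ (h * g) x)
  rw [map_mul, Module.End.mul_apply]

/-- The image of `E` in `J`. -/
noncomputable def EinJ : AddSubgroup (Jrep S) := (sUnitsAdd S).map (diagJ S)

lemma EinJ_stable (g : GQ) (x : Jrep S) (hx : x ∈ EinJ S) : (Jrep S).ρ g x ∈ EinJ S := by
  obtain ⟨e, he, rfl⟩ := hx
  exact ⟨(QSx S).ρ g e, sUnitsAdd_stable S g e he, diagJ_comm S g e⟩

/-- **`C = J / E`**, the formation module of `G_S`. -/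
noncomputable abbrev Crep : Rep.{0} ℤ GQ := quotRep (Jrep S) (EinJ S) (EinJ_stable S)

/-- The projection `J → C`. -/
noncomputable def CMk : Jrep S →+ Crep S := quotMk (Jrep S) (EinJ S) (EinJ_stable S)

lemma CMk_surjective : Function.Surjective (CMk S) := quotMk_surjective _ _ _

lemma CMk_eq_zero_iff (x : Jrep S) : CMk S x = 0 ↔ x ∈ EinJ S := quotMk_eq_zero_iff _ _ _ x

lemma CMk_comm (g : GQ) (x : Jrep S) : CMk S ((Jrep S).ρ g x) = (Crep S).ρ g (CMk S x) := rfl

lemma Crep_smooth : IsSmooth (levelsS S) (Crep S) := by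
  intro c
  obtain ⟨x, rfl⟩ := CMk_surjective S c
  obtain ⟨U, hU, h⟩ := Jrep_smooth S x
  exact ⟨U, hU, fun g hg => by rw [← CMk_comm, h g hg]⟩

end Global

end Fermat.Agent.F4
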