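import Fermat.Agent.Lib.Minkowski.InertiaLift
import Fermat.Agent.F4.Dict.Level
import Fermat.Agent.F4.Recip.Statements
import Fermat.Agent.F4.Cf.RecipCFin

/-!
# F4 / Dict / Unram : the layers of `G_S` are unramified outside `S` at finite level
(helper29)

* `ub_exists_mem_inertia` : inertia lifting for an ARBITRARY finite subextension `L/ℚ` of `ℚ̄`
  (not necessarily normal): an automorphism `s` of `L` acting trivially on the integers of `L`
  modulo the maximal ideal of the valuation subring `A` of `ℚ̄` is the restriction of an element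
  of the inertia group of `A`  (helper10's `exists_mem_inertiaSubgroupIn_restrict` without
  normality);
* `OpenS.unramAt` : for `L : OpenS S` and any subfield `F` of `M = L.field` (with `Algebra F M`
  the inclusion), `M / F` is unramified at every prime of `M` over a rational prime `r ∉ S`;
* `LayerS.unramOutside` : `UnramOutside bot.field top.field bot.T` (helper14's finite-level
  hypothesis of `FirstIneqRay`, `ArtinRay`, `artinMapExists`).
-/

set_option autoImplicit false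
set_option linter.unusedSectionVars false
set_option linter.style.haveILetI false
set_option synthInstance.maxHeartbeats 400000

open NumberField IsDedekindDomain ExtCitation

namespace Fermat.Agent.F4UB

open Fermat.Agent.FrobExists Fermat.Agent.Minkowski
open scoped Pointwise
open IsLocalRing

attribute [local instance] isAlgebraic_Qb isAlgClosure_Qb isInvariant_Zb isGalois_Qb

section Lift

variable (L : IntermediateField ℚ Qb)

/-- If `σ` restricts to `s` on `L` and `s` is trivial on the integers of `L` modulo the centre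
of `A`, then `σ` is trivial on the integers of `L` modulo the centre of `A`. -/
theorem ub_smul_sub_mem_centre (A : ValuationSubring Qb) (s : L ≃ₐ[ℚ] L)
    (hs : ∀ x : L, IsIntegral ℤ x → ((s x : L) : Qb) - (x : Qb) ∈ A.nonunits)
    (σ : GQ) (hσ : ∀ x : L, σ (x : Qb) = ((s x : L) : Qb)) (a : Zb) (ha : a ∈ intL L) :
    σ • a - a ∈ centre A := by
  rw [mem_centre_iff]
  have hx : IsIntegral ℤ (⟨(a : Qb), ha⟩ : L) := by
    have h1 : IsIntegral ℤ (algebraMap L Qb ⟨(a : Qb), ha⟩) := a.2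
    exact (isIntegral_algebraMap_iff (FaithfulSMul.algebraMap_injective L Qb)).mp h1
  have h := hs ⟨(a : Qb), ha⟩ hx
  rw [← hσ] at h
  exact h

/-- **Lifting inertia** from an arbitrary finite level. -/
theorem ub_exists_mem_inertia (A : ValuationSubring Qb) [FiniteDimensional ℚ L]
    (s : L ≃ₐ[ℚ] L)
    (hs : ∀ x : L, IsIntegral ℤ x → ((s x : L) : Qb) - (x : Qb) ∈ A.nonunits) :
    ∃ σ ∈ A.inertiaSubgroupIn ℚ, ∀ x : L, σ (x : Qb) = ((s x : L) : Qb) := by
  let _ : TopologicalSpace Zb := ⊥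
  have : DiscreteTopology Zb := ⟨rfl⟩
  have := continuousSMul_fixingSubgroup_Zb L
  have := compactSpace_fixingSubgroup L
  have := isInvariant_intL L
  -- Step 0: a lift
  let σ₀ : GQ := s.liftNormal Qb
  have hσ₀ : ∀ x : L, σ₀ (x : Qb) = ((s x : L) : Qb) := fun x => s.liftNormal_commutes Qb x
  have hfix : ∀ (ρ : GQ), ρ ∈ L.fixingSubgroup → ∀ x : L, ρ (x : Qb) = x := fun ρ hρ x =>
    (IntermediateField.mem_fixingSubgroup_iff L ρ).mp hρ _ x.2
  -- `σ₀⁻¹` on `L`
  have hσ₀inv : ∀ x : L, σ₀⁻¹ (x : Qb) = ((s.symm x : L) : Qb) := by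
    intro x
    have h1 := hσ₀ (s.symm x)
    rw [s.apply_symm_apply] at h1
    rw [← h1]
    show σ₀.symm (σ₀ _) = _
    simp
  -- Step 1: a lift stabilising the centre
  have hunder : (σ₀ • centre A).under (intL L) = (centre A).under (intL L) := by
    ext a
    rw [Ideal.mem_comap, Ideal.mem_comap, Ideal.mem_pointwise_smul_iff_inv_smul_mem]
    have ha' : σ₀⁻¹ • (a : Zb) ∈ intL L := by
      rw [mem_intL_iff]
      show σ₀⁻¹ ((a : Zb) : Qb) ∈ L
      have := hσ₀inv ⟨((a : Zb) : Qb), a.2⟩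
      rw [this]
      exact (s.symm _).2
    have h := ub_smul_sub_mem_centre L A s hs σ₀ hσ₀ _ ha'
    rw [smul_inv_smul] at h
    constructor
    · intro h1
      have := (centre A).add_mem h h1
      simpa using this
    · intro h1
      have := (centre A).sub_mem h1 h
      simpa using this
  obtain ⟨ρ, hρ⟩ := Algebra.IsInvariant.exists_smul_of_under_eq_of_profinite
    (A := intL L) (G := L.fixingSubgroup) (σ₀ • centre A) (centre A) hunder
  let σ₁ : GQ := ρ.1 * σ₀
  have hσ₁Q : σ₁ • centre A = centre A := by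
    ext x
    rw [Ideal.mem_pointwise_smul_iff_inv_smul_mem]
    have h1 := SetLike.ext_iff.mp hρ x
    rw [Ideal.mem_pointwise_smul_iff_inv_smul_mem,
      Ideal.mem_pointwise_smul_iff_inv_smul_mem] at h1
    have h2 : σ₁⁻¹ • x = σ₀⁻¹ • ρ⁻¹ • x := by
      change (ρ.1 * σ₀)⁻¹ • x = σ₀⁻¹ • (ρ.1)⁻¹ • x
      rw [mul_inv_rev, mul_smul]
    rw [h2]
    exact h1.symm
  have hσ₁ : ∀ x : L, σ₁ (x : Qb) = ((s x : L) : Qb) := by
    intro x
    show ρ.1 (σ₀ (x : Qb)) = _
    rw [hσ₀]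
    exact hfix ρ.1 ρ.2 (s x)
  -- Step 2: correct the lift so that it acts trivially modulo the centre
  let g₁ : MulAction.stabilizer GQ (centre A) := ⟨σ₁, hσ₁Q⟩
  let e₁ : (Zb ⧸ centre A) ≃ₐ[ℤ ⧸ (centre A).under ℤ] (Zb ⧸ centre A) :=
    Ideal.Quotient.stabilizerHom (centre A) ((centre A).under ℤ) GQ g₁
  let e : (Zb ⧸ centre A) ≃ₐ[intL L ⧸ (centre A).under (intL L)] (Zb ⧸ centre A) :=
    AlgEquiv.ofRingEquiv (f := e₁.toRingEquiv) (by
      intro r
      obtain ⟨a, rfl⟩ := Ideal.Quotient.mk_surjective r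
      change Ideal.Quotient.mk (centre A) (σ₁ • (a : Zb)) = Ideal.Quotient.mk (centre A) (a : Zb)
      rw [Ideal.Quotient.eq]
      exact ub_smul_sub_mem_centre L A s hs σ₁ hσ₁ _ a.2)
  obtain ⟨ρ', hρ'⟩ := Ideal.Quotient.stabilizerHom_surjective_of_profinite
    (G := L.fixingSubgroup) ((centre A).under (intL L)) (centre A) e
  have hρ'b : ∀ b : Zb, σ₁ • b - ρ'.1.1 • b ∈ centre A := by
    intro b
    have h := DFunLike.congr_fun hρ' (Ideal.Quotient.mk (centre A) b)
    have h' : Ideal.Quotient.mk (centre A) (ρ'.1.1 • b) = Ideal.Quotient.mk (centre A) (σ₁ • b) := h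
    rw [← Ideal.Quotient.eq]
    exact h'.symm
  have hρ'Q : ∀ b : Zb, (ρ'.1.1)⁻¹ • b ∈ centre A ↔ b ∈ centre A := by
    intro b
    have h := SetLike.ext_iff.mp ρ'.2 b
    rw [Ideal.mem_pointwise_smul_iff_inv_smul_mem] at h
    exact h
  let σ : GQ := (ρ'.1.1)⁻¹ * σ₁
  have hσQ : σ • centre A = centre A := by
    ext x
    rw [Ideal.mem_pointwise_smul_iff_inv_smul_mem]
    have h2 : σ⁻¹ • x = σ₁⁻¹ • ρ'.1.1 • x := by
      change ((ρ'.1.1)⁻¹ * σ₁)⁻¹ • x = σ₁⁻¹ • ρ'.1.1 • x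
      rw [mul_inv_rev, inv_inv, mul_smul]
    rw [h2, ← Ideal.mem_pointwise_smul_iff_inv_smul_mem, hσ₁Q, ← hρ'Q, inv_smul_smul]
  have hσb : ∀ b : Zb, σ • b - b ∈ centre A := by
    intro b
    have h := (hρ'Q _).mpr (hρ'b b)
    rw [smul_sub, inv_smul_smul] at h
    rw [mul_smul]
    exact h
  refine ⟨σ, mem_inertiaSubgroupIn_of_forall_sub_mem_centre A σ hσQ hσb, fun x => ?_⟩
  show (ρ'.1.1)⁻¹ (σ₁ (x : Qb)) = _
  rw [hσ₁]
  exact hfix _ (L.fixingSubgroup.inv_mem ρ'.1.2) (s x)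

end Lift

end Fermat.Agent.F4UB

namespace Fermat.Agent.F4

open Fermat.Agent.F4Rec

variable {S : Finset Nat.Primes}

/-- For `L : OpenS S`, `M = L.field` and any subfield `F` of `M`: `M / F` is unramified at the
primes of `M` over a rational prime `r ∉ S`. -/
theorem OpenS.unramAt (L : OpenS S) (F : IntermediateField ℚ (AlgebraicClosure ℚ))
    [Algebra F L.field] (r : Nat.Primes) (hr : r ∉ S)
    (Q : Ideal (𝓞 L.field)) (hQ : Q.IsPrime) (hrQ : (((r : ℕ) : ℕ) : 𝓞 L.field) ∈ Q) :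
    UnramAt F Q := by
  intro τ hin
  obtain ⟨V, hV, hVQ⟩ := Fermat.Agent.F4RCF.rcf_exists_val L.field r.2 Q hQ hrQ
  let s : L.field ≃ₐ[ℚ] L.field := τ.restrictScalars ℚ
  have hs : ∀ x : L.field, IsIntegral ℤ x →
      ((s x : L.field) : AlgebraicClosure ℚ) - (x : AlgebraicClosure ℚ) ∈ V.nonunits := by
    intro x hx
    obtain ⟨y, hy, hxy⟩ := hin ⟨x, hx⟩
    rw [← hVQ, Fermat.Agent.KFin.mem_primeBelow_iff] at hy
    have : ((s x : L.field) : AlgebraicClosure ℚ) - (x : AlgebraicClosure ℚ)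
        = (((y : 𝓞 L.field) : L.field) : AlgebraicClosure ℚ) :=
      congrArg (fun z : L.field => (z : AlgebraicClosure ℚ)) hxy
    rw [this]
    exact hy
  obtain ⟨σ, hσ, hres⟩ := Fermat.Agent.F4UB.ub_exists_mem_inertia L.field V s hs
  obtain ⟨F₀, hF₀, -, hle⟩ := L.exists_level
  have hσU : σ ∈ L.U := hle (hF₀.2 r hr V hV hσ)
  apply AlgEquiv.ext
  intro x
  apply Subtype.ext
  have h1 : σ (x : AlgebraicClosure ℚ) = x := (L.mem_field_iff _).1 x.2 σ hσU
  show ((s x : L.field) : AlgebraicClosure ℚ) = (x : AlgebraicClosure ℚ)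
  rw [← hres, h1]

/-- **UNR.**  The layers of `G_S` are unramified outside `S` at finite level. -/
theorem LayerS.unramOutside {p : ℕ} (ℓ : LayerS p S) :
    UnramOutside ℓ.bot.field ℓ.top.field ℓ.bot.T := by
  intro Q hQ hQ0 hQT
  have h1 := Ideal.absNorm_mem Q
  have h2 : ((Ideal.absNorm Q : ℕ) : 𝓞 ℓ.top.field) ∈ Q := by exact_mod_cast h1
  rcases Fermat.Agent.KFin.exists_prime_natCast_mem Q _ h2 with h | ⟨r, hr, hrQ⟩
  · exact absurd (Ideal.absNorm_eq_zero_iff.mp h) hQ0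
  · refine OpenS.unramAt ℓ.top ℓ.bot.field ⟨r, hr⟩ ?_ Q hQ hrQ
    intro hrS
    have hrP : ((r : ℕ) : 𝓞 ℓ.bot.field) ∈ Q.under (𝓞 ℓ.bot.field) := by
      rw [Ideal.under_def, Ideal.mem_comap, map_natCast]
      exact hrQ
    have hP0 : Q.under (𝓞 ℓ.bot.field) ≠ ⊥ := Ideal.under_ne_bot (𝓞 ℓ.bot.field) hQ0
    have hPprime : (Q.under (𝓞 ℓ.bot.field)).IsPrime := Ideal.IsPrime.under (𝓞 ℓ.bot.field) Q
    refine hQT ⟨Q.under (𝓞 ℓ.bot.field), hPprime, hP0⟩ ?_ rfl
    rw [OpenS.mem_T]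
    exact ⟨⟨r, hr⟩, hrS, hrP⟩

end Fermat.Agent.F4
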