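import Fermat.Agent.F4.Dict.ArtinWire
import Fermat.Agent.F4.Dict.Unram

/-!
# F4 / Dict / ArtinMain : `dict_first` and `dict_distinct`, unconditional
(seat ART + DER, helper14)

* `dict_first_pf` : the first inequality for `C = J / E` (`F4/Cf/Dict.lean`, `dict_first`);
* `dict_distinct_pf` : distinct cyclic layers have distinct norm groups (`dict_distinct`).

Inputs: K1 (`kappa_pres`, helper56), K2 (`OpenS.capit`, `Div.lean`, `DivNorm.lean`, helper74/55),
NM (`LayerS.exists_norm_oneMod`, helper90), INERT-DIV (helper31), UNR (helper29), and the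
finite-level reciprocity `F4Rec.artin_core` (`ArtinRay`: helper13/48/86/14).
-/

set_option autoImplicit false
set_option synthInstance.maxHeartbeats 400000
set_option linter.unusedSectionVars false

open CategoryTheory groupCohomology ExtCitation
open NumberField IsDedekindDomain

namespace Fermat.Agent.F4

open Fermat.Agent.F4Cf Fermat.Agent.F4Rec

variable {p : ℕ} [Fact p.Prime] {S : Finset Nat.Primes}

/-- **First inequality** for `C = J / E`. -/
theorem dict_first_pf (hp2 : p ≠ 2) (hpS : pPrime p ∈ S) (U V : Subgroup GQ) (σ : GQ)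
    (hV : (levelsS S).IsOpen V) (hc : IsCyc p U V σ) :
    ∃ a : Crep S, Fix (Crep S) U a ∧ ¬ IsNormFrom (Crep S) p V σ a :=
  dict_first_unr hp2 hpS U V σ hV hc (LayerS.ofCyc hV hc).unramOutside

/-- **Reciprocity**: distinct cyclic layers of degree `p` have distinct norm groups. -/
theorem dict_distinct_pf (hp2 : p ≠ 2) (hpS : pPrime p ∈ S) (U V V' : Subgroup GQ)
    (σ σ' : GQ) (hV : (levelsS S).IsOpen V) (hV' : (levelsS S).IsOpen V')
    (hc : IsCyc p U V σ) (hc' : IsCyc p U V' σ') (hne : V ≠ V') :
    ∃ y : Crep S, Fix (Crep S) V y ∧ ¬ IsNormFrom (Crep S) p V' σ' (cnorm (Crep S) p σ y) :=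
  dict_distinct_unr hp2 hpS U V V' σ σ' hV hV' hc hc' hne (LayerS.ofCyc hV' hc').unramOutside

end Fermat.Agent.F4
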