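import Fermat.Agent.F4.Dict.DivFin

/-!
# F4 / Dict / DivFinB : every divisor of `t ∈ T_U` has finite support outside `L.T`
(sub-lemma EX-1 of helper95's `EX-FIN` plan; owner helper49)

`L : OpenS S`.  If `d` is *a* divisor of `t` (`L.IsDivS t d`), then `d v ≠ 0` for only finitely many
`v ∉ L.T`: outside `L.T` the divisor is unique (`IsDivS.eq_of_primeBelow` and helper32's
`exists_primeBelowAt`), and `t` has a finitely supported divisor (`exists_isDivS_fin`).
-/

set_option autoImplicit false

open CategoryTheory groupCohomology ExtCitation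
open scoped Pointwise
open NumberField IsDedekindDomain

namespace Fermat.Agent.F4

namespace OpenS

variable {S : Finset Nat.Primes} (L : OpenS S)

/-- Two divisors of the same `t` agree outside `L.T`. -/
lemma IsDivS.eq_of_not_mem_T {t : QSx S} {d d' : HeightOneSpectrum (𝓞 L.field) → ℤ}
    (h : L.IsDivS t d) (h' : L.IsDivS t d') (v : HeightOneSpectrum (𝓞 L.field)) (hv : v ∉ L.T) :
    d v = d' v := by
  obtain ⟨q, hq, A, hA, rfl⟩ := L.exists_primeBelowAt v hv
  exact h.eq_of_primeBelow h' q hq A hA _ rfl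

/-- **EX-1.**  A divisor of `t` has finite support outside `L.T`. -/
theorem IsDivS.finite_support {t : QSx S} {d : HeightOneSpectrum (𝓞 L.field) → ℤ}
    (h : L.IsDivS t d) : {v : HeightOneSpectrum (𝓞 L.field) | v ∉ L.T ∧ d v ≠ 0}.Finite := by
  obtain ⟨d₁, hd₁, hfin, -⟩ := L.exists_isDivS_fin t h.mem_TU
  refine hfin.subset ?_
  rintro v ⟨hvT, hv⟩
  rw [Function.mem_support, ← IsDivS.eq_of_not_mem_T L h hd₁ v hvT]
  exact hv

end OpenS

end Fermat.Agent.F4
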