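import Fermat.Agent.F4.Dict.NearRoot
import Fermat.Agent.F4.Dict.Level

/-!
# F4 / Dict / JHensel : idèles close to `1` are `p`-th powers (seat K3ii of DICT; owner helper49)

* `rootRad q p`, `nearRootFn q p` : the radius and the canonical `p`-th root near `1` in
  `PadicAlgCl q` (`F4/Dict/NearRoot.lean`);
* `jHensel` : there is `k₀` such that every `x ∈ J` with `NearOne x k₀` is `p • y`, where `y ∈ J`
  is fixed by every `g` fixing `x`;
* `OpenS.exists_smul_of_nearOne` : in particular `J^U_(k₀) ⊆ p • J^U` for every open `U`.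
-/

set_option autoImplicit false
set_option synthInstance.maxHeartbeats 400000
set_option linter.style.haveILetI false

open CategoryTheory groupCohomology ExtCitation

namespace Fermat.Agent.F4

/-- `q : Nat.Primes` is prime (local instance of this file). -/
theorem fact_prime_coe49 (q : Nat.Primes) : Fact (q : ℕ).Prime := ⟨q.2⟩

attribute [local instance] fact_prime_coe49

section Local

variable (q : Nat.Primes) (p : ℕ)

/-- The radius of uniqueness of `p`-th roots near `1` in `PadicAlgCl q`. -/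
noncomputable def rootRad : ℝ :=
  if hp : 0 < p then Classical.choose (exists_rootRadius (q := (q : ℕ)) p hp) else 1

variable {p}

lemma rootRad_pos (hp : 0 < p) : 0 < rootRad q p := by
  unfold rootRad
  rw [dif_pos hp]
  exact (Classical.choose_spec (exists_rootRadius (q := (q : ℕ)) p hp)).1

lemma rootRad_le_one (hp : 0 < p) : rootRad q p ≤ 1 := by
  unfold rootRad
  rw [dif_pos hp]
  exact (Classical.choose_spec (exists_rootRadius (q := (q : ℕ)) p hp)).2.1

lemma rootRad_le (hp : 0 < p) (ζ : PadicAlgCl (q : ℕ)) (hζ : ζ ^ p = 1) (hζ1 : ζ ≠ 1) :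
    rootRad q p ≤ ‖ζ - 1‖ := by
  unfold rootRad
  rw [dif_pos hp]
  exact (Classical.choose_spec (exists_rootRadius (q := (q : ℕ)) p hp)).2.2 ζ hζ hζ1

variable (p)

open Classical in
/-- The canonical `p`-th root near `1` (junk value `1` if there is none). -/
noncomputable def nearRootFn (u : PadicAlgCl (q : ℕ)) : PadicAlgCl (q : ℕ) :=
  if h : ∃ w : PadicAlgCl (q : ℕ), w ^ p = u ∧ ‖w - 1‖ < rootRad q p then
    Classical.choose h else 1

variable {p}

lemma nearRootFn_spec (hp : 0 < p) {u : PadicAlgCl (q : ℕ)}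
    (hu : ‖u - 1‖ < rootRad q p ^ p) :
    nearRootFn q p u ^ p = u ∧ ‖nearRootFn q p u - 1‖ < rootRad q p := by
  have h : ∃ w : PadicAlgCl (q : ℕ), w ^ p = u ∧ ‖w - 1‖ < rootRad q p :=
    exists_nearRoot hp (rootRad_pos q hp) hu
  unfold nearRootFn
  rw [dif_pos h]
  exact Classical.choose_spec h

lemma nearRootFn_ne_zero (hp : 0 < p) {u : PadicAlgCl (q : ℕ)} (hu0 : u ≠ 0)
    (hu : ‖u - 1‖ < rootRad q p ^ p) : nearRootFn q p u ≠ 0 := by
  intro h
  have := (nearRootFn_spec q hp hu).1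
  rw [h, zero_pow hp.ne'] at this
  exact hu0 this.symm

/-- The canonical root commutes with the `ℚ_q`-automorphisms. -/
lemma nearRootFn_map (hp : 0 < p)
    (σ : PadicAlgCl (q : ℕ) ≃ₐ[ℚ_[(q : ℕ)]] PadicAlgCl (q : ℕ))
    {u : PadicAlgCl (q : ℕ)} (hu : ‖u - 1‖ < rootRad q p ^ p) :
    nearRootFn q p (σ u) = σ (nearRootFn q p u) := by
  have hσu : ‖σ u - 1‖ < rootRad q p ^ p := by
    have e : σ u - 1 = σ (u - 1) := by rw [map_sub, map_one]
    rw [e, Loc.kras_norm_algEquiv (q : ℕ) σ]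
    exact hu
  have h1 := nearRootFn_spec q hp hu
  have h2 := nearRootFn_spec q hp hσu
  refine (nearRoot_equivariant (rootRad_le_one q hp) (rootRad_le q hp) σ ?_ h1.2 h2.2).symm
  rw [h1.1, h2.1]

end Local

section Global

variable (S : Finset Nat.Primes) (p : ℕ)

/-- `q ^ (-k) → 0`. -/
lemma exists_zpow_neg_lt (q : Nat.Primes) {ε : ℝ} (hε : 0 < ε) :
    ∃ k : ℕ, ∀ k' : ℕ, k ≤ k' → (((q : ℕ) : ℝ)) ^ (-(k' : ℤ)) < ε := by
  have hq1 : (1 : ℝ) < ((q : ℕ) : ℝ) := by exact_mod_cast q.2.one_lt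
  have hq0 : (0 : ℝ) < ((q : ℕ) : ℝ) := zero_lt_one.trans hq1
  have hlt : (((q : ℕ) : ℝ))⁻¹ < 1 := inv_lt_one_of_one_lt₀ hq1
  obtain ⟨k, hk⟩ := exists_pow_lt_of_lt_one hε hlt
  refine ⟨k, fun k' hk' => ?_⟩
  rw [zpow_neg, zpow_natCast, ← inv_pow]
  exact (pow_le_pow_of_le_one (inv_pos.2 hq0).le hlt.le hk').trans_lt hk

/-- A common threshold for the primes of `S`. -/
lemma exists_threshold (hp : 0 < p) :
    ∃ k₀ : ℕ, ∀ q ∈ S, (((q : ℕ) : ℝ)) ^ (-(k₀ : ℤ)) < rootRad q p ^ p := by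
  classical
  have h : ∀ q : Nat.Primes, ∃ k : ℕ, ∀ k' : ℕ, k ≤ k' →
      (((q : ℕ) : ℝ)) ^ (-(k' : ℤ)) < rootRad q p ^ p :=
    fun q => exists_zpow_neg_lt q (pow_pos (rootRad_pos q hp) p)
  choose f hf using h
  exact ⟨S.sup f, fun q hq => hf q _ (Finset.le_sup hq)⟩

variable {S}

/-- The value of an element of `L_q`. -/
noncomputable def Lval (q : Nat.Primes) (a : LqS S q) : PadicAlgCl (q : ℕ) :=
  ((smUnits.val a : (PadicAlgCl (q : ℕ))ˣ) : PadicAlgCl (q : ℕ))

lemma Lval_ne_zero (q : Nat.Primes) (a : LqS S q) : Lval q a ≠ 0 := Units.ne_zero _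

lemma Lval_ρ (q : Nat.Primes) (d : primeLocalGaloisGroup q) (a : LqS S q) :
    Lval q ((LqS S q).ρ d a) =
      (show PadicAlgCl (q : ℕ) ≃ₐ[ℚ_[(q : ℕ)]] PadicAlgCl (q : ℕ) from d) (Lval q a) := rfl

lemma Lval_injective (q : Nat.Primes) : Function.Injective (Lval (S := S) q) := by
  intro a b h
  apply smUnits.val_injective
  exact Units.ext h

lemma Lval_nsmul (q : Nat.Primes) (n : ℕ) (a : LqS S q) : Lval q (n • a) = Lval q a ^ n := by
  unfold Lval
  rw [smUnits.val_nsmul, Units.val_pow_eq_pow_val]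

variable {p}

/-- The canonical root of a smooth unit close to `1` is smooth. -/
lemma nearRoot_mem_smUnitsSub (hp : 0 < p) (q : Nat.Primes) (a : LqS S q)
    (ha : ‖Lval q a - 1‖ < rootRad q p ^ p) :
    Units.mk0 (nearRootFn q p (Lval q a)) (nearRootFn_ne_zero q hp (Lval_ne_zero q a) ha) ∈
      smUnitsSub (locLevelsS S q) (locAct q) := by
  obtain ⟨V, hV, h⟩ := smUnits.val_mem a
  refine ⟨V, hV, fun v hv => ?_⟩
  rw [Units.val_mk0]
  have h1 := nearRootFn_map q hp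
    (show PadicAlgCl (q : ℕ) ≃ₐ[ℚ_[(q : ℕ)]] PadicAlgCl (q : ℕ) from v) ha
  have h2 : (show PadicAlgCl (q : ℕ) ≃ₐ[ℚ_[(q : ℕ)]] PadicAlgCl (q : ℕ) from v) (Lval q a)
      = Lval q a := h v hv
  rw [h2] at h1
  exact h1.symm

variable (S p)

open Classical in
/-- The canonical `p`-th root on `L_q` (junk value `0` away from `1`). -/
noncomputable def nearRootL (q : Nat.Primes) (a : LqS S q) : LqS S q :=
  if h : 0 < p ∧ ‖Lval q a - 1‖ < rootRad q p ^ p then
    smUnits.mk _ (nearRoot_mem_smUnitsSub h.1 q a h.2)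
  else 0

variable {S p}

lemma Lval_nearRootL (hp : 0 < p) (q : Nat.Primes) (a : LqS S q)
    (ha : ‖Lval q a - 1‖ < rootRad q p ^ p) :
    Lval q (nearRootL S p q a) = nearRootFn q p (Lval q a) := by
  unfold nearRootL
  rw [dif_pos ⟨hp, ha⟩]
  rfl

lemma nsmul_nearRootL (hp : 0 < p) (q : Nat.Primes) (a : LqS S q)
    (ha : ‖Lval q a - 1‖ < rootRad q p ^ p) : p • nearRootL S p q a = a := by
  apply Lval_injective
  rw [Lval_nsmul, Lval_nearRootL hp q a ha]
  exact (nearRootFn_spec q hp ha).1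

lemma nearRootL_ρ (hp : 0 < p) (q : Nat.Primes) (d : primeLocalGaloisGroup q) (a : LqS S q)
    (ha : ‖Lval q a - 1‖ < rootRad q p ^ p) :
    nearRootL S p q ((LqS S q).ρ d a) = (LqS S q).ρ d (nearRootL S p q a) := by
  have ha' : ‖Lval q ((LqS S q).ρ d a) - 1‖ < rootRad q p ^ p := by
    rw [Lval_ρ]
    have e : (show PadicAlgCl (q : ℕ) ≃ₐ[ℚ_[(q : ℕ)]] PadicAlgCl (q : ℕ) from d) (Lval q a) - 1
        = (show PadicAlgCl (q : ℕ) ≃ₐ[ℚ_[(q : ℕ)]] PadicAlgCl (q : ℕ) from d) (Lval q a - 1) := by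
      rw [map_sub, map_one]
    rw [e, Loc.kras_norm_algEquiv (q : ℕ)]
    exact ha
  apply Lval_injective
  rw [Lval_nearRootL hp q _ ha', Lval_ρ, Lval_ρ, Lval_nearRootL hp q a ha]
  exact nearRootFn_map q hp _ ha

variable (S)

/-- **K3ii (Hensel).**  There is `k₀` such that every `x ∈ J` with `x ≡ 1 mod q ^ k₀` at all places
is `p • y`, where `y ∈ J` is fixed by every `g` fixing `x`. -/
theorem jHensel (hp : 0 < p) :
    ∃ k₀ : ℕ, ∀ x : Jrep S, NearOne x k₀ →
      ∃ y : Jrep S, x = p • y ∧ ∀ g : GQ, (Jrep S).ρ g x = x → (Jrep S).ρ g y = y := by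
  obtain ⟨k₀, hk₀⟩ := exists_threshold S p hp
  refine ⟨k₀, fun x hx => ?_⟩
  have hgood : ∀ (q : ↥S) (g : GQ),
      ‖Lval q.1 (((x q : ↥(coIndSub (primeLocalToGlobal q.1) (levelsS S) (LqS S q.1))) :
        GQ → LqS S q.1) g) - 1‖ < rootRad q.1 p ^ p :=
    fun q g => (hx q g).trans (hk₀ q.1 q.2)
  have hY : ∀ q : ↥S, (fun g : GQ => nearRootL S p q.1
      (((x q : ↥(coIndSub (primeLocalToGlobal q.1) (levelsS S) (LqS S q.1))) :
        GQ → LqS S q.1) g)) ∈ coIndSub (primeLocalToGlobal q.1) (levelsS S) (LqS S q.1) := by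
    intro q
    refine ⟨fun d g => ?_, ?_⟩
    · show nearRootL S p q.1 (((x q : ↥(coIndSub (primeLocalToGlobal q.1) (levelsS S)
        (LqS S q.1))) : GQ → LqS S q.1) (primeLocalToGlobal q.1 d * g)) = _
      rw [coIndSub_equivariant]
      exact nearRootL_ρ hp q.1 d _ (hgood q g)
    · exact (coIndSub_isLC (x q)).comp (nearRootL S p q.1)
  refine ⟨fun q => ⟨_, hY q⟩, ?_, fun g hg => ?_⟩
  · funext q
    apply Subtype.ext
    funext g
    exact (nsmul_nearRootL hp q.1 _ (hgood q g)).symm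
  · funext q
    apply Subtype.ext
    funext h
    have h1 : ((x q : ↥(coIndSub (primeLocalToGlobal q.1) (levelsS S) (LqS S q.1))) :
        GQ → LqS S q.1) (h * g) = ((x q : ↥(coIndSub (primeLocalToGlobal q.1) (levelsS S)
          (LqS S q.1))) : GQ → LqS S q.1) h :=
      congrFun (congrArg Subtype.val (congrFun hg q)) h
    show nearRootL S p q.1 (((x q : ↥(coIndSub (primeLocalToGlobal q.1) (levelsS S)
        (LqS S q.1))) : GQ → LqS S q.1) (h * g)) = _
    rw [h1]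

/-- **K3ii**: `J^U_(k₀) ⊆ p • J^U`, uniformly in the open subgroup `U`. -/
theorem OpenS.exists_smul_of_nearOne (hp : 0 < p) :
    ∃ k₀ : ℕ, ∀ (L : OpenS S) (x : Jrep S), x ∈ L.JU → NearOne x k₀ →
      ∃ y : Jrep S, y ∈ L.JU ∧ x = p • y := by
  obtain ⟨k₀, hk₀⟩ := jHensel S hp
  refine ⟨k₀, fun L x hx hnear => ?_⟩
  obtain ⟨y, hxy, hfix⟩ := hk₀ x hnear
  exact ⟨y, fun g hg => hfix g (hx g hg), hxy⟩

end Global

end Fermat.Agent.F4
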