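import Fermat.Agent.F4.Dict.SUnits
import Fermat.Agent.F4.UC.KLevel
import Fermat.Agent.F4.Dict.H90Abs

/-!
# F4 / Dict / H90 : Hilbert 90 for `(ℚ_S)ˣ` (seat DK2, helper9)

Every smooth 1-cocycle of an open subgroup `U` of `G_S` with values in `(ℚ_S)ˣ` is a coboundary:
the cocycle is inflated from a finite Galois layer `F'/F` (`F` the fixed field of `U`), where it
is Hilbert's Theorem 90.  Proof: `h90_smUnits` (`F4/Dict/H90Abs.lean`, Poincaré series and
Dedekind's independence of characters); the levels of `G_S` are closed (`levelsClosed_levelsS`).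
-/

set_option autoImplicit false

open CategoryTheory groupCohomology ExtCitation

namespace Fermat.Agent.F4

variable (S : Finset Nat.Primes)

/-- The levels of `G_S` are fixing subgroups, hence closed. -/
theorem levelsClosed_levelsS : LevelsClosed (levelsS S) galAct := by
  rintro _ ⟨F, _, _, rfl⟩ g hg
  rw [IntermediateField.mem_fixingSubgroup_iff]
  intro a ha
  exact hg a fun v hv => (IntermediateField.mem_fixingSubgroup_iff F v).1 hv a ha

/-- All levels of `G_ℚ` are fixing subgroups, hence closed. -/
theorem levelsClosed_levelsAll : LevelsClosed levelsAll galAct := by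
  rintro _ ⟨F, _, _, rfl⟩ g hg
  rw [IntermediateField.mem_fixingSubgroup_iff]
  intro a ha
  exact hg a fun v hv => (IntermediateField.mem_fixingSubgroup_iff F v).1 hv a ha

/-- **Hilbert 90** for `(ℚ_S)ˣ` over every open subgroup (seat DK2). -/
theorem h90_QSx (U : Subgroup GQ) (hU : (levelsS S).IsOpen U) :
    UC.H90sm ((levelsS S).sub U) (Rep.res U.subtype (QSx S)) :=
  h90_smUnits (levelsClosed_levelsS S) U hU

end Fermat.Agent.F4
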