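import Fermat.Agent.F4.UC.KLevel
import Fermat.Agent.F4.UC.Res
import Fermat.Agent.F4.Cf.Defs

/-!
# F4 / Dict / KappaAbs : the presentation of `(J / E)^U`, abstract form (seat K1, helper56)

An abstract *presented formation* `K : KForm G` consists of `ℤ[G]`-modules `Q`, `J`, `C`, a
`G`-stable subgroup `E ≤ Q`, an injective equivariant `d : Q → J` and a surjective equivariant
`pr : J → C` with kernel `d(E)`.  (For GLOB: `Q = (ℚ_S)ˣ`, `E` the `S`-units, `J` the `S`-idèles,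
`d = diagJ`, `C = J / E`, `pr = CMk`; see `KappaPres.lean`.)  Working with an abstract `K` avoids
all elaboration problems with the concrete types.

* `K.JU U = J^U`, `K.TU U = {t ∈ Q | (g - 1) t ∈ E ∀ g ∈ U}`, `K.QU U = Q^U`;
* `KForm.fix`  : `pr (x + d t) ∈ C^U` for `x ∈ J^U`, `t ∈ T_U`;
* `KForm.pres` : **K1**, every `c ∈ C^U` is `pr (x + d t)`, `x ∈ J^U`, `t ∈ T_U`
                 (input: Hilbert 90 for `Q` over `U` and smoothness of `J`);
* `KForm.ker`  : `pr (x + d t) = 0`, `x ∈ J^U` ⟹ `x = d f`, `t = ε - f`, `f ∈ Q^U`, `ε ∈ E`;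
* `KForm.cnorm_pr`, `KForm.cnorm_d` : compatibility with cyclic norms.
-/

set_option autoImplicit false

open CategoryTheory groupCohomology

namespace Fermat.Agent.F4

open Fermat.Agent.F4Cf

/-- `ρ (g * h) x = ρ g (ρ h x)`. -/
lemma kf_ρ_mul {G : Type} [Group G] (A : Rep.{0} ℤ G) (g h : G) (x : A) :
    A.ρ (g * h) x = A.ρ g (A.ρ h x) := by
  rw [map_mul]; rfl

/-- An abstract presented formation `0 → E → Q`, `d : Q ↪ J`, `C = J / d(E)`. -/
structure KForm (G : Type) [Group G] where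
  /-- the multiplicative group of the big field (`(ℚ_S)ˣ`) -/
  Q : Rep.{0} ℤ G
  /-- the idèles -/
  J : Rep.{0} ℤ G
  /-- the formation module -/
  C : Rep.{0} ℤ G
  /-- the units -/
  E : AddSubgroup Q
  /-- the diagonal embedding -/
  d : Q → J
  /-- the projection -/
  pr : J → C
  E_stable : ∀ (g : G) (x : Q), x ∈ E → Q.ρ g x ∈ E
  d_add : ∀ x y : Q, d (x + y) = d x + d y
  d_comm : ∀ (g : G) (x : Q), d (Q.ρ g x) = J.ρ g (d x)
  d_inj : Function.Injective d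
  pr_add : ∀ x y : J, pr (x + y) = pr x + pr y
  pr_comm : ∀ (g : G) (x : J), pr (J.ρ g x) = C.ρ g (pr x)
  pr_surj : Function.Surjective pr
  pr_ker : ∀ x : J, pr x = 0 ↔ ∃ e ∈ E, d e = x

namespace KForm

variable {G : Type} [Group G] (K : KForm G)

/-- `d` as an additive homomorphism. -/
def dHom : K.Q →+ K.J where
  toFun := K.d
  map_zero' := by
    have h := K.d_add 0 0
    rw [add_zero] at h
    exact (add_eq_left.mp h.symm)
  map_add' := K.d_add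

/-- `pr` as an additive homomorphism. -/
def prHom : K.J →+ K.C where
  toFun := K.pr
  map_zero' := by
    have h := K.pr_add 0 0
    rw [add_zero] at h
    exact (add_eq_left.mp h.symm)
  map_add' := K.pr_add

@[simp] lemma dHom_apply (x : K.Q) : K.dHom x = K.d x := rfl
@[simp] lemma prHom_apply (x : K.J) : K.prHom x = K.pr x := rfl

lemma d_zero : K.d 0 = 0 := K.dHom.map_zero
lemma d_neg (x : K.Q) : K.d (-x) = -K.d x := K.dHom.map_neg x
lemma d_sub (x y : K.Q) : K.d (x - y) = K.d x - K.d y := K.dHom.map_sub x y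
lemma d_nsmul (n : ℕ) (x : K.Q) : K.d (n • x) = n • K.d x := map_nsmul K.dHom n x
lemma d_sum {ι : Type*} (s : Finset ι) (f : ι → K.Q) :
    K.d (∑ i ∈ s, f i) = ∑ i ∈ s, K.d (f i) := map_sum K.dHom f s

lemma pr_zero : K.pr 0 = 0 := K.prHom.map_zero
lemma pr_neg (x : K.J) : K.pr (-x) = -K.pr x := K.prHom.map_neg x
lemma pr_sub (x y : K.J) : K.pr (x - y) = K.pr x - K.pr y := K.prHom.map_sub x y
lemma pr_nsmul (n : ℕ) (x : K.J) : K.pr (n • x) = n • K.pr x := map_nsmul K.prHom n x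
lemma pr_sum {ι : Type*} (s : Finset ι) (f : ι → K.J) :
    K.pr (∑ i ∈ s, f i) = ∑ i ∈ s, K.pr (f i) := map_sum K.prHom f s

/-- `pr (d e) = 0` for `e ∈ E`. -/
lemma pr_d_of_mem {e : K.Q} (he : e ∈ K.E) : K.pr (K.d e) = 0 :=
  (K.pr_ker _).2 ⟨e, he, rfl⟩

/-- `J^U`. -/
def JU (U : Subgroup G) : AddSubgroup K.J where
  carrier := {x | ∀ g ∈ U, K.J.ρ g x = x}
  zero_mem' := fun g _ => map_zero _
  add_mem' := fun {a b} ha hb g hg => by rw [map_add, ha g hg, hb g hg]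
  neg_mem' := fun {a} ha g hg => by rw [map_neg, ha g hg]

/-- `Q^U` (`= Fˣ`). -/
def QU (U : Subgroup G) : AddSubgroup K.Q where
  carrier := {x | ∀ g ∈ U, K.Q.ρ g x = x}
  zero_mem' := fun g _ => map_zero _
  add_mem' := fun {a b} ha hb g hg => by rw [map_add, ha g hg, hb g hg]
  neg_mem' := fun {a} ha g hg => by rw [map_neg, ha g hg]

/-- `T_U`: the elements of `Q` which are `U`-invariant modulo `E`. -/
def TU (U : Subgroup G) : AddSubgroup K.Q where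
  carrier := {t | ∀ g ∈ U, K.Q.ρ g t - t ∈ K.E}
  zero_mem' := fun g _ => by
    rw [map_zero, sub_zero]
    exact K.E.zero_mem
  add_mem' := fun {a b} ha hb g hg => by
    have e : K.Q.ρ g (a + b) - (a + b) = (K.Q.ρ g a - a) + (K.Q.ρ g b - b) := by
      rw [map_add]; abel
    rw [e]
    exact K.E.add_mem (ha g hg) (hb g hg)
  neg_mem' := fun {a} ha g hg => by
    have e : K.Q.ρ g (-a) - (-a) = -(K.Q.ρ g a - a) := by
      rw [map_neg]; abel
    rw [e]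
    exact K.E.neg_mem (ha g hg)

lemma mem_JU {U : Subgroup G} {x : K.J} : x ∈ K.JU U ↔ ∀ g ∈ U, K.J.ρ g x = x := Iff.rfl
lemma mem_QU {U : Subgroup G} {x : K.Q} : x ∈ K.QU U ↔ ∀ g ∈ U, K.Q.ρ g x = x := Iff.rfl
lemma mem_TU {U : Subgroup G} {t : K.Q} : t ∈ K.TU U ↔ ∀ g ∈ U, K.Q.ρ g t - t ∈ K.E := Iff.rfl

lemma E_le_TU (U : Subgroup G) : K.E ≤ K.TU U := fun t ht g _ =>
  K.E.sub_mem (K.E_stable g t ht) ht

lemma QU_le_TU (U : Subgroup G) : K.QU U ≤ K.TU U := fun f hf g hg => by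
  rw [hf g hg, sub_self]
  exact K.E.zero_mem

lemma TU_anti {U V : Subgroup G} (h : V ≤ U) : K.TU U ≤ K.TU V := fun _ ht g hg => ht g (h hg)
lemma JU_anti {U V : Subgroup G} (h : V ≤ U) : K.JU U ≤ K.JU V := fun _ hx g hg => hx g (h hg)
lemma QU_anti {U V : Subgroup G} (h : V ≤ U) : K.QU U ≤ K.QU V := fun _ hx g hg => hx g (h hg)

/-- `d` maps `Q^U` into `J^U`. -/
lemma d_mem_JU {U : Subgroup G} {f : K.Q} (hf : f ∈ K.QU U) : K.d f ∈ K.JU U := fun g hg => by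
  rw [← K.d_comm, hf g hg]

/-- `d f ∈ J^U` iff `f ∈ Q^U`. -/
lemma d_mem_JU_iff {U : Subgroup G} {f : K.Q} : K.d f ∈ K.JU U ↔ f ∈ K.QU U :=
  ⟨fun h g hg => K.d_inj (by rw [K.d_comm, h g hg]), K.d_mem_JU⟩

/-- `T_U` is stable under the elements normalising `U`. -/
lemma ρ_mem_TU {U : Subgroup G} {σ : G} (hσ : ∀ g ∈ U, σ⁻¹ * g * σ ∈ U) {t : K.Q}
    (ht : t ∈ K.TU U) : K.Q.ρ σ t ∈ K.TU U := by
  intro g hg
  have h2 := K.E_stable σ _ (ht _ (hσ g hg))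
  have hgσ : σ * (σ⁻¹ * g * σ) = g * σ := by group
  have e : K.Q.ρ σ (K.Q.ρ (σ⁻¹ * g * σ) t - t) = K.Q.ρ g (K.Q.ρ σ t) - K.Q.ρ σ t := by
    rw [map_sub, ← kf_ρ_mul, hgσ, kf_ρ_mul]
  rw [e] at h2
  exact h2

/-- `J^U` is stable under the elements normalising `U`. -/
lemma ρ_mem_JU {U : Subgroup G} {σ : G} (hσ : ∀ g ∈ U, σ⁻¹ * g * σ ∈ U) {x : K.J}
    (hx : x ∈ K.JU U) : K.J.ρ σ x ∈ K.JU U := by
  intro g hg
  have hgσ : σ * (σ⁻¹ * g * σ) = g * σ := by group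
  have e : K.J.ρ g (K.J.ρ σ x) = K.J.ρ σ (K.J.ρ (σ⁻¹ * g * σ) x) := by
    rw [← kf_ρ_mul, ← hgσ, kf_ρ_mul]
  rw [e, hx _ (hσ g hg)]

/-- `C^U` is stable under the elements normalising `U`. -/
lemma ρ_fix {U : Subgroup G} {σ : G} (hσ : ∀ g ∈ U, σ⁻¹ * g * σ ∈ U) {c : K.C}
    (hc : Fix K.C U c) : Fix K.C U (K.C.ρ σ c) := by
  intro g hg
  have hgσ : σ * (σ⁻¹ * g * σ) = g * σ := by group
  have e : K.C.ρ g (K.C.ρ σ c) = K.C.ρ σ (K.C.ρ (σ⁻¹ * g * σ) c) := by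
    rw [← kf_ρ_mul, ← hgσ, kf_ρ_mul]
  rw [e, hc _ (hσ g hg)]

/-- The elements `pr (x + d t)`, `x ∈ J^U`, `t ∈ T_U`, are fixed by `U`. -/
theorem fix {U : Subgroup G} {x : K.J} (hx : x ∈ K.JU U) {t : K.Q} (ht : t ∈ K.TU U) :
    Fix K.C U (K.pr (x + K.d t)) := by
  intro g hg
  have h1 : K.pr (K.d (K.Q.ρ g t - t)) = 0 := K.pr_d_of_mem (ht g hg)
  have e : K.J.ρ g (x + K.d t) = (x + K.d t) + K.d (K.Q.ρ g t - t) := by
    rw [map_add, K.d_sub, hx g hg, ← K.d_comm]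
    abel
  rw [← K.pr_comm, e, K.pr_add, h1, add_zero]

/-- **K1 (presentation).**  Every element of `C^U` is `pr (x + d t)` with `x ∈ J^U`, `t ∈ T_U`. -/
theorem pres (𝓤 : Levels G) (hJ : IsSmooth 𝓤 K.J) (U : Subgroup G)
    (h90 : UC.H90sm (𝓤.sub U) (Rep.res U.subtype K.Q)) (c : K.C) (hc : Fix K.C U c) :
    ∃ x ∈ K.JU U, ∃ t ∈ K.TU U, c = K.pr (x + K.d t) := by
  classical
  obtain ⟨x0, rfl⟩ := K.pr_surj c
  have hex : ∀ g : ↥U, ∃ e : K.Q, e ∈ K.E ∧ K.d e = K.J.ρ (g : G) x0 - x0 := by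
    intro g
    have h1 := hc g.1 g.2
    rw [← K.pr_comm] at h1
    have h2 : K.pr (K.J.ρ (g : G) x0 - x0) = 0 := by
      rw [K.pr_sub, h1, sub_self]
    exact (K.pr_ker _).1 h2
  choose e he hee using hex
  have hcoc : δ1 (Rep.res U.subtype K.Q) e = 0 := by
    funext q
    rw [δ1_apply]
    show K.Q.ρ (q.1 : G) (e q.2) - e (q.1 * q.2) + e q.1 = 0
    apply K.d_inj
    rw [K.d_zero, K.d_add, K.d_sub, K.d_comm, hee, hee, hee]
    have : ((q.1 * q.2 : ↥U) : G) = (q.1 : G) * (q.2 : G) := rfl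
    rw [this, kf_ρ_mul, map_sub]
    abel
  obtain ⟨W, hW, hWfix⟩ := hJ x0
  have hLC : IsLC₁ (𝓤.sub U) e := by
    refine ⟨W.comap U.subtype, ⟨W, hW, rfl⟩, fun g s hs => ?_⟩
    apply K.d_inj
    rw [hee, hee]
    have : ((g * s : ↥U) : G) = (g : G) * (s : G) := rfl
    rw [this, kf_ρ_mul]
    exact congrArg (fun y => K.J.ρ (g : G) y - x0) (hWfix _ hs)
  have hZ : e ∈ Z1 (𝓤.sub U) (Rep.res U.subtype K.Q) := (UC.mem_Z1 (𝓤.sub U) (Rep.res U.subtype K.Q) e).2 ⟨hcoc, hLC⟩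
  obtain ⟨t, ht⟩ := (UC.mem_B1 (Rep.res U.subtype K.Q) e).1 (h90 e hZ)
  have ht' : ∀ g : ↥U, K.Q.ρ (g : G) t - t = e g := fun g => congrFun ht g
  refine ⟨x0 - K.d t, ?_, t, ?_, ?_⟩
  · intro g hg
    have h1 := hee ⟨g, hg⟩
    have h2 := ht' ⟨g, hg⟩
    have h3 : K.d (K.Q.ρ g t) = K.d t + (K.J.ρ g x0 - x0) := by
      rw [← h1, ← h2, K.d_sub]
      abel
    rw [map_sub, ← K.d_comm, h3]
    abel
  · intro g hg
    rw [ht' ⟨g, hg⟩]
    exact he ⟨g, hg⟩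
  · rw [sub_add_cancel]

/-- **K1 (kernel).**  If `pr (x + d t) = 0` with `x ∈ J^U`, then `x = d f`, `t = ε - f` with
`f ∈ Q^U` and `ε ∈ E`. -/
theorem ker {U : Subgroup G} {x : K.J} (hx : x ∈ K.JU U) {t : K.Q}
    (h0 : K.pr (x + K.d t) = 0) :
    ∃ f ε : K.Q, f ∈ K.QU U ∧ ε ∈ K.E ∧ x = K.d f ∧ t = ε - f := by
  obtain ⟨ε, hε, hεe⟩ := (K.pr_ker _).1 h0
  have hxe : x = K.d (ε - t) := by
    rw [K.d_sub, hεe]
    abel
  refine ⟨ε - t, ε, ?_, hε, hxe, by abel⟩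
  rw [← K.d_mem_JU_iff, ← hxe]
  exact hx

/-- Equality in `C`: `pr (x + d t) = pr (x' + d t')` iff the difference is `(d f, ε - f)`. -/
theorem pr_eq_iff {x x' : K.J} {t t' : K.Q} :
    K.pr (x + K.d t) = K.pr (x' + K.d t') ↔ ∃ ε ∈ K.E, x - x' = K.d (ε - (t - t')) := by
  constructor
  · intro h
    have h0 : K.pr ((x - x') + K.d (t - t')) = 0 := by
      have e : (x - x') + K.d (t - t') = (x + K.d t) - (x' + K.d t') := by
        rw [K.d_sub]; abel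
      rw [e, K.pr_sub, h, sub_self]
    obtain ⟨ε, hε, hεe⟩ := (K.pr_ker _).1 h0
    refine ⟨ε, hε, ?_⟩
    rw [K.d_sub, hεe]
    abel
  · rintro ⟨ε, hε, h⟩
    have e : x + K.d t = (x' + K.d t') + K.d ε := by
      rw [K.d_sub, K.d_sub] at h
      have : x = x' + (K.d ε - (K.d t - K.d t')) := by rw [← h]; abel
      rw [this]; abel
    rw [e, K.pr_add, K.pr_d_of_mem hε, add_zero]

/-- The cyclic norm commutes with `pr`. -/
lemma cnorm_pr (n : ℕ) (σ : G) (x : K.J) :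
    cnorm K.C n σ (K.pr x) = K.pr (cnorm K.J n σ x) := by
  unfold cnorm
  rw [K.pr_sum]
  exact Finset.sum_congr rfl fun i _ => (K.pr_comm _ x).symm

/-- The cyclic norm commutes with `d`. -/
lemma cnorm_d (n : ℕ) (σ : G) (t : K.Q) :
    cnorm K.J n σ (K.d t) = K.d (cnorm K.Q n σ t) := by
  unfold cnorm
  rw [K.d_sum]
  exact Finset.sum_congr rfl fun i _ => (K.d_comm _ t).symm

end KForm

/-! ### Generalities on cyclic norms -/

section Cnorm

variable {G : Type} [Group G] (A : Rep.{0} ℤ G)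

lemma cnorm_add (n : ℕ) (σ : G) (x y : A) :
    cnorm A n σ (x + y) = cnorm A n σ x + cnorm A n σ y := by
  unfold cnorm
  rw [← Finset.sum_add_distrib]
  exact Finset.sum_congr rfl fun i _ => map_add _ _ _

lemma cnorm_zero (n : ℕ) (σ : G) : cnorm A n σ 0 = 0 := by
  unfold cnorm
  exact Finset.sum_eq_zero fun i _ => map_zero _

lemma cnorm_neg (n : ℕ) (σ : G) (x : A) : cnorm A n σ (-x) = -cnorm A n σ x := by
  unfold cnorm
  rw [← Finset.sum_neg_distrib]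
  exact Finset.sum_congr rfl fun i _ => map_neg _ _

lemma cnorm_sub (n : ℕ) (σ : G) (x y : A) :
    cnorm A n σ (x - y) = cnorm A n σ x - cnorm A n σ y := by
  rw [sub_eq_add_neg, cnorm_add, cnorm_neg, sub_eq_add_neg]

lemma cnorm_nsmul (n m : ℕ) (σ : G) (x : A) : cnorm A n σ (m • x) = m • cnorm A n σ x := by
  unfold cnorm
  rw [Finset.smul_sum]
  exact Finset.sum_congr rfl fun i _ => map_nsmul _ _ _

/-- `N (σ z - z) = σ^n z - z`. -/
lemma cnorm_sub_self (n : ℕ) (σ : G) (z : A) :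
    cnorm A n σ (A.ρ σ z - z) = A.ρ (σ ^ n) z - z := by
  unfold cnorm
  induction n with
  | zero => simp
  | succ k ih =>
    rw [Finset.sum_range_succ, ih, map_sub, ← kf_ρ_mul, ← pow_succ]
    abel

/-- For a cyclic layer, `N (σ z - z) = 0` on `A^V`. -/
lemma cnorm_sub_self_of_cyc {p : ℕ} {U V : Subgroup G} {σ : G} (hc : IsCyc p U V σ) {z : A}
    (hz : Fix A V z) : cnorm A p σ (A.ρ σ z - z) = 0 := by
  rw [cnorm_sub_self, hz _ hc.pow_mem, sub_self]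

end Cnorm

end Fermat.Agent.F4
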