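import Fermat.Agent.F4.Dict.Level
import Fermat.Agent.F4.Glob.Compl.WeakApprox
import Fermat.Agent.F4.Loc.Krasner

/-!
# F4 / Dict / JApprox : weak approximation for `J^U` (seats K3i, K3iii of DICT; owner helper86)

`L : OpenS S`, `F = L.field`, `j = L.emb q g : F →+* PadicAlgCl q`, `v = F4G.primeOf j`.

* `ja_Jval_*` : the values of idèles (`Jval`) under `+`, `-`, the actions of `G_ℚ` and `D_q`;
* `ja_Jval_mem_complOf` (P3a) : for `x ∈ J^U` the value `Jval x q g` lies in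
  `complOf (L.emb q g) = ℚ_q · ι (g F)`;
* `ja_nearOne_diagJ_of_oneMod` (K3iii, ray direction) : for every `k` there is `k'` such that
  `f ≡ 1 mod v ^ k'` for all `v ∈ L.T` implies `NearOne (diagJ f) k`;
* `PlacesConj L` (P2, `⇒`) : embeddings of `F` with the same prime are in the same double coset;
* `jApprox_of` (K3i) : `J^U = diagJ (Fˣ) + J^U_(k)`, from `PlacesConj L`.
-/

set_option autoImplicit false
set_option synthInstance.maxHeartbeats 400000
set_option linter.style.haveILetI false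

open CategoryTheory groupCohomology ExtCitation
open NumberField IsDedekindDomain

namespace Fermat.Agent.F4

/-- `q : Nat.Primes` is prime (local instance of this file). -/
theorem fact_prime_coe86 (q : Nat.Primes) : Fact (q : ℕ).Prime := ⟨q.2⟩

attribute [local instance] fact_prime_coe86

variable {S : Finset Nat.Primes}

/-! ### Values of idèles -/

lemma ja_Jval_ne_zero (x : Jrep S) (q : ↥S) (g : GQ) : Jval x q g ≠ 0 := Units.ne_zero _

lemma ja_Jval_add (x y : Jrep S) (q : ↥S) (g : GQ) :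
    Jval (x + y) q g = Jval x q g * Jval y q g := rfl

lemma ja_Jval_zero (q : ↥S) (g : GQ) : Jval (0 : Jrep S) q g = 1 := rfl

lemma ja_Jval_neg (x : Jrep S) (q : ↥S) (g : GQ) : Jval (-x) q g = (Jval x q g)⁻¹ := by
  have h := ja_Jval_add x (-x) q g
  have h0 : Jval (x + -x) q g = 1 :=
    (congrArg (fun z : Jrep S => Jval z q g) (add_neg_cancel x)).trans (ja_Jval_zero q g)
  exact eq_inv_of_mul_eq_one_right (h.symm.trans h0)

lemma ja_Jval_sub (x y : Jrep S) (q : ↥S) (g : GQ) :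
    Jval (x - y) q g = Jval x q g / Jval y q g := by
  have h0 : Jval (x - y) q g = Jval (x + -y) q g :=
    congrArg (fun z : Jrep S => Jval z q g) (sub_eq_add_neg x y)
  rw [h0, ja_Jval_add, ja_Jval_neg, div_eq_mul_inv]

lemma ja_Jval_ρ (h : GQ) (x : Jrep S) (q : ↥S) (g : GQ) :
    Jval ((Jrep S).ρ h x) q g = Jval x q (g * h) := rfl

lemma ja_Jval_fix (L : OpenS S) {x : Jrep S} (hx : x ∈ L.JU) (q : ↥S) (g : GQ) {u : GQ}
    (hu : u ∈ L.U) : Jval x q (g * u) = Jval x q g := by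
  rw [← ja_Jval_ρ, hx u hu]

lemma ja_Jval_local (x : Jrep S) (q : ↥S) (d : primeLocalGaloisGroup q.1) (g : GQ) :
    Jval x q (primeLocalToGlobal q.1 d * g) = locAct q.1 d (Jval x q g) := by
  unfold Jval
  rw [coIndSub_equivariant]
  rfl

lemma ja_norm_locAct (q : Nat.Primes) (d : primeLocalGaloisGroup q) (y : PadicAlgCl (q : ℕ)) :
    ‖locAct q d y‖ = ‖y‖ :=
  Loc.kras_norm_algEquiv (q : ℕ) d y

/-! ### P3a : the values of `x ∈ J^U` lie in the completion of `F` -/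

/-- If `σ ∈ D_q` fixes `ι (g F)` pointwise then `g⁻¹ r(σ) g ∈ U`. -/
lemma ja_conj_mem (L : OpenS S) (q : Nat.Primes) (g : GQ) (σ : primeLocalGaloisGroup q)
    (hσ : ∀ a : L.field, locAct q σ (L.emb q g a) = L.emb q g a) :
    g⁻¹ * primeLocalToGlobal q σ * g ∈ L.U := by
  rw [← L.fixingSubgroup_field, IntermediateField.mem_fixingSubgroup_iff]
  intro a ha
  have h1 : primeLocalToGlobal q σ (g a) = g a := by
    apply locEmb_injective q
    rw [locEmb_primeLocalToGlobal]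
    exact hσ ⟨a, ha⟩
  show g⁻¹ (primeLocalToGlobal q σ (g a)) = a
  rw [h1]
  show g.symm (g a) = a
  simp

/-- **P3a**: for `x ∈ J^U` the value `Jval x q g` lies in `complOf (L.emb q g)`. -/
theorem ja_Jval_mem_complOf (L : OpenS S) {x : Jrep S} (hx : x ∈ L.JU) (q : ↥S) (g : GQ) :
    Jval x q g ∈ F4G.complOf (L.emb q.1 g) := by
  haveI : IsGalois ℚ_[(q.1 : ℕ)] (PadicAlgCl (q.1 : ℕ)) := inferInstance
  rw [← InfiniteGalois.fixedField_fixingSubgroup (F4G.complOf (L.emb q.1 g))]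
  rintro ⟨σ, hσ⟩
  have hσ' : ∀ a : L.field, locAct q.1 σ (L.emb q.1 g a) = L.emb q.1 g a := fun a =>
    (IntermediateField.mem_fixingSubgroup_iff _ σ).1 hσ _ (F4G.map_mem_complOf _ a)
  have hu := ja_conj_mem L q.1 g σ hσ'
  have h2 := ja_Jval_fix L hx q g hu
  have e : g * (g⁻¹ * primeLocalToGlobal q.1 σ * g) = primeLocalToGlobal q.1 σ * g := by group
  rw [e, ja_Jval_local] at h2
  exact h2

/-! ### Places -/

/-- **P1 (first half)**: the prime of `L.emb q g`, `q ∈ S`, lies over `S`. -/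
lemma ja_primeOf_mem_T (L : OpenS S) (q : ↥S) (g : GQ) : F4G.primeOf (L.emb q.1 g) ∈ L.T := by
  rw [L.mem_T]
  exact ⟨q.1, q.2, F4G.natCast_mem_primeOf (L.emb q.1 g)⟩

/-- The prime of `L.emb q g` determines `q`. -/
lemma ja_prime_eq (L : OpenS S) (q q' : Nat.Primes) (g g' : GQ)
    (h : F4G.primeOf (L.emb q g) = F4G.primeOf (L.emb q' g')) : q = q' := by
  by_contra hne
  have hne' : (q : ℕ) ≠ (q' : ℕ) := fun e => hne (Subtype.ext e)
  have hcop : Nat.Coprime (q : ℕ) (q' : ℕ) := (Nat.coprime_primes q.2 q'.2).2 hne'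
  have hco : IsCoprime ((q : ℕ) : ℤ) ((q' : ℕ) : ℤ) := Nat.isCoprime_iff_coprime.2 hcop
  obtain ⟨a, b, hab⟩ := hco
  have h1 : (((q : ℕ) : ℕ) : 𝓞 L.field) ∈ (F4G.primeOf (L.emb q g)).asIdeal :=
    F4G.natCast_mem_primeOf (L.emb q g)
  have h2 : (((q' : ℕ) : ℕ) : 𝓞 L.field) ∈ (F4G.primeOf (L.emb q g)).asIdeal := by
    rw [h]
    exact F4G.natCast_mem_primeOf (L.emb q' g')
  have h3 : (1 : 𝓞 L.field) ∈ (F4G.primeOf (L.emb q g)).asIdeal := by
    have e : (1 : 𝓞 L.field) = (a : 𝓞 L.field) * (((q : ℕ) : ℕ) : 𝓞 L.field) +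
        (b : 𝓞 L.field) * (((q' : ℕ) : ℕ) : 𝓞 L.field) := by
      have := congrArg (fun z : ℤ => (z : 𝓞 L.field)) hab
      simp only [Int.cast_add, Int.cast_mul, Int.cast_natCast, Int.cast_one] at this
      exact this.symm
    rw [e]
    exact Ideal.add_mem _ (Ideal.mul_mem_left _ _ h1) (Ideal.mul_mem_left _ _ h2)
  exact (F4G.primeOf (L.emb q g)).isPrime.ne_top ((Ideal.eq_top_iff_one _).2 h3)

/-- **P2 (`⇒`)**: two embeddings `L.emb q g`, `L.emb q g'` with the same prime lie in the same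
double coset `D_q g U`. -/
def OpenS.PlacesConj (L : OpenS S) : Prop :=
  ∀ (q : Nat.Primes) (g g' : GQ), F4G.primeOf (L.emb q g) = F4G.primeOf (L.emb q g') →
    ∃ d : primeLocalGaloisGroup q, ∃ u ∈ L.U, g' = primeLocalToGlobal q d * g * u

lemma ja_emb_conj (L : OpenS S) (q : Nat.Primes) (d : primeLocalGaloisGroup q) (g u : GQ)
    (hu : u ∈ L.U) (a : L.field) :
    L.emb q (primeLocalToGlobal q d * g * u) a = locAct q d (L.emb q g a) := by
  rw [OpenS.emb_apply, OpenS.emb_apply, ← locEmb_primeLocalToGlobal]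
  have h1 : u (a : AlgebraicClosure ℚ) = a := (L.mem_field_iff _).1 a.2 u hu
  show locEmb q (primeLocalToGlobal q d (g (u (a : AlgebraicClosure ℚ)))) = _
  rw [h1]

/-- Transport of an approximation along a double coset. -/
lemma ja_transport (L : OpenS S) (hP2 : L.PlacesConj) {x : Jrep S} (hx : x ∈ L.JU)
    (f : L.field) (q q' : ↥S) (g g' : GQ)
    (h : F4G.primeOf (L.emb q'.1 g') = F4G.primeOf (L.emb q.1 g)) (ε : ℝ)
    (hε : ‖Jval x q' g' / L.emb q'.1 g' f - 1‖ < ε) :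
    ‖Jval x q g / L.emb q.1 g f - 1‖ < ε := by
  have hq : q' = q := Subtype.ext (ja_prime_eq L q'.1 q.1 g' g h)
  subst hq
  obtain ⟨d, u, hu, rfl⟩ := hP2 q'.1 g' g h
  have e1 : Jval x q' (primeLocalToGlobal q'.1 d * g' * u) = locAct q'.1 d (Jval x q' g') := by
    rw [ja_Jval_fix L hx q' _ hu, ja_Jval_local]
  have e2 := ja_emb_conj L q'.1 d g' u hu f
  have e3 : Jval x q' (primeLocalToGlobal q'.1 d * g' * u) /
      L.emb q'.1 (primeLocalToGlobal q'.1 d * g' * u) f - 1 =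
      locAct q'.1 d (Jval x q' g' / L.emb q'.1 g' f - 1) := by
    rw [e1, e2, map_sub, map_div₀, map_one]
  rw [e3, ja_norm_locAct]
  exact hε

/-- A common lower bound for the radii `q ^ (-k)`, `q ∈ S`. -/
lemma ja_exists_eps (S : Finset Nat.Primes) (k : ℕ) :
    ∃ ε : ℝ, 0 < ε ∧ ∀ q ∈ S, ε ≤ (((q : ℕ) : ℕ) : ℝ) ^ (-(k : ℤ)) := by
  classical
  set N : ℕ := S.sup (fun q => (q : ℕ)) + 1 with hN
  have hN0 : (0 : ℝ) < (N : ℝ) := by exact_mod_cast Nat.succ_pos _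
  refine ⟨(N : ℝ) ^ (-(k : ℤ)), zpow_pos hN0 _, fun q hq => ?_⟩
  have hq0 : (0 : ℝ) < ((q : ℕ) : ℝ) := by exact_mod_cast q.2.pos
  have hle : ((q : ℕ) : ℝ) ≤ (N : ℝ) := by
    have h1 : (q : ℕ) ≤ S.sup (fun q => (q : ℕ)) := Finset.le_sup (f := fun q : Nat.Primes => (q : ℕ)) hq
    exact_mod_cast h1.trans (Nat.le_succ _)
  rw [zpow_neg, zpow_neg, zpow_natCast, zpow_natCast]
  exact inv_anti₀ (pow_pos hq0 k) (pow_le_pow_left₀ hq0.le hle k)

/-- `diagJ f ∈ J^U` for `f ∈ Fˣ`. -/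
lemma ja_diagJ_mem_JU (L : OpenS S) (f : (L.field)ˣ) : diagJ S (L.toQS f) ∈ L.JU := by
  intro g hg
  show (Jrep S).ρ g (diagJ S (L.toQS f)) = diagJ S (L.toQS f)
  rw [← diagJ_comm, L.toQS_fixed f g hg]

/-- **K3i (weak approximation)**, from P2: `J^U = diagJ (Fˣ) + J^U_(k)`. -/
theorem OpenS.jApprox_of (L : OpenS S) (hP2 : L.PlacesConj) {x : Jrep S} (hx : x ∈ L.JU)
    (k : ℕ) :
    ∃ f : (L.field)ˣ, ∃ u : Jrep S, u ∈ L.JU ∧ NearOne u k ∧ x = diagJ S (L.toQS f) + u := by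
  classical
  let ι := {v : HeightOneSpectrum (𝓞 L.field) //
    ∃ (q : ↥S) (g : GQ), F4G.primeOf (L.emb q.1 g) = v}
  have hmemT : ∀ i : ι, i.1 ∈ L.T := by
    rintro ⟨v, q, g, rfl⟩
    exact ja_primeOf_mem_T L q g
  haveI : Finite ι :=
    Finite.of_injective (fun i : ι => (⟨i.1, hmemT i⟩ : ↥L.T)) (fun i i' h =>
      Subtype.ext (congrArg (fun z : ↥L.T => (z : HeightOneSpectrum (𝓞 L.field))) h))
  choose qq gg hqg using fun i : ι => i.2
  obtain ⟨ε, hε0, hε⟩ := ja_exists_eps S k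
  obtain ⟨f, hf⟩ := F4G.exists_simultaneous_approx (F := L.field) (ι := ι)
    (fun i => (((qq i).1 : Nat.Primes) : ℕ)) (fun i => L.emb (qq i).1 (gg i))
    (fun i i' h => Subtype.ext (by
      have h' : F4G.primeOf (L.emb (qq i).1 (gg i)) = F4G.primeOf (L.emb (qq i').1 (gg i')) := h
      rw [hqg i, hqg i'] at h'
      exact h'))
    (fun i => Jval x (qq i) (gg i)) (fun i => ja_Jval_mem_complOf L hx _ _)
    (fun i => ja_Jval_ne_zero _ _ _) hε0
  refine ⟨f, x - diagJ S (L.toQS f), L.JU.sub_mem hx (ja_diagJ_mem_JU L f), ?_, ?_⟩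
  · intro q g
    rw [ja_Jval_sub, L.Jval_diagJ_toQS]
    refine lt_of_lt_of_le ?_ (hε q.1 q.2)
    let i : ι := ⟨F4G.primeOf (L.emb q.1 g), q, g, rfl⟩
    exact ja_transport L hP2 hx f q (qq i) g (gg i) (hqg i) ε (hf i)
  · exact (add_sub_cancel (diagJ S (L.toQS f)) x).symm

/-! ### K3iii : `diagJ f` is close to `1` when `f ≡ 1` modulo a high power of the primes over `S` -/

lemma ja_norm_emb_natCast (L : OpenS S) (q : Nat.Primes) (g : GQ) :
    ‖L.emb q g (((q : ℕ) : ℕ) : L.field)‖ = (((q : ℕ) : ℕ) : ℝ)⁻¹ := by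
  rw [map_natCast]
  have h2 : ‖(((q : ℕ) : ℕ) : PadicAlgCl (q : ℕ))‖ = ‖(((q : ℕ) : ℕ) : ℚ_[(q : ℕ)])‖ := by
    rw [← PadicAlgCl.norm_extends]
    congr 1
  rw [h2, Padic.norm_p]

/-- **K3iii (ray direction)**: for every `k` there is `k'` such that every `f ∈ Fˣ` with
`f ≡ 1 mod v ^ (k' + 1)` for all `v ∈ L.T` has `diagJ f ∈ J_(k)`. -/
theorem OpenS.nearOne_diagJ_of_oneMod (L : OpenS S) (k : ℕ) :
    ∃ k' : ℕ, ∀ f : (L.field)ˣ, (∀ v ∈ L.T, f ∈ F4G.oneModSubgroup L.field v k') →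
      NearOne (diagJ S (L.toQS f)) k := by
  classical
  have h : ∀ (v : HeightOneSpectrum (𝓞 L.field)) (q : Nat.Primes), ∃ m : ℕ,
      WithZero.exp (-(m : ℤ)) ≤
        v.valuation L.field ((((q : ℕ) : ℕ) : L.field) ^ (k + 1)) := by
    intro v q
    have h0 : v.valuation L.field ((((q : ℕ) : ℕ) : L.field) ^ (k + 1)) ≠ 0 := by
      rw [Valuation.ne_zero_iff]
      exact pow_ne_zero _ (Nat.cast_ne_zero.2 q.2.ne_zero)
    refine ⟨(WithZero.log
      (v.valuation L.field ((((q : ℕ) : ℕ) : L.field) ^ (k + 1)))).natAbs, ?_⟩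
    rw [← WithZero.le_log_iff_exp_le h0]
    omega
  choose m hm using h
  refine ⟨(L.T ×ˢ S).sup (fun vq => m vq.1 vq.2), fun f hf q g => ?_⟩
  rw [L.Jval_diagJ_toQS]
  have hv : F4G.primeOf (L.emb q.1 g) ∈ L.T := ja_primeOf_mem_T L q g
  have hq0 : ((((q.1 : ℕ) : ℕ) : L.field)) ^ (k + 1) ≠ 0 :=
    pow_ne_zero _ (Nat.cast_ne_zero.2 q.1.2.ne_zero)
  have hqR : (0 : ℝ) < (((q.1 : ℕ) : ℕ) : ℝ) := by exact_mod_cast q.1.2.pos
  have hq1 : (1 : ℝ) ≤ (((q.1 : ℕ) : ℕ) : ℝ) := by exact_mod_cast q.1.2.one_lt.le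
  have hsup : m (F4G.primeOf (L.emb q.1 g)) q.1 ≤ (L.T ×ˢ S).sup (fun vq => m vq.1 vq.2) :=
    Finset.le_sup (f := fun vq : HeightOneSpectrum (𝓞 L.field) × Nat.Primes => m vq.1 vq.2)
      (b := (F4G.primeOf (L.emb q.1 g), q.1)) (Finset.mem_product.2 ⟨hv, q.2⟩)
  have h1 : (F4G.primeOf (L.emb q.1 g)).valuation L.field ((f : L.field) - 1) <
      (F4G.primeOf (L.emb q.1 g)).valuation L.field
        ((((q.1 : ℕ) : ℕ) : L.field) ^ (k + 1)) := by
    refine lt_of_lt_of_le (hf _ hv) (le_trans ?_ (hm _ q.1))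
    exact WithZero.exp_le_exp.2 (by omega)
  have h2 : (F4G.primeOf (L.emb q.1 g)).valuation L.field
      (((f : L.field) - 1) / (((q.1 : ℕ) : ℕ) : L.field) ^ (k + 1)) < 1 := by
    rw [map_div₀, div_lt_one₀ (zero_lt_iff.2 ((Valuation.ne_zero_iff _).2 hq0))]
    exact h1
  have h3 := (F4G.norm_lt_one_iff (L.emb q.1 g) _).2 h2
  rw [map_div₀, norm_div, map_sub, map_one, map_pow, norm_pow, ja_norm_emb_natCast,
    div_lt_one (pow_pos (inv_pos.2 hqR) _)] at h3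
  refine h3.trans_le ?_
  rw [zpow_neg, zpow_natCast, inv_pow]
  exact inv_anti₀ (pow_pos hqR k) (pow_le_pow_right₀ hq1 (Nat.le_succ k))

/-- **P1 (second half)**: every prime of `F` over `S` is the prime of some `L.emb q g`. -/
def OpenS.PlacesSurj (L : OpenS S) : Prop :=
  ∀ v ∈ L.T, ∃ (q : ↥S) (g : GQ), F4G.primeOf (L.emb q.1 g) = v

/-- The valuation of `q` at the prime of `L.emb q g` is at most `exp (-1)`. -/
lemma ja_valuation_natCast_le (L : OpenS S) (q : Nat.Primes) (g : GQ) :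
    (F4G.primeOf (L.emb q g)).valuation L.field (((q : ℕ) : ℕ) : L.field) ≤
      WithZero.exp (-1 : ℤ) := by
  have h0 : (F4G.primeOf (L.emb q g)).valuation L.field (((q : ℕ) : ℕ) : L.field) ≠ 0 := by
    rw [Valuation.ne_zero_iff]
    exact Nat.cast_ne_zero.2 q.2.ne_zero
  have h1 : (F4G.primeOf (L.emb q g)).valuation L.field (((q : ℕ) : ℕ) : L.field) < 1 := by
    have e : ((((q : ℕ) : ℕ) : L.field)) = algebraMap (𝓞 L.field) L.field (((q : ℕ) : ℕ) : 𝓞 L.field) :=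
      (map_natCast (algebraMap (𝓞 L.field) L.field) (q : ℕ)).symm
    rw [e, HeightOneSpectrum.valuation_lt_one_iff_mem]
    exact F4G.natCast_mem_primeOf (L.emb q g)
  rw [← WithZero.exp_zero, ← WithZero.log_lt_iff_lt_exp h0] at h1
  rw [← WithZero.log_le_iff_le_exp h0]
  omega

/-- **K3iii (converse direction)**, from P1: if `diagJ f ∈ J_(k)` then `f ≡ 1 mod v ^ (k + 1)`
for all `v ∈ L.T`. -/
theorem OpenS.oneMod_of_nearOne_diagJ (L : OpenS S) (hP1 : L.PlacesSurj) (k : ℕ)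
    (f : (L.field)ˣ) (h : NearOne (diagJ S (L.toQS f)) k) :
    ∀ v ∈ L.T, f ∈ F4G.oneModSubgroup L.field v k := by
  intro v hv
  obtain ⟨q, g, rfl⟩ := hP1 v hv
  have h1 := h q g
  rw [L.Jval_diagJ_toQS] at h1
  have hqR : (0 : ℝ) < (((q.1 : ℕ) : ℕ) : ℝ) := by exact_mod_cast q.1.2.pos
  have hq0 : ((((q.1 : ℕ) : ℕ) : L.field)) ^ k ≠ 0 :=
    pow_ne_zero _ (Nat.cast_ne_zero.2 q.1.2.ne_zero)
  have h2 : ‖L.emb q.1 g (((f : L.field) - 1) / (((q.1 : ℕ) : ℕ) : L.field) ^ k)‖ < 1 := by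
    rw [map_div₀, norm_div, map_sub, map_one, map_pow, norm_pow, ja_norm_emb_natCast,
      div_lt_one (pow_pos (inv_pos.2 hqR) _), inv_pow, ← zpow_natCast, ← zpow_neg]
    exact h1
  have h3 := (F4G.norm_lt_one_iff (L.emb q.1 g) _).1 h2
  rw [map_div₀, div_lt_one₀ (zero_lt_iff.2 ((Valuation.ne_zero_iff _).2 hq0)), map_pow] at h3
  rw [F4G.mem_oneModSubgroup]
  refine h3.trans_le ?_
  calc (F4G.primeOf (L.emb q.1 g)).valuation L.field (((q.1 : ℕ) : ℕ) : L.field) ^ k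
      ≤ WithZero.exp (-1 : ℤ) ^ k := pow_le_pow_left₀ zero_le (ja_valuation_natCast_le L q.1 g) k
    _ = WithZero.exp (-(k : ℤ)) := by
        rw [← WithZero.exp_nsmul]
        congr 1
        simp

end Fermat.Agent.F4
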