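import Fermat.Agent.F4.Dict.PlacesB
import Fermat.Agent.F4.Dict.JApprox

/-!
# F4 / Dict / PlacesWire : `PlacesConj` and `PlacesSurj` (helper86's shapes) from `PlacesB`
(helper90)

* `OpenS.placesConj : L.PlacesConj`, `OpenS.placesSurj : L.PlacesSurj`;
* `OpenS.jApprox` (K3i) and `OpenS.oneMod_of_nearOne_diagJ'` (K3iii) without hypotheses.
-/

set_option autoImplicit false
set_option synthInstance.maxHeartbeats 400000
set_option linter.unusedSectionVars false
set_option linter.style.haveILetI false

open CategoryTheory groupCohomology ExtCitation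
open NumberField IsDedekindDomain

namespace Fermat.Agent.F4

variable {S : Finset Nat.Primes}

namespace OpenS

variable (L : OpenS S)

/-- **P2 (`⇒`)** in the shape of `JApprox.lean`. -/
theorem placesConj : L.PlacesConj := fun q g g' h =>
  (L.primeOf_emb_eq_iff q g g').1 h

/-- **P1 (second half)** in the shape of `JApprox.lean`. -/
theorem placesSurj : L.PlacesSurj := fun v hv => by
  obtain ⟨q, hq, g, hg⟩ := L.exists_primeOf_emb_eq v hv
  exact ⟨⟨q, hq⟩, g, hg⟩

/-- **K3i**, unconditional: `J^U = diagJ (Fˣ) + J^U_(k)`. -/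
theorem jApprox {x : Jrep S} (hx : x ∈ L.JU) (k : ℕ) :
    ∃ f : (L.field)ˣ, ∃ u : Jrep S, u ∈ L.JU ∧ NearOne u k ∧ x = diagJ S (L.toQS f) + u :=
  L.jApprox_of L.placesConj hx k

/-- **K3iii** (converse direction), unconditional. -/
theorem oneMod_of_nearOne_diagJ' (k : ℕ) (f : (L.field)ˣ)
    (h : NearOne (diagJ S (L.toQS f)) k) : ∀ v ∈ L.T, f ∈ F4G.oneModSubgroup L.field v k :=
  L.oneMod_of_nearOne_diagJ L.placesSurj k f h

end OpenS

end Fermat.Agent.F4
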