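import Fermat.Agent.F4.Dict.Capit
import Fermat.Agent.F4.Dict.Level

/-!
# F4 / Dict / CapitLevel : `p`-capitulation in the language of `F4/Dict/Level.lean` (seat K2ii)

* `OpenS.capit_isDivS_toQS` : the divisor outside `S` of `a ∈ Fˣ` is `v ↦ ord_v a`
  (`= - log (v.valuation F a)`); `F = L.field` need not be Galois over `ℚ`;
* `OpenS.capit` : there is `m` prime to `p` such that for every nonzero ideal `I` of `𝓞 F` there
  is `t ∈ T_U` with divisor `m * ord_v(I)` outside `S` ("`I ^ m = a_t`");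
* `OpenS.capit_root` : the root form.
-/

set_option autoImplicit false

open CategoryTheory groupCohomology ExtCitation
open scoped Pointwise
open NumberField IsDedekindDomain

namespace Fermat.Agent.F4

namespace OpenS

variable {p : ℕ} [Fact p.Prime] {S : Finset Nat.Primes} (L : OpenS S)

/-- The elements of `F` have an order at every place outside `S`. -/
lemma capit_exists_hasOrdAt_field (q : Nat.Primes) (hq : q ∉ S)
    (A : ValuationSubring (AlgebraicClosure ℚ)) (hA : A.LiesOverPrime (q : ℕ))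
    (y : L.field) (hy : y ≠ 0) :
    ∃ n : ℤ, HasOrdAt A q ((y : L.field) : AlgebraicClosure ℚ) n :=
  capit_exists_hasOrdAt S L.U L.isOpen q hq A hA y hy

/-- The primes of `F` outside `S` are unramified over `ℚ`: `v(q) = exp (-1)`. -/
theorem capit_valuation_natCast_field (q : Nat.Primes) (hq : q ∉ S)
    (A : ValuationSubring (AlgebraicClosure ℚ)) (hA : A.LiesOverPrime (q : ℕ))
    (v : HeightOneSpectrum (𝓞 L.field))
    (hv : v.asIdeal = Fermat.Agent.KFin.primeBelow L.field A) :
    v.valuation L.field ((q : ℕ) : L.field) = WithZero.exp (-1 : ℤ) :=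
  capit_valuation_natCast L.field A q q.2 hA v hv (L.capit_exists_hasOrdAt_field q hq A hA)

/-- The divisor outside `S` of `a ∈ Fˣ` is `v ↦ ord_v a`. -/
theorem capit_isDivS_toQS (a : (L.field)ˣ) :
    L.IsDivS (L.toQS a) (fun v => -(WithZero.log (v.valuation L.field (a : L.field)))) := by
  intro q hq A hA v hv
  rw [val_toQS]
  exact capit_hasOrdAt L.field A q q.2 hA v hv (L.capit_exists_hasOrdAt_field q hq A hA) _ a.ne_zero

/-- **`p`-capitulation** (seat K2ii): there is `m` prime to `p` such that for every nonzero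
ideal `I` of `𝓞 F` there is `t ∈ T_U` whose divisor outside `S` is `m * ord_v(I)`. -/
theorem capit (hpS : pPrime p ∈ S) :
    ∃ m : ℕ, ¬ p ∣ m ∧ ∀ I : Ideal (𝓞 L.field), I ≠ ⊥ →
      ∃ t ∈ L.TU, L.IsDivS t (fun v => ((m * multiplicity v.asIdeal I : ℕ) : ℤ)) := by
  obtain ⟨m, hm, h⟩ := Fermat.Agent.F4.capit (p := p) S hpS L.U L.isOpen
  refine ⟨m, hm, fun I hI => ?_⟩
  obtain ⟨t, ht1, ht2⟩ := h I hI
  refine ⟨t, ht1, fun q hq A hA v hv => ?_⟩
  have := ht2 q hq A hA
  show HasOrdAt A q _ ((m * multiplicity v.asIdeal I : ℕ) : ℤ)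
  rw [hv]
  exact this

/-- **`p`-capitulation, root form**: if the divisor outside `S` of `a ∈ Fˣ` is `p ^ k • d`, then
`a = t ^ p ^ k` with `t ∈ T_U` of divisor `d`. -/
theorem capit_root (hpS : pPrime p ∈ S) (k : ℕ) (a : (L.field)ˣ)
    (d : HeightOneSpectrum (𝓞 L.field) → ℤ)
    (hd : L.IsDivS (L.toQS a) (fun v => (p : ℤ) ^ k * d v)) :
    ∃ t ∈ L.TU, (p ^ k) • t = L.toQS a ∧ L.IsDivS t d := by
  classical
  have hprime : ∀ (q : Nat.Primes) (A : ValuationSubring (AlgebraicClosure ℚ)),
      A.LiesOverPrime (q : ℕ) → Fermat.Agent.KFin.primeBelow L.field A ≠ ⊥ := by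
    intro q A hA h0
    have hqP := Fermat.Agent.KFin.natCast_mem_primeBelow L.field A q hA
    rw [h0, Ideal.mem_bot] at hqP
    exact q.2.ne_zero (by exact_mod_cast hqP)
  obtain ⟨t, ht0, ht1, ht2⟩ := Fermat.Agent.F4.capit_root (p := p) S hpS L.U L.isOpen k
    (smUnits.val (L.toQS a))
    (fun g hg => (L.mem_field_iff _).1 (a : L.field).2 g hg)
    (fun q A => if h : A.LiesOverPrime (q : ℕ) then
      d ⟨Fermat.Agent.KFin.primeBelow L.field A, inferInstance, hprime q A h⟩ else 0)
    (fun q hq A hA => by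
      rw [dif_pos hA]
      exact hd q hq A hA ⟨Fermat.Agent.KFin.primeBelow L.field A, inferInstance, hprime q A hA⟩
        rfl)
  refine ⟨t, ht1, ?_, fun q hq A hA v hv => ?_⟩
  · apply smUnits.val_injective
    rw [smUnits.val_nsmul]
    exact ht0
  · have := ht2 q hq A hA
    rw [dif_pos hA] at this
    have e : v = ⟨Fermat.Agent.KFin.primeBelow L.field A, inferInstance, hprime q A hA⟩ := by
      ext1
      exact hv
    rw [e]
    exact this

end OpenS

end Fermat.Agent.F4
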