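import Fermat.Agent.F4.Dict.Div
import Fermat.Agent.F4.Dict.CapitLevel
import Fermat.Agent.F4.Dict.PlaceSurj

/-!
# F4 / Dict / DivFin : divisors with finite support; capitulation for divisors
(requests R1, R2, R3 of helper56 for `dict_hasse`; helper32)

`L : OpenS S`, `F = L.field`.

* `OpenS.exists_primeBelowAt` (R3) : every prime of `F` outside `L.T` is below some valuation
  subring `A` of `ℚ̄` over some `q ∉ S` (from helper56's `PlaceSurj`);
* `OpenS.primeBelowAt_not_mem_T` : conversely the primes `A ∩ F`, `A` over `q ∉ S`, are outside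
  `L.T`;
* `OpenS.exists_isDivS_fin` (R1) : every `t ∈ T_U` has a divisor with finite support, `0` on
  `L.T`;
* `OpenS.capit_div` (R2) : there is `m` prime to `p` such that every finitely supported `d` has
  `m • d` as the divisor of some `s ∈ T_U`.
-/

set_option autoImplicit false
set_option linter.unusedSectionVars false

open CategoryTheory groupCohomology ExtCitation
open scoped Pointwise
open NumberField IsDedekindDomain

namespace Fermat.Agent.F4

/-- A natural number prime to `q` is a unit of every valuation subring over `q`. -/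
lemma divfin_natCast_isUnitAt (A : ValuationSubring (AlgebraicClosure ℚ)) {q n : ℕ}
    (hq : q.Prime) (hA : A.LiesOverPrime q) (hn : ¬ q ∣ n) :
    IsUnitAt A ((n : ℕ) : AlgebraicClosure ℚ) := by
  have hnA : ((n : ℕ) : AlgebraicClosure ℚ) ∈ A := natCast_mem A n
  have hnon : ((n : ℕ) : AlgebraicClosure ℚ) ∉ A.nonunits := by
    intro hmem
    have hcop : IsCoprime (n : ℤ) (q : ℤ) :=
      Nat.isCoprime_iff_coprime.2 ((Nat.Prime.coprime_iff_not_dvd hq).2 hn).symm
    obtain ⟨a, b, hab⟩ := hcop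
    have h1 : ((a : ℤ) : AlgebraicClosure ℚ) * (n : AlgebraicClosure ℚ) +
        ((b : ℤ) : AlgebraicClosure ℚ) * (q : AlgebraicClosure ℚ) = 1 := by
      have := congrArg (fun z : ℤ => (z : AlgebraicClosure ℚ)) hab
      push_cast at this
      exact this
    have hq' : ((q : ℕ) : AlgebraicClosure ℚ) ∈ A.nonunits := hA
    rw [ValuationSubring.mem_nonunits_iff] at hmem hq'
    have ha : A.valuation ((a : ℤ) : AlgebraicClosure ℚ) ≤ 1 :=
      (A.valuation_le_one_iff _).2 (intCast_mem A a)
    have hb : A.valuation ((b : ℤ) : AlgebraicClosure ℚ) ≤ 1 :=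
      (A.valuation_le_one_iff _).2 (intCast_mem A b)
    have h2 : A.valuation (((a : ℤ) : AlgebraicClosure ℚ) * (n : AlgebraicClosure ℚ) +
        ((b : ℤ) : AlgebraicClosure ℚ) * (q : AlgebraicClosure ℚ)) < 1 := by
      refine lt_of_le_of_lt (A.valuation.map_add _ _) (max_lt ?_ ?_)
      · rw [map_mul]
        calc A.valuation ((a : ℤ) : AlgebraicClosure ℚ) * A.valuation (n : AlgebraicClosure ℚ)
            ≤ 1 * A.valuation (n : AlgebraicClosure ℚ) := by gcongr
          _ < 1 := by rwa [one_mul]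
      · rw [map_mul]
        calc A.valuation ((b : ℤ) : AlgebraicClosure ℚ) * A.valuation (q : AlgebraicClosure ℚ)
            ≤ 1 * A.valuation (q : AlgebraicClosure ℚ) := by gcongr
          _ < 1 := by rwa [one_mul]
    rw [h1, map_one] at h2
    exact lt_irrefl _ h2
  rw [ValuationSubring.mem_nonunits_iff_or, not_or, not_not] at hnon
  exact ⟨hnA, hnon.2⟩

/-- Every algebraic number has a nonzero natural multiple which is an algebraic integer. -/
lemma divfin_exists_integral_multiple (x : AlgebraicClosure ℚ) : ∃ n : ℕ, n ≠ 0 ∧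
    IsIntegral ℤ (((n : ℕ) : AlgebraicClosure ℚ) * x) := by
  have hint : Algebra.IsAlgebraic ℚ (AlgebraicClosure ℚ) := AlgebraicClosure.isAlgebraic ℚ
  have hZQ : Algebra.IsAlgebraic ℤ ℚ := IsLocalization.isAlgebraic ℚ (nonZeroDivisors ℤ)
  have hx : IsAlgebraic ℤ x := (Algebra.IsAlgebraic.isAlgebraic (R := ℚ) x).restrictScalars ℤ
  obtain ⟨y, hy0, hy⟩ := hx.exists_integral_multiple
  refine ⟨(y * y).toNat, ?_, ?_⟩
  · have hpos : 0 < y * y := mul_self_pos.2 hy0
    intro h0
    have := Int.toNat_eq_zero.1 h0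
    omega
  · have hpos : 0 ≤ y * y := mul_self_nonneg y
    have e : (((y * y).toNat : ℕ) : AlgebraicClosure ℚ) = ((y * y : ℤ) : AlgebraicClosure ℚ) := by
      have := Int.toNat_of_nonneg hpos
      calc (((y * y).toNat : ℕ) : AlgebraicClosure ℚ)
          = ((((y * y).toNat : ℕ) : ℤ) : AlgebraicClosure ℚ) := (Int.cast_natCast _).symm
        _ = _ := by rw [this]
    rw [e]
    have e2 : ((y * y : ℤ) : AlgebraicClosure ℚ) * x =
        ((y : ℤ) : AlgebraicClosure ℚ) * (y • x) := by
      rw [zsmul_eq_mul]; push_cast; ring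
    rw [e2]
    exact IsIntegral.mul isIntegral_algebraMap hy

/-- An algebraic number with an integral multiple `n x` lies in every valuation subring over a
prime not dividing `n`. -/
lemma divfin_mem_of_integral_multiple (A : ValuationSubring (AlgebraicClosure ℚ)) {q n : ℕ}
    (hq : q.Prime) (hA : A.LiesOverPrime q) (hn : ¬ q ∣ n) {x : AlgebraicClosure ℚ}
    (hx : IsIntegral ℤ (((n : ℕ) : AlgebraicClosure ℚ) * x)) : x ∈ A := by
  have hu := divfin_natCast_isUnitAt A hq hA hn
  have hn0 : ((n : ℕ) : AlgebraicClosure ℚ) ≠ 0 := by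
    intro h0
    have : n = 0 := by exact_mod_cast h0
    exact hn (this ▸ dvd_zero q)
  have hmem := Fermat.Agent.FrobExists.mem_valuationSubring_of_isIntegral A hx
  have e : x = ((n : ℕ) : AlgebraicClosure ℚ)⁻¹ * (((n : ℕ) : AlgebraicClosure ℚ) * x) := by
    rw [← mul_assoc, inv_mul_cancel₀ hn0, one_mul]
  rw [e]
  exact A.mul_mem _ _ hu.2 hmem

/-- An algebraic number is a unit at all valuation subrings over the primes not dividing a
suitable `n ≠ 0`. -/
lemma divfin_exists_unit_outside (t : AlgebraicClosure ℚ) :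
    ∃ n : ℕ, n ≠ 0 ∧ ∀ (q : ℕ), q.Prime → ¬ q ∣ n →
      ∀ A : ValuationSubring (AlgebraicClosure ℚ), A.LiesOverPrime q → IsUnitAt A t := by
  obtain ⟨n₁, hn₁, h₁⟩ := divfin_exists_integral_multiple t
  obtain ⟨n₂, hn₂, h₂⟩ := divfin_exists_integral_multiple t⁻¹
  refine ⟨n₁ * n₂, mul_ne_zero hn₁ hn₂, fun q hq hqn A hA => ⟨?_, ?_⟩⟩
  · exact divfin_mem_of_integral_multiple A hq hA
      (fun h => hqn (Dvd.dvd.mul_right h n₂)) h₁
  · exact divfin_mem_of_integral_multiple A hq hA
      (fun h => hqn (Dvd.dvd.mul_left h n₁)) h₂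

namespace OpenS

variable {S : Finset Nat.Primes} (L : OpenS S)

/-- **R3.** Every prime of `F` outside `L.T` is the prime below a valuation subring of `ℚ̄` over
some `q ∉ S`. -/
theorem exists_primeBelowAt (v : HeightOneSpectrum (𝓞 L.field)) (hv : v ∉ L.T) :
    ∃ q : Nat.Primes, q ∉ S ∧ ∃ (A : ValuationSubring (AlgebraicClosure ℚ))
      (hA : A.LiesOverPrime (q : ℕ)), v = L.primeBelowAt q A hA := by
  obtain ⟨q, hqS, hq⟩ := L.exists_natCast_mem_of_not_mem_T v hv
  obtain ⟨A, hA, hvA⟩ := L.exists_primeBelowAt_of_mem v q hq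
  exact ⟨q, hqS, A, hA, hvA⟩

/-- The primes below the valuation subrings over `q ∉ S` are outside `L.T`. -/
theorem primeBelowAt_not_mem_T (q : Nat.Primes) (hq : q ∉ S)
    (A : ValuationSubring (AlgebraicClosure ℚ)) (hA : A.LiesOverPrime (q : ℕ)) :
    L.primeBelowAt q A hA ∉ L.T := by
  intro hmem
  rw [L.mem_T] at hmem
  obtain ⟨q', hq'S, hq'⟩ := hmem
  have hqP := Fermat.Agent.KFin.natCast_mem_primeBelow L.field A q hA
  have e : (q : ℕ) = (q' : ℕ) :=
    div_prime_unique (Fermat.Agent.KFin.primeBelow L.field A) q.2 q'.2 hqP hq'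
  exact hq ((Subtype.ext e : q = q') ▸ hq'S)

/-- **R1.** Every `t ∈ T_U` has a divisor with finite support, vanishing on `L.T`. -/
theorem exists_isDivS_fin (t : QSx S) (ht : t ∈ L.TU) :
    ∃ d : HeightOneSpectrum (𝓞 L.field) → ℤ,
      L.IsDivS t d ∧ (Function.support d).Finite ∧ ∀ v ∈ L.T, d v = 0 := by
  classical
  obtain ⟨d₀, hd₀⟩ := L.exists_isDivS t ht
  obtain ⟨n, hn0, hn⟩ := divfin_exists_unit_outside
    ((smUnits.val t : (AlgebraicClosure ℚ)ˣ) : AlgebraicClosure ℚ)
  refine ⟨fun v => if v ∈ L.T then 0 else d₀ v, ?_, ?_, ?_⟩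
  · rw [isDivS_iff]
    intro q hq A hA
    have h := (L.isDivS_iff t d₀).1 hd₀ q hq A hA
    show HasOrdAt A q _ (if L.primeBelowAt q A hA ∈ L.T then 0 else d₀ (L.primeBelowAt q A hA))
    rw [if_neg (L.primeBelowAt_not_mem_T q hq A hA)]
    exact h
  · have hfin : {v : HeightOneSpectrum (𝓞 L.field) |
        v.asIdeal ∣ Ideal.span {((n : ℕ) : 𝓞 L.field)}}.Finite := by
      refine Ideal.finite_factors ?_
      intro h0
      rw [Ideal.zero_eq_bot, Ideal.span_singleton_eq_bot] at h0
      exact hn0 (by exact_mod_cast h0)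
    refine hfin.subset fun v hv => ?_
    rw [Function.mem_support] at hv
    have hvT : v ∉ L.T := fun h => hv (if_pos h)
    have hd0 : d₀ v ≠ 0 := by
      intro h
      apply hv
      show (if v ∈ L.T then 0 else d₀ v) = 0
      rw [if_neg hvT, h]
    obtain ⟨q, hqS, A, hA, rfl⟩ := L.exists_primeBelowAt v hvT
    show (L.primeBelowAt q A hA).asIdeal ∣ Ideal.span {((n : ℕ) : 𝓞 L.field)}
    rw [Ideal.dvd_iff_le, Ideal.span_singleton_le_iff_mem]
    by_contra hnv
    have hqn : ¬ (q : ℕ) ∣ n := by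
      rintro ⟨k, rfl⟩
      apply hnv
      rw [Nat.cast_mul]
      exact Ideal.mul_mem_right _ _ (Fermat.Agent.KFin.natCast_mem_primeBelow L.field A q hA)
    have hu := hn q q.2 hqn A hA
    have h0 : HasOrdAt A q ((smUnits.val t : (AlgebraicClosure ℚ)ˣ) : AlgebraicClosure ℚ) 0 := by
      unfold HasOrdAt
      rw [neg_zero, zpow_zero, mul_one]
      exact hu
    have h1 := (L.isDivS_iff t d₀).1 hd₀ q hqS A hA
    exact hd0 (hasOrdAt_unique q.2 hA (smUnits.val t).ne_zero h1 h0)
  · intro v hv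
    exact if_pos hv

/-- **R2.** Capitulation for divisors: there is `m` prime to `p` such that for every finitely
supported `d`, `m • d` is the divisor of some `s ∈ T_U`. -/
theorem capit_div {p : ℕ} [Fact p.Prime] (hpS : pPrime p ∈ S) :
    ∃ m : ℕ, ¬ p ∣ m ∧ ∀ d : HeightOneSpectrum (𝓞 L.field) → ℤ,
      (Function.support d).Finite → ∃ s ∈ L.TU, L.IsDivS s (m • d) := by
  classical
  obtain ⟨m, hm, hcap⟩ := L.capit hpS
  refine ⟨m, hm, fun d hd => ?_⟩
  have key : ∀ v : HeightOneSpectrum (𝓞 L.field), ∃ t ∈ L.TU,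
      L.IsDivS t (fun w => ((m * multiplicity w.asIdeal v.asIdeal : ℕ) : ℤ)) :=
    fun v => hcap v.asIdeal v.ne_bot
  choose t htU ht using key
  have hmult : ∀ v w : HeightOneSpectrum (𝓞 L.field),
      multiplicity w.asIdeal v.asIdeal = if w = v then 1 else 0 := by
    intro v w
    split_ifs with h
    · rw [h]
      exact multiplicity_self
    · rw [multiplicity_eq_zero, Ideal.dvd_iff_le]
      intro hle
      apply h
      have := (v.isMaximal.eq_of_le w.isPrime.ne_top hle)
      exact (HeightOneSpectrum.ext this).symm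
  have hsum : L.IsDivS (∑ v ∈ hd.toFinset, d v • t v)
      (∑ v ∈ hd.toFinset, d v • fun w => ((m * multiplicity w.asIdeal v.asIdeal : ℕ) : ℤ)) :=
    IsDivS.sum _ _ _ fun v _ => (ht v).zsmul (d v)
  refine ⟨∑ v ∈ hd.toFinset, d v • t v, hsum.mem_TU, ?_⟩
  refine hsum.congr fun q A hA _ => ?_
  generalize L.primeBelowAt q A hA = w
  rw [Finset.sum_apply]
  simp only [Pi.smul_apply, hmult, smul_eq_mul]
  rw [Finset.sum_eq_single w]
  · rw [if_pos rfl, mul_one, nsmul_eq_mul, mul_comm]
  · intro v _ hvw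
    rw [if_neg (Ne.symm hvw), mul_zero, Nat.cast_zero, mul_zero]
  · intro hw
    have h0 : d w = 0 := by
      by_contra h
      exact hw (hd.mem_toFinset.2 (Function.mem_support.2 h))
    rw [h0, zero_mul]

end OpenS

end Fermat.Agent.F4
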