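import Fermat.Agent.F4.Dict.JHensel
import Fermat.Agent.F4.Glob.Compl.Pow
import Fermat.Agent.S14.SI.Defs

/-!
# F4 / Dict / JHenselPow : local `p`-th powers are `p`-th powers in `J^U`
(seat K3ii of DICT, second half; owner helper49)

`L : OpenS S`, `F = L.field`, `ζ ∈ F` a primitive `p`-th root of unity, `f ∈ Fˣ` a local `p`-th
power at every prime of `F` over `S` (`S14SI.IsLocalPow`: `v (f y ^ p - 1) < v (ζ - 1) ^ p`).
Then `diagJ f ∈ p • J^U` (`OpenS.diagJ_mem_smul_of_isLocalPow`).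

The `p`-th root at `(q, g)` is `w / j y`, `j = L.emb q g`, `w` the unique `p`-th root of
`j (f y ^ p)` with `‖w - 1‖ < ‖ζ' - 1‖` (`ζ'` any nontrivial `p`-th root of unity of
`PadicAlgCl q`: the sharp radius); uniqueness makes the family equivariant.
-/

set_option autoImplicit false
set_option synthInstance.maxHeartbeats 400000
set_option linter.style.haveILetI false

open CategoryTheory groupCohomology ExtCitation
open NumberField IsDedekindDomain

namespace Fermat.Agent.F4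

attribute [local instance] fact_prime_coe49

/-! ### The sharp radius -/

section Sharp

variable {q : ℕ} [Fact q.Prime]

/-- A root of unity has norm `1`. -/
lemma norm_eq_one_of_pow_eq_one {p : ℕ} (hp : 0 < p) {ζ : PadicAlgCl q} (hζ : ζ ^ p = 1) :
    ‖ζ‖ = 1 := by
  have h := congrArg norm hζ
  rw [norm_pow, norm_one] at h
  exact (pow_eq_one_iff_of_nonneg (norm_nonneg ζ) hp.ne').1 h

lemma norm_root_sub_one_le_one {p : ℕ} (hp : 0 < p) {ζ : PadicAlgCl q} (hζ : ζ ^ p = 1) :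
    ‖ζ - 1‖ ≤ 1 := by
  have e : ζ - 1 = ζ + (-1) := by ring
  rw [e]
  refine (IsUltrametricDist.norm_add_le_max _ _).trans (max_le ?_ ?_)
  · exact (norm_eq_one_of_pow_eq_one hp hζ).le
  · rw [norm_neg, norm_one]

/-- For `p` prime, all nontrivial `p`-th roots of unity are at the same distance from `1`. -/
lemma norm_root_sub_one_le {p : ℕ} (hp : p.Prime) {ζ ζ' : PadicAlgCl q} (hζ : ζ ^ p = 1)
    (hζ1 : ζ ≠ 1) (hζ' : ζ' ^ p = 1) : ‖ζ' - 1‖ ≤ ‖ζ - 1‖ := by
  have hprim : IsPrimitiveRoot ζ p := by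
    rw [IsPrimitiveRoot.iff_orderOf]
    have hdvd : orderOf ζ ∣ p := orderOf_dvd_of_pow_eq_one hζ
    rcases (Nat.dvd_prime hp).1 hdvd with h1 | h1
    · exact absurd (orderOf_eq_one_iff.1 h1) hζ1
    · exact h1
  haveI : NeZero p := ⟨hp.ne_zero⟩
  obtain ⟨i, -, hi⟩ := hprim.eq_pow_of_pow_eq_one hζ'
  rw [← hi]
  exact F4G.norm_pow_sub_one_le (norm_root_sub_one_le_one hp.pos hζ) i

lemma norm_root_sub_one_eq {p : ℕ} (hp : p.Prime) {ζ ζ' : PadicAlgCl q} (hζ : ζ ^ p = 1)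
    (hζ1 : ζ ≠ 1) (hζ' : ζ' ^ p = 1) (hζ'1 : ζ' ≠ 1) : ‖ζ' - 1‖ = ‖ζ - 1‖ :=
  le_antisymm (norm_root_sub_one_le hp hζ hζ1 hζ') (norm_root_sub_one_le hp hζ' hζ'1 hζ)

end Sharp

/-! ### Comparison of valuations and norms -/

section Compare

variable {q : ℕ} [Fact q.Prime] {F : Type*} [Field F] [NumberField F] (j : F →+* PadicAlgCl q)

/-- `v x < v y ^ n  ⇒  ‖j x‖ < ‖j y‖ ^ n` for `v = primeOf j`. -/
lemma norm_lt_pow_of_valuation_lt {x y : F} (hy : y ≠ 0) (n : ℕ)
    (h : (F4G.primeOf j).valuation F x < (F4G.primeOf j).valuation F y ^ n) :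
    ‖j x‖ < ‖j y‖ ^ n := by
  obtain ⟨π, hπ⟩ := (F4G.primeOf j).valuation_exists_uniformizer F
  have hvy : (F4G.primeOf j).valuation F y ≠ 0 := (Valuation.ne_zero_iff _).mpr hy
  set m : ℤ := -WithZero.log ((F4G.primeOf j).valuation F y) with hm
  have hym : (F4G.primeOf j).valuation F y = WithZero.exp (-m) := by
    rw [hm, neg_neg, WithZero.exp_log hvy]
  have h1 : ‖j y‖ ^ n = ‖j π‖ ^ ((n : ℤ) * m) := by
    rw [F4G.norm_eq_zpow j hπ hym, ← zpow_natCast, ← zpow_mul, mul_comm]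
  rw [h1, F4G.norm_lt_zpow_iff j hπ]
  have h2 : (F4G.primeOf j).valuation F y ^ n = WithZero.exp (-((n : ℤ) * m)) := by
    rw [hym, ← WithZero.exp_nsmul]
    congr 1
    simp only [nsmul_eq_mul]
    ring
  rw [← h2]
  exact h

end Compare

/-! ### The root with the sharp radius -/

section SharpRoot

variable (q : Nat.Primes) (p : ℕ)

open Classical in
/-- The distance to `1` of the nontrivial `p`-th roots of unity of `PadicAlgCl q`
(`p` prime; junk value `1` if there is none). -/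
noncomputable def sharpRad : ℝ :=
  if h : ∃ ζ : PadicAlgCl (q : ℕ), ζ ^ p = 1 ∧ ζ ≠ 1 then ‖Classical.choose h - 1‖ else 1

variable {p}

lemma sharpRad_eq (hp : p.Prime) {ζ : PadicAlgCl (q : ℕ)} (hζ : ζ ^ p = 1) (hζ1 : ζ ≠ 1) :
    sharpRad q p = ‖ζ - 1‖ := by
  have h : ∃ ζ : PadicAlgCl (q : ℕ), ζ ^ p = 1 ∧ ζ ≠ 1 := ⟨ζ, hζ, hζ1⟩
  unfold sharpRad
  rw [dif_pos h]
  exact norm_root_sub_one_eq hp hζ hζ1 (Classical.choose_spec h).1 (Classical.choose_spec h).2

lemma sharpRad_pos (_hp : p.Prime) : 0 < sharpRad q p := by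
  unfold sharpRad
  split_ifs with h
  · exact norm_pos_iff.2 (sub_ne_zero.2 (Classical.choose_spec h).2)
  · exact one_pos

lemma sharpRad_le_one (hp : p.Prime) : sharpRad q p ≤ 1 := by
  unfold sharpRad
  split_ifs with h
  · exact norm_root_sub_one_le_one hp.pos (Classical.choose_spec h).1
  · exact le_rfl

lemma sharpRad_le (hp : p.Prime) (ζ : PadicAlgCl (q : ℕ)) (hζ : ζ ^ p = 1) (hζ1 : ζ ≠ 1) :
    sharpRad q p ≤ ‖ζ - 1‖ := (sharpRad_eq q hp hζ hζ1).le

variable (p)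

open Classical in
/-- The `p`-th root near `1`, with the sharp radius (junk value `1` if there is none). -/
noncomputable def sharpRoot (u : PadicAlgCl (q : ℕ)) : PadicAlgCl (q : ℕ) :=
  if h : ∃ w : PadicAlgCl (q : ℕ), w ^ p = u ∧ ‖w - 1‖ < sharpRad q p then
    Classical.choose h else 1

variable {p}

lemma sharpRoot_spec (hp : p.Prime) {u : PadicAlgCl (q : ℕ)}
    (hu : ‖u - 1‖ < sharpRad q p ^ p) :
    sharpRoot q p u ^ p = u ∧ ‖sharpRoot q p u - 1‖ < sharpRad q p := by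
  have h : ∃ w : PadicAlgCl (q : ℕ), w ^ p = u ∧ ‖w - 1‖ < sharpRad q p :=
    exists_nearRoot hp.pos (sharpRad_pos q hp) hu
  unfold sharpRoot
  rw [dif_pos h]
  exact Classical.choose_spec h

lemma sharpRoot_map (hp : p.Prime)
    (σ : PadicAlgCl (q : ℕ) ≃ₐ[ℚ_[(q : ℕ)]] PadicAlgCl (q : ℕ))
    {u : PadicAlgCl (q : ℕ)} (hu : ‖u - 1‖ < sharpRad q p ^ p) :
    sharpRoot q p (σ u) = σ (sharpRoot q p u) := by
  have hσu : ‖σ u - 1‖ < sharpRad q p ^ p := by
    have e : σ u - 1 = σ (u - 1) := by rw [map_sub, map_one]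
    rw [e, Loc.kras_norm_algEquiv (q : ℕ) σ]
    exact hu
  have h1 := sharpRoot_spec q hp hu
  have h2 := sharpRoot_spec q hp hσu
  refine (nearRoot_equivariant (sharpRad_le_one q hp) (sharpRad_le q hp) σ ?_ h1.2 h2.2).symm
  rw [h1.1, h2.1]

end SharpRoot

/-! ### The embeddings `L.emb q g` -/

namespace OpenS

variable {S : Finset Nat.Primes} (L : OpenS S)

lemma emb_mul_left (q : Nat.Primes) (d : primeLocalGaloisGroup q) (g : GQ) (a : L.field) :
    L.emb q (primeLocalToGlobal q d * g) a = locAct q d (L.emb q g a) := by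
  rw [emb_apply, emb_apply, ← locEmb_primeLocalToGlobal]
  rfl

lemma emb_mul_right (q : Nat.Primes) (g u : GQ) (hu : u ∈ L.U) :
    L.emb q (g * u) = L.emb q g := by
  refine RingHom.ext fun a => ?_
  rw [emb_apply, emb_apply]
  have h : u (a : AlgebraicClosure ℚ) = a := (L.mem_field_iff _).1 a.2 u hu
  show locEmb q (g (u (a : AlgebraicClosure ℚ))) = _
  rw [h]

lemma primeOf_emb_mul_left (q : Nat.Primes) (d : primeLocalGaloisGroup q) (g : GQ) :
    F4G.primeOf (L.emb q (primeLocalToGlobal q d * g)) = F4G.primeOf (L.emb q g) := by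
  apply HeightOneSpectrum.ext
  apply Ideal.ext
  intro x
  rw [F4G.mem_primeOf, F4G.mem_primeOf, emb_mul_left]
  have e : ‖locAct q d (L.emb q g (x : L.field))‖ = ‖L.emb q g (x : L.field)‖ :=
    Loc.kras_norm_algEquiv (q : ℕ)
      (show PadicAlgCl (q : ℕ) ≃ₐ[ℚ_[(q : ℕ)]] PadicAlgCl (q : ℕ) from d) _
  rw [e]

lemma primeOf_emb_mem_T (q : ↥S) (g : GQ) : F4G.primeOf (L.emb q.1 g) ∈ L.T := by
  rw [mem_T]
  exact ⟨q.1, q.2, F4G.natCast_mem_primeOf _⟩

end OpenS

/-! ### The family of roots -/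

section Main

variable {S : Finset Nat.Primes} (L : OpenS S) (p : ℕ)

/-- The hypotheses: `ζ` a nontrivial `p`-th root of unity of `F`, `y v ≠ 0` with
`v (f (y v) ^ p - 1) < v (ζ - 1) ^ p` for the primes `v` of `F` over `S`. -/
structure PowHyp (ζ f : L.field) (y : HeightOneSpectrum (𝓞 L.field) → L.field) : Prop where
  prime : p.Prime
  root : ζ ^ p = 1
  ne_one : ζ ≠ 1
  y_ne : ∀ v ∈ L.T, y v ≠ 0
  close : ∀ v ∈ L.T,
    v.valuation L.field (f * y v ^ p - 1) < v.valuation L.field (ζ - 1) ^ p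

/-- The candidate `p`-th root of `ι (g f)` at `(q, g)`. -/
noncomputable def powRoot (f : L.field) (y : HeightOneSpectrum (𝓞 L.field) → L.field)
    (q : Nat.Primes) (g : GQ) : PadicAlgCl (q : ℕ) :=
  sharpRoot q p (L.emb q g (f * y (F4G.primeOf (L.emb q g)) ^ p)) /
    L.emb q g (y (F4G.primeOf (L.emb q g)))

variable {L p} {ζ f : L.field} {y : HeightOneSpectrum (𝓞 L.field) → L.field}

lemma PowHyp.norm_lt (H : PowHyp L p ζ f y) (q : ↥S) (g : GQ) :
    ‖L.emb q.1 g (f * y (F4G.primeOf (L.emb q.1 g)) ^ p) - 1‖ < sharpRad q.1 p ^ p := by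
  have hv := L.primeOf_emb_mem_T q g
  have hζ0 : ζ - 1 ≠ 0 := sub_ne_zero.2 H.ne_one
  have h1 := norm_lt_pow_of_valuation_lt (L.emb q.1 g) hζ0 p (H.close _ hv)
  rw [map_sub, map_one, map_sub, map_one] at h1
  have h2 : (L.emb q.1 g ζ) ^ p = 1 := by rw [← map_pow, H.root, map_one]
  have h3 : L.emb q.1 g ζ ≠ 1 := by
    intro h
    apply H.ne_one
    apply (L.emb q.1 g).injective
    rw [h, map_one]
  rw [sharpRad_eq q.1 H.prime h2 h3]
  exact h1

lemma PowHyp.emb_y_ne_zero (H : PowHyp L p ζ f y) (q : ↥S) (g : GQ) :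
    L.emb q.1 g (y (F4G.primeOf (L.emb q.1 g))) ≠ 0 :=
  (map_ne_zero _).2 (H.y_ne _ (L.primeOf_emb_mem_T q g))

/-- (W3) the candidate is a `p`-th root of `ι (g f)`. -/
lemma PowHyp.powRoot_pow (H : PowHyp L p ζ f y) (q : ↥S) (g : GQ) :
    powRoot L p f y q.1 g ^ p = L.emb q.1 g f := by
  unfold powRoot
  rw [div_pow, (sharpRoot_spec q.1 H.prime (H.norm_lt q g)).1, map_mul, map_pow]
  exact mul_div_cancel_right₀ _ (pow_ne_zero p (H.emb_y_ne_zero q g))

lemma PowHyp.powRoot_ne_zero (H : PowHyp L p ζ f y) (hf : f ≠ 0) (q : ↥S) (g : GQ) :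
    powRoot L p f y q.1 g ≠ 0 := by
  intro h
  have h1 := H.powRoot_pow q g
  rw [h, zero_pow H.prime.ne_zero] at h1
  exact (map_ne_zero (L.emb q.1 g)).2 hf h1.symm

/-- (W1) equivariance under the local group. -/
lemma PowHyp.powRoot_mul_left (H : PowHyp L p ζ f y) (q : ↥S) (d : primeLocalGaloisGroup q.1)
    (g : GQ) :
    powRoot L p f y q.1 (primeLocalToGlobal q.1 d * g) = locAct q.1 d (powRoot L p f y q.1 g) := by
  unfold powRoot
  rw [L.primeOf_emb_mul_left, L.emb_mul_left, L.emb_mul_left]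
  have h1 := sharpRoot_map q.1 H.prime
    (show PadicAlgCl (q.1 : ℕ) ≃ₐ[ℚ_[(q.1 : ℕ)]] PadicAlgCl (q.1 : ℕ) from d) (H.norm_lt q g)
  have h2 : locAct q.1 d (sharpRoot q.1 p (L.emb q.1 g (f * y (F4G.primeOf (L.emb q.1 g)) ^ p)) /
      L.emb q.1 g (y (F4G.primeOf (L.emb q.1 g))))
      = locAct q.1 d (sharpRoot q.1 p (L.emb q.1 g (f * y (F4G.primeOf (L.emb q.1 g)) ^ p))) /
        locAct q.1 d (L.emb q.1 g (y (F4G.primeOf (L.emb q.1 g)))) := map_div₀ _ _ _
  rw [h2]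
  congr 1

/-- (W2) invariance under right translation by `U`. -/
lemma powRoot_mul_right (q : Nat.Primes) (g u : GQ) (hu : u ∈ L.U) :
    powRoot L p f y q (g * u) = powRoot L p f y q g := by
  unfold powRoot
  rw [L.emb_mul_right q g u hu]

/-- The candidate is fixed by a level of the local group. -/
lemma PowHyp.powRoot_mem (H : PowHyp L p ζ f y) (hf : f ≠ 0) (q : ↥S) (g : GQ) :
    Units.mk0 (powRoot L p f y q.1 g) (H.powRoot_ne_zero hf q g) ∈
      smUnitsSub (locLevelsS S q.1) (locAct q.1) := by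
  obtain ⟨V, hV, hVU⟩ := L.isOpen
  have hVn := (levelsS S).normal V hV
  refine ⟨V.comap (primeLocalToGlobal q.1), ⟨V, hV, rfl⟩, fun d hd => ?_⟩
  rw [Units.val_mk0, ← H.powRoot_mul_left q d g]
  have e : primeLocalToGlobal q.1 d * g = g * (g⁻¹ * primeLocalToGlobal q.1 d * g) := by group
  rw [e]
  refine powRoot_mul_right q.1 g _ (hVU ?_)
  have := hVn.conj_mem _ hd g⁻¹
  simpa using this

/-- The root as an element of `L_q`. -/
noncomputable def PowHyp.rootL (H : PowHyp L p ζ f y) (hf : f ≠ 0) (q : ↥S) (g : GQ) :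
    LqS S q.1 :=
  smUnits.mk _ (H.powRoot_mem hf q g)

lemma PowHyp.Lval_rootL (H : PowHyp L p ζ f y) (hf : f ≠ 0) (q : ↥S) (g : GQ) :
    Lval q.1 (H.rootL hf q g) = powRoot L p f y q.1 g := rfl

lemma PowHyp.rootL_mem (H : PowHyp L p ζ f y) (hf : f ≠ 0) (q : ↥S) :
    (fun g : GQ => H.rootL hf q g) ∈
      coIndSub (primeLocalToGlobal q.1) (levelsS S) (LqS S q.1) := by
  refine ⟨fun d g => ?_, ?_⟩
  · apply Lval_injective
    rw [Lval_ρ]
    exact H.powRoot_mul_left q d g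
  · obtain ⟨V, hV, hVU⟩ := L.isOpen
    refine ⟨V, hV, fun g s hs => ?_⟩
    apply Lval_injective
    exact powRoot_mul_right q.1 g s (hVU hs)

/-- The family of roots, an element of `J`. -/
noncomputable def PowHyp.rootJ (H : PowHyp L p ζ f y) (hf : f ≠ 0) : Jrep S :=
  fun q => ⟨_, H.rootL_mem hf q⟩

lemma PowHyp.rootJ_mem_JU (H : PowHyp L p ζ f y) (hf : f ≠ 0) : H.rootJ hf ∈ L.JU := by
  intro u hu
  funext q
  apply Subtype.ext
  funext g
  apply Lval_injective
  exact powRoot_mul_right q.1 g u hu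

end Main

/-- **K3ii, second half.**  An element of `Fˣ` which is a local `p`-th power at all primes of `F`
over `S` is a `p`-th power in `J^U`. -/
theorem OpenS.diagJ_mem_smul_of_isLocalPow {S : Finset Nat.Primes} (L : OpenS S) {p : ℕ}
    (hp : p.Prime) {ζ : L.field} (hζ : ζ ^ p = 1) (hζ1 : ζ ≠ 1) (f : (L.field)ˣ)
    (h : ∀ v ∈ L.T, S14SI.IsLocalPow L.field v p ζ (f : L.field)) :
    ∃ Y : Jrep S, Y ∈ L.JU ∧ diagJ S (L.toQS f) = p • Y := by
  classical
  set y : HeightOneSpectrum (𝓞 L.field) → L.field := fun v =>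
    if hv : v ∈ L.T then Classical.choose (h v hv) else 1 with hy
  have H : PowHyp L p ζ (f : L.field) y :=
    { prime := hp
      root := hζ
      ne_one := hζ1
      y_ne := fun v hv => by
        simp only [hy, dif_pos hv]
        exact (Classical.choose_spec (h v hv)).1
      close := fun v hv => by
        simp only [hy, dif_pos hv]
        exact (Classical.choose_spec (h v hv)).2 }
  refine ⟨H.rootJ f.ne_zero, H.rootJ_mem_JU f.ne_zero, ?_⟩
  funext q
  apply Subtype.ext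
  funext g
  apply Lval_injective
  show Jval (diagJ S (L.toQS f)) q g = Lval q.1 (p • H.rootL f.ne_zero q g)
  rw [L.Jval_diagJ_toQS, Lval_nsmul, H.Lval_rootL, H.powRoot_pow]

end Fermat.Agent.F4
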