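import Fermat.Agent.F4.Dict.ExistAbs
import Fermat.Agent.F4.Dict.KappaPres
import Fermat.Agent.F4.Dict.DivFin
import Fermat.Agent.F4.Dict.JHenselPow
import Fermat.Agent.S14.SI.TameH1
import Fermat.Agent.S14.SI.ThetaCount

/-!
# F4 / Dict / ExistEnd : the tail of the existence theorem at finite level (EX-END; helper91)

`L : OpenS S`, `F = L.field ∋ ζ` a primitive `p`-th root of unity, `t ∈ T_U` with divisor `d`
(finitely supported).  If `a₀ ∈ Fˣ` is a local `p`-th power at the primes of `F` over `S` and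
`ord_v a₀ ≡ d v mod p` outside (`thetaOrd v a₀ + d v ≡ 0`: `thetaOrd = - ord`), then
`m t ≡ a + p s` modulo `E` with `p ∤ m`, `a = a₀ ^ m ∈ Fˣ`, `diagJ a ∈ p J^U`, `s ∈ T_U`:
the conclusion of `KForm.ExistFinAt` (`OpenS.existFin_end`).

Inputs: `capit_div` (helper32), `capit_isDivS_toQS`, `diagJ_mem_smul_of_isLocalPow` (helper49).
-/

set_option autoImplicit false
set_option synthInstance.maxHeartbeats 400000

open CategoryTheory groupCohomology ExtCitation
open NumberField IsDedekindDomain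

namespace Fermat.Agent.F4

open Fermat.Agent.F4Cf

namespace OpenS

variable {p : ℕ} [Fact p.Prime] {S : Finset Nat.Primes} (L : OpenS S)

/-- The divisor outside `S` of `a ∈ Fˣ` is `- thetaOrd · a`. -/
theorem isDivS_toQS_thetaOrd (a : (L.field)ˣ) :
    L.IsDivS (L.toQS a) (fun v => -(S14SI.thetaOrd v a)) := by
  have h := L.capit_isDivS_toQS a
  have e : (fun v : HeightOneSpectrum (𝓞 L.field) =>
      -(WithZero.log (v.valuation L.field (a : L.field)))) = fun v => -(S14SI.thetaOrd v a) := by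
    funext v
    rw [S14SI.thetaOrd_valuation, WithZero.log_exp]
  rwa [e] at h

/-- `thetaOrd · a` has finite support. -/
theorem finite_support_thetaOrd (a : (L.field)ˣ) :
    (Function.support fun v : HeightOneSpectrum (𝓞 L.field) => S14SI.thetaOrd v a).Finite := by
  refine (S14SI.finite_valuation_ne_one (M := L.field) a.ne_zero).subset fun v hv => ?_
  rw [Function.mem_support] at hv
  show v.valuation L.field (a : L.field) ≠ 1
  rw [S14SI.thetaOrd_valuation]
  intro h1
  apply hv
  have := congrArg WithZero.log h1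
  rwa [WithZero.log_exp, WithZero.log_one] at this

/-- **EX-END.**  The tail of the existence theorem at finite level. -/
theorem existFin_end (hpS : pPrime p ∈ S) (hS : S.Nonempty) {ζ : L.field} (hζ : ζ ^ p = 1)
    (hζ1 : ζ ≠ 1) {t : (kfS S hS).Q} {d : HeightOneSpectrum (𝓞 L.field) → ℤ}
    (hd : L.IsDivS t d)
    (hfin : (Function.support d).Finite) (a0 : (L.field)ˣ)
    (hloc : ∀ v ∈ L.T, S14SI.IsLocalPow L.field v p ζ (a0 : L.field))
    (hord : ∀ v ∉ L.T, (p : ℤ) ∣ S14SI.thetaOrd v a0 + d v) :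
    ∃ m : ℕ, ¬ p ∣ m ∧ ∃ a ∈ (kfS S hS).QU L.U, ∃ s ∈ (kfS S hS).TU L.U,
      (∃ z ∈ (kfS S hS).JU L.U, (kfS S hS).d a = p • z) ∧
        m • t - a - p • s ∈ (kfS S hS).E := by
  classical
  have hp : p.Prime := Fact.out
  have hp0 : (p : ℤ) ≠ 0 := by exact_mod_cast hp.ne_zero
  -- the quotient divisor
  set e : HeightOneSpectrum (𝓞 L.field) → ℤ := fun v =>
    if v ∈ L.T then 0 else (S14SI.thetaOrd v a0 + d v) / (p : ℤ) with he
  have hpe : ∀ v ∉ L.T, (p : ℤ) * e v = S14SI.thetaOrd v a0 + d v := by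
    intro v hv
    simp only [he, if_neg hv]
    exact Int.mul_ediv_cancel' (hord v hv)
  have hefin : (Function.support e).Finite := by
    refine ((L.finite_support_thetaOrd a0).union hfin).subset fun v hv => ?_
    rw [Function.mem_support] at hv
    by_contra hcon
    rw [Set.mem_union, Function.mem_support, Function.mem_support] at hcon
    push Not at hcon
    apply hv
    simp only [he]
    split_ifs
    · rfl
    · rw [hcon.1, hcon.2, add_zero, Int.zero_ediv]
  obtain ⟨m, hm, hcap⟩ := L.capit_div (p := p) hpS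
  obtain ⟨s, hs, hsd⟩ := hcap e hefin
  obtain ⟨Y, hY, hYd⟩ := L.diagJ_mem_smul_of_isLocalPow hp hζ hζ1 a0 hloc
  refine ⟨m, hm, m • L.toQS a0,
    ((kfS S hS).QU L.U).nsmul_mem (fun g hg => L.toQS_fixed a0 g hg) m, s, hs,
    ⟨m • Y, ((kfS S hS).JU L.U).nsmul_mem hY m, ?_⟩, ?_⟩
  · have h1 : (kfS S hS).d (m • L.toQS a0) = m • (kfS S hS).d (L.toQS a0) :=
      (kfS S hS).d_nsmul m _
    have h2 : (kfS S hS).d (L.toQS a0) = p • (Y : (kfS S hS).J) := hYd
    rw [h1, h2]
    exact smul_comm m p (Y : (kfS S hS).J)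
  · have hdiv := ((hd.nsmul m).sub ((L.isDivS_toQS_thetaOrd a0).nsmul m)).sub (hsd.nsmul p)
    have h0 := hdiv.congr (d' := 0) fun q A hA hq => by
      have hv : L.primeBelowAt q A hA ∉ L.T := L.primeBelowAt_not_mem_T q hq A hA
      have h3 := hpe _ hv
      simp only [Pi.sub_apply, Pi.zero_apply, nsmul_eq_mul,
        Pi.natCast_def, Pi.mul_apply] at h3 ⊢
      linear_combination (-(m : ℤ)) * h3
    exact h0.mem_sUnitsAdd

end OpenS

end Fermat.Agent.F4
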