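import Fermat.Agent.F4.Dict.Ord
import Fermat.Agent.Lib.Minkowski.InertiaLift

/-!
# F4 / Dict / DivTrans : `Gal(ℚ̄/F)` is transitive on the valuation subrings of `ℚ̄` over a prime of `F`
(helper74; core of the descent step of K2i)

* `div_eq_of_centre_eq` : a valuation subring of `ℚ̄` is determined by its centre on `ℤ̄`;
* `div_centre_smul` : `centre (g • A) = g • centre A`;
* `div_exists_smul_eq` : if `A`, `A'` have the same nonunits among the integers of the number field
  `F`, then `A' = g • A` with `g ∈ Gal(ℚ̄/F)`.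
-/

set_option autoImplicit false
set_option linter.unusedSectionVars false
set_option linter.style.haveILetI false

open CategoryTheory groupCohomology ExtCitation
open scoped Pointwise
open NumberField IsDedekindDomain
open Fermat.Agent.FrobExists Fermat.Agent.Minkowski

namespace Fermat.Agent.F4

attribute [local instance] isAlgebraic_Qb isAlgClosure_Qb isInvariant_Zb

/-- A valuation subring of `ℚ̄` is determined by its centre on the algebraic integers. -/
theorem div_le_of_centre_eq {A A' : ValuationSubring (AlgebraicClosure ℚ)}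
    (h : centre A = centre A') : A ≤ A' := by
  intro x hx
  obtain ⟨s, hs, hsu, hsx⟩ := exists_integral_mul A x hx
  have hs' : s ∉ A'.nonunits := by
    intro hcon
    apply hsu
    have h1 : (⟨s, hs⟩ : Zb) ∈ centre A' := (mem_centre_iff A' _).mpr hcon
    rw [← h] at h1
    exact (mem_centre_iff A _).mp h1
  rw [ValuationSubring.mem_nonunits_iff_or, not_or, not_not] at hs'
  have hsx' : s * x ∈ A' := mem_valuationSubring_of_isIntegral A' hsx
  have e : x = s⁻¹ * (s * x) := by
    rw [← mul_assoc, inv_mul_cancel₀ hs'.1, one_mul]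
  rw [e]
  exact A'.mul_mem _ _ hs'.2 hsx'

theorem div_eq_of_centre_eq {A A' : ValuationSubring (AlgebraicClosure ℚ)}
    (h : centre A = centre A') : A = A' :=
  le_antisymm (div_le_of_centre_eq h) (div_le_of_centre_eq h.symm)

/-- The centre of a conjugate. -/
theorem div_centre_smul (g : GQ) (A : ValuationSubring (AlgebraicClosure ℚ)) :
    centre (g • A) = g • centre A := by
  ext b
  rw [Ideal.mem_pointwise_smul_iff_inv_smul_mem, mem_centre_iff, mem_centre_iff]
  constructor
  · intro h
    have := Fermat.Agent.KFin.kf_smul_mem_nonunits (g • A) g⁻¹ h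
    rwa [inv_smul_smul] at this
  · intro h
    have := Fermat.Agent.KFin.kf_smul_mem_nonunits A g h
    have e : g ((g⁻¹ • b : Zb) : AlgebraicClosure ℚ) = (b : AlgebraicClosure ℚ) := by
      show g (g⁻¹ (b : AlgebraicClosure ℚ)) = _
      exact g.apply_symm_apply _
    rwa [e] at this

/-- **Transitivity**: two valuation subrings of `ℚ̄` with the same centre on the integers of a
number field `F` are conjugate under `Gal(ℚ̄/F)`. -/
theorem div_exists_smul_eq (F : IntermediateField ℚ (AlgebraicClosure ℚ))
    [FiniteDimensional ℚ F] (A A' : ValuationSubring (AlgebraicClosure ℚ))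
    (h : ∀ x : AlgebraicClosure ℚ, x ∈ F → IsIntegral ℤ x →
      (x ∈ A.nonunits ↔ x ∈ A'.nonunits)) :
    ∃ g ∈ F.fixingSubgroup, g • A = A' := by
  let _ : TopologicalSpace Zb := ⊥
  have : DiscreteTopology Zb := ⟨rfl⟩
  have := continuousSMul_fixingSubgroup_Zb F
  have := compactSpace_fixingSubgroup F
  have := isInvariant_intL F
  have hunder : (centre A).under (intL F) = (centre A').under (intL F) := by
    ext a
    rw [Ideal.mem_comap, Ideal.mem_comap, mem_centre_iff, mem_centre_iff]
    exact h _ a.2 (a : Zb).2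
  obtain ⟨g, hg⟩ := Algebra.IsInvariant.exists_smul_of_under_eq_of_profinite
    (A := intL F) (G := F.fixingSubgroup) (centre A) (centre A') hunder
  refine ⟨g.1, g.2, ?_⟩
  apply div_eq_of_centre_eq
  rw [div_centre_smul]
  exact hg.symm

/-- **Transitivity**, in terms of `KFin.primeBelow`. -/
theorem div_exists_smul_eq_of_primeBelow (F : IntermediateField ℚ (AlgebraicClosure ℚ))
    [FiniteDimensional ℚ F] (A A' : ValuationSubring (AlgebraicClosure ℚ))
    (h : Fermat.Agent.KFin.primeBelow F A = Fermat.Agent.KFin.primeBelow F A') :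
    ∃ g ∈ F.fixingSubgroup, g • A = A' := by
  haveI : NumberField F := { to_charZero := inferInstance, to_finiteDimensional := inferInstance }
  refine div_exists_smul_eq F A A' fun x hxF hxint => ?_
  have hx' : IsIntegral ℤ (⟨x, hxF⟩ : F) := by
    refine (isIntegral_algebraMap_iff
      (FaithfulSMul.algebraMap_injective F (AlgebraicClosure ℚ))).mp ?_
    exact hxint
  have h1 := Fermat.Agent.KFin.mem_primeBelow_iff F A ⟨⟨x, hxF⟩, hx'⟩
  have h2 := Fermat.Agent.KFin.mem_primeBelow_iff F A' ⟨⟨x, hxF⟩, hx'⟩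
  rw [h] at h1
  exact h1.symm.trans h2

/-- **Descent of orders**: for `t ∈ ℚ̄ˣ` with `g t / t` a unit at `A'` for all `g ∈ Gal(ℚ̄/F)`, the
order of `t` at `A` depends only on the prime of `F` below `A`. -/
theorem div_hasOrdAt_of_primeBelow_eq (F : IntermediateField ℚ (AlgebraicClosure ℚ))
    [FiniteDimensional ℚ F] (A A' : ValuationSubring (AlgebraicClosure ℚ))
    (h : Fermat.Agent.KFin.primeBelow F A = Fermat.Agent.KFin.primeBelow F A') (q : ℕ)
    (t : AlgebraicClosure ℚ) (ht0 : t ≠ 0)
    (ht : ∀ g ∈ F.fixingSubgroup, IsUnitAt A' (g t * t⁻¹)) (n : ℤ)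
    (hn : HasOrdAt A q t n) : HasOrdAt A' q t n := by
  obtain ⟨g, hg, rfl⟩ := div_exists_smul_eq_of_primeBelow F A A' h
  have h1 := HasOrdAt.map g hn
  have h2 := (ht g hg).inv
  unfold HasOrdAt at h1 ⊢
  have h3 := IsUnitAt.mul h1 h2
  have hg0 : g t ≠ 0 := (map_ne_zero g).mpr ht0
  have e : g t * ((q : ℕ) : AlgebraicClosure ℚ) ^ (-n) * (g t * t⁻¹)⁻¹ =
      t * ((q : ℕ) : AlgebraicClosure ℚ) ^ (-n) := by
    rw [mul_inv, inv_inv]
    field_simp
  rwa [e] at h3

end Fermat.Agent.F4
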