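import Fermat.Agent.F4.Dict.CapitLevel
import Fermat.Agent.F4.Dict.Div
import Fermat.Agent.F4.Cf.Lines

/-!
# F4 / Dict / DivNorm : the divisor of a norm, `a_{N t} = N_{M/F}(a_t)` (seat K2i, relNorm
compatibility; helper74)

`ℓ : LayerS p S` a cyclic layer `F = ℓ.bot.field ⊂ M = ℓ.top.field` of degree `p` inside `ℚ_S`,
`N = cnorm (QSx S) p ℓ.σ` the norm of `(ℚ_S)ˣ`.

* `LayerS.sum_multiplicity_eq_relNorm` : for `A` over `q ∉ S`, the order of `N_{M/F} 𝔄` at the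
  prime of `F` below `A` is the sum of the orders of `𝔄` at the primes of `M` below `σ⁻ⁱ A`, `i < p`
  (no decomposition groups: a power of `𝔄` is principal, and orders are normalised by `ord q = 1`
  in `F` and in `M`);
* `LayerS.hasOrdAt_cnorm` : the order of `N t` at `A`, for `t` with a divisor over `M`;
* `LayerS.isDivS_bot_cnorm` : if the divisor of `t` over `M` is `m • 𝔄`, the divisor of `N t` over
  `F` is `m • N_{M/F} 𝔄`;
* `LayerS.cnorm_mem_bot_TU` : `N (T_V) ⊆ T_U`.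
-/

set_option autoImplicit false
set_option synthInstance.maxHeartbeats 400000
set_option linter.unusedSectionVars false
set_option linter.style.haveILetI false
set_option linter.unusedVariables false

open CategoryTheory groupCohomology ExtCitation
open scoped Pointwise nonZeroDivisors
open NumberField IsDedekindDomain

namespace Fermat.Agent.F4

open Fermat.Agent.F4Cf

/-! ### Generalities on orders -/

lemma dn_hasOrdAt_one (A : ValuationSubring (AlgebraicClosure ℚ)) (q : ℕ) :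
    HasOrdAt A q 1 0 := by
  unfold HasOrdAt
  simp only [neg_zero, zpow_zero, mul_one]
  exact IsUnitAt.one A

/-- The order of a finite product. -/
lemma dn_hasOrdAt_prod {ι : Type*} (s : Finset ι) (A : ValuationSubring (AlgebraicClosure ℚ))
    {q : ℕ} (hq : q.Prime) (x : ι → AlgebraicClosure ℚ) (n : ι → ℤ)
    (h : ∀ i ∈ s, HasOrdAt A q (x i) (n i)) :
    HasOrdAt A q (∏ i ∈ s, x i) (∑ i ∈ s, n i) := by
  classical
  induction s using Finset.induction_on with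
  | empty => simpa using dn_hasOrdAt_one A q
  | insert a s ha ih =>
    rw [Finset.prod_insert ha, Finset.sum_insert ha]
    exact HasOrdAt.mul hq (h a (Finset.mem_insert_self a s))
      (ih fun i hi => h i (Finset.mem_insert_of_mem hi))

/-- The order of `σ x` at `A` is the order of `x` at `σ⁻¹ • A`. -/
lemma dn_hasOrdAt_map {A : ValuationSubring (AlgebraicClosure ℚ)} {q : ℕ}
    {x : AlgebraicClosure ℚ} {n : ℤ} (σ : GQ) (h : HasOrdAt (σ⁻¹ • A) q x n) :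
    HasOrdAt A q (σ x) n := by
  have := HasOrdAt.map σ h
  rwa [smul_inv_smul] at this

variable {S : Finset Nat.Primes}

/-- The value of a cyclic norm in `(ℚ_S)ˣ`. -/
lemma dn_val_cnorm (n : ℕ) (σ : GQ) (t : QSx S) :
    ((smUnits.val (cnorm (QSx S) n σ t) : (AlgebraicClosure ℚ)ˣ) : AlgebraicClosure ℚ) =
      ∏ i ∈ Finset.range n, (σ ^ i) ((smUnits.val t : (AlgebraicClosure ℚ)ˣ) :
        AlgebraicClosure ℚ) := by
  unfold cnorm
  induction n with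
  | zero => simp
  | succ k ih =>
    rw [Finset.sum_range_succ, Finset.prod_range_succ, smUnits.val_add, Units.val_mul, ih,
      smUnits.val_ρ]
    rfl

lemma dn_quotMk_eq_iff (x y : QSx S) :
    quotMk (QSx S) (sUnitsAdd S) (sUnitsAdd_stable S) x =
      quotMk (QSx S) (sUnitsAdd S) (sUnitsAdd_stable S) y ↔ x - y ∈ sUnitsAdd S := by
  exact QuotientAddGroup.eq_iff_sub_mem

namespace LayerS

variable {p : ℕ} [Fact p.Prime] (ℓ : LayerS p S)

/-- **Norms of ideals and orders**: the order of `N_{M/F} 𝔄` at the prime of `F` below `A` is the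
sum of the orders of `𝔄` at the primes of `M` below the conjugates `σ⁻ⁱ A`, `i < p`. -/
theorem sum_multiplicity_eq_relNorm (q : Nat.Primes) (hq : q ∉ S)
    (A : ValuationSubring (AlgebraicClosure ℚ)) (hA : A.LiesOverPrime (q : ℕ))
    (𝔄 : Ideal (𝓞 ℓ.top.field)) (h𝔄 : 𝔄 ≠ ⊥) :
    ∑ i ∈ Finset.range p,
        multiplicity (Fermat.Agent.KFin.primeBelow ℓ.top.field ((ℓ.σ ^ i)⁻¹ • A)) 𝔄 =
      multiplicity (Fermat.Agent.KFin.primeBelow ℓ.bot.field A)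
        (Ideal.relNorm (𝓞 ℓ.bot.field) 𝔄) := by
  classical
  obtain ⟨x, hx0, hx⟩ := capit_exists_generator ℓ.top.field 𝔄 h𝔄
  have hh0 : Fintype.card (ClassGroup (𝓞 ℓ.top.field)) ≠ 0 := Fintype.card_ne_zero
  have hy0 : algebraMap (𝓞 ℓ.top.field) ℓ.top.field x ≠ 0 := by
    intro h
    exact hx0 ((map_eq_zero_iff _ (IsFractionRing.injective _ _)).1 h)
  -- orders of `y` at the conjugates of `A`
  have h1 : ∀ i : ℕ, HasOrdAt A q
      ((ℓ.σ ^ i) ((algebraMap (𝓞 ℓ.top.field) ℓ.top.field x : ℓ.top.field) : AlgebraicClosure ℚ))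
      ((Fintype.card (ClassGroup (𝓞 ℓ.top.field)) *
        multiplicity (Fermat.Agent.KFin.primeBelow ℓ.top.field ((ℓ.σ ^ i)⁻¹ • A)) 𝔄 : ℕ) : ℤ) := by
    intro i
    apply dn_hasOrdAt_map
    have hA' : ((ℓ.σ ^ i)⁻¹ • A).LiesOverPrime (q : ℕ) := liesOverPrime_smul A _ q hA
    have h := ℓ.top.capit_isDivS_toQS (Units.mk0 _ hy0) q hq _ hA'
      (ℓ.top.primeBelowAt q _ hA') rfl
    rw [OpenS.val_toQS] at h
    have e := capit_valuation_generator ℓ.top.field (ℓ.top.primeBelowAt q _ hA') 𝔄 h𝔄 _ x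
      hx0 hx
    rw [OpenS.primeBelowAt_asIdeal] at e
    rw [← e]
    exact h
  -- the order of the norm
  have h2 : HasOrdAt A q
      ((Algebra.norm ℓ.bot.field (algebraMap (𝓞 ℓ.top.field) ℓ.top.field x) : ℓ.bot.field) :
        AlgebraicClosure ℚ)
      (∑ i ∈ Finset.range p, ((Fintype.card (ClassGroup (𝓞 ℓ.top.field)) *
        multiplicity (Fermat.Agent.KFin.primeBelow ℓ.top.field ((ℓ.σ ^ i)⁻¹ • A)) 𝔄 : ℕ) : ℤ)) := by
    rw [ℓ.coe_norm]
    exact dn_hasOrdAt_prod _ A q.2 _ _ (fun i _ => h1 i)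
  -- the relative norm of `𝔄 ^ h`
  have h3 : (Ideal.relNorm (𝓞 ℓ.bot.field) 𝔄) ^ Fintype.card (ClassGroup (𝓞 ℓ.top.field)) =
      Ideal.span {Algebra.intNorm (𝓞 ℓ.bot.field) (𝓞 ℓ.top.field) x} := by
    rw [← map_pow, hx, Ideal.relNorm_singleton]
  have hN0 : Algebra.intNorm (𝓞 ℓ.bot.field) (𝓞 ℓ.top.field) x ≠ 0 := by
    rwa [Ne, Algebra.intNorm_eq_zero]
  have hrel0 : Ideal.relNorm (𝓞 ℓ.bot.field) 𝔄 ≠ ⊥ := by
    rwa [Ne, Ideal.relNorm_eq_bot_iff]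
  have h4 := capit_valuation_generator ℓ.bot.field (ℓ.bot.primeBelowAt q A hA)
    (Ideal.relNorm (𝓞 ℓ.bot.field) 𝔄) hrel0 _ _ hN0 h3
  rw [OpenS.primeBelowAt_asIdeal] at h4
  have h5 : algebraMap (𝓞 ℓ.bot.field) ℓ.bot.field
      (Algebra.intNorm (𝓞 ℓ.bot.field) (𝓞 ℓ.top.field) x) =
      Algebra.norm ℓ.bot.field (algebraMap (𝓞 ℓ.top.field) ℓ.top.field x) :=
    Algebra.algebraMap_intNorm (A := 𝓞 ℓ.bot.field) (K := ℓ.bot.field) (L := ℓ.top.field)
      (B := 𝓞 ℓ.top.field) x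
  have hn0 : Algebra.norm ℓ.bot.field (algebraMap (𝓞 ℓ.top.field) ℓ.top.field x) ≠ 0 := by
    rw [← h5]
    intro h
    exact hN0 ((map_eq_zero_iff _ (IsFractionRing.injective _ _)).1 h)
  have h6 := ℓ.bot.capit_isDivS_toQS (Units.mk0 _ hn0) q hq A hA
    (ℓ.bot.primeBelowAt q A hA) rfl
  rw [OpenS.val_toQS] at h6
  simp only [Units.val_mk0] at h6
  rw [← h5, h4] at h6
  have hne : ((Algebra.norm ℓ.bot.field (algebraMap (𝓞 ℓ.top.field) ℓ.top.field x) :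
      ℓ.bot.field) : AlgebraicClosure ℚ) ≠ 0 := fun h => hn0 (Subtype.ext h)
  rw [h5] at h6
  have h7 := hasOrdAt_unique q.2 hA hne h2 h6
  have h8 : Fintype.card (ClassGroup (𝓞 ℓ.top.field)) *
      (∑ i ∈ Finset.range p,
        multiplicity (Fermat.Agent.KFin.primeBelow ℓ.top.field ((ℓ.σ ^ i)⁻¹ • A)) 𝔄) =
      Fintype.card (ClassGroup (𝓞 ℓ.top.field)) *
      (multiplicity (Fermat.Agent.KFin.primeBelow ℓ.bot.field A)
        (Ideal.relNorm (𝓞 ℓ.bot.field) 𝔄)) := by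
    have h9 : ((Fintype.card (ClassGroup (𝓞 ℓ.top.field)) *
        (∑ i ∈ Finset.range p,
          multiplicity (Fermat.Agent.KFin.primeBelow ℓ.top.field ((ℓ.σ ^ i)⁻¹ • A)) 𝔄) : ℕ) : ℤ) =
        ((Fintype.card (ClassGroup (𝓞 ℓ.top.field)) *
        (multiplicity (Fermat.Agent.KFin.primeBelow ℓ.bot.field A)
          (Ideal.relNorm (𝓞 ℓ.bot.field) 𝔄)) : ℕ) : ℤ) := by
      rw [← h7]
      push_cast
      rw [Finset.mul_sum]
    exact_mod_cast h9
  exact Nat.eq_of_mul_eq_mul_left (Nat.pos_of_ne_zero hh0) h8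

omit [Fact p.Prime] in
/-- The order of `N t` at `A`, for `t` with a divisor `d` over `M`: the sum of the values of `d`
at the primes of `M` below `σ⁻ⁱ A`. -/
theorem hasOrdAt_cnorm {t : QSx S} {d : HeightOneSpectrum (𝓞 ℓ.top.field) → ℤ}
    (h : ℓ.top.IsDivS t d) (q : Nat.Primes) (hq : q ∉ S)
    (A : ValuationSubring (AlgebraicClosure ℚ)) (hA : A.LiesOverPrime (q : ℕ)) :
    HasOrdAt A q
      ((smUnits.val (cnorm (QSx S) p ℓ.σ t) : (AlgebraicClosure ℚ)ˣ) : AlgebraicClosure ℚ)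
      (∑ i ∈ Finset.range p,
        d (ℓ.top.primeBelowAt q ((ℓ.σ ^ i)⁻¹ • A) (liesOverPrime_smul A _ q hA))) := by
  rw [dn_val_cnorm]
  refine dn_hasOrdAt_prod _ A q.2 _ _ fun i _ => ?_
  exact dn_hasOrdAt_map _ (h q hq _ (liesOverPrime_smul A _ q hA) _ rfl)

/-- **`a_{N t} = N_{M/F}(a_t)`**: if the divisor of `t` over `M` is `m • 𝔄`, then the divisor of
`N t` over `F` is `m • N_{M/F} 𝔄`. -/
theorem isDivS_bot_cnorm (𝔄 : Ideal (𝓞 ℓ.top.field)) (h𝔄 : 𝔄 ≠ ⊥) (m : ℕ) {t : QSx S}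
    (h : ℓ.top.IsDivS t (fun w => ((m * multiplicity w.asIdeal 𝔄 : ℕ) : ℤ))) :
    ℓ.bot.IsDivS (cnorm (QSx S) p ℓ.σ t)
      (fun v => ((m * multiplicity v.asIdeal (Ideal.relNorm (𝓞 ℓ.bot.field) 𝔄) : ℕ) : ℤ)) := by
  intro q hq A hA v hv
  have h1 := ℓ.hasOrdAt_cnorm h q hq A hA
  have e : (∑ i ∈ Finset.range p, ((m * multiplicity
      (ℓ.top.primeBelowAt q ((ℓ.σ ^ i)⁻¹ • A) (liesOverPrime_smul A _ q hA)).asIdeal 𝔄 : ℕ) : ℤ)) =
      ((m * multiplicity v.asIdeal (Ideal.relNorm (𝓞 ℓ.bot.field) 𝔄) : ℕ) : ℤ) := by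
    rw [hv, ← ℓ.sum_multiplicity_eq_relNorm q hq A hA 𝔄 h𝔄]
    push_cast
    rw [Finset.mul_sum]
    rfl
  show HasOrdAt A q _ ((m * multiplicity v.asIdeal (Ideal.relNorm (𝓞 ℓ.bot.field) 𝔄) : ℕ) : ℤ)
  rw [← e]
  exact h1

/-- `N (T_V) ⊆ T_U`. -/
theorem cnorm_mem_bot_TU {t : QSx S} (ht : t ∈ ℓ.top.TU) :
    cnorm (QSx S) p ℓ.σ t ∈ ℓ.bot.TU := by
  have hfix : Fix (quotRep (QSx S) (sUnitsAdd S) (sUnitsAdd_stable S)) ℓ.top.U
      (quotMk (QSx S) (sUnitsAdd S) (sUnitsAdd_stable S) t) := by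
    intro g hg
    rw [← quotMk_comm, dn_quotMk_eq_iff]
    exact ht g hg
  have h1 := acf3_fix_cnorm (C := quotRep (QSx S) (sUnitsAdd S) (sUnitsAdd_stable S)) ℓ.cyc hfix
  have e : cnorm (quotRep (QSx S) (sUnitsAdd S) (sUnitsAdd_stable S)) p ℓ.σ
      (quotMk (QSx S) (sUnitsAdd S) (sUnitsAdd_stable S) t) =
      quotMk (QSx S) (sUnitsAdd S) (sUnitsAdd_stable S) (cnorm (QSx S) p ℓ.σ t) := by
    unfold cnorm
    rw [map_sum]
    exact Finset.sum_congr rfl fun i _ => (quotMk_comm _ _ _ _ _).symm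
  rw [e] at h1
  intro g hg
  have h2 := h1 g hg
  rw [← quotMk_comm, dn_quotMk_eq_iff] at h2
  exact h2

end LayerS

end Fermat.Agent.F4
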