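import Fermat.Agent.F4.Dict.Div
import Fermat.Agent.F4.Dict.PlaceSurj
import Fermat.Agent.S14.SI.TameH1

/-!
# F4 / Dict / DivTopBot : divisors over `F` and over `M` of the same element (EX-2; helper91)

`ℓ : LayerS p S`, `F = ℓ.bot.field ⊂ M = ℓ.top.field`.

* `LayerS.primeBelow_bot` : the prime of `F` below `A` is the prime of `F` under the prime of `M`
  below `A`;
* `LayerS.not_mem_top_T` : a prime of `M` over a prime of `F` outside `T_F` is outside `T_M`;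
* `LayerS.isDivS_top_eq_bot` : **EX-2**, if `d` is the divisor of `t` over `F` and `D` its divisor
  over `M`, then `D w = d v` for `w` over `v ∉ T_F`;
* `LayerS.isDivS_top_of_bot` : the divisor over `M` of an element with divisor `d` over `F` is
  `w ↦ d (w ∩ F)`;
* `LayerS.under_primeComap` : `u⁻¹ (w)` and `w` lie over the same prime of `F` (`u ∈ U`).
-/

set_option autoImplicit false
set_option synthInstance.maxHeartbeats 400000

open CategoryTheory groupCohomology ExtCitation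
open NumberField IsDedekindDomain

namespace Fermat.Agent.F4

namespace LayerS

variable {p : ℕ} {S : Finset Nat.Primes} (ℓ : LayerS p S)

/-- The coercion to `ℚ̄` of the image in `𝓞 M` of an integer of `F`. -/
lemma coe_algebraMap_int (x : 𝓞 ℓ.bot.field) :
    (((algebraMap (𝓞 ℓ.bot.field) (𝓞 ℓ.top.field) x : 𝓞 ℓ.top.field) : ℓ.top.field) :
      AlgebraicClosure ℚ) = (((x : 𝓞 ℓ.bot.field) : ℓ.bot.field) : AlgebraicClosure ℚ) := rfl

/-- The prime of `F` below `A` is the prime of `F` under the prime of `M` below `A`. -/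
theorem primeBelow_bot (A : ValuationSubring (AlgebraicClosure ℚ)) :
    Fermat.Agent.KFin.primeBelow ℓ.bot.field A =
      (Fermat.Agent.KFin.primeBelow ℓ.top.field A).under (𝓞 ℓ.bot.field) := by
  ext x
  rw [Ideal.under, Ideal.mem_comap, Fermat.Agent.KFin.mem_primeBelow_iff,
    Fermat.Agent.KFin.mem_primeBelow_iff, coe_algebraMap_int]

/-- A rational prime in `v = w ∩ F` lies in `w`. -/
lemma natCast_mem_of_under {v : HeightOneSpectrum (𝓞 ℓ.bot.field)}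
    {w : HeightOneSpectrum (𝓞 ℓ.top.field)}
    (hwv : w.asIdeal.under (𝓞 ℓ.bot.field) = v.asIdeal) {q : ℕ}
    (hq : (q : 𝓞 ℓ.bot.field) ∈ v.asIdeal) : (q : 𝓞 ℓ.top.field) ∈ w.asIdeal := by
  rw [← hwv, Ideal.under, Ideal.mem_comap, map_natCast] at hq
  exact hq

/-- A rational prime in `w` lies in `v = w ∩ F`. -/
lemma natCast_mem_under {v : HeightOneSpectrum (𝓞 ℓ.bot.field)}
    {w : HeightOneSpectrum (𝓞 ℓ.top.field)}
    (hwv : w.asIdeal.under (𝓞 ℓ.bot.field) = v.asIdeal) {q : ℕ}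
    (hq : (q : 𝓞 ℓ.top.field) ∈ w.asIdeal) : (q : 𝓞 ℓ.bot.field) ∈ v.asIdeal := by
  rw [← hwv, Ideal.under, Ideal.mem_comap, map_natCast]
  exact hq

/-- `w ∈ T_M` iff `w ∩ F ∈ T_F`. -/
theorem mem_top_T_iff {v : HeightOneSpectrum (𝓞 ℓ.bot.field)}
    {w : HeightOneSpectrum (𝓞 ℓ.top.field)}
    (hwv : w.asIdeal.under (𝓞 ℓ.bot.field) = v.asIdeal) : w ∈ ℓ.top.T ↔ v ∈ ℓ.bot.T := by
  rw [OpenS.mem_T, OpenS.mem_T]
  constructor
  · rintro ⟨q, hq, h⟩
    exact ⟨q, hq, ℓ.natCast_mem_under hwv h⟩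
  · rintro ⟨q, hq, h⟩
    exact ⟨q, hq, ℓ.natCast_mem_of_under hwv h⟩

/-- A prime of `M` over a prime of `F` outside `T_F` is outside `T_M`. -/
theorem not_mem_top_T {v : HeightOneSpectrum (𝓞 ℓ.bot.field)}
    {w : HeightOneSpectrum (𝓞 ℓ.top.field)}
    (hwv : w.asIdeal.under (𝓞 ℓ.bot.field) = v.asIdeal) (hv : v ∉ ℓ.bot.T) : w ∉ ℓ.top.T :=
  fun h => hv ((ℓ.mem_top_T_iff hwv).1 h)

/-- For `w` over `v ∉ T_F` there is a valuation subring `A` of `ℚ̄` over a prime `q ∉ S` lying over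
`w` (hence over `v`). -/
theorem exists_place_over {v : HeightOneSpectrum (𝓞 ℓ.bot.field)}
    {w : HeightOneSpectrum (𝓞 ℓ.top.field)}
    (hwv : w.asIdeal.under (𝓞 ℓ.bot.field) = v.asIdeal) (hv : v ∉ ℓ.bot.T) :
    ∃ (q : Nat.Primes) (A : ValuationSubring (AlgebraicClosure ℚ)), q ∉ S ∧
      A.LiesOverPrime (q : ℕ) ∧ w.asIdeal = Fermat.Agent.KFin.primeBelow ℓ.top.field A ∧
      v.asIdeal = Fermat.Agent.KFin.primeBelow ℓ.bot.field A := by
  obtain ⟨q, hqS, hqv⟩ := ℓ.bot.exists_natCast_mem_of_not_mem_T v hv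
  obtain ⟨A, hA, hw⟩ := ℓ.top.exists_primeBelowAt_of_mem w q (ℓ.natCast_mem_of_under hwv hqv)
  have hw' : w.asIdeal = Fermat.Agent.KFin.primeBelow ℓ.top.field A := by
    rw [hw]; rfl
  refine ⟨q, A, hqS, hA, hw', ?_⟩
  rw [ℓ.primeBelow_bot A, ← hw', hwv]

/-- **EX-2.**  If `d` is the divisor of `t` over `F` and `D` its divisor over `M`, then
`D w = d v` for every prime `w` of `M` over a prime `v ∉ T_F` of `F`. -/
theorem isDivS_top_eq_bot {t : QSx S} {d : HeightOneSpectrum (𝓞 ℓ.bot.field) → ℤ}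
    {D : HeightOneSpectrum (𝓞 ℓ.top.field) → ℤ} (h : ℓ.bot.IsDivS t d) (H : ℓ.top.IsDivS t D)
    (v : HeightOneSpectrum (𝓞 ℓ.bot.field)) (w : HeightOneSpectrum (𝓞 ℓ.top.field))
    (hv : v ∉ ℓ.bot.T) (hwv : w.asIdeal.under (𝓞 ℓ.bot.field) = v.asIdeal) : D w = d v := by
  obtain ⟨q, A, hqS, hA, hw, hv'⟩ := ℓ.exists_place_over hwv hv
  exact hasOrdAt_unique q.2 hA (Units.ne_zero _) (H q hqS A hA w hw) (h q hqS A hA v hv')

/-- The divisor over `M` of an element with divisor `d` over `F` is `w ↦ d (w ∩ F)`. -/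
theorem isDivS_top_of_bot {t : QSx S} {d : HeightOneSpectrum (𝓞 ℓ.bot.field) → ℤ}
    (h : ℓ.bot.IsDivS t d) :
    ℓ.top.IsDivS t (fun w => d (Fermat.Agent.S14SI.primeBelow (F := ℓ.bot.field) w)) := by
  intro q hq A hA w hw
  refine h q hq A hA _ ?_
  rw [ℓ.primeBelow_bot A, ← hw]
  rfl

/-- `u⁻¹ (w)` and `w` lie over the same prime of `F` (`u ∈ U`). -/
theorem under_primeComap (u : GQ) (hu : u ∈ ℓ.bot.U) (w : HeightOneSpectrum (𝓞 ℓ.top.field)) :
    (ℓ.top.primeComap u (ℓ.mem_normalizer u hu) w).asIdeal.under (𝓞 ℓ.bot.field) =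
      w.asIdeal.under (𝓞 ℓ.bot.field) := by
  ext x
  rw [Ideal.under, Ideal.mem_comap, Ideal.mem_comap, OpenS.mem_primeComap]
  have e : ℓ.top.conjHom u (ℓ.mem_normalizer u hu)
      (algebraMap (𝓞 ℓ.bot.field) (𝓞 ℓ.top.field) x) =
      algebraMap (𝓞 ℓ.bot.field) (𝓞 ℓ.top.field) x := by
    apply NumberField.RingOfIntegers.ext
    apply Subtype.ext
    rw [OpenS.coe_conjHom, coe_algebraMap_int]
    exact (ℓ.bot.mem_field_iff _).1 ((x : 𝓞 ℓ.bot.field) : ℓ.bot.field).2 u hu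
  rw [e]

/-- `primeBelow (u⁻¹ w) = primeBelow w` (`u ∈ U`). -/
theorem primeBelow_primeComap (u : GQ) (hu : u ∈ ℓ.bot.U)
    (w : HeightOneSpectrum (𝓞 ℓ.top.field)) :
    Fermat.Agent.S14SI.primeBelow (F := ℓ.bot.field)
        (ℓ.top.primeComap u (ℓ.mem_normalizer u hu) w) =
      Fermat.Agent.S14SI.primeBelow (F := ℓ.bot.field) w :=
  HeightOneSpectrum.ext (ℓ.under_primeComap u hu w)

end LayerS

end Fermat.Agent.F4
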