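import Fermat.Agent.F4.Dict.LocNorm
import Fermat.Agent.F4.Dict.DivTopBot
import Fermat.Agent.F4.Dict.DivNorm
import Fermat.Agent.F4.Dict.DivFinB
import Fermat.Agent.F4.Dict.ExistKummer
import Fermat.Agent.F4.Dict.Exist
import Fermat.Agent.F4.Kum.Main
import Fermat.Agent.F4.Kum.CoreFin

/-!
# F4 / Dict / ExistNorm : the symbol of a norm class is trivial (leaf EX-8 of `dict_exist`;
helper86, statement by helper95)

`ℓ : LayerS p S`, `F = ℓ.bot.field ⊂ M = ℓ.top.field = F(x^{1/p})`.  If the ideal `a_t` of `t`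
is, up to the principal ideal `(f)`, the norm of the ideal `a_{t'}` of `M`, then for every prime
`v` of `F` outside `S` the symbol `rkSym p x v` is killed by `ord_v(a_t) + ord_v(f)`:
either the symbol is trivial, or `v` is inert in `M` and the exponent is divisible by `p`.
-/

set_option autoImplicit false
set_option synthInstance.maxHeartbeats 400000
set_option linter.style.haveILetI false

open CategoryTheory groupCohomology ExtCitation
open NumberField IsDedekindDomain Polynomial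
open Fermat.Agent.F4Cf Fermat.Agent.S14SI Fermat.Agent.F4Kum
open scoped Pointwise

namespace Fermat.Agent.F4

variable {p : ℕ} [Fact p.Prime] {S : Finset Nat.Primes}

theorem LayerS.rkSym_zpow_eq_one (ℓ : LayerS p S) (hpS : pPrime p ∈ S) {ζ : ℓ.bot.field}
    (hζ : IsPrimitiveRoot ζ p) (x : (ℓ.bot.field)ˣ)
    (H : Irreducible (X ^ p - C (x : ℓ.bot.field) : (ℓ.bot.field)[X]))
    [IsSplittingField ℓ.bot.field ℓ.top.field (X ^ p - C (x : ℓ.bot.field))]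
    {α : ℓ.top.field} (hα : α ^ p = algebraMap ℓ.bot.field ℓ.top.field (x : ℓ.bot.field))
    (hx : ∀ v ∉ ℓ.bot.T, (p : ℤ) ∣ thetaOrd v x)
    {t t' : QSx S} {d : HeightOneSpectrum (𝓞 ℓ.bot.field) → ℤ} (hd : ℓ.bot.IsDivS t d)
    (ht' : t' ∈ ℓ.top.TU) (f : (ℓ.bot.field)ˣ)
    (hE : t - cnorm (QSx S) p ℓ.σ t' - ℓ.bot.toQS f ∈ sUnitsAdd S)
    (v : HeightOneSpectrum (𝓞 ℓ.bot.field)) (hv : v ∉ ℓ.bot.T) :
    rkSym p x v ^ (d v + thetaOrd v f) = 1 := by
  classical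
  have hp : p.Prime := Fact.out
  by_cases hs : rkSym p x v = 1
  · rw [hs, one_zpow]
  obtain ⟨d', hd'⟩ := ℓ.top.exists_isDivS t' ht'
  obtain ⟨q, hqS, hqv⟩ := ℓ.bot.exists_natCast_mem_of_not_mem_T v hv
  obtain ⟨A, hA, hvA⟩ := ℓ.bot.exists_primeBelowAt_of_mem v q hqv
  have hvA' : v.asIdeal = Fermat.Agent.KFin.primeBelow ℓ.bot.field A := by rw [hvA]; rfl
  -- the orders at `A`
  have o1 := hd q hqS A hA v hvA'
  have o2 := ℓ.hasOrdAt_cnorm hd' q hqS A hA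
  have o3 := ℓ.bot.capit_isDivS_toQS f q hqS A hA v hvA'
  have o4 : HasOrdAt A q ((smUnits.val (t - cnorm (QSx S) p ℓ.σ t' - ℓ.bot.toQS f) :
      (AlgebraicClosure ℚ)ˣ) : AlgebraicClosure ℚ) 0 := by
    rw [mem_sUnitsAdd_iff, isSUnit_iff_hasOrdAt_zero] at hE
    exact hE q hqS A hA
  have e1 : ((smUnits.val (t - cnorm (QSx S) p ℓ.σ t' - ℓ.bot.toQS f) :
      (AlgebraicClosure ℚ)ˣ) : AlgebraicClosure ℚ) =
      ((smUnits.val t : (AlgebraicClosure ℚ)ˣ) : AlgebraicClosure ℚ) *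
        (((smUnits.val (cnorm (QSx S) p ℓ.σ t') : (AlgebraicClosure ℚ)ˣ) :
          AlgebraicClosure ℚ))⁻¹ *
        (((smUnits.val (ℓ.bot.toQS f) : (AlgebraicClosure ℚ)ˣ) : AlgebraicClosure ℚ))⁻¹ := by
    rw [sub_eq_add_neg, sub_eq_add_neg, smUnits.val_add, smUnits.val_add, smUnits.val_neg,
      smUnits.val_neg, Units.val_mul, Units.val_mul, Units.val_inv_eq_inv_val,
      Units.val_inv_eq_inv_val]
  have o5 := HasOrdAt.mul q.2 (HasOrdAt.mul q.2 o1 (HasOrdAt.inv q.2 o2)) (HasOrdAt.inv q.2 o3)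
  rw [← e1] at o5
  have hsum := hasOrdAt_unique q.2 hA (Units.ne_zero _) o5 o4
  have hlog : WithZero.log (v.valuation ℓ.bot.field (f : ℓ.bot.field)) = thetaOrd v f := by
    rw [thetaOrd_valuation, WithZero.log_exp]
  beta_reduce at hsum
  rw [hlog] at hsum
  -- all conjugates of the prime of `M` below `A` coincide
  have hT : ContainsPrimesAbove ℓ.bot.field p ℓ.bot.T := by
    intro v' hv'
    rw [ℓ.bot.mem_T]
    exact ⟨pPrime p, hpS, hv'⟩
  have hprim : (primitiveRoots p ℓ.bot.field).Nonempty :=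
    ⟨ζ, (mem_primitiveRoots hp.pos).2 hζ⟩
  haveI : NeZero p := ⟨hp.ne_zero⟩
  have hwv : (ℓ.top.primeBelowAt q A hA).asIdeal.under (𝓞 ℓ.bot.field) = v.asIdeal := by
    rw [hvA', ℓ.primeBelow_bot A]
    rfl
  have hstab : ∀ (τ : ℓ.top.field ≃ₐ[ℓ.bot.field] ℓ.top.field) (y : 𝓞 ℓ.top.field),
      y ∈ (ℓ.top.primeBelowAt q A hA).asIdeal → τ • y ∈ (ℓ.top.primeBelowAt q A hA).asIdeal :=
    fun τ y hy => rkSym_stab hp hζ hprim H hα ℓ.finrank_eq hT hx v hv hs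
      (ℓ.top.primeBelowAt q A hA).asIdeal (ℓ.top.primeBelowAt q A hA).isPrime
      (ℓ.top.primeBelowAt q A hA).ne_bot hwv τ y hy
  have hcoe : ∀ (i : ℕ) (y : 𝓞 ℓ.top.field),
      (((((ℓ.gen ^ i) • y : 𝓞 ℓ.top.field)) : ℓ.top.field) : AlgebraicClosure ℚ) =
        (ℓ.σ ^ i) (((y : ℓ.top.field)) : AlgebraicClosure ℚ) := fun i y => ℓ.coe_gen_pow i y
  have hwi : ∀ i : ℕ, ℓ.top.primeBelowAt q ((ℓ.σ ^ i)⁻¹ • A) (liesOverPrime_smul A _ q hA) =
      ℓ.top.primeBelowAt q A hA := by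
    intro i
    apply HeightOneSpectrum.ext
    ext y
    rw [OpenS.primeBelowAt_asIdeal, OpenS.primeBelowAt_asIdeal,
      Fermat.Agent.KFin.mem_primeBelow_iff, Fermat.Agent.KFin.mem_primeBelow_iff]
    constructor
    · intro h
      have h1 := Fermat.Agent.KFin.kf_smul_mem_nonunits ((ℓ.σ ^ i)⁻¹ • A) (ℓ.σ ^ i) h
      rw [smul_inv_smul, ← hcoe i y, ← Fermat.Agent.KFin.mem_primeBelow_iff] at h1
      have h3 := hstab (ℓ.gen ^ i)⁻¹ _ h1
      rw [inv_smul_smul, OpenS.primeBelowAt_asIdeal, Fermat.Agent.KFin.mem_primeBelow_iff] at h3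
      exact h3
    · intro h
      have h2 := hstab (ℓ.gen ^ i) y
        (by rw [OpenS.primeBelowAt_asIdeal, Fermat.Agent.KFin.mem_primeBelow_iff]; exact h)
      rw [OpenS.primeBelowAt_asIdeal, Fermat.Agent.KFin.mem_primeBelow_iff, hcoe i y] at h2
      have h3 := Fermat.Agent.KFin.kf_smul_mem_nonunits A (ℓ.σ ^ i)⁻¹ h2
      have e : (ℓ.σ ^ i)⁻¹ ((ℓ.σ ^ i) (((y : ℓ.top.field)) : AlgebraicClosure ℚ)) =
          (((y : ℓ.top.field)) : AlgebraicClosure ℚ) := (ℓ.σ ^ i).symm_apply_apply _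
      rwa [e] at h3
  have hSum : ∑ i ∈ Finset.range p,
      d' (ℓ.top.primeBelowAt q ((ℓ.σ ^ i)⁻¹ • A) (liesOverPrime_smul A _ q hA)) =
      (p : ℤ) * d' (ℓ.top.primeBelowAt q A hA) := by
    rw [Finset.sum_congr rfl (fun i _ => by rw [hwi i]), Finset.sum_const, Finset.card_range,
      nsmul_eq_mul]
  rw [hSum] at hsum
  have hexp : d v + thetaOrd v f = (p : ℤ) * d' (ℓ.top.primeBelowAt q A hA) := by
    linarith
  rw [hexp, zpow_mul, zpow_natCast, rkSym_pow, one_zpow]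

end Fermat.Agent.F4
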