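import Fermat.Agent.F4.Dict.Level
import Fermat.Agent.F4.Dict.TwoNT

/-!
# F4 / Dict / ExistSplit : the Kummer package of a layer (seat EX-6 of `dict_exist`)
(helper71; statement of helper95's note v2)

`F = ℓ.bot.field ⊇ ℚ(μ_p)`, `M = ℓ.top.field`, `[M : F] = p`, `α ∈ M` with `α ^ p = x ∈ Fˣ`, `x ∉ F^p`.
Then `F` contains a primitive `p`-th root of unity, `X ^ p - x` is irreducible over `F` and `M` is its
splitting field.
-/

set_option autoImplicit false
set_option linter.style.haveILetI false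

open CategoryTheory groupCohomology ExtCitation
open NumberField IsDedekindDomain Polynomial

namespace Fermat.Agent.F4

variable {p : ℕ} [Fact p.Prime] {S : Finset Nat.Primes}

/-- A field of a level below `U0` contains a primitive `p`-th root of unity. -/
theorem OpenS.exists_primitiveRoot (L : OpenS S)
    (hU0 : L.U ≤ MonoidHom.ker (cycloChar p)) :
    ∃ ζ : L.field, IsPrimitiveRoot ζ p := by
  have hp : p.Prime := Fact.out
  haveI : NeZero p := ⟨hp.ne_zero⟩
  haveI : NeZero ((p : ℕ) : AlgebraicClosure ℚ) := ⟨Nat.cast_ne_zero.2 hp.ne_zero⟩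
  obtain ⟨ζ', hζ'⟩ := HasEnoughRootsOfUnity.exists_primitiveRoot (AlgebraicClosure ℚ) p
  have hμ := F4Cf.two_fix_mu (p := p) (U := L.U) hU0
  have hmem : ζ' ∈ L.field := (L.mem_field_iff ζ').2 fun g hg => hμ g hg ζ' hζ'.pow_eq_one
  refine ⟨⟨ζ', hmem⟩, ?_⟩
  exact IsPrimitiveRoot.of_map_of_injective (f := algebraMap L.field (AlgebraicClosure ℚ))
    hζ' (algebraMap L.field (AlgebraicClosure ℚ)).injective

/-- **EX-6.**  The Kummer package of the layer `M / F` generated by a `p`-th root of `x ∉ F^p`. -/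
theorem LayerS.kummer_package (ℓ : LayerS p S)
    (hU0 : ℓ.bot.U ≤ MonoidHom.ker (cycloChar p))
    (x : (ℓ.bot.field)ˣ) (α : ℓ.top.field)
    (hα : α ^ p = algebraMap ℓ.bot.field ℓ.top.field (x : ℓ.bot.field))
    (hxp : ∀ b : ℓ.bot.field, b ^ p ≠ (x : ℓ.bot.field)) :
    (∃ ζ : ℓ.bot.field, IsPrimitiveRoot ζ p) ∧
    Irreducible (X ^ p - C (x : ℓ.bot.field) : (ℓ.bot.field)[X]) ∧
    IsSplittingField ℓ.bot.field ℓ.top.field (X ^ p - C (x : ℓ.bot.field)) := by
  have hp : p.Prime := Fact.out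
  have hfr : Module.finrank ℓ.bot.field ℓ.top.field = p := ℓ.finrank_eq
  obtain ⟨ζ, hζ⟩ := ℓ.bot.exists_primitiveRoot hU0
  refine ⟨⟨ζ, hζ⟩, X_pow_sub_C_irreducible_of_prime hp hxp, ?_⟩
  -- `F(α) = M`
  have hsimple : IsSimpleOrder (IntermediateField ℓ.bot.field ℓ.top.field) :=
    IntermediateField.isSimpleOrder_of_finrank_prime ℓ.bot.field ℓ.top.field (by rw [hfr]; exact hp)
  have htop : IntermediateField.adjoin ℓ.bot.field {α} = ⊤ := by
    rcases hsimple.eq_bot_or_eq_top (IntermediateField.adjoin ℓ.bot.field {α}) with h | h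
    · exfalso
      have hmem : α ∈ (⊥ : IntermediateField ℓ.bot.field ℓ.top.field) := by
        rw [← h]
        exact IntermediateField.mem_adjoin_simple_self _ α
      obtain ⟨b, hb⟩ := IntermediateField.mem_bot.1 hmem
      apply hxp b
      apply (algebraMap ℓ.bot.field ℓ.top.field).injective
      rw [map_pow, hb, hα]
    · exact h
  have hK : (primitiveRoots (Module.finrank ℓ.bot.field ℓ.top.field) ℓ.bot.field).Nonempty := by
    rw [hfr]
    exact ⟨ζ, (mem_primitiveRoots hp.pos).2 hζ⟩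
  have hα' : α ^ (Module.finrank ℓ.bot.field ℓ.top.field)
      = algebraMap ℓ.bot.field ℓ.top.field (x : ℓ.bot.field) := by
    rw [hfr]
    exact hα
  have key := isSplittingField_X_pow_sub_C_of_root_adjoin_eq_top hK hα' htop
  rw [hfr] at key
  exact key

end Fermat.Agent.F4
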