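import Fermat.Agent.F4.Dict.LocNorm
import Fermat.Agent.F4.Dict.DivFinB
import Fermat.Agent.F4.Dict.ExistKummer
import Fermat.Agent.F4.Dict.ExistSplit
import Fermat.Agent.F4.Dict.ExistNorm
import Fermat.Agent.F4.Dict.ExistEnd
import Fermat.Agent.F4.Dict.Exist
import Fermat.Agent.F4.Kum.Main
import Fermat.Agent.F4.Kum.CoreFin

/-!
# F4 / Dict / ExistFin : the existence theorem at finite level (`EX-FIN`, helper95)

`(kfS S hS).ExistFinAt (levelsS S) p U` for `U ≤ U0 p = ker (cycloChar p)` open, `p ∈ S` odd: the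
hypothesis of `KForm.exist_of` / `dict_exist_of` (helper91, `F4/Dict/ExistAbs.lean`,
`Exist.lean`), and `dict_exist_pf`: the statement of the stub `dict_exist` of `F4/Cf/Dict.lean`,
unconditional.  (This file does not import `F4/Cf/Dict.lean`.)

Leaves: `exists_kummer_layer`, `LayerS.kummer_package` (helper71), `LayerS.rkSym_zpow_eq_one`
(helper86, with helper31's `dvd_of_inert`), `LayerS.exists_norm_oneMod` (helper90),
`OpenS.exists_isDivS_fin` (helper32/helper49), `OpenS.existFin_end` (helper91), `OpenS.jApprox`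
(helper86/helper90), `F4Kum.kumEx`, `F4Kum.kum_core` (helper95, on `F4Rec.artinRay` of
helper13/14).

`t ∈ T_U` with divisor `d` (finite support off `T`).  For every `x ∈ Fˣ` with `p ∣ ord_v x` off
`T`, a unit on `supp d`:

* if `x ∈ F^p`, all symbols `(x / v)_p` are trivial;
* otherwise `M = F(x^{1/p})` is the field of a cyclic layer `(U, V, σ)` (`exists_kummer_layer`,
  `LayerS.kummer_package`); the hypothesis at this layer gives `t = N t' + f - ε` with
  `diagJ f ∈ N (J^V)`; `f` is a local norm at `T` to every precision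
  (`LayerS.exists_norm_oneMod`), the norm condition holds prime by prime
  (`LayerS.rkSym_zpow_eq_one`), and `F4Kum.kum_core` (reciprocity at the Hensel level) gives
  `∏_{v ∈ R} (x / v)_p ^ d v = 1`.

Hence (`F4Kum.kumEx`) there is `a₀ ∈ Fˣ`, a local `p`-th power on `T`, with
`ord_v a₀ ≡ d v mod p` off `T`; the conclusion follows by capitulation (`OpenS.existFin_end`).
-/

set_option autoImplicit false
set_option linter.unusedSectionVars false

open CategoryTheory groupCohomology ExtCitation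
open NumberField IsDedekindDomain Polynomial

namespace Fermat.Agent.F4

open Fermat.Agent.F4Cf Fermat.Agent.S14SI Fermat.Agent.F4Kum

variable {p : ℕ} [Fact p.Prime] {S : Finset Nat.Primes}

/-- `L.T` contains the primes above `p` if `p ∈ S`. -/
theorem OpenS.containsPrimesAbove (L : OpenS S) (hpS : pPrime p ∈ S) :
    ContainsPrimesAbove L.field p L.T := by
  intro v hv
  rw [L.mem_T]
  exact ⟨pPrime p, hpS, hv⟩

/-- The Hensel level: a precision `k` with `exp (-k) ≤ v y ^ n` on a finite set of primes. -/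
theorem exists_hensel_level {F : Type*} [Field F] [NumberField F]
    (T : Finset (HeightOneSpectrum (𝓞 F))) {y : F} (hy : y ≠ 0) (n : ℕ) :
    ∃ k : ℕ, ∀ v ∈ T, WithZero.exp (-(k : ℤ)) ≤ v.valuation F y ^ n := by
  classical
  induction T using Finset.induction_on with
  | empty => exact ⟨0, fun v hv => absurd hv (Finset.notMem_empty v)⟩
  | insert w T hw ih =>
    obtain ⟨k, hk⟩ := ih
    have hne : w.valuation F y ^ n ≠ 0 := pow_ne_zero _ ((Valuation.ne_zero_iff _).2 hy)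
    obtain ⟨m, hm⟩ : ∃ m : ℤ, w.valuation F y ^ n = WithZero.exp m :=
      ⟨WithZero.log (w.valuation F y ^ n), (WithZero.exp_log hne).symm⟩
    refine ⟨max k (-m).toNat, fun v hv => ?_⟩
    rcases Finset.mem_insert.1 hv with rfl | hvT
    · rw [hm, WithZero.exp_le_exp]
      have := Int.self_le_toNat (-m)
      have h2 : ((-m).toNat : ℤ) ≤ ((max k (-m).toNat : ℕ) : ℤ) := by
        exact_mod_cast le_max_right k (-m).toNat
      omega
    · refine le_trans ?_ (hk v hvT)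
      rw [WithZero.exp_le_exp]
      have h2 : (k : ℤ) ≤ ((max k (-m).toNat : ℕ) : ℤ) := by
        exact_mod_cast le_max_left k (-m).toNat
      omega

/-- The symbols of a `p`-th power are trivial. -/
theorem powSymb_prod_of_pow {F : Type*} [Field F] [NumberField F] {ζ : F} (hp : p.Prime)
    (hζ : IsPrimitiveRoot ζ p) {T R : Finset (HeightOneSpectrum (𝓞 F))}
    (hT : ContainsPrimesAbove F p T) (hTR : Disjoint T R) (x : Fˣ) (b : F)
    (hb : b ^ p = (x : F)) (hxR : ∀ v ∈ R, thetaOrd v x = 0)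
    (c : HeightOneSpectrum (𝓞 F) → ℤ) :
    ∏ v ∈ R, powSymb p v (x : F) ^ c v = 1 := by
  refine Finset.prod_eq_one fun v hv => ?_
  have hvT : v ∉ T := fun h => (Finset.disjoint_left.1 hTR h) hv
  have hpv : (p : 𝓞 F) ∉ v.asIdeal := fun h => hvT (hT v h)
  have hx1 : v.valuation F (x : F) = 1 := by
    rw [thetaOrd_valuation, hxR v hv, WithZero.exp_zero]
  have hb1 : v.valuation F b = 1 := by
    have h1 : v.valuation F b ^ p = 1 := by rw [← map_pow, hb, hx1]
    rcases pow_eq_one_iff.1 h1 with h | h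
    · exact h
    · exact absurd h hp.ne_zero
  have e : powSymb p v (x : F) = 1 := by
    rw [← hb, powSymb_pow_nat v hp hζ hpv hb1, powSymb_pow]
  rw [e, one_zpow]

/-- The hypothesis of `KumEx` for one Kummer generator `x ∉ F^p`, in terms of its layer. -/
theorem LayerS.kum_hyp_layer (ℓ : LayerS p S) (hp2 : p ≠ 2) (hpS : pPrime p ∈ S)
    (hS : S.Nonempty) (hU0 : ℓ.bot.U ≤ MonoidHom.ker (cycloChar p)) {ζ : ℓ.bot.field} (hζ : IsPrimitiveRoot ζ p)
    {t : (kfS S hS).Q} {d : HeightOneSpectrum (𝓞 ℓ.bot.field) → ℤ} (hd : ℓ.bot.IsDivS t d)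
    (R : Finset (HeightOneSpectrum (𝓞 ℓ.bot.field))) (hTR : Disjoint ℓ.bot.T R)
    (hsupp : ∀ v, v ∉ ℓ.bot.T → v ∉ R → d v = 0)
    (hnorm : (kfS S hS).IsNormIdealAt p ℓ.bot.U ℓ.top.U ℓ.σ t)
    (x : (ℓ.bot.field)ˣ) (hx : ∀ v ∉ ℓ.bot.T, (p : ℤ) ∣ thetaOrd v x)
    (hxR : ∀ v ∈ R, thetaOrd v x = 0)
    (hxp : ∀ b : ℓ.bot.field, b ^ p ≠ (x : ℓ.bot.field))
    (α₀ : AlgebraicClosure ℚ) (hα₀ : α₀ ^ p = ((x : ℓ.bot.field) : AlgebraicClosure ℚ))
    (hfix : ∀ g ∈ ℓ.top.U, g α₀ = α₀) :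
    ∏ v ∈ R, powSymb p v (x : ℓ.bot.field) ^ d v = 1 := by
  have hp : p.Prime := Fact.out
  have hT := ℓ.bot.containsPrimesAbove hpS
  have hmem : α₀ ∈ ℓ.top.field := (ℓ.top.mem_field_iff α₀).2 hfix
  have hα : (⟨α₀, hmem⟩ : ℓ.top.field) ^ p =
      algebraMap ℓ.bot.field ℓ.top.field (x : ℓ.bot.field) := Subtype.ext hα₀
  obtain ⟨-, H, hsplit⟩ := ℓ.kummer_package hU0 x ⟨α₀, hmem⟩ hα hxp
  have hprim : (primitiveRoots p ℓ.bot.field).Nonempty :=
    ⟨ζ, (mem_primitiveRoots hp.pos).2 hζ⟩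
  -- the norm data
  obtain ⟨t', ht', f, hf, ⟨x', hx', hNx⟩, hE⟩ := hnorm
  obtain ⟨f₀, rfl⟩ := ℓ.bot.exists_toQS_of_fixed f hf
  obtain ⟨k, hk⟩ := exists_hensel_level ℓ.bot.T (y := ζ - 1)
    (sub_ne_zero.2 (hζ.ne_one hp.one_lt)) p
  obtain ⟨z, hz⟩ := ℓ.exists_norm_oneMod hx' f₀ hNx.symm k
  have : NeZero p := ⟨hp.ne_zero⟩
  exact kum_core (F := ℓ.bot.field) (M := ℓ.top.field) rec1W hp hp2 hζ hprim H hα hT hx f₀ z k
    hk hz d R hTR hsupp hxR
    fun v hv => ℓ.rkSym_zpow_eq_one hpS hζ x H hα hx hd ht' f₀ hE v hv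

/-- **The hypothesis of `KumEx`** for one Kummer generator `x`: if `t ∈ T_U` (divisor `d`,
supported on `R` off `T`) is a norm ideal up to a local norm from every cyclic layer of degree
`p`, then `∏_{v ∈ R} (x / v)_p ^ d v = 1`. -/
theorem OpenS.kum_hyp (hp2 : p ≠ 2) (hpS : pPrime p ∈ S) (hS : S.Nonempty) (L : OpenS S)
    (hU0 : L.U ≤ MonoidHom.ker (cycloChar p)) {ζ : L.field} (hζ : IsPrimitiveRoot ζ p)
    {t : (kfS S hS).Q} {d : HeightOneSpectrum (𝓞 L.field) → ℤ} (hd : L.IsDivS t d)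
    (R : Finset (HeightOneSpectrum (𝓞 L.field))) (hTR : Disjoint L.T R)
    (hsupp : ∀ v, v ∉ L.T → v ∉ R → d v = 0)
    (hall : ∀ (V : Subgroup GQ) (σ : GQ), (levelsS S).IsOpen V → IsCyc p L.U V σ →
      (kfS S hS).IsNormIdealAt p L.U V σ t)
    (x : (L.field)ˣ) (hx : ∀ v ∉ L.T, (p : ℤ) ∣ thetaOrd v x)
    (hxR : ∀ v ∈ R, thetaOrd v x = 0) :
    ∏ v ∈ R, powSymb p v (x : L.field) ^ d v = 1 := by
  have hp : p.Prime := Fact.out
  have hT := L.containsPrimesAbove hpS
  by_cases hxp : ∃ b : L.field, b ^ p = (x : L.field)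
  · obtain ⟨b, hb⟩ := hxp
    exact powSymb_prod_of_pow hp hζ hT hTR x b hb hxR d
  push Not at hxp
  obtain ⟨V, σ, α₀, hV, hc, hα₀, hfix⟩ := exists_kummer_layer hpS L hU0 x hx hxp
  exact LayerS.kum_hyp_layer ⟨L, ⟨V, hV⟩, σ, hc⟩ hp2 hpS hS hU0 hζ hd R hTR hsupp
    (hall V σ hV hc) x hx hxR hxp α₀ hα₀ hfix

/-- **EX-FIN**: the existence theorem for exponent `p` at the finite level `U ≤ U0 p`. -/
theorem existFinAt (hp2 : p ≠ 2) (hpS : pPrime p ∈ S) (hS : S.Nonempty) (U : Subgroup GQ)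
    (hU : (levelsS S).IsOpen U) (hU0 : U ≤ MonoidHom.ker (cycloChar p)) :
    (kfS S hS).ExistFinAt (levelsS S) p U := by
  classical
  intro t ht hall
  have hp : p.Prime := Fact.out
  let L : OpenS S := ⟨U, hU⟩
  obtain ⟨ζ, hζ⟩ := L.exists_primitiveRoot hU0
  have hT := L.containsPrimesAbove hpS
  obtain ⟨d, hd, hfin, hdT⟩ := L.exists_isDivS_fin t ht
  set R : Finset (HeightOneSpectrum (𝓞 L.field)) := hfin.toFinset with hR
  have hTR : Disjoint L.T R := by
    rw [Finset.disjoint_left]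
    intro v hvT hvR
    rw [hR, Set.Finite.mem_toFinset, Function.mem_support] at hvR
    exact hvR (hdT v hvT)
  have hsupp : ∀ v, v ∉ L.T → v ∉ R → d v = 0 := by
    intro v _ hvR
    by_contra h0
    exact hvR (by rw [hR, Set.Finite.mem_toFinset, Function.mem_support]; exact h0)
  obtain ⟨a, hloc, hRa, hoff⟩ := kumEx p L.field ζ L.T R (fun v => - d v) hp hp2 hζ hT hTR
    (fun x hx hxR => by
      have h1 := L.kum_hyp hp2 hpS hS hU0 hζ hd R hTR hsupp hall x hx hxR
      have e : ∏ v ∈ R, powSymb p v (x : L.field) ^ (- d v) =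
          (∏ v ∈ R, powSymb p v (x : L.field) ^ d v)⁻¹ := by
        rw [← Finset.prod_inv_distrib]
        exact Finset.prod_congr rfl fun v _ => zpow_neg _ _
      rw [e, h1, inv_one])
  refine L.existFin_end hpS hS hζ.pow_eq_one (hζ.ne_one hp.one_lt) hd hfin a hloc fun v hv => ?_
  by_cases hvR : v ∈ R
  · have := hRa v hvR
    rwa [sub_neg_eq_add] at this
  · rw [hsupp v hv hvR, add_zero]
    exact hoff v hv hvR

/-- **`dict_exist`** (the existence axiom of `PCF` for `C = J / E`): the statement of the stub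
`dict_exist` of `F4/Cf/Dict.lean` (`U0 p = MonoidHom.ker (cycloChar p)`), unconditional. -/
theorem dict_exist_pf (p : ℕ) [Fact p.Prime] (S : Finset Nat.Primes) (hp2 : p ≠ 2)
    (hpS : pPrime p ∈ S) (U : Subgroup GQ)
    (hU : (levelsS S).IsOpen U) (hU0 : U ≤ MonoidHom.ker (cycloChar p))
    (a : Crep S) (ha : Fix (Crep S) U a)
    (hall : ∀ (V : Subgroup GQ) (σ : GQ), (levelsS S).IsOpen V → IsCyc p U V σ →
      IsNormFrom (Crep S) p V σ a) :
    ∃ (m : ℕ) (b : Crep S), ¬ p ∣ m ∧ Fix (Crep S) U b ∧ m • a = p • b :=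
  dict_exist_of ⟨pPrime p, hpS⟩ U hU (fun _ hx k => OpenS.jApprox _ hx k)
    (existFinAt hp2 hpS ⟨pPrime p, hpS⟩ U hU hU0) a ha hall

end Fermat.Agent.F4
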