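/-
Cluster D (F4 / S55), DICT, seat IdealH (owner helper31; architect helper55).
`H^{-1}(ℤ/p, ℤ[X]) = 0` for a permutation module: if `τ ^ p = 1`, `d : X → ℤ` is finitely supported
and the norm of `d` vanishes (`Σ_{i<p} d (τ^i x) = 0` for all `x`), then `d = d' ∘ τ⁻¹ - d'` for a
finitely supported `d'`, with support inside any `τ`-stable predicate containing the support of `d`.
Proof: choose a representative `x₀` in every orbit; `d' (τ^k x₀) := - Σ_{1 ≤ i ≤ k} d (τ^i x₀)`
for the least exponent `k`.
-/
import Mathlib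

set_option autoImplicit false

namespace Fermat.Agent.F4

namespace IdealH

variable {X : Type*} (τ : Equiv.Perm X) {p : ℕ}

/-- The orbit relation of `τ` (with natural exponents; `τ` has finite order). -/
def orbSetoid (hpos : 0 < p) (hτ : τ ^ p = 1) : Setoid X where
  r x y := ∃ k : ℕ, (τ ^ k) x = y
  iseqv :=
    { refl := fun x => ⟨0, by simp⟩
      symm := by
        rintro x y ⟨k, rfl⟩
        refine ⟨(p - 1) * k, ?_⟩
        rw [← Equiv.Perm.mul_apply, ← pow_add]
        have : (p - 1) * k + k = p * k := by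
          have : p - 1 + 1 = p := Nat.sub_add_cancel hpos
          calc (p - 1) * k + k = (p - 1 + 1) * k := by ring
            _ = p * k := by rw [this]
        rw [this, pow_mul, hτ, one_pow]
        rfl
      trans := by
        rintro x y z ⟨k, rfl⟩ ⟨l, rfl⟩
        exact ⟨l + k, by rw [pow_add, Equiv.Perm.mul_apply]⟩ }

end IdealH

open IdealH in
theorem exists_sub_of_norm_zero {X : Type*} (τ : Equiv.Perm X) {p : ℕ} (hp : p.Prime)
    (hτ : τ ^ p = 1)
    (d : X → ℤ) (hfin : (Function.support d).Finite)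
    (hN : ∀ x, ∑ i ∈ Finset.range p, d ((τ ^ i) x) = 0)
    (P : X → Prop) (hP : ∀ x, P x → P (τ x)) (hdP : ∀ x, d x ≠ 0 → P x) :
    ∃ d' : X → ℤ, (Function.support d').Finite ∧ (∀ x, d' x ≠ 0 → P x) ∧
      ∀ x, d x = d' (τ⁻¹ x) - d' x := by
  classical
  have hpos : 0 < p := hp.pos
  let s : Setoid X := orbSetoid τ hpos hτ
  -- representative of the orbit
  let r : X → X := fun x => (Quotient.mk s x).out
  have hr : ∀ x, ∃ k : ℕ, k < p ∧ (τ ^ k) (r x) = x := by
    intro x
    have h1 : s.r (r x) x := Quotient.mk_out (s := s) x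
    obtain ⟨k, hk⟩ := h1
    refine ⟨k % p, Nat.mod_lt _ hpos, ?_⟩
    have h2 : τ ^ k = τ ^ (k % p) := by
      conv_lhs => rw [← Nat.div_add_mod k p, pow_add, pow_mul, hτ, one_pow, one_mul]
    rw [← h2]; exact hk
  have hrτ : ∀ x, r (τ⁻¹ x) = r x := by
    intro x
    have : Quotient.mk s (τ⁻¹ x) = Quotient.mk s x := by
      apply Quotient.sound
      exact ⟨1, by simp⟩
    show (Quotient.mk s (τ⁻¹ x)).out = (Quotient.mk s x).out
    rw [this]
  -- least exponent
  let κ : X → ℕ := fun x => Nat.find (hr x)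
  have hκlt : ∀ x, κ x < p := fun x => (Nat.find_spec (hr x)).1
  have hκ : ∀ x, (τ ^ κ x) (r x) = x := fun x => (Nat.find_spec (hr x)).2
  have hκmin : ∀ x (k : ℕ), k < p → (τ ^ k) (r x) = x → κ x ≤ k :=
    fun x k hk hkx => Nat.find_min' (hr x) ⟨hk, hkx⟩
  -- powers of `τ` preserve `P`
  have hPpow : ∀ (k : ℕ) x, P x → P ((τ ^ k) x) := by
    intro k
    induction k with
    | zero => intro x hx; simpa using hx
    | succ k ih =>
      intro x hx
      rw [pow_succ', Equiv.Perm.mul_apply]
      exact hP _ (ih x hx)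
  -- fixed points carry no mass
  have hfix : ∀ x, τ x = x → d x = 0 := by
    intro x hx
    have h1 : ∀ i : ℕ, (τ ^ i) x = x := by
      intro i
      induction i with
      | zero => simp
      | succ i ih => rw [pow_succ, Equiv.Perm.mul_apply, hx, ih]
    have h2 := hN x
    simp only [h1, Finset.sum_const, Finset.card_range, nsmul_eq_mul] at h2
    rcases mul_eq_zero.mp h2 with h | h
    · exact absurd (by exact_mod_cast h) hpos.ne'
    · exact h
  let d' : X → ℤ := fun x => - ∑ i ∈ Finset.range (κ x), d ((τ ^ (i + 1)) (r x))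
  refine ⟨d', ?_, ?_, ?_⟩
  · -- finite support
    have hsub : Function.support d' ⊆
        ⋃ i ∈ Finset.range p, (fun y => (τ ^ i) y) '' (Function.support d) := by
      intro x hx
      have hx' : d' x ≠ 0 := hx
      have h1 : ∑ i ∈ Finset.range (κ x), d ((τ ^ (i + 1)) (r x)) ≠ 0 := by
        intro h; apply hx'; show - _ = (0 : ℤ); rw [h, neg_zero]
      obtain ⟨i, hi, hne⟩ := Finset.exists_ne_zero_of_sum_ne_zero h1
      rw [Finset.mem_range] at hi
      simp only [Set.mem_iUnion, Set.mem_image, Finset.mem_range]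
      refine ⟨κ x - (i + 1), by have := hκlt x; omega, (τ ^ (i + 1)) (r x), hne, ?_⟩
      rw [← Equiv.Perm.mul_apply, ← pow_add]
      have : κ x - (i + 1) + (i + 1) = κ x := by omega
      rw [this]; exact hκ x
    refine Set.Finite.subset ?_ hsub
    exact Set.Finite.biUnion (Finset.finite_toSet _) fun i _ => hfin.image _
  · -- support inside `P`
    intro x hx
    have h1 : ∑ i ∈ Finset.range (κ x), d ((τ ^ (i + 1)) (r x)) ≠ 0 := by
      intro h; apply hx; show - _ = (0 : ℤ); rw [h, neg_zero]
    obtain ⟨i, hi, hne⟩ := Finset.exists_ne_zero_of_sum_ne_zero h1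
    rw [Finset.mem_range] at hi
    have h2 : P ((τ ^ (i + 1)) (r x)) := hdP _ hne
    have h3 := hPpow (κ x - (i + 1)) _ h2
    rw [← Equiv.Perm.mul_apply, ← pow_add] at h3
    have : κ x - (i + 1) + (i + 1) = κ x := by omega
    rw [this, hκ x] at h3
    exact h3
  · -- the coboundary relation
    intro x
    show d x = - ∑ i ∈ Finset.range (κ (τ⁻¹ x)), d ((τ ^ (i + 1)) (r (τ⁻¹ x)))
      - - ∑ i ∈ Finset.range (κ x), d ((τ ^ (i + 1)) (r x))
    rw [hrτ x]
    set x₀ := r x with hx₀
    have hy : (τ ^ κ (τ⁻¹ x)) x₀ = τ⁻¹ x := by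
      have := hκ (τ⁻¹ x)
      rw [hrτ x] at this
      exact this
    have hymin : ∀ k : ℕ, k < p → (τ ^ k) x₀ = τ⁻¹ x → κ (τ⁻¹ x) ≤ k := by
      intro k hk hkx
      have := hκmin (τ⁻¹ x) k hk (by rw [hrτ x]; exact hkx)
      exact this
    rcases Nat.eq_zero_or_pos (κ x) with h0 | hk
    · -- `x = x₀`
      have hxx : x₀ = x := by
        have := hκ x
        rw [h0, pow_zero] at this
        exact this
      rw [h0, Finset.sum_range_zero, neg_zero, sub_zero]
      by_cases hfx : τ x = x
      · -- fixed point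
        have hd0 : d x = 0 := hfix x hfx
        have hinv : τ⁻¹ x = x := by
          rw [Equiv.Perm.inv_eq_iff_eq]; exact hfx.symm
        have hk0 : κ (τ⁻¹ x) = 0 := by
          have := hymin 0 hpos (by rw [pow_zero, hinv]; exact hxx)
          omega
        rw [hk0, Finset.sum_range_zero, neg_zero, hd0]
      · -- free orbit: the least exponent of `τ⁻¹ x` is `p - 1`
        have hm : κ (τ⁻¹ x) = p - 1 := by
          set m := κ (τ⁻¹ x) with hmdef
          have hmlt : m < p := hκlt _
          by_contra hne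
          have hm1 : m + 1 < p := by omega
          -- `τ ^ (m+1)` fixes `x`
          have h1 : (τ ^ (m + 1)) x = x := by
            rw [pow_succ', Equiv.Perm.mul_apply, ← hxx, hy, hxx]
            simp
          have hcop : Nat.Coprime (m + 1) p :=
            Nat.Coprime.symm ((Nat.Prime.coprime_iff_not_dvd hp).mpr
              (Nat.not_dvd_of_pos_of_lt (by omega) hm1))
          obtain ⟨a, -, ha⟩ := Nat.exists_mul_mod_eq_one_of_coprime hcop hp.one_lt
          have h2 : ∀ j : ℕ, (τ ^ ((m + 1) * j)) x = x := by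
            intro j
            induction j with
            | zero => simp
            | succ j ih =>
              rw [Nat.mul_succ, pow_add, Equiv.Perm.mul_apply, h1, ih]
          have h3 : τ ^ ((m + 1) * a) = τ := by
            conv_lhs => rw [← Nat.div_add_mod ((m + 1) * a) p, ha, pow_add, pow_mul, hτ, one_pow,
              one_mul, pow_one]
          have h4 := h2 a
          rw [h3] at h4
          exact hfx h4
        rw [hm]
        have h5 := hN x₀
        have hp1 : p = (p - 1) + 1 := by omega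
        rw [hp1, Finset.sum_range_succ'] at h5
        simp only [pow_zero, Equiv.Perm.coe_one, id_eq] at h5
        rw [hxx] at h5 ⊢
        linarith
    · -- `κ x ≥ 1`
      have hk1 : κ (τ⁻¹ x) = κ x - 1 := by
        apply le_antisymm
        · apply hymin _ (by have := hκlt x; omega)
          have h1 := hκ x
          have h2 : κ x = (κ x - 1) + 1 := by omega
          rw [h2, pow_succ', Equiv.Perm.mul_apply] at h1
          rw [Equiv.Perm.eq_inv_iff_eq]
          exact h1
        · by_contra hlt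
          push Not at hlt
          have h1 : κ x ≤ κ (τ⁻¹ x) + 1 := by
            apply hκmin x _ (by have := hκlt x; omega)
            rw [pow_succ', Equiv.Perm.mul_apply, hy]
            simp
          omega
      obtain ⟨m, hm⟩ : ∃ m, κ x = m + 1 := ⟨κ x - 1, by omega⟩
      have h3 : (τ ^ (m + 1)) x₀ = x := by rw [← hm]; exact hκ x
      rw [hk1, hm, Nat.add_sub_cancel, Finset.sum_range_succ, h3]
      ring

/-- The opposite convention: `d x = d' (τ x) - d' x`. -/
theorem exists_sub_of_norm_zero' {X : Type*} (τ : Equiv.Perm X) {p : ℕ} (hp : p.Prime)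
    (hτ : τ ^ p = 1)
    (d : X → ℤ) (hfin : (Function.support d).Finite)
    (hN : ∀ x, ∑ i ∈ Finset.range p, d ((τ ^ i) x) = 0)
    (P : X → Prop) (hP : ∀ x, P x → P (τ x)) (hdP : ∀ x, d x ≠ 0 → P x) :
    ∃ d' : X → ℤ, (Function.support d').Finite ∧ (∀ x, d' x ≠ 0 → P x) ∧
      ∀ x, d x = d' (τ x) - d' x := by
  have hpos : 0 < p := hp.pos
  have hτ' : τ⁻¹ ^ p = 1 := by rw [inv_pow, hτ, inv_one]
  have hinv : τ⁻¹ = τ ^ (p - 1) := by
    rw [inv_eq_iff_mul_eq_one, ← pow_succ', Nat.sub_add_cancel hpos, hτ]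
  have hPpow : ∀ (k : ℕ) x, P x → P ((τ ^ k) x) := by
    intro k
    induction k with
    | zero => intro x hx; simpa using hx
    | succ k ih =>
      intro x hx
      rw [pow_succ', Equiv.Perm.mul_apply]
      exact hP _ (ih x hx)
  have hP' : ∀ x, P x → P (τ⁻¹ x) := by
    intro x hx
    rw [hinv]
    exact hPpow _ x hx
  have hN' : ∀ x, ∑ i ∈ Finset.range p, d ((τ⁻¹ ^ i) x) = 0 := by
    intro x
    have h1 := hN ((τ⁻¹ ^ (p - 1)) x)
    rw [← Finset.sum_range_reflect] at h1
    rw [← h1]
    refine Finset.sum_congr rfl fun i hi => ?_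
    rw [Finset.mem_range] at hi
    congr 1
    rw [← Equiv.Perm.mul_apply]
    congr 1
    obtain ⟨j, hj⟩ : ∃ j, p - 1 = j + i := ⟨p - 1 - i, by omega⟩
    have hj' : p - 1 - i = j := by omega
    rw [hj', hj, pow_add, ← mul_assoc, inv_pow τ j, mul_inv_cancel, one_mul]
  obtain ⟨d', h1, h2, h3⟩ := exists_sub_of_norm_zero τ⁻¹ hp hτ' d hfin hN' P hP' hdP
  refine ⟨d', h1, h2, fun x => ?_⟩
  have := h3 x
  rwa [inv_inv] at this

end Fermat.Agent.F4
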