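import Fermat.Agent.F4.Dict.HasseAbs
import Fermat.Agent.F4.Dict.KappaPres
import Fermat.Agent.F4.Dict.Div
import Fermat.Agent.F4.Dict.IdealH
import Fermat.Agent.F4.Dict.DivFin

/-!
# F4 / Dict / IdealH90 : `Ĥ⁻¹` of the invariant ideals vanishes up to capitulation
(piece C' of `dict_hasse`, owner helper49; statement and plan by helper56)

`ℓ : LayerS p S` a cyclic layer `V ⊴ U`, `M = ℓ.top.field`, `τ = σ⁻¹` acting on the primes of `M`.
For `t ∈ T_V` with `N t ∈ E`: the divisor `d` of `t` has norm `0`, hence `d = d' ∘ τ - d'`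
(`IdealH.exists_sub_of_norm_zero'`), `m • d'` is the divisor of some `s ∈ T_V`
(capitulation), and `m • t - (σ s - s)` has divisor `0`, so it is an `S`-unit.

* `LayerS.primePerm`                : `τ` as a permutation of the primes of `M`;
* `LayerS.idealH90At_of`            : the statement, from the three inputs R1, R2, R3 of
                                      `F4/Dict/DivFin.lean` (helper32) as hypotheses.
-/

set_option autoImplicit false
set_option synthInstance.maxHeartbeats 400000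
set_option linter.style.haveILetI false

open CategoryTheory groupCohomology ExtCitation
open NumberField IsDedekindDomain

namespace Fermat.Agent.F4

open Fermat.Agent.F4Cf

namespace OpenS

variable {S : Finset Nat.Primes} (L : OpenS S)

/-- `primeComap (g * h) = primeComap h ∘ primeComap g`. -/
lemma primeComap_mul (g h : GQ) (hg : g ∈ Subgroup.normalizer (L.U : Set GQ))
    (hh : h ∈ Subgroup.normalizer (L.U : Set GQ))
    (hgh : g * h ∈ Subgroup.normalizer (L.U : Set GQ)) (v : HeightOneSpectrum (𝓞 L.field)) :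
    L.primeComap (g * h) hgh v = L.primeComap h hh (L.primeComap g hg v) := by
  ext x
  rw [mem_primeComap, mem_primeComap, mem_primeComap]
  have e : L.conjHom (g * h) hgh x = L.conjHom g hg (L.conjHom h hh x) := by
    apply NumberField.RingOfIntegers.ext
    apply Subtype.ext
    rw [coe_conjHom, coe_conjHom, coe_conjHom]
    rfl
  rw [e]

/-- `primeComap g = id` for `g ∈ U`. -/
lemma primeComap_of_mem (g : GQ) (hg : g ∈ Subgroup.normalizer (L.U : Set GQ)) (hgU : g ∈ L.U)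
    (v : HeightOneSpectrum (𝓞 L.field)) : L.primeComap g hg v = v := by
  ext x
  rw [mem_primeComap]
  have e : L.conjHom g hg x = x := by
    apply NumberField.RingOfIntegers.ext
    apply Subtype.ext
    rw [coe_conjHom]
    exact (L.mem_field_iff _).1 ((x : 𝓞 L.field) : L.field).2 g hgU
  rw [e]

/-- `primeComap g` preserves the primes over `S`. -/
lemma primeComap_mem_T_iff (g : GQ) (hg : g ∈ Subgroup.normalizer (L.U : Set GQ))
    (v : HeightOneSpectrum (𝓞 L.field)) : L.primeComap g hg v ∈ L.T ↔ v ∈ L.T := by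
  rw [mem_T, mem_T]
  refine exists_congr fun q => and_congr_right fun _ => ?_
  rw [mem_primeComap, map_natCast]

end OpenS

namespace LayerS

variable {p : ℕ} {S : Finset Nat.Primes} (ℓ : LayerS p S)

/-- `σ` normalises `V`. -/
lemma σ_mem_normalizer : ℓ.σ ∈ Subgroup.normalizer (ℓ.top.U : Set GQ) :=
  ℓ.mem_normalizer ℓ.σ ℓ.cyc.mem

/-- The permutation `w ↦ σ⁻¹ (w)` of the primes of `M`. -/
noncomputable def primePerm : Equiv.Perm (HeightOneSpectrum (𝓞 ℓ.top.field)) where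
  toFun := ℓ.top.primeComap ℓ.σ ℓ.σ_mem_normalizer
  invFun := ℓ.top.primeComap ℓ.σ⁻¹
    ((Subgroup.normalizer (ℓ.top.U : Set GQ)).inv_mem ℓ.σ_mem_normalizer)
  left_inv := ℓ.top.primeComap_inv_primeComap ℓ.σ ℓ.σ_mem_normalizer
  right_inv := ℓ.top.primeComap_primeComap_inv ℓ.σ ℓ.σ_mem_normalizer

lemma primePerm_apply (w : HeightOneSpectrum (𝓞 ℓ.top.field)) :
    ℓ.primePerm w = ℓ.top.primeComap ℓ.σ ℓ.σ_mem_normalizer w := rfl

/-- (i) `τ ^ i = primeComap (σ ^ i)`. -/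
lemma primePerm_pow (i : ℕ) (w : HeightOneSpectrum (𝓞 ℓ.top.field)) :
    (ℓ.primePerm ^ i) w = ℓ.top.primeComap (ℓ.σ ^ i)
      (ℓ.mem_normalizer _ (ℓ.bot.U.pow_mem ℓ.cyc.mem i)) w := by
  induction i with
  | zero =>
    rw [pow_zero, Equiv.Perm.one_apply]
    symm
    have h1 : (ℓ.σ ^ 0 : GQ) ∈ ℓ.top.U := by rw [pow_zero]; exact ℓ.top.U.one_mem
    exact ℓ.top.primeComap_of_mem _ _ h1 w
  | succ i ih =>
    rw [pow_succ', Equiv.Perm.mul_apply, ih, primePerm_apply]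
    have e : ℓ.σ ^ (i + 1) = ℓ.σ ^ i * ℓ.σ := pow_succ ℓ.σ i
    have hn : ℓ.σ ^ i * ℓ.σ ∈ Subgroup.normalizer (ℓ.top.U : Set GQ) := by
      rw [← e]
      exact ℓ.mem_normalizer _ (ℓ.bot.U.pow_mem ℓ.cyc.mem (i + 1))
    have h2 := ℓ.top.primeComap_mul (ℓ.σ ^ i) ℓ.σ
      (ℓ.mem_normalizer _ (ℓ.bot.U.pow_mem ℓ.cyc.mem i)) ℓ.σ_mem_normalizer hn w
    rw [← h2]
    congr 1

/-- (ii) `τ ^ p = 1`. -/
lemma primePerm_pow_p : ℓ.primePerm ^ p = 1 := by
  ext1 w
  rw [primePerm_pow, Equiv.Perm.one_apply]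
  exact ℓ.top.primeComap_of_mem _ _ ℓ.cyc.pow_mem w

/-- (iii) `τ` preserves the primes over `S`. -/
lemma primePerm_mem_T_iff (w : HeightOneSpectrum (𝓞 ℓ.top.field)) :
    ℓ.primePerm w ∈ ℓ.top.T ↔ w ∈ ℓ.top.T :=
  ℓ.top.primeComap_mem_T_iff _ _ w

lemma primePerm_pow_mem_T_iff (i : ℕ) (w : HeightOneSpectrum (𝓞 ℓ.top.field)) :
    (ℓ.primePerm ^ i) w ∈ ℓ.top.T ↔ w ∈ ℓ.top.T := by
  rw [primePerm_pow]
  exact ℓ.top.primeComap_mem_T_iff _ _ w

/-- **Piece C' of `dict_hasse`**, from the inputs R1 (finite divisors), R2 (capitulation prime to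
`p`) and R3 (every prime outside `T` lies below a valuation subring over some `q ∉ S`). -/
theorem idealH90At_of [Fact p.Prime] (hS : S.Nonempty)
    (R1 : ∀ t ∈ ℓ.top.TU, ∃ d : HeightOneSpectrum (𝓞 ℓ.top.field) → ℤ,
      ℓ.top.IsDivS t d ∧ (Function.support d).Finite ∧ ∀ v ∈ ℓ.top.T, d v = 0)
    (R2 : ∃ m : ℕ, ¬ p ∣ m ∧ ∀ d : HeightOneSpectrum (𝓞 ℓ.top.field) → ℤ,
      (Function.support d).Finite → ∃ s ∈ ℓ.top.TU, ℓ.top.IsDivS s (m • d))
    (R3 : ∀ v : HeightOneSpectrum (𝓞 ℓ.top.field), v ∉ ℓ.top.T →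
      ∃ q : Nat.Primes, q ∉ S ∧ ∃ (A : ValuationSubring (AlgebraicClosure ℚ))
        (hA : A.LiesOverPrime (q : ℕ)), v = ℓ.top.primeBelowAt q A hA) :
    (kfS S hS).IdealH90At p ℓ.top.U ℓ.σ := by
  intro (t : QSx S) ht hNt
  have ht' : t ∈ ℓ.top.TU := ht
  have hNt' : cnorm (QSx S) p ℓ.σ t ∈ sUnitsAdd S := hNt
  obtain ⟨d, hd, hfin, hdT⟩ := R1 t ht'
  set τ := ℓ.primePerm with hτ
  -- the norm of the divisor vanishes
  have hN : ∀ w, ∑ i ∈ Finset.range p, d ((τ ^ i) w) = 0 := by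
    intro w
    by_cases hw : w ∈ ℓ.top.T
    · refine Finset.sum_eq_zero fun i _ => ?_
      exact hdT _ ((ℓ.primePerm_pow_mem_T_iff i w).2 hw)
    · obtain ⟨q, hq, A, hA, rfl⟩ := R3 w hw
      have h1 := ℓ.isDivS_cnorm hd
      have h0 := ℓ.top.isDivS_of_mem_sUnitsAdd hNt'
      have h2 := h1.eq_of_primeBelow h0 q hq A hA (ℓ.top.primeBelowAt q A hA) rfl
      rw [Finset.sum_apply, Pi.zero_apply] at h2
      rw [← h2]
      refine Finset.sum_congr rfl fun i _ => ?_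
      rw [hτ, ℓ.primePerm_pow]
  -- `d = d' ∘ τ - d'`
  obtain ⟨d', hfin', -, hdd'⟩ := exists_sub_of_norm_zero' τ (Fact.out : p.Prime)
    ℓ.primePerm_pow_p d hfin hN (fun w => w ∉ ℓ.top.T)
    (fun w hw h => hw ((ℓ.primePerm_mem_T_iff w).1 h))
    (fun w hw h => hw (hdT w h))
  -- capitulation
  obtain ⟨m, hm, hcap⟩ := R2
  obtain ⟨s, hs, hsd⟩ := hcap d' hfin'
  have h3 := (hd.nsmul m).sub ((ℓ.isDivS_ρ hsd ℓ.σ ℓ.cyc.mem).sub hsd)
  have h5 : ℓ.top.IsDivS (m • t - ((QSx S).ρ ℓ.σ s - s) : QSx S) 0 := by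
    convert h3 using 1
    funext w
    simp only [Pi.zero_apply, Pi.sub_apply, Pi.smul_apply]
    have h4 := hdd' w
    rw [hτ, primePerm_apply] at h4
    rw [h4, smul_sub]
    abel
  have key : (m • t - ((QSx S).ρ ℓ.σ s - s) : QSx S) ∈ sUnitsAdd S := h5.mem_sUnitsAdd
  exact ⟨m, s, hm, hs, key⟩

/-- **Piece C' of `dict_hasse`**: Hilbert 90 for divisors at a cyclic layer (with helper32's
`DivFin`: finite divisors, capitulation prime to `p`, surjectivity of `A ↦ A ∩ F`). -/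
theorem idealH90At [Fact p.Prime] (hS : S.Nonempty) (hpS : pPrime p ∈ S) :
    (kfS S hS).IdealH90At p ℓ.top.U ℓ.σ :=
  ℓ.idealH90At_of hS ℓ.top.exists_isDivS_fin (ℓ.top.capit_div hpS) ℓ.top.exists_primeBelowAt

end LayerS

end Fermat.Agent.F4
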