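import Fermat.Agent.F4.Dict.KappaAbs
import Fermat.Agent.F4.Cf.Lines
import Fermat.Agent.F4.Dict.Level

/-!
# F4 / Dict / CycH90 : from `H¹(U, A) = 0` to `Ĥ⁻¹(U/V, A^V) = 0` for a cyclic layer (helper56)

`A` a `ℤ[G]`-module, `(U, V, σ)` a cyclic layer of degree `p`, `V` open.  If every smooth
1-cocycle of `U` in `A` is a coboundary (`UC.H90sm`), then every `x ∈ A^V` with
`N x = Σ_{i<p} σ^i x = 0` is `σ z - z` with `z ∈ A^V` (`cyc_h90_of_H90sm`).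

Proof: the cocycle `u ↦ Σ_{j < i(u)} σ^j x`, where `u ∈ σ^{i(u)} V`.
-/

set_option autoImplicit false

open CategoryTheory groupCohomology

namespace Fermat.Agent.F4

open Fermat.Agent.F4Cf

section

variable {G : Type} [Group G] (A : Rep.{0} ℤ G)

/-- `P_{m + n} = P_m + σ^m P_n` for the partial norms `P_n = Σ_{j<n} σ^j x`. -/
lemma cnorm_add_index (m n : ℕ) (σ : G) (x : A) :
    cnorm A (m + n) σ x = cnorm A m σ x + A.ρ (σ ^ m) (cnorm A n σ x) := by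
  unfold cnorm
  rw [Finset.sum_range_add, map_sum]
  congr 1
  refine Finset.sum_congr rfl fun j _ => ?_
  rw [← kf_ρ_mul, ← pow_add]

variable {A} {p : ℕ} {U V : Subgroup G} {σ : G}

/-- `σ^j` normalises `V`: `v σ^j = σ^j v'`. -/
lemma isCyc_fix_pow (hc : IsCyc p U V σ) {x : A} (hx : Fix A V x) (j : ℕ) :
    Fix A V (A.ρ (σ ^ j) x) := by
  intro v hv
  have hmem : (σ ^ j)⁻¹ * v * ((σ ^ j)⁻¹)⁻¹ ∈ V :=
    hc.normal _ (U.inv_mem (U.pow_mem hc.mem j)) v hv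
  have e : v * σ ^ j = σ ^ j * ((σ ^ j)⁻¹ * v * ((σ ^ j)⁻¹)⁻¹) := by group
  rw [← kf_ρ_mul, e, kf_ρ_mul, hx _ hmem]

/-- The partial norms of a `V`-fixed element are `V`-fixed. -/
lemma isCyc_fix_cnorm (hc : IsCyc p U V σ) {x : A} (hx : Fix A V x) (n : ℕ) :
    Fix A V (cnorm A n σ x) := by
  intro v hv
  unfold cnorm
  rw [map_sum]
  exact Finset.sum_congr rfl fun j _ => isCyc_fix_pow hc hx j v hv

/-- `P_{n + p k} = P_n` if `N x = 0`. -/
lemma cnorm_add_mul (hc : IsCyc p U V σ) {x : A} (hx : Fix A V x) (hN : cnorm A p σ x = 0)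
    (n k : ℕ) : cnorm A (n + p * k) σ x = cnorm A n σ x := by
  induction k with
  | zero => rw [Nat.mul_zero, Nat.add_zero]
  | succ k ih =>
    have e : n + p * (k + 1) = p + (n + p * k) := by ring
    rw [e, cnorm_add_index, hN, zero_add, ih]
    exact isCyc_fix_cnorm hc hx n _ hc.pow_mem

lemma cnorm_mod (hc : IsCyc p U V σ) {x : A} (hx : Fix A V x) (hN : cnorm A p σ x = 0)
    (n : ℕ) : cnorm A (n % p) σ x = cnorm A n σ x := by
  have h := cnorm_add_mul hc hx hN (n % p) (n / p)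
  rw [Nat.mod_add_div] at h
  exact h.symm

/-- Uniqueness of the exponent of a coset. -/
lemma isCyc_index_unique (hp : p.Prime) (hc : IsCyc p U V σ) {u : G} {i j : ℕ} (hi : i < p)
    (hj : j < p) (hiu : (σ ^ i)⁻¹ * u ∈ V) (hju : (σ ^ j)⁻¹ * u ∈ V) : i = j := by
  have key : ∀ a b : ℕ, a < b → b < p → (σ ^ a)⁻¹ * u ∈ V → (σ ^ b)⁻¹ * u ∈ V → False := by
    intro a b hab hb ha hb'
    have hpos : σ ^ (b - a) ∉ V := isCyc_pow_not_mem hp hc (b - a) (by omega) (by omega)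
    apply hpos
    have e : σ ^ (b - a) = ((σ ^ a)⁻¹ * u) * ((σ ^ b)⁻¹ * u)⁻¹ := by
      have hba : σ ^ b = σ ^ a * σ ^ (b - a) := by rw [← pow_add]; congr 1; omega
      rw [hba]
      group
    rw [e]
    exact V.mul_mem ha (V.inv_mem hb')
  by_contra hne
  rcases Nat.lt_or_gt_of_ne hne with h | h
  · exact key i j h hj hiu hju
  · exact key j i h hi hju hiu

/-- `u = σ^i v` acts on `A^V` like `σ^i`. -/
lemma isCyc_ρ_eq {u : G} {i : ℕ} (hiu : (σ ^ i)⁻¹ * u ∈ V) {y : A} (hy : Fix A V y) :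
    A.ρ u y = A.ρ (σ ^ i) y := by
  have e : u = σ ^ i * ((σ ^ i)⁻¹ * u) := by group
  rw [e, kf_ρ_mul, hy _ hiu]

/-- **`Ĥ⁻¹(U/V, A^V) = 0` from `H¹(U, A) = 0`.** -/
theorem cyc_h90_of_H90sm [Fact p.Prime] (𝓤 : Levels G) (hc : IsCyc p U V σ) (hV : 𝓤.IsOpen V)
    (h90 : UC.H90sm (𝓤.sub U) (Rep.res U.subtype A)) (x : A) (hx : Fix A V x)
    (hN : cnorm A p σ x = 0) : ∃ z : A, Fix A V z ∧ x = A.ρ σ z - z := by
  classical
  have hp : p.Prime := Fact.out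
  have hidx : ∀ u : ↥U, ∃ i : ℕ, i < p ∧ (σ ^ i)⁻¹ * (u : G) ∈ V := fun u => hc.gen u.1 u.2
  choose idx hidx_lt hidx_mem using hidx
  let c : ↥U → A := fun u => cnorm A (idx u) σ x
  -- a general exponent
  have hgen : ∀ (u : ↥U) (n : ℕ), (σ ^ n)⁻¹ * (u : G) ∈ V → c u = cnorm A n σ x := by
    intro u n hn
    have hmod : (σ ^ (n % p))⁻¹ * (u : G) ∈ V := by
      have e : σ ^ n = σ ^ (n % p) * (σ ^ p) ^ (n / p) := by
        rw [← pow_mul, ← pow_add, Nat.mod_add_div]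
      have e2 : (σ ^ (n % p))⁻¹ * (u : G) = (σ ^ p) ^ (n / p) * ((σ ^ n)⁻¹ * (u : G)) := by
        rw [e]; group
      rw [e2]
      exact V.mul_mem (V.pow_mem hc.pow_mem _) hn
    have := isCyc_index_unique hp hc (hidx_lt u) (Nat.mod_lt n hp.pos) (hidx_mem u) hmod
    show cnorm A (idx u) σ x = cnorm A n σ x
    rw [this, cnorm_mod hc hx hN]
  have hcoc : δ1 (Rep.res U.subtype A) c = 0 := by
    funext q
    rw [δ1_apply]
    show A.ρ (q.1 : G) (c q.2) - c (q.1 * q.2) + c q.1 = 0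
    have h1 : A.ρ (q.1 : G) (c q.2) = A.ρ (σ ^ idx q.1) (c q.2) :=
      isCyc_ρ_eq (hidx_mem q.1) (isCyc_fix_cnorm hc hx _)
    have h2 : c (q.1 * q.2) = cnorm A (idx q.1 + idx q.2) σ x := by
      apply hgen
      -- `(σ^(i+j))⁻¹ u u' = (σ^j)⁻¹ ((σ^i)⁻¹ u) σ^j · (σ^j)⁻¹ u'`
      have hconj : (σ ^ idx q.2)⁻¹ * ((σ ^ idx q.1)⁻¹ * (q.1 : G)) * ((σ ^ idx q.2)⁻¹)⁻¹ ∈ V :=
        hc.normal _ (U.inv_mem (U.pow_mem hc.mem _)) _ (hidx_mem q.1)
      have e : (σ ^ (idx q.1 + idx q.2))⁻¹ * ((q.1 * q.2 : ↥U) : G) =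
          ((σ ^ idx q.2)⁻¹ * ((σ ^ idx q.1)⁻¹ * (q.1 : G)) * ((σ ^ idx q.2)⁻¹)⁻¹) *
            ((σ ^ idx q.2)⁻¹ * (q.2 : G)) := by
        rw [pow_add]
        show (σ ^ idx q.1 * σ ^ idx q.2)⁻¹ * ((q.1 : G) * (q.2 : G)) = _
        group
      rw [e]
      exact V.mul_mem hconj (hidx_mem q.2)
    rw [h1, h2, cnorm_add_index]
    show A.ρ (σ ^ idx q.1) (cnorm A (idx q.2) σ x) -
      (cnorm A (idx q.1) σ x + A.ρ (σ ^ idx q.1) (cnorm A (idx q.2) σ x)) +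
        cnorm A (idx q.1) σ x = 0
    abel
  obtain ⟨W, hW, hWV⟩ := hV
  have hLC : IsLC₁ (𝓤.sub U) c := by
    refine ⟨W.comap U.subtype, ⟨W, hW, rfl⟩, fun g s hs => ?_⟩
    apply hgen
    have e : (σ ^ idx g)⁻¹ * ((g * s : ↥U) : G) = ((σ ^ idx g)⁻¹ * (g : G)) * (s : G) := by
      show (σ ^ idx g)⁻¹ * ((g : G) * (s : G)) = _
      group
    rw [e]
    exact V.mul_mem (hidx_mem g) (hWV hs)
  have hZ : c ∈ Z1 (𝓤.sub U) (Rep.res U.subtype A) :=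
    (UC.mem_Z1 (𝓤.sub U) (Rep.res U.subtype A) c).2 ⟨hcoc, hLC⟩
  obtain ⟨z, hz⟩ := (UC.mem_B1 (Rep.res U.subtype A) c).1 (h90 c hZ)
  have hz' : ∀ u : ↥U, A.ρ (u : G) z - z = c u := fun u => congrFun hz u
  refine ⟨z, fun v hv => ?_, ?_⟩
  · have h1 := hz' ⟨v, hc.le hv⟩
    have h2 : c ⟨v, hc.le hv⟩ = cnorm A 0 σ x := by
      apply hgen
      rw [pow_zero, inv_one, one_mul]
      exact hv
    rw [h2] at h1
    have h3 : cnorm A 0 σ x = 0 := by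
      unfold cnorm
      rw [Finset.range_zero, Finset.sum_empty]
    rw [h3] at h1
    exact sub_eq_zero.mp h1
  · have h1 := hz' ⟨σ, hc.mem⟩
    have h2 : c ⟨σ, hc.mem⟩ = cnorm A 1 σ x := by
      apply hgen
      rw [pow_one, inv_mul_cancel]
      exact V.one_mem
    rw [h2] at h1
    have h3 : cnorm A 1 σ x = x := by
      unfold cnorm
      rw [Finset.sum_range_one, pow_zero, map_one]
      rfl
    rw [h3] at h1
    exact h1.symm

end

end Fermat.Agent.F4
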