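import Fermat.Agent.F4.Dict.JH90
import Fermat.Agent.F4.Dict.CycH90

/-!
# F4 / Dict / JH90Cyc : semi-local Hilbert 90 for a cyclic layer (seat K3v, helper89)

`(U, V, σ)` a cyclic layer of degree `p` of `G_S`, `V` open.  Every `x ∈ J^V` with
`N x = Σ_{i<p} σ^i x = 0` is `σ z - z` with `z ∈ J^V` (`h90_Jrep_cyc`): `h90_Jrep`
(`F4/Dict/JH90.lean`) and `cyc_h90_of_H90sm` (`F4/Dict/CycH90.lean`, helper56).
The same for the local modules `L_q` (`h90_LqS_cyc`).
-/

set_option autoImplicit false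

open CategoryTheory groupCohomology ExtCitation

namespace Fermat.Agent.F4

open Fermat.Agent.F4Cf

variable {p : ℕ} [Fact p.Prime] (S : Finset Nat.Primes)

/-- **Semi-local Hilbert 90 for a cyclic layer**: `Ĥ⁻¹(U/V, J^V) = 0`. -/
theorem h90_Jrep_cyc {U V : Subgroup GQ} {σ : GQ} (hc : IsCyc p U V σ)
    (hV : (levelsS S).IsOpen V) (x : Jrep S) (hx : Fix (Jrep S) V x)
    (hN : cnorm (Jrep S) p σ x = 0) :
    ∃ z : Jrep S, Fix (Jrep S) V z ∧ x = (Jrep S).ρ σ z - z := by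
  have hU : (levelsS S).IsOpen U := by
    obtain ⟨W, hW, hWV⟩ := hV
    exact ⟨W, hW, hWV.trans hc.le⟩
  exact cyc_h90_of_H90sm (levelsS S) hc hV (h90_Jrep S U hU) x hx hN

/-- **Local Hilbert 90 for a cyclic layer** of the local group at `q`. -/
theorem h90_LqS_cyc (q : Nat.Primes) {U V : Subgroup (primeLocalGaloisGroup q)}
    {σ : primeLocalGaloisGroup q} (hc : IsCyc p U V σ) (hV : (locLevelsS S q).IsOpen V)
    (x : LqS S q) (hx : Fix (LqS S q) V x) (hN : cnorm (LqS S q) p σ x = 0) :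
    ∃ z : LqS S q, Fix (LqS S q) V z ∧ x = (LqS S q).ρ σ z - z := by
  have hU : (locLevelsS S q).IsOpen U := by
    obtain ⟨W, hW, hWV⟩ := hV
    exact ⟨W, hW, hWV.trans hc.le⟩
  exact cyc_h90_of_H90sm (locLevelsS S q) hc hV (h90_LqS S q U hU) x hx hN

end Fermat.Agent.F4
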