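import Fermat.Agent.F4.Dict.HasseNorm
import Fermat.Agent.F4.Dict.LocNorm
import Fermat.Agent.F4.Dict.JH90Cyc
import Fermat.Agent.F4.Dict.IdealH90

/-!
# F4 / Dict / HasseDict : the Hasse norm axiom of `PCF` for `C = J / E` (derivation
`dict_hasse`; helper56)

`dict_hasse_pf` : for a cyclic layer `(U, V, σ)` of degree `p` of `G_S` (`p` odd, `p ∈ S`),
`y ∈ C^V` with `N y = 0` satisfies `m y = σ z - z` with `p ∤ m`, `z ∈ C^V`.

Assembly (`KForm.hasse_of`, `F4/Dict/HasseAbs.lean`) of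
* K1, the presentation `C^V = pr (J^V + d T_V)` (`KForm.pres`, `KappaAbs.lean`);
* the Hasse norm theorem `LayerS.hasseNormAt_of` (`HasseNorm.lean`, from `F4G.hasseNormFull`)
  with the local norm property `LayerS.exists_norm_oneMod` (`LocNorm.lean`, helper90);
* semi-local Hilbert 90 `h90_Jrep_cyc` (`JH90Cyc.lean`, helper89);
* Hilbert 90 for divisors `LayerS.idealH90At` (`IdealH90.lean`, helper49; `DivFin.lean`, helper32).
-/

set_option autoImplicit false
set_option synthInstance.maxHeartbeats 400000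
set_option linter.unusedSectionVars false
set_option linter.style.haveILetI false
set_option linter.unusedVariables false

open CategoryTheory groupCohomology ExtCitation
open NumberField IsDedekindDomain

namespace Fermat.Agent.F4

open Fermat.Agent.F4Cf

namespace LayerS

variable {p : ℕ} {S : Finset Nat.Primes} (ℓ : LayerS p S)

/-- **K3iv**: the local norm property of the layer. -/
theorem locNormAt [Fact p.Prime] : ℓ.LocNormAt := by
  intro x hx f hf v hv k
  rw [Fermat.Agent.F4G.mem_localNormGroup]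
  obtain ⟨y, hy⟩ := ℓ.exists_norm_oneMod hx f hf k
  exact ⟨y, hy v hv⟩

/-- **The Hasse norm theorem** for the layer `ℓ`, unconditional. -/
theorem hasseNormAt [Fact p.Prime] (hp2 : p ≠ 2) (hS : S.Nonempty) :
    (kfS S hS).HasseNormAt p ℓ.bot.U ℓ.top.U ℓ.σ :=
  ℓ.hasseNormAt_of hp2 hS ℓ.locNormAt

/-- Semi-local Hilbert 90 for the layer `ℓ`. -/
theorem jH90At [Fact p.Prime] (hS : S.Nonempty) : (kfS S hS).JH90At p ℓ.top.U ℓ.σ := by
  intro (x : Jrep S) hx hN
  have hx' : Fix (Jrep S) ℓ.top.U x := hx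
  have hN' : cnorm (Jrep S) p ℓ.σ x = 0 := hN
  obtain ⟨z, hz, hxz⟩ := h90_Jrep_cyc S ℓ.cyc ℓ.top.isOpen x hx' hN'
  exact ⟨z, hz, hxz⟩

/-- The presentation of `C^V`. -/
theorem presAt (hS : S.Nonempty) : (kfS S hS).PresAt ℓ.top.U := by
  intro (c : Crep S) hc
  exact kappa_pres S hS ℓ.top.U ℓ.top.isOpen c hc

/-- **The Hasse norm axiom** for the layer `ℓ`. -/
theorem hasse [Fact p.Prime] (hp2 : p ≠ 2) (hpS : pPrime p ∈ S) (y : Crep S)
    (hy : Fix (Crep S) ℓ.top.U y) (hN : cnorm (Crep S) p ℓ.σ y = 0) :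
    ∃ (m : ℕ) (z : Crep S), ¬ p ∣ m ∧ Fix (Crep S) ℓ.top.U z ∧
      m • y = (Crep S).ρ ℓ.σ z - z := by
  have hS : S.Nonempty := ⟨_, hpS⟩
  exact (kfS S hS).hasse_of ℓ.cyc (ℓ.presAt hS) (ℓ.hasseNormAt hp2 hS) (ℓ.jH90At hS)
    (ℓ.idealH90At hS hpS) y hy hN

end LayerS

/-- **`dict_hasse`**: the Hasse norm axiom of `PCF` for `C = J / E`. -/
theorem dict_hasse_pf (p : ℕ) [Fact p.Prime] (S : Finset Nat.Primes) (hp2 : p ≠ 2)
    (hpS : pPrime p ∈ S) (U V : Subgroup GQ) (σ : GQ)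
    (hV : (levelsS S).IsOpen V) (hc : IsCyc p U V σ) (y : Crep S) (hy : Fix (Crep S) V y)
    (hN : cnorm (Crep S) p σ y = 0) :
    ∃ (m : ℕ) (z : Crep S), ¬ p ∣ m ∧ Fix (Crep S) V z ∧ m • y = (Crep S).ρ σ z - z :=
  (LayerS.ofCyc hV hc).hasse hp2 hpS y hy hN

end Fermat.Agent.F4
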