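import Fermat.Agent.F4.Cf.Lines

/-!
# F4 / Dict / SecondAlg : the linear algebra of the second inequality (helper74's seat `second`,
sub-lemma SL-1; proof by helper31)

`C` a `ℤ[G]`-module, `(U, V, σ)` a cyclic layer of degree `p`.  The norm group `N (C^V)` contains
`p • C^U`, so `C^U / N (C^V)` is an `𝔽_p`-vector space.  If `a ∉ N (C^V)` and `b - k • a ∉ N (C^V)`
for all `k`, then `a`, `b` are linearly independent in it, and there is a surjection of `C^U` onto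
`𝔽_p × 𝔽_p` killing the norms.

* `cfFixSub C U` : the subgroup `C^U`;
* `cfNormSub C p U V σ hc` : the subgroup `N (C^V)` of `C^U`;
* `exists_functional_of_not_second` : the statement above.
-/

set_option autoImplicit false

open CategoryTheory groupCohomology

namespace Fermat.Agent.F4Cf

variable {G : Type} [Group G]

/-- The subgroup `C^U` of the elements fixed by `U`. -/
def cfFixSub (C : Rep.{0} ℤ G) (U : Subgroup G) : AddSubgroup C where
  carrier := {x | ∀ g ∈ U, C.ρ g x = x}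
  zero_mem' := fun g _ => map_zero _
  add_mem' := fun {a b} ha hb g hg => by rw [map_add, ha g hg, hb g hg]
  neg_mem' := fun {a} ha g hg => by rw [map_neg, ha g hg]

lemma mem_cfFixSub {C : Rep.{0} ℤ G} {U : Subgroup G} {x : C} : x ∈ cfFixSub C U ↔ Fix C U x :=
  Iff.rfl

/-- The cyclic norm is additive. -/
lemma sl1_cnorm_add (C : Rep.{0} ℤ G) (n : ℕ) (σ : G) (x y : C) :
    cnorm C n σ (x + y) = cnorm C n σ x + cnorm C n σ y := by
  unfold cnorm
  rw [← Finset.sum_add_distrib]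
  exact Finset.sum_congr rfl fun i _ => map_add _ _ _

lemma sl1_cnorm_zero (C : Rep.{0} ℤ G) (n : ℕ) (σ : G) : cnorm C n σ (0 : C) = 0 := by
  unfold cnorm
  exact Finset.sum_eq_zero fun i _ => map_zero _

lemma sl1_cnorm_neg (C : Rep.{0} ℤ G) (n : ℕ) (σ : G) (x : C) :
    cnorm C n σ (-x) = - cnorm C n σ x := by
  unfold cnorm
  rw [← Finset.sum_neg_distrib]
  exact Finset.sum_congr rfl fun i _ => map_neg _ _

/-- The norm of an element fixed by `σ` is its `n`-th multiple. -/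
lemma sl1_cnorm_of_fix (C : Rep.{0} ℤ G) (n : ℕ) {U : Subgroup G} {σ : G} (hσ : σ ∈ U) {x : C}
    (hx : Fix C U x) : cnorm C n σ x = n • x := by
  unfold cnorm
  rw [Finset.sum_congr rfl fun i _ => hx (σ ^ i) (U.pow_mem hσ i)]
  simp

/-- The norm group `N (C^V)`, as a subgroup of `C^U`. -/
def cfNormSub (C : Rep.{0} ℤ G) (p : ℕ) (V : Subgroup G) (σ : G) (U : Subgroup G) :
    AddSubgroup ↥(cfFixSub C U) where
  carrier := {x | IsNormFrom C p V σ (x : C)}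
  zero_mem' := ⟨0, fun g _ => map_zero _, (sl1_cnorm_zero C p σ).symm⟩
  add_mem' := by
    rintro x y ⟨u, hu, hxu⟩ ⟨v, hv, hyv⟩
    refine ⟨u + v, fun g hg => ?_, ?_⟩
    · rw [map_add, hu g hg, hv g hg]
    · show ((x + y : ↥(cfFixSub C U)) : C) = _
      rw [AddSubgroup.coe_add, hxu, hyv, sl1_cnorm_add]
  neg_mem' := by
    rintro x ⟨u, hu, hxu⟩
    refine ⟨-u, fun g hg => ?_, ?_⟩
    · rw [map_neg, hu g hg]
    · show ((-x : ↥(cfFixSub C U)) : C) = _
      rw [AddSubgroup.coe_neg, hxu, sl1_cnorm_neg]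

lemma mem_cfNormSub {C : Rep.{0} ℤ G} {p : ℕ} {V : Subgroup G} {σ : G} {U : Subgroup G}
    {x : ↥(cfFixSub C U)} : x ∈ cfNormSub C p V σ U ↔ IsNormFrom C p V σ (x : C) :=
  Iff.rfl

/-- `p • C^U ⊆ N (C^V)`. -/
lemma sl1_nsmul_mem (C : Rep.{0} ℤ G) (p : ℕ) {U V : Subgroup G} {σ : G} (hc : IsCyc p U V σ)
    (x : ↥(cfFixSub C U)) : p • x ∈ cfNormSub C p V σ U := by
  refine ⟨(x : C), fun g hg => x.2 g (hc.le hg), ?_⟩
  rw [sl1_cnorm_of_fix C p hc.mem x.2]
  exact AddSubgroup.coe_nsmul _ _ _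

/-- Two elements `ā`, `b̄` of an `𝔽_p`-vector space with `ā ≠ 0` and `b̄ ∉ 𝔽_p ā` span a plane
which is a direct summand. -/
lemma sl1_linalg (p : ℕ) [Fact p.Prime] {Q : Type*} [AddCommGroup Q] [Module (ZMod p) Q]
    (a₀ b₀ : Q) (ha0 : a₀ ≠ 0) (hb0 : ∀ k : ℕ, b₀ - k • a₀ ≠ 0) :
    ∃ g : Q →+ ZMod p × ZMod p, ∀ z : ZMod p × ZMod p, ∃ m n : ℕ, g (m • a₀ + n • b₀) = z := by
  classical
  have hnat : ∀ (k : ℕ) (q : Q), (k : ZMod p) • q = k • q := fun k q =>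
    Nat.cast_smul_eq_nsmul (ZMod p) k q
  -- the map `(x, y) ↦ x ā + y b̄`
  set f : (ZMod p × ZMod p) →ₗ[ZMod p] Q :=
    (LinearMap.fst (ZMod p) (ZMod p) (ZMod p)).smulRight a₀ +
      (LinearMap.snd (ZMod p) (ZMod p) (ZMod p)).smulRight b₀ with hf
  have hfapp : ∀ x y : ZMod p, f (x, y) = x • a₀ + y • b₀ := fun x y => rfl
  have hker : LinearMap.ker f = ⊥ := by
    rw [LinearMap.ker_eq_bot']
    rintro ⟨x, y⟩ hxy
    rw [hfapp] at hxy
    by_cases hy : y = 0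
    · subst hy
      rw [zero_smul, add_zero] at hxy
      rcases smul_eq_zero.1 hxy with hx | hx
      · rw [hx]; rfl
      · exact absurd hx ha0
    · exfalso
      -- `b̄ = -(x / y) ā`
      have h1 : b₀ = (-(y⁻¹ * x)) • a₀ := by
        have h2 : y • b₀ = -(x • a₀) := eq_neg_of_add_eq_zero_right hxy
        have h3 : b₀ = y⁻¹ • (y • b₀) := by
          rw [smul_smul, inv_mul_cancel₀ hy, one_smul]
        rw [h3, h2, smul_neg, smul_smul, neg_smul]
      apply hb0 (-(y⁻¹ * x)).val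
      rw [← hnat, ZMod.natCast_zmod_val, ← h1, sub_self]
  obtain ⟨g, hg⟩ := LinearMap.exists_leftInverse_of_injective f hker
  refine ⟨g.toAddMonoidHom, ?_⟩
  rintro ⟨x, y⟩
  refine ⟨x.val, y.val, ?_⟩
  show g (x.val • a₀ + y.val • b₀) = (x, y)
  rw [← hnat, ← hnat, ZMod.natCast_zmod_val, ZMod.natCast_zmod_val, ← hfapp]
  exact congrArg (fun h : (ZMod p × ZMod p) →ₗ[ZMod p] (ZMod p × ZMod p) => h (x, y)) hg

/-- **SL-1** (pure algebra).  If `a ∉ N (C^V)` and `b - k • a ∉ N (C^V)` for all `k`, there is a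
surjective homomorphism `C^U → 𝔽_p × 𝔽_p` killing the norms from `C^V`. -/
theorem exists_functional_of_not_second (C : Rep.{0} ℤ G) (p : ℕ) [Fact p.Prime]
    (U V : Subgroup G) (σ : G) (hc : IsCyc p U V σ) (a b : C) (ha : Fix C U a) (hb : Fix C U b)
    (hna : ¬ IsNormFrom C p V σ a) (hnb : ∀ k : ℕ, ¬ IsNormFrom C p V σ (b - k • a)) :
    ∃ ψ : ↥(cfFixSub C U) →+ ZMod p × ZMod p, Function.Surjective ψ ∧
      ∀ (y : C) (hy : Fix C V y), ψ ⟨cnorm C p σ y, acf3_fix_cnorm hc hy⟩ = 0 := by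
  classical
  have hp : p.Prime := Fact.out
  set 𝒩 : AddSubgroup ↥(cfFixSub C U) := cfNormSub C p V σ U with h𝒩
  set π : ↥(cfFixSub C U) →+ (↥(cfFixSub C U) ⧸ 𝒩) := QuotientAddGroup.mk' 𝒩 with hπ
  have hπsurj : Function.Surjective π := QuotientAddGroup.mk'_surjective 𝒩
  have hπ0 : ∀ x : ↥(cfFixSub C U), π x = 0 ↔ x ∈ 𝒩 := fun x =>
    QuotientAddGroup.eq_zero_iff x
  have hkill : ∀ q : ↥(cfFixSub C U) ⧸ 𝒩, p • q = 0 := by
    intro q
    obtain ⟨x, rfl⟩ := hπsurj q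
    rw [← map_nsmul, hπ0]
    exact sl1_nsmul_mem C p hc x
  set a' : ↥(cfFixSub C U) := ⟨a, ha⟩ with ha'
  set b' : ↥(cfFixSub C U) := ⟨b, hb⟩ with hb'
  have ha0 : π a' ≠ 0 := fun h => hna ((hπ0 a').1 h)
  have hb0 : ∀ k : ℕ, π b' - k • π a' ≠ 0 := by
    intro k h
    apply hnb k
    have h1 : π (b' - k • a') = 0 := by rw [map_sub, map_nsmul]; exact h
    have h2 := (hπ0 _).1 h1
    have h3 : ((b' - k • a' : ↥(cfFixSub C U)) : C) = b - k • a := by
      rw [AddSubgroup.coe_sub, AddSubgroup.coe_nsmul]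
    rw [mem_cfNormSub, h3] at h2
    exact h2
  obtain ⟨g, hg⟩ := @sl1_linalg p _ (↥(cfFixSub C U) ⧸ 𝒩) _ (AddCommGroup.zmodModule hkill)
    (π a') (π b') ha0 hb0
  refine ⟨g.comp π, ?_, ?_⟩
  · intro z
    obtain ⟨m, n, hmn⟩ := hg z
    refine ⟨m • a' + n • b', ?_⟩
    show g (π (m • a' + n • b')) = z
    rw [map_add, map_nsmul, map_nsmul]
    exact hmn
  · intro y hy
    show g (π _) = 0
    have : π (⟨cnorm C p σ y, acf3_fix_cnorm hc hy⟩ : ↥(cfFixSub C U)) = 0 := by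
      rw [hπ0]
      exact ⟨y, hy, rfl⟩
    rw [this, map_zero]

end Fermat.Agent.F4Cf
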