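import Fermat.Agent.F4.Dict.Div
import Fermat.Agent.F4.Dict.CapitLevel
import Fermat.Agent.F4.Dict.DivFin

/-!
# F4 / Dict / SecondIdeal : every `t ∈ T_U` is, up to `p`-th powers of `Fˣ`, the divisor of an
integral ideal prime to `S` (helper74's seat `second`, sub-lemma SL-2; proof by helper49)

`L : OpenS S`, `F = L.field`.  For `s ∈ T_U` there are `n ∈ Fˣ` (a positive integer) and a nonzero
ideal `I` of `𝓞 F`, prime to the primes over `S`, such that the divisor outside `S` of
`s · n ^ p` is `v ↦ ord_v I`.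

Proof: `x = val s` is algebraic, so `n x` is integral over `ℤ` for some integer `n > 0`
(`divfin_exists_integral_multiple`); then `y = x n ^ p` is integral (`p > 0`), hence has order `≥ 0`
at every `A`.  The divisor `δ` of `s + p • toQS n` has finite support and vanishes on `L.T`
(helper32's `exists_isDivS_fin`); it is `≥ 0` everywhere, and `I = ∏ v ^ (δ v).toNat` over the
support of `δ` has `ord_v I = δ v` for all `v`.
-/

set_option autoImplicit false

open CategoryTheory groupCohomology ExtCitation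
open scoped Pointwise
open NumberField IsDedekindDomain

namespace Fermat.Agent.F4

open Classical in
/-- The multiplicity of a prime in a finite product of prime powers (Dedekind domain). -/
lemma secondIdeal_multiplicity_prod {R : Type*} [CommRing R] [IsDedekindDomain R]
    (Sg : Finset (HeightOneSpectrum R)) (e : HeightOneSpectrum R → ℕ) (v : HeightOneSpectrum R) :
    multiplicity v.asIdeal (∏ w ∈ Sg, w.asIdeal ^ e w) = if v ∈ Sg then e v else 0 := by
  classical
  apply multiplicity_eq_of_emultiplicity_eq_some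
  have hv : Prime v.asIdeal := v.prime
  rw [Finset.emultiplicity_prod hv]
  have h1 : ∀ w ∈ Sg, emultiplicity v.asIdeal (w.asIdeal ^ e w) =
      if w = v then ((e v : ℕ) : ℕ∞) else 0 := by
    intro w _
    rw [emultiplicity_pow hv]
    by_cases hwv : w = v
    · subst hwv
      rw [if_pos rfl, (FiniteMultiplicity.of_prime_left hv hv.ne_zero).emultiplicity_self, mul_one]
    · rw [if_neg hwv]
      have : emultiplicity v.asIdeal w.asIdeal = 0 := by
        rw [emultiplicity_eq_zero, Ideal.dvd_iff_le]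
        intro hle
        apply hwv
        ext1
        exact (w.isMaximal.eq_of_le v.isPrime.ne_top hle)
      rw [this, mul_zero]
  rw [Finset.sum_congr rfl h1, Finset.sum_ite_eq' Sg v]
  split_ifs <;> simp

namespace OpenS

variable {S : Finset Nat.Primes} (L : OpenS S)

/-- The order of an algebraic integer at a valuation subring over `q` is `≥ 0`. -/
lemma secondIdeal_nonneg (A : ValuationSubring (AlgebraicClosure ℚ)) {q : ℕ} (hq : q.Prime)
    (hA : A.LiesOverPrime q) {y : AlgebraicClosure ℚ} (hy0 : y ≠ 0) (hy : IsIntegral ℤ y) {k : ℤ}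
    (h : HasOrdAt A q y k) : 0 ≤ k := by
  by_contra hk
  rw [not_le] at hk
  have hq0 : (q : AlgebraicClosure ℚ) ≠ 0 := by exact_mod_cast hq.ne_zero
  have hvq : A.valuation (q : AlgebraicClosure ℚ) < 1 :=
    (ValuationSubring.mem_nonunits_iff A).mp hA
  have hvq0 : 0 < A.valuation (q : AlgebraicClosure ℚ) :=
    zero_lt_iff.mpr ((Valuation.ne_zero_iff _).mpr hq0)
  have hyA : A.valuation y ≤ 1 :=
    (A.valuation_le_one_iff _).2 (Fermat.Agent.FrobExists.mem_valuationSubring_of_isIntegral A hy)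
  unfold HasOrdAt at h
  rw [isUnitAt_iff_valuation_eq_one A (mul_ne_zero hy0 (zpow_ne_zero _ hq0)), map_mul,
    map_zpow₀] at h
  have h2 : A.valuation (q : AlgebraicClosure ℚ) ^ (-k) < 1 :=
    zpow_lt_one₀ hvq0 hvq (by omega)
  have h3 : A.valuation y * A.valuation (q : AlgebraicClosure ℚ) ^ (-k) < 1 := by
    calc A.valuation y * A.valuation (q : AlgebraicClosure ℚ) ^ (-k)
        ≤ 1 * A.valuation (q : AlgebraicClosure ℚ) ^ (-k) := by gcongr
      _ < 1 := by rwa [one_mul]
  rw [h] at h3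
  exact lt_irrefl _ h3

/-- **SL-2.**  Every `s ∈ T_U` has, up to the `p`-th power of an element of `Fˣ`, the divisor of
an integral ideal prime to `S`. -/
theorem exists_ideal_isDivS (p : ℕ) (hp : 0 < p) (s : QSx S) (hs : s ∈ L.TU) :
    ∃ (n : (L.field)ˣ) (I : Ideal (𝓞 L.field)), I ≠ ⊥ ∧ (∀ v ∈ L.T, ¬ I ≤ v.asIdeal) ∧
      L.IsDivS (s + p • L.toQS n) (fun v => ((multiplicity v.asIdeal I : ℕ) : ℤ)) := by
  classical
  obtain ⟨N, hN0, hNint⟩ := divfin_exists_integral_multiple
    ((smUnits.val s : (AlgebraicClosure ℚ)ˣ) : AlgebraicClosure ℚ)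
  have hNF : ((N : ℕ) : L.field) ≠ 0 := Nat.cast_ne_zero.2 hN0
  have hs' : s + p • L.toQS (Units.mk0 ((N : ℕ) : L.field) hNF) ∈ L.TU :=
    L.TU.add_mem hs (L.TU.nsmul_mem (L.toQS_mem_TU _) p)
  -- the value of `s + p • n`
  have hval : ((smUnits.val (s + p • L.toQS (Units.mk0 ((N : ℕ) : L.field) hNF)) :
      (AlgebraicClosure ℚ)ˣ) : AlgebraicClosure ℚ) =
      ((smUnits.val s : (AlgebraicClosure ℚ)ˣ) : AlgebraicClosure ℚ) *
        ((N : ℕ) : AlgebraicClosure ℚ) ^ p := by
    rw [smUnits.val_add, smUnits.val_nsmul, Units.val_mul, Units.val_pow_eq_pow_val, val_toQS]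
    simp
  -- it is an algebraic integer
  have hyint : IsIntegral ℤ (((smUnits.val s : (AlgebraicClosure ℚ)ˣ) : AlgebraicClosure ℚ) *
      ((N : ℕ) : AlgebraicClosure ℚ) ^ p) := by
    obtain ⟨k, rfl⟩ : ∃ k, p = k + 1 := ⟨p - 1, by omega⟩
    have e : ((smUnits.val s : (AlgebraicClosure ℚ)ˣ) : AlgebraicClosure ℚ) *
        ((N : ℕ) : AlgebraicClosure ℚ) ^ (k + 1) =
        (((N : ℕ) : AlgebraicClosure ℚ) *
          ((smUnits.val s : (AlgebraicClosure ℚ)ˣ) : AlgebraicClosure ℚ)) *
          ((N : ℕ) : AlgebraicClosure ℚ) ^ k := by ring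
    rw [e]
    exact hNint.mul ((isIntegral_algebraMap (R := ℤ) (x := (N : ℤ))).pow k |> fun h => by
      simpa using h)
  obtain ⟨δ, hδ, hδfin, hδT⟩ := L.exists_isDivS_fin _ hs'
  -- the divisor is `≥ 0`
  have hnonneg : ∀ v, 0 ≤ δ v := by
    intro v
    by_cases hv : v ∈ L.T
    · rw [hδT v hv]
    · obtain ⟨q, hq, A, hA, rfl⟩ := L.exists_primeBelowAt v hv
      have h := (L.isDivS_iff _ δ).1 hδ q hq A hA
      rw [hval] at h
      refine secondIdeal_nonneg A q.2 hA ?_ hyint h
      exact mul_ne_zero (smUnits.val s).ne_zero (pow_ne_zero _ (Nat.cast_ne_zero.2 hN0))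
  -- the ideal
  have hmult : ∀ v, ((multiplicity v.asIdeal
      (∏ w ∈ hδfin.toFinset, w.asIdeal ^ (δ w).toNat) : ℕ) : ℤ) = δ v := by
    intro v
    rw [secondIdeal_multiplicity_prod]
    by_cases hv : v ∈ hδfin.toFinset
    · rw [if_pos hv]
      exact Int.toNat_of_nonneg (hnonneg v)
    · rw [if_neg hv]
      rw [Set.Finite.mem_toFinset, Function.mem_support, not_not] at hv
      rw [hv]
      rfl
  refine ⟨Units.mk0 ((N : ℕ) : L.field) hNF, ∏ w ∈ hδfin.toFinset, w.asIdeal ^ (δ w).toNat,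
    ?_, ?_, ?_⟩
  · rw [← Ideal.zero_eq_bot, Finset.prod_ne_zero_iff]
    intro w _
    exact pow_ne_zero _ w.ne_bot
  · intro v hv hle
    have h1 := hmult v
    rw [hδT v hv] at h1
    have h2 : multiplicity v.asIdeal (∏ w ∈ hδfin.toFinset, w.asIdeal ^ (δ w).toNat) = 0 := by
      exact_mod_cast h1
    exact (multiplicity_eq_zero.1 h2) (Ideal.dvd_iff_le.2 hle)
  · have e : (fun v : HeightOneSpectrum (𝓞 L.field) => ((multiplicity v.asIdeal
        (∏ w ∈ hδfin.toFinset, w.asIdeal ^ (δ w).toNat) : ℕ) : ℤ)) = δ := funext hmult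
    rw [e]
    exact hδ

end OpenS

end Fermat.Agent.F4
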