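import Fermat.Agent.F4.Dict.PlacesWire
import Fermat.Agent.F4.Dict.JApprox
import Fermat.Agent.F4.Dict.JHensel
import Fermat.Agent.F4.Dict.KappaPres
import Fermat.Agent.F4.Dict.CapitLevel
import Fermat.Agent.F4.Dict.Div
import Fermat.Agent.F4.Dict.DivNorm
import Fermat.Agent.F4.Dict.SecondAlg
import Fermat.Agent.F4.Dict.SecondIdeal
import Fermat.Agent.F4.Glob.RayBridge
import Fermat.Agent.F4.Ray.Main

/-!
# F4 / Dict / Second : the second inequality for `C = J / E` (seat `dict_second`, helper74)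

`(U, V, σ)` a cyclic layer of degree `p` of `G_S`, `F ⊂ M` its fields.  If `a ∉ N C^V` and
`b - k a ∉ N C^V` for all `k`, there is a surjection `ψ : C^U → 𝔽_p × 𝔽_p` killing the norms
(`SecondAlg.lean`).  Then `Ψ = ψ ∘ CMk ∘ diagJ : T_U → 𝔽_p × 𝔽_p` is surjective (K1 + weak
approximation K3i + Hensel K3ii), kills the units, the `p`-th powers, the ray (K3iii) and the norms
from `T_V` (`KForm.exists_Psi`).  The class map `cls I = Ψ (t_I) / m_F`, `t_I` of divisor `I ^ m_F`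
(`p`-capitulation K2ii), is a generalised ideal class map of `F` killing the norms of the ideals
of `M` (`DivNorm.lean`), so `p ^ 2 ≤ p` by `F4Ray.secondIneqRay`.

* `KForm.exists_Psi` : the `J`-side, abstract form;
* `LayerS.sec_main` : the ideal side;
* `dict_second_pf` : the second inequality.
-/

set_option autoImplicit false
set_option synthInstance.maxHeartbeats 400000
set_option linter.unusedSectionVars false
set_option linter.style.haveILetI false
set_option linter.unusedVariables false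

open CategoryTheory groupCohomology ExtCitation
open scoped Pointwise nonZeroDivisors
open NumberField IsDedekindDomain

namespace Fermat.Agent.F4

open Fermat.Agent.F4Cf

/-! ### Arithmetic in a group killed by `p` -/

lemma sec_nsmul_eq_of_modEq {A : Type*} [AddCommGroup A] {p : ℕ} (hA : ∀ z : A, p • z = 0)
    {a b : ℕ} (h : a ≡ b [MOD p]) (z : A) : a • z = b • z := by
  have key : ∀ n : ℕ, n • z = (n % p) • z := by
    intro n
    conv_lhs => rw [← Nat.mod_add_div n p]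
    rw [add_smul, mul_smul, hA, add_zero]
  rw [key a, key b, h]

lemma sec_eq_zero_of_nsmul {A : Type*} [AddCommGroup A] {p : ℕ} (hp : p.Prime)
    (hA : ∀ z : A, p • z = 0) {n : ℕ} (hn : ¬ p ∣ n) {z : A} (h : n • z = 0) : z = 0 := by
  have hcop : Nat.Coprime n p := ((Nat.Prime.coprime_iff_not_dvd hp).2 hn).symm
  obtain ⟨n', -, hn'⟩ := Nat.exists_mul_mod_eq_one_of_coprime hcop hp.one_lt
  have h1 : (n * n') • z = 1 • z := by
    refine sec_nsmul_eq_of_modEq hA ?_ z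
    show n * n' % p = 1 % p
    rw [hn', Nat.mod_eq_of_lt hp.one_lt]
  rw [one_smul, mul_comm, mul_smul, h, smul_zero] at h1
  exact h1.symm

/-! ### Multiplicities -/

lemma sec_mult_mul {R : Type*} [CommRing R] [IsDedekindDomain R] (v : HeightOneSpectrum R)
    {I J : Ideal R} (hI : I ≠ ⊥) (hJ : J ≠ ⊥) :
    multiplicity v.asIdeal (I * J) = multiplicity v.asIdeal I + multiplicity v.asIdeal J := by
  have hIJ : I * J ≠ 0 := mul_ne_zero hI hJ
  exact multiplicity_mul v.prime (FiniteMultiplicity.of_prime_left v.prime hIJ)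

variable {S : Finset Nat.Primes}

namespace OpenS

variable (L : OpenS S)

/-- The divisor of `a ∈ 𝓞 F`, `a ≠ 0`, is the divisor of the ideal `(a)`. -/
lemma sec_isDivS_span (a : 𝓞 L.field) (ha : a ≠ 0) (f : (L.field)ˣ)
    (hf : (f : L.field) = algebraMap (𝓞 L.field) L.field a) :
    L.IsDivS (L.toQS f)
      (fun v => ((multiplicity v.asIdeal (Ideal.span {a}) : ℕ) : ℤ)) := by
  have h := L.capit_isDivS_toQS f
  have hI : Ideal.span {a} ≠ (⊥ : Ideal (𝓞 L.field)) := by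
    rw [Ne, Ideal.span_singleton_eq_bot]
    exact ha
  have e : (fun v : HeightOneSpectrum (𝓞 L.field) =>
      -(WithZero.log (v.valuation L.field (f : L.field)))) =
      (fun v => ((multiplicity v.asIdeal (Ideal.span {a}) : ℕ) : ℤ)) := by
    funext v
    have := capit_valuation_generator L.field v (Ideal.span {a}) hI 1 a ha (pow_one _)
    rw [one_mul] at this
    rw [hf]
    exact this
  rw [e] at h
  exact h

/-- There is a prime of `F` over `S` when `S` is nonempty. -/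
lemma sec_T_nonempty (hS : S.Nonempty) : L.T.Nonempty := by
  obtain ⟨q, hq⟩ := hS
  obtain ⟨A, hA⟩ := Fermat.Agent.FrobExists.exists_valuationSubring_liesOver (q : ℕ) q.2
  refine ⟨L.primeBelowAt q A hA, ?_⟩
  rw [L.mem_T]
  exact ⟨q, hq, Fermat.Agent.KFin.natCast_mem_primeBelow L.field A q hA⟩

/-- An ideal which is contained in no prime over `S` is prime to the modulus. -/
lemma sec_sup_rbMod (k : ℕ) {I : Ideal (𝓞 L.field)} (h : ∀ v ∈ L.T, ¬ I ≤ v.asIdeal) :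
    I ⊔ F4G.rbMod L.field L.T k = ⊤ := by
  unfold F4G.rbMod
  refine Ideal.sup_prod_eq_top fun v hv => Ideal.sup_pow_eq_top ?_
  by_contra hne
  have hmax : v.asIdeal.IsMaximal := v.isMaximal
  have := hmax.eq_of_le hne le_sup_right
  exact h v hv (this ▸ le_sup_left)

end OpenS


namespace LayerS

variable {p : ℕ} [Fact p.Prime] (ℓ : LayerS p S)

/-- **The ideal side of the second inequality.**  A homomorphism `Ψ` from `T_U` onto a finite
group which kills the `S`-units, the `p`-th powers, the elements of `Fˣ` which are `≡ 1` modulo a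
power of the primes over `S`, and the norms from `T_V`, has at most `p` values. -/
theorem sec_main (hpS : pPrime p ∈ S) {A : Type} [AddCommGroup A] [Fintype A]
    (Ψ : ↥(ℓ.bot.TU) →+ A)
    (hE : ∀ (e : QSx S) (he : e ∈ sUnitsAdd S), Ψ ⟨e, ℓ.bot.sUnitsAdd_le_TU he⟩ = 0)
    (hA : ∀ z : A, p • z = 0)
    (k' : ℕ) (hray : ∀ f : (ℓ.bot.field)ˣ,
      (∀ v ∈ ℓ.bot.T, f ∈ F4G.oneModSubgroup ℓ.bot.field v k') →
        Ψ ⟨ℓ.bot.toQS f, ℓ.bot.toQS_mem_TU f⟩ = 0)
    (hnorm : ∀ (t : QSx S) (ht : t ∈ ℓ.top.TU),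
      Ψ ⟨cnorm (QSx S) p ℓ.σ t, ℓ.cnorm_mem_bot_TU ht⟩ = 0)
    (hsurj : Function.Surjective Ψ) : Fintype.card A ≤ p := by
  classical
  have hp : p.Prime := Fact.out
  obtain ⟨mF, hmF, capF⟩ := ℓ.bot.capit (p := p) hpS
  obtain ⟨mM, hmM, capM⟩ := ℓ.top.capit (p := p) hpS
  have hcop : Nat.Coprime mF p := ((Nat.Prime.coprime_iff_not_dvd hp).2 hmF).symm
  obtain ⟨m', -, hm'⟩ := Nat.exists_mul_mod_eq_one_of_coprime hcop hp.one_lt
  have hmm : mF * m' ≡ 1 [MOD p] := by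
    show mF * m' % p = 1 % p
    rw [hm', Nat.mod_eq_of_lt hp.one_lt]
  -- choice of `t_I`
  have hex : ∀ I : Ideal (𝓞 ℓ.bot.field), ∃ t : ↥(ℓ.bot.TU), I ≠ ⊥ →
      ℓ.bot.IsDivS t.1 (fun v => ((mF * multiplicity v.asIdeal I : ℕ) : ℤ)) := by
    intro I
    by_cases hI : I = ⊥
    · exact ⟨0, fun h => absurd hI h⟩
    · obtain ⟨t, ht, hd⟩ := capF I hI
      exact ⟨⟨t, ht⟩, fun _ => hd⟩
  choose tF htF using hex
  -- same divisor, same value
  have key0 : ∀ (t t' : ↥(ℓ.bot.TU)) (d : HeightOneSpectrum (𝓞 ℓ.bot.field) → ℤ),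
      ℓ.bot.IsDivS t.1 d → ℓ.bot.IsDivS t'.1 d → Ψ t = Ψ t' := by
    intro t t' d h h'
    have h1 := h.sub_mem_sUnitsAdd h'
    have h2 := hE _ h1
    have e : (⟨t.1 - t'.1, ℓ.bot.sUnitsAdd_le_TU h1⟩ : ↥(ℓ.bot.TU)) = t - t' := Subtype.ext rfl
    rw [e, map_sub, sub_eq_zero] at h2
    exact h2
  -- the general comparison
  have key : ∀ (I : Ideal (𝓞 ℓ.bot.field)) (hI : I ≠ ⊥) (n : ℕ) (t : ↥(ℓ.bot.TU)),
      ℓ.bot.IsDivS t.1 (fun v => ((n * multiplicity v.asIdeal I : ℕ) : ℤ)) →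
      n • Ψ (tF I) = mF • Ψ t := by
    intro I hI n t ht
    have h1 : ℓ.bot.IsDivS (n • tF I).1
        (fun v => ((n * (mF * multiplicity v.asIdeal I) : ℕ) : ℤ)) := by
      have := (htF I hI).nsmul n
      refine this.congr fun q A hA hq => ?_
      simp only [Pi.smul_apply, nsmul_eq_mul]
      push_cast
      ring
    have h2 : ℓ.bot.IsDivS (mF • t).1
        (fun v => ((n * (mF * multiplicity v.asIdeal I) : ℕ) : ℤ)) := by
      have := ht.nsmul mF
      refine this.congr fun q A hA hq => ?_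
      simp only [Pi.smul_apply, nsmul_eq_mul]
      push_cast
      ring
    have h3 := key0 _ _ _ h1 h2
    rw [map_nsmul, map_nsmul] at h3
    exact h3
  -- the class map
  let cls : Ideal (𝓞 ℓ.bot.field) → Multiplicative A :=
    fun I => Multiplicative.ofAdd (m' • Ψ (tF I))
  have key1 : ∀ (I : Ideal (𝓞 ℓ.bot.field)) (hI : I ≠ ⊥) (t : ↥(ℓ.bot.TU)),
      ℓ.bot.IsDivS t.1 (fun v => ((multiplicity v.asIdeal I : ℕ) : ℤ)) →
      cls I = Multiplicative.ofAdd (Ψ t) := by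
    intro I hI t ht
    have h1 : ℓ.bot.IsDivS t.1 (fun v => ((1 * multiplicity v.asIdeal I : ℕ) : ℤ)) := by
      simpa only [one_mul] using ht
    have h2 := key I hI 1 t h1
    rw [one_smul] at h2
    show Multiplicative.ofAdd (m' • Ψ (tF I)) = _
    rw [h2, ← mul_smul, mul_comm, sec_nsmul_eq_of_modEq hA hmm, one_smul]
  have hTne : ℓ.bot.T.Nonempty := ℓ.bot.sec_T_nonempty ⟨_, hpS⟩
  have hne_bot : ∀ I : Ideal (𝓞 ℓ.bot.field), I ⊔ F4G.rbMod ℓ.bot.field ℓ.bot.T k' = ⊤ →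
      I ≠ ⊥ := by
    rintro I h rfl
    rw [bot_sup_eq] at h
    exact F4G.rbMod_ne_top k' hTne h
  have hray' : F4Ray.RayClassMap ℓ.bot.field (F4G.rbMod ℓ.bot.field ℓ.bot.T k')
      (Multiplicative A) cls := by
    refine ⟨F4G.rbMod_ne_bot _ _, ?_, ?_, ?_⟩
    · -- multiplicativity
      intro I J hI hJ
      have hI0 := hne_bot I hI
      have hJ0 := hne_bot J hJ
      have hIJ0 : I * J ≠ ⊥ := mul_ne_zero hI0 hJ0
      have h1 : ℓ.bot.IsDivS (tF I + tF J).1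
          (fun v => ((mF * multiplicity v.asIdeal (I * J) : ℕ) : ℤ)) := by
        have := (htF I hI0).add (htF J hJ0)
        refine this.congr fun q A hA hq => ?_
        simp only [Pi.add_apply]
        rw [sec_mult_mul _ hI0 hJ0]
        push_cast
        ring
      have h2 := key0 _ _ _ (htF (I * J) hIJ0) h1
      show Multiplicative.ofAdd (m' • Ψ (tF (I * J))) =
        Multiplicative.ofAdd (m' • Ψ (tF I)) * Multiplicative.ofAdd (m' • Ψ (tF J))
      rw [h2, map_add, smul_add]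
      rfl
    · -- the ray
      intro a ha ha1
      have haF : (algebraMap (𝓞 ℓ.bot.field) ℓ.bot.field a) ≠ 0 := by
        intro h
        exact ha ((map_eq_zero_iff _ (IsFractionRing.injective _ _)).1 h)
      have hI : Ideal.span {a} ≠ (⊥ : Ideal (𝓞 ℓ.bot.field)) := by
        rw [Ne, Ideal.span_singleton_eq_bot]
        exact ha
      have h1 := ℓ.bot.sec_isDivS_span a ha (Units.mk0 _ haF) rfl
      rw [key1 _ hI ⟨_, ℓ.bot.toQS_mem_TU _⟩ h1]
      have h2 := hray (Units.mk0 _ haF) (fun v hv => F4G.rb_mem_oneModSubgroup k' ha ha1 hv)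
      rw [h2]
      rfl
    · -- surjectivity
      intro g
      obtain ⟨s, hs⟩ := hsurj (Multiplicative.toAdd g)
      obtain ⟨n, I, hI0, hIT, hd⟩ := ℓ.bot.exists_ideal_isDivS p hp.pos s.1 s.2
      refine ⟨I, hI0, ℓ.bot.sec_sup_rbMod k' hIT, ?_⟩
      have hmem : s.1 + p • ℓ.bot.toQS n ∈ ℓ.bot.TU :=
        ℓ.bot.TU.add_mem s.2 (ℓ.bot.TU.nsmul_mem (ℓ.bot.toQS_mem_TU n) p)
      rw [key1 I hI0 ⟨_, hmem⟩ hd]
      have e : (⟨s.1 + p • ℓ.bot.toQS n, hmem⟩ : ↥(ℓ.bot.TU)) =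
          s + p • ⟨ℓ.bot.toQS n, ℓ.bot.toQS_mem_TU n⟩ := Subtype.ext rfl
      rw [e, map_add, map_nsmul, hA, add_zero, hs]
      rfl
  have hkill : ∀ 𝔄 : Ideal (𝓞 ℓ.top.field), 𝔄 ≠ ⊥ →
      Ideal.relNorm (𝓞 ℓ.bot.field) 𝔄 ⊔ F4G.rbMod ℓ.bot.field ℓ.bot.T k' = ⊤ →
      cls (Ideal.relNorm (𝓞 ℓ.bot.field) 𝔄) = 1 := by
    intro 𝔄 h𝔄 _
    obtain ⟨t', ht', hd'⟩ := capM 𝔄 h𝔄
    have h1 := ℓ.isDivS_bot_cnorm 𝔄 h𝔄 mM hd'
    have hrel0 : Ideal.relNorm (𝓞 ℓ.bot.field) 𝔄 ≠ ⊥ := by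
      rwa [Ne, Ideal.relNorm_eq_bot_iff]
    have h2 := key _ hrel0 mM ⟨_, ℓ.cnorm_mem_bot_TU ht'⟩ h1
    rw [hnorm t' ht', smul_zero] at h2
    have h3 := sec_eq_zero_of_nsmul hp hA hmM h2
    show Multiplicative.ofAdd (m' • Ψ (tF _)) = 1
    rw [h3, smul_zero]
    rfl
  have hfin := Fermat.Agent.F4Ray.secondIneqRay ℓ.bot.field ℓ.top.field
    (F4G.rbMod ℓ.bot.field ℓ.bot.T k') (Multiplicative A) cls hray' hkill
  rw [ℓ.finrank_eq, Fintype.card_multiplicative] at hfin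
  exact hfin

end LayerS

namespace KForm

variable {G : Type} [Group G] (K : KForm G)

/-- `pr (d t) ∈ C^U` for `t ∈ T_U`. -/
lemma fix_d {U : Subgroup G} {t : K.Q} (ht : t ∈ K.TU U) : Fix K.C U (K.pr (K.d t)) := by
  have h := K.fix (K.JU U).zero_mem ht
  rwa [zero_add] at h

/-- The class map `T_U → C^U`, `t ↦ pr (d t)`. -/
def clU (U : Subgroup G) : ↥(K.TU U) →+ ↥(cfFixSub K.C U) where
  toFun t := ⟨K.pr (K.d t.1), K.fix_d t.2⟩
  map_zero' := Subtype.ext (by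
    show K.pr (K.d 0) = 0
    rw [K.d_zero, K.pr_zero])
  map_add' := fun t t' => Subtype.ext (by
    show K.pr (K.d (t.1 + t'.1)) = K.pr (K.d t.1) + K.pr (K.d t'.1)
    rw [K.d_add, K.pr_add])

@[simp] lemma coe_clU {U : Subgroup G} (t : ↥(K.TU U)) :
    ((K.clU U t : ↥(cfFixSub K.C U)) : K.C) = K.pr (K.d t.1) := rfl

/-- **The `J`-side of the second inequality** (abstract form).  From a surjection `ψ` of `C^U`
killing the norms, the presentation `C^U = pr (J^U + d (T_U))` and the approximation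
`J^U = d (Q^U) + p • J^U`, one gets a surjection `Ψ = ψ ∘ pr ∘ d` of `T_U` killing the units, the
elements of `Q^U` which are `p`-th powers in `J^U`, and the norms from `T_V`. -/
theorem exists_Psi (p : ℕ) [Fact p.Prime] {U V : Subgroup G} {σ : G} (hc : IsCyc p U V σ)
    {A : Type} [AddCommGroup A] (ψ : ↥(cfFixSub K.C U) →+ A) (hψs : Function.Surjective ψ)
    (hψN : ∀ (y : K.C) (hy : Fix K.C V y), ψ ⟨cnorm K.C p σ y, acf3_fix_cnorm hc hy⟩ = 0)
    (hpres : ∀ c : K.C, Fix K.C U c → ∃ x ∈ K.JU U, ∃ t ∈ K.TU U, c = K.pr (x + K.d t))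
    (happ : ∀ x ∈ K.JU U, ∃ f ∈ K.QU U, ∃ y ∈ K.JU U, x = K.d f + p • y) :
    (∀ z : A, p • z = 0) ∧ Function.Surjective (ψ.comp (K.clU U)) ∧
      (∀ (e : K.Q) (he : e ∈ K.E), ψ.comp (K.clU U) ⟨e, K.E_le_TU U he⟩ = 0) ∧
      (∀ (f : K.Q) (hf : f ∈ K.QU U), (∃ y ∈ K.JU U, K.d f = p • y) →
        ψ.comp (K.clU U) ⟨f, K.QU_le_TU U hf⟩ = 0) ∧
      (∀ (t : K.Q) (ht : t ∈ K.TU V) (h : cnorm K.Q p σ t ∈ K.TU U),
        ψ.comp (K.clU U) ⟨cnorm K.Q p σ t, h⟩ = 0) := by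
  -- `A` is killed by `p`
  have hA : ∀ z : A, p • z = 0 := by
    intro z
    obtain ⟨c, rfl⟩ := hψs z
    rw [← map_nsmul]
    have hcV : Fix K.C V (c : K.C) := fun g hg => c.2 g (hc.le hg)
    have e : p • c = ⟨cnorm K.C p σ (c : K.C), acf3_fix_cnorm hc hcV⟩ := by
      apply Subtype.ext
      rw [AddSubgroup.coe_nsmul]
      exact (sl1_cnorm_of_fix K.C p hc.mem c.2).symm
    rw [e]
    exact hψN _ hcV
  -- classes of the elements of `J^U`
  have hJ : ∀ y ∈ K.JU U, Fix K.C U (K.pr y) := by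
    intro y hy g hg
    rw [← K.pr_comm, hy g hg]
  refine ⟨hA, ?_, ?_, ?_, ?_⟩
  · -- surjectivity
    intro z
    obtain ⟨c, rfl⟩ := hψs z
    obtain ⟨x, hx, t, ht, hcx⟩ := hpres c.1 c.2
    obtain ⟨f, hf, y, hy, hxy⟩ := happ x hx
    have hft : f + t ∈ K.TU U := (K.TU U).add_mem (K.QU_le_TU U hf) ht
    refine ⟨⟨f + t, hft⟩, ?_⟩
    have e : c = K.clU U ⟨f + t, hft⟩ + p • ⟨K.pr y, hJ y hy⟩ := by
      apply Subtype.ext
      rw [AddSubgroup.coe_add, AddSubgroup.coe_nsmul, coe_clU, hcx, hxy, K.d_add, ← K.pr_nsmul,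
        ← K.pr_add]
      congr 1
      abel
    show ψ (K.clU U ⟨f + t, hft⟩) = ψ c
    rw [e, map_add, map_nsmul, hA, add_zero]
  · -- units
    intro e he
    have h0 : K.clU U ⟨e, K.E_le_TU U he⟩ = 0 := Subtype.ext (K.pr_d_of_mem he)
    show ψ (K.clU U ⟨e, K.E_le_TU U he⟩) = 0
    rw [h0, map_zero]
  · -- `p`-th powers
    rintro f hf ⟨y, hy, hfy⟩
    have h0 : K.clU U ⟨f, K.QU_le_TU U hf⟩ = p • ⟨K.pr y, hJ y hy⟩ := by
      apply Subtype.ext
      rw [AddSubgroup.coe_nsmul, coe_clU, hfy, K.pr_nsmul]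
    show ψ (K.clU U ⟨f, K.QU_le_TU U hf⟩) = 0
    rw [h0, map_nsmul, hA]
  · -- norms
    intro t ht h
    have hV : Fix K.C V (K.pr (K.d t)) := K.fix_d ht
    have h0 : K.clU U ⟨cnorm K.Q p σ t, h⟩ =
        ⟨cnorm K.C p σ (K.pr (K.d t)), acf3_fix_cnorm hc hV⟩ := by
      apply Subtype.ext
      rw [coe_clU]
      show K.pr (K.d (cnorm K.Q p σ t)) = cnorm K.C p σ (K.pr (K.d t))
      rw [K.cnorm_pr, K.cnorm_d]
    show ψ (K.clU U ⟨cnorm K.Q p σ t, h⟩) = 0
    rw [h0]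
    exact hψN _ hV

end KForm


/-! ### The second inequality -/

section Final

variable (p : ℕ) [Fact p.Prime] (S : Finset Nat.Primes)

/-- **Second inequality** for `C = J / E`. -/
theorem dict_second_pf (hpS : pPrime p ∈ S) (U V : Subgroup GQ) (σ : GQ)
    (hV : (levelsS S).IsOpen V) (hc : IsCyc p U V σ) (a b : Crep S)
    (ha : Fix (Crep S) U a) (hb : Fix (Crep S) U b) (hna : ¬ IsNormFrom (Crep S) p V σ a) :
    ∃ k : ℕ, IsNormFrom (Crep S) p V σ (b - k • a) := by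
  classical
  by_contra hcon
  rw [not_exists] at hcon
  have hp : p.Prime := Fact.out
  have hS : S.Nonempty := ⟨_, hpS⟩
  obtain ⟨ψ, hψs, hψN⟩ := exists_functional_of_not_second (Crep S) p U V σ hc a b ha hb hna hcon
  obtain ⟨k₀, hk₀⟩ := OpenS.exists_smul_of_nearOne S (p := p) hp.pos
  obtain ⟨k', hk'⟩ := (LayerS.ofCyc hV hc).bot.nearOne_diagJ_of_oneMod k₀
  have hpres : ∀ c : (kfS S hS).C, Fix (kfS S hS).C U c →
      ∃ x ∈ (kfS S hS).JU U, ∃ t ∈ (kfS S hS).TU U, c = (kfS S hS).pr (x + (kfS S hS).d t) :=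
    fun c hcU => kappa_pres S hS U (LayerS.ofCyc hV hc).bot.isOpen c hcU
  have happ : ∀ x ∈ (kfS S hS).JU U, ∃ f ∈ (kfS S hS).QU U, ∃ y ∈ (kfS S hS).JU U,
      x = (kfS S hS).d f + p • y := by
    intro x hx
    obtain ⟨f, u, hu, hnear, hxu⟩ :=
      (LayerS.ofCyc hV hc).bot.jApprox_of (LayerS.ofCyc hV hc).bot.placesConj hx k₀
    obtain ⟨y, hy, huy⟩ := hk₀ (LayerS.ofCyc hV hc).bot u hu hnear
    refine ⟨(LayerS.ofCyc hV hc).bot.toQS f, (LayerS.ofCyc hV hc).bot.toQS_fixed f, y, hy, ?_⟩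
    rw [hxu, huy]
    rfl
  obtain ⟨hA, hΨs, hΨE, hΨp, hΨN⟩ := (kfS S hS).exists_Psi p hc ψ hψs hψN hpres happ
  have hcard := (LayerS.ofCyc hV hc).sec_main hpS (ψ.comp ((kfS S hS).clU U)) hΨE hA k'
    (fun f hf => by
      have h1 := hk' f hf
      obtain ⟨y, hy, hfy⟩ := hk₀ (LayerS.ofCyc hV hc).bot _
        (ja_diagJ_mem_JU (LayerS.ofCyc hV hc).bot f) h1
      exact hΨp _ ((LayerS.ofCyc hV hc).bot.toQS_fixed f) ⟨y, hy, hfy⟩)
    (fun t ht => hΨN t ht ((LayerS.ofCyc hV hc).cnorm_mem_bot_TU ht))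
    hΨs
  rw [Fintype.card_prod, ZMod.card] at hcard
  have h2 : p < p * p := by
    have := hp.one_lt
    nlinarith
  omega

end Final

end Fermat.Agent.F4
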