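import Fermat.Agent.F4.Dict.TwoNT

/-!
# F4 / Dict / Two : two distinct cyclic layers of degree `p` below `Gal(ℚ̄/ℚ(μ_p))` (seat TWO)

`dict_two_pf` : the statement of the stub `dict_two` of `F4/Cf/Dict.lean`
(`U0 p = MonoidHom.ker (cycloChar p)`).

Proof (Kummer theory, `F = ℚ̄^U ⊇ ℚ(μ_p)` a number field inside `ℚ_S`, `p ∈ S`):
* `ζ ∈ μ_{p^∞}(F)`, not a `p`-th power in `F` (`two_exists_zeta`);
* `y ∈ F` with `p = ω y ^ p ^ n`, `y ∉ μ_{p^∞}(F) · F^p` (`two_exists_y`);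
* `α₁ ^ p = ζ`, `α₂ ^ p = y`: the layers `{g ∈ U | g α_i = α_i}` are cyclic of degree `p`
  (`two_isCyc`), open in `G_S` (`ζ`, `y` are `S`-units of `ℚ_S`: `dk1_root_sUnit`), and distinct
  (`two_eq_of_stab_eq`).
-/

set_option autoImplicit false

open CategoryTheory groupCohomology ExtCitation

namespace Fermat.Agent.F4Cf

open Fermat.Agent.F4

variable (p : ℕ) [Fact p.Prime] (S : Finset Nat.Primes)

/-- A natural number prime to `q` is a unit at every valuation subring over `q`. -/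
lemma two_isUnitAt_natCast {q : ℕ} (hq : q.Prime) (hpq : p ≠ q)
    (A : ValuationSubring (AlgebraicClosure ℚ)) (hA : A.LiesOverPrime q) :
    IsUnitAt A (p : AlgebraicClosure ℚ) := by
  have hp : p.Prime := Fact.out
  have hp0 : (p : AlgebraicClosure ℚ) ≠ 0 := Nat.cast_ne_zero.2 hp.ne_zero
  have hle : A.valuation (p : AlgebraicClosure ℚ) ≤ 1 :=
    (A.valuation_le_one_iff _).2 (natCast_mem A p)
  suffices hv1 : A.valuation (p : AlgebraicClosure ℚ) = 1 by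
    refine ⟨natCast_mem A p, ?_⟩
    rw [← A.valuation_le_one_iff, map_inv₀, hv1, inv_one]
  refine le_antisymm hle (not_lt.1 fun hlt => ?_)
  -- `1 = a p + b q` would be a non-unit
  have hcop : IsCoprime (p : ℤ) (q : ℤ) := by
    rw [Int.isCoprime_iff_gcd_eq_one]
    exact (Nat.coprime_primes hp hq).2 hpq
  obtain ⟨a, b, hab⟩ := hcop
  have hq1 : A.valuation (q : AlgebraicClosure ℚ) < 1 :=
    (ValuationSubring.mem_nonunits_iff A).1 hA
  have ha : A.valuation ((a : ℤ) : AlgebraicClosure ℚ) ≤ 1 :=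
    (A.valuation_le_one_iff _).2 (intCast_mem A a)
  have hb : A.valuation ((b : ℤ) : AlgebraicClosure ℚ) ≤ 1 :=
    (A.valuation_le_one_iff _).2 (intCast_mem A b)
  have h1 : A.valuation ((a : AlgebraicClosure ℚ) * p) < 1 := by
    rw [map_mul]
    exact mul_lt_one_of_nonneg_of_lt_one_right ha zero_le hlt
  have h2 : A.valuation ((b : AlgebraicClosure ℚ) * q) < 1 := by
    rw [map_mul]
    exact mul_lt_one_of_nonneg_of_lt_one_right hb zero_le hq1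
  have h3 : A.valuation ((a : AlgebraicClosure ℚ) * p + (b : AlgebraicClosure ℚ) * q) < 1 :=
    lt_of_le_of_lt (A.valuation.map_add _ _) (max_lt h1 h2)
  have h4 : ((a : AlgebraicClosure ℚ) * p + (b : AlgebraicClosure ℚ) * q) = 1 := by
    have := congrArg (fun z : ℤ => (z : AlgebraicClosure ℚ)) hab
    simpa using this
  rw [h4, map_one] at h3
  exact lt_irrefl _ h3

/-- `p` is an `S`-unit if `p ∈ S`. -/
lemma two_isSUnit_p (hpS : pPrime p ∈ S) : IsSUnit S (p : AlgebraicClosure ℚ) := by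
  intro q hq A hA
  refine two_isUnitAt_natCast p q.2 ?_ A hA
  rintro h
  apply hq
  have : pPrime p = q := Subtype.ext h
  rwa [← this]

/-- Roots of unity are `S`-units. -/
lemma two_isSUnit_root {ω : AlgebraicClosure ℚ} {k : ℕ} (hk : k ≠ 0) (h : ω ^ k = 1) :
    IsSUnit S ω := fun _ _ A _ =>
  dk1_isUnitAt_of_pow hk (by rw [h]; exact IsUnitAt.one A)

/-- The layer of a `p`-th root of an `S`-unit of `F` is open in `G_S`. -/
lemma two_stab_isOpen (hpS : pPrime p ∈ S) {U : Subgroup GQ} (hU : (levelsS S).IsOpen U)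
    {α : AlgebraicClosure ℚ} (hα : α ≠ 0) (hx : ∀ g ∈ U, g (α ^ p) = α ^ p)
    (hS : IsSUnit S (α ^ p)) : (levelsS S).IsOpen (two_stab U α) := by
  obtain ⟨W, hW, hle⟩ := hU
  have hu : Units.mk0 (α ^ p) (pow_ne_zero _ hα) ∈ smUnitsSub (levelsS S) galAct :=
    ⟨W, hW, fun v hv => hx v (hle hv)⟩
  have hw : (Units.mk0 α hα) ^ p = Units.mk0 (α ^ p) (pow_ne_zero _ hα) := by
    apply Units.ext
    simp
  obtain ⟨⟨V', hV', hfix⟩, -⟩ := dk1_root_sUnit S hpS _ _ hu hS hw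
  obtain ⟨X, hX, hXle⟩ := (levelsS S).directed W hW V' hV'
  exact ⟨X, hX, fun g hg => ⟨hle (hXle hg).1, hfix g (hXle hg).2⟩⟩

/-- **Kummer** (seat TWO; the statement of the stub `dict_two`, `U0 p = ker (cycloChar p)`):
a number field `F ⊇ ℚ(μ_p)` inside `ℚ_S` (`p ∈ S`) has two distinct cyclic extensions of
degree `p` inside `ℚ_S`. -/
theorem dict_two_pf (_hp2 : p ≠ 2) (hpS : pPrime p ∈ S) (U : Subgroup GQ)
    (hU : (levelsS S).IsOpen U) (hU0 : U ≤ MonoidHom.ker (cycloChar p)) :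
    ∃ (V V' : Subgroup GQ) (σ σ' : GQ), (levelsS S).IsOpen V ∧ (levelsS S).IsOpen V' ∧
      IsCyc p U V σ ∧ IsCyc p U V' σ' ∧ V ≠ V' := by
  have hp : p.Prime := Fact.out
  have hU' := hU
  obtain ⟨W, ⟨L₀, hL₀, -, rfl⟩, hle⟩ := hU'
  have : FiniteDimensional ℚ L₀ := hL₀.1
  have hμ := two_fix_mu hU0
  obtain ⟨ζ, m, hζm, hζfix, hζnp⟩ := two_exists_zeta L₀ hle hμ
  obtain ⟨y, ω, n, m', hyfix, hωfix, hωm, hpy, hynp⟩ := two_exists_y (p := p) L₀ hle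
  have hp0 : (p : AlgebraicClosure ℚ) ≠ 0 := Nat.cast_ne_zero.2 hp.ne_zero
  have hζ0 : ζ ≠ 0 := by
    rintro rfl
    rw [zero_pow (pow_ne_zero _ hp.ne_zero)] at hζm
    exact zero_ne_one hζm
  have hω0 : ω ≠ 0 := by
    rintro rfl
    rw [zero_mul] at hpy
    exact hp0 hpy
  have hy0 : y ≠ 0 := by
    rintro rfl
    rw [zero_pow (pow_ne_zero _ hp.ne_zero), mul_zero] at hpy
    exact hp0 hpy
  obtain ⟨α₁, hα₁⟩ := IsAlgClosed.exists_pow_nat_eq ζ hp.pos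
  obtain ⟨α₂, hα₂⟩ := IsAlgClosed.exists_pow_nat_eq y hp.pos
  have hα₁0 : α₁ ≠ 0 := by
    rintro rfl
    rw [zero_pow hp.ne_zero] at hα₁
    exact hζ0 hα₁.symm
  have hα₂0 : α₂ ≠ 0 := by
    rintro rfl
    rw [zero_pow hp.ne_zero] at hα₂
    exact hy0 hα₂.symm
  have hx₁ : ∀ g ∈ U, g (α₁ ^ p) = α₁ ^ p := fun g hg => by rw [hα₁]; exact hζfix g hg
  have hx₂ : ∀ g ∈ U, g (α₂ ^ p) = α₂ ^ p := fun g hg => by rw [hα₂]; exact hyfix g hg
  -- the two roots are moved by `U`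
  have hσ₁ : ∃ σ ∈ U, σ α₁ ≠ α₁ := by
    by_contra hcon
    push Not at hcon
    exact hζnp α₁ hcon hα₁
  have hσ₂ : ∃ σ ∈ U, σ α₂ ≠ α₂ := by
    by_contra hcon
    push Not at hcon
    refine hynp 1 α₂ 0 (fun g _ => map_one g) (one_pow _) hcon ?_
    rw [one_mul, hα₂]
  obtain ⟨σ₁, hσ₁U, hσ₁⟩ := hσ₁
  obtain ⟨σ₂, hσ₂U, hσ₂⟩ := hσ₂
  -- `S`-units
  have hSζ : IsSUnit S (α₁ ^ p) := by
    rw [hα₁]
    exact two_isSUnit_root S (pow_ne_zero _ hp.ne_zero) hζm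
  have hSy : IsSUnit S (α₂ ^ p) := by
    rw [hα₂]
    intro q hq A hA
    refine dk1_isUnitAt_of_pow (pow_ne_zero n hp.ne_zero) ?_
    have e : y ^ p ^ n = ω⁻¹ * (p : AlgebraicClosure ℚ) := by
      rw [hpy, ← mul_assoc, inv_mul_cancel₀ hω0, one_mul]
    rw [e]
    exact ((two_isSUnit_root S (pow_ne_zero _ hp.ne_zero) hωm).inv q hq A hA).mul
      (two_isSUnit_p p S hpS q hq A hA)
  refine ⟨two_stab U α₁, two_stab U α₂, σ₁, σ₂, two_stab_isOpen p S hpS hU hα₁0 hx₁ hSζ,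
    two_stab_isOpen p S hpS hU hα₂0 hx₂ hSy, two_isCyc hp hμ hα₁0 hx₁ hσ₁U hσ₁,
    two_isCyc hp hμ hα₂0 hx₂ hσ₂U hσ₂, fun heq => ?_⟩
  obtain ⟨b, β, hβ, hαβ⟩ := two_eq_of_stab_eq hp hμ hα₁0 hx₁ hα₂0 hx₂ heq hσ₁U hσ₁
  refine hynp (ζ ^ b) β m (fun g hg => by rw [map_pow, hζfix g hg]) ?_ hβ ?_
  · rw [← pow_mul, mul_comm, pow_mul, hζm, one_pow]
  · rw [← hα₂, hαβ, mul_pow, ← pow_mul, mul_comm b p, pow_mul, hα₁]

end Fermat.Agent.F4Cf
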