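import Fermat.Agent.F4.Dict.DivNorm
import Fermat.Agent.F4.Dict.DivFin
import Fermat.Agent.F4.Dict.DivTopBot

/-!
# F4 / Dict / InertDiv : seat INERT-DIV — at an inert prime the order of a norm is divisible by `p`
(helper31; statements by helper55)

`ℓ : LayerS p S` a cyclic layer `F = ℓ.bot.field ⊂ M = ℓ.top.field` of degree `p` inside `ℚ_S`,
`v ∉ T_F` a prime of `F` with only ONE prime of `M` above it (`hin`; e.g. `v` inert).

* `OpenS.primeBelow_inv_smul_of_mem` : for `g ∈ U` the primes of `F` below `g⁻¹ • A` and below `A`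
  coincide;
* `LayerS.primeBelowAt_pow_inv_smul` : if `v = A ∩ F` has only one prime of `M` above it, the
  primes of `M` below the conjugates `σ⁻ⁱ A` are all equal to `A ∩ M`;
* `LayerS.hasOrdAt_cnorm_of_inert`  : then the order of `N t` at `A` is `p * D (A ∩ M)`;
* `LayerS.dvd_of_inert`      : `p ∣ d v` for a divisor `d` of `N t` over `F`, `t ∈ T_V`;
* `LayerS.dvd_log_of_inert`  : `p ∣ ord_v f` for `f ∈ Fˣ` with `f - N t ∈ E` (the variant
  `dvd_ordV_of_inert` of the blueprint; `ord_v f = -(log (v f)) = F4Rec.ordV v f`).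
-/

set_option autoImplicit false
set_option synthInstance.maxHeartbeats 400000
set_option linter.unusedSectionVars false
set_option linter.style.haveILetI false
set_option linter.unusedVariables false

open CategoryTheory groupCohomology ExtCitation
open scoped Pointwise nonZeroDivisors
open NumberField IsDedekindDomain

namespace Fermat.Agent.F4

open Fermat.Agent.F4Cf

namespace OpenS

variable {S : Finset Nat.Primes} (L : OpenS S)

/-- For `g ∈ U` the primes of `F` below `g⁻¹ • A` and below `A` coincide. -/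
theorem primeBelow_inv_smul_of_mem (g : GQ) (hg : g ∈ L.U)
    (A : ValuationSubring (AlgebraicClosure ℚ)) :
    Fermat.Agent.KFin.primeBelow L.field (g⁻¹ • A) = Fermat.Agent.KFin.primeBelow L.field A := by
  ext x
  rw [Fermat.Agent.KFin.mem_primeBelow_iff, Fermat.Agent.KFin.mem_primeBelow_iff]
  have hx : (((x : 𝓞 L.field) : L.field) : AlgebraicClosure ℚ) ∈ L.field :=
    ((x : 𝓞 L.field) : L.field).2
  constructor
  · intro h1
    have := Fermat.Agent.KFin.kf_smul_mem_nonunits (g⁻¹ • A) g h1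
    rw [smul_inv_smul] at this
    rwa [(L.mem_field_iff _).1 hx g hg] at this
  · intro h1
    have := Fermat.Agent.KFin.kf_smul_mem_nonunits A g⁻¹ h1
    rwa [(L.mem_field_iff _).1 hx g⁻¹ (L.U.inv_mem hg)] at this

end OpenS

namespace LayerS

variable {p : ℕ} {S : Finset Nat.Primes} (ℓ : LayerS p S)

/-- If the prime `A ∩ F` has only one prime of `M` above it, the primes of `M` below the
conjugates `σ⁻ⁱ A` are all equal to `A ∩ M`. -/
theorem primeBelowAt_pow_inv_smul (q : Nat.Primes)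
    (A : ValuationSubring (AlgebraicClosure ℚ)) (hA : A.LiesOverPrime (q : ℕ))
    (hin : ∀ Q Q' : Ideal (𝓞 ℓ.top.field), Q.IsPrime → Q'.IsPrime → Q ≠ ⊥ → Q' ≠ ⊥ →
       Q.under (𝓞 ℓ.bot.field) = Fermat.Agent.KFin.primeBelow ℓ.bot.field A →
       Q'.under (𝓞 ℓ.bot.field) = Fermat.Agent.KFin.primeBelow ℓ.bot.field A → Q' = Q)
    (i : ℕ) :
    ℓ.top.primeBelowAt q ((ℓ.σ ^ i)⁻¹ • A) (liesOverPrime_smul A _ q hA) =
      ℓ.top.primeBelowAt q A hA := by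
  have hmem : ℓ.σ ^ i ∈ ℓ.bot.U := ℓ.bot.U.pow_mem ℓ.cyc.mem i
  apply HeightOneSpectrum.ext
  refine hin _ _ (ℓ.top.primeBelowAt q A hA).isPrime
    (ℓ.top.primeBelowAt q ((ℓ.σ ^ i)⁻¹ • A) (liesOverPrime_smul A _ q hA)).isPrime
    (ℓ.top.primeBelowAt q A hA).ne_bot
    (ℓ.top.primeBelowAt q ((ℓ.σ ^ i)⁻¹ • A) (liesOverPrime_smul A _ q hA)).ne_bot ?_ ?_
  · rw [OpenS.primeBelowAt_asIdeal, ← ℓ.primeBelow_bot A]
  · rw [OpenS.primeBelowAt_asIdeal, ← ℓ.primeBelow_bot, ℓ.bot.primeBelow_inv_smul_of_mem _ hmem]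

/-- The order of `N t` at `A` when `A ∩ F` has only one prime of `M` above it. -/
theorem hasOrdAt_cnorm_of_inert {t : QSx S} {D : HeightOneSpectrum (𝓞 ℓ.top.field) → ℤ}
    (hD : ℓ.top.IsDivS t D) (q : Nat.Primes) (hq : q ∉ S)
    (A : ValuationSubring (AlgebraicClosure ℚ)) (hA : A.LiesOverPrime (q : ℕ))
    (hin : ∀ Q Q' : Ideal (𝓞 ℓ.top.field), Q.IsPrime → Q'.IsPrime → Q ≠ ⊥ → Q' ≠ ⊥ →
       Q.under (𝓞 ℓ.bot.field) = Fermat.Agent.KFin.primeBelow ℓ.bot.field A →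
       Q'.under (𝓞 ℓ.bot.field) = Fermat.Agent.KFin.primeBelow ℓ.bot.field A → Q' = Q) :
    HasOrdAt A q
      ((smUnits.val (cnorm (QSx S) p ℓ.σ t) : (AlgebraicClosure ℚ)ˣ) : AlgebraicClosure ℚ)
      ((p : ℤ) * D (ℓ.top.primeBelowAt q A hA)) := by
  have h1 := ℓ.hasOrdAt_cnorm hD q hq A hA
  have e : (∑ i ∈ Finset.range p,
      D (ℓ.top.primeBelowAt q ((ℓ.σ ^ i)⁻¹ • A) (liesOverPrime_smul A _ q hA))) =
      (p : ℤ) * D (ℓ.top.primeBelowAt q A hA) := by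
    rw [Finset.sum_congr rfl fun i _ =>
      congrArg D (ℓ.primeBelowAt_pow_inv_smul q A hA hin i)]
    rw [Finset.sum_const, Finset.card_range, nsmul_eq_mul]
  rw [← e]
  exact h1

/-- **INERT-DIV.**  If `v ∉ T_F` has only one prime of `M` above it, the divisor of a norm `N t`
(`t ∈ T_V`) is divisible by `p` at `v`. -/
theorem dvd_of_inert (ℓ : LayerS p S) [Fact p.Prime] {t : QSx S} (ht : t ∈ ℓ.top.TU)
    {d : HeightOneSpectrum (𝓞 ℓ.bot.field) → ℤ}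
    (hd : ℓ.bot.IsDivS (F4Cf.cnorm (QSx S) p ℓ.σ t) d)
    (v : HeightOneSpectrum (𝓞 ℓ.bot.field)) (hv : v ∉ ℓ.bot.T)
    (hin : ∀ Q Q' : Ideal (𝓞 ℓ.top.field), Q.IsPrime → Q'.IsPrime → Q ≠ ⊥ → Q' ≠ ⊥ →
       Q.under (𝓞 ℓ.bot.field) = v.asIdeal → Q'.under (𝓞 ℓ.bot.field) = v.asIdeal → Q' = Q) :
    (p : ℤ) ∣ d v := by
  obtain ⟨q, hq, A, hA, rfl⟩ := ℓ.bot.exists_primeBelowAt v hv
  obtain ⟨D, hD⟩ := ℓ.top.exists_isDivS t ht
  have h1 := ℓ.hasOrdAt_cnorm_of_inert hD q hq A hA hin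
  have h2 := hd q hq A hA (ℓ.bot.primeBelowAt q A hA) rfl
  have h3 := hasOrdAt_unique q.2 hA (Units.ne_zero _) h1 h2
  exact ⟨D (ℓ.top.primeBelowAt q A hA), h3.symm⟩

/-- **INERT-DIV, second form.**  If `v ∉ T_F` has only one prime of `M` above it and `f ∈ Fˣ`
differs from a norm `N t` (`t ∈ T_V`) by an `S`-unit, then `p ∣ ord_v f`
(`ord_v f = -(log (v f))`, `= F4Rec.ordV v f`). -/
theorem dvd_log_of_inert (ℓ : LayerS p S) [Fact p.Prime] {t : QSx S} (ht : t ∈ ℓ.top.TU)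
    (f : (ℓ.bot.field)ˣ)
    (hf : ℓ.bot.toQS f - F4Cf.cnorm (QSx S) p ℓ.σ t ∈ sUnitsAdd S)
    (v : HeightOneSpectrum (𝓞 ℓ.bot.field)) (hv : v ∉ ℓ.bot.T)
    (hin : ∀ Q Q' : Ideal (𝓞 ℓ.top.field), Q.IsPrime → Q'.IsPrime → Q ≠ ⊥ → Q' ≠ ⊥ →
       Q.under (𝓞 ℓ.bot.field) = v.asIdeal → Q'.under (𝓞 ℓ.bot.field) = v.asIdeal → Q' = Q) :
    (p : ℤ) ∣ -(WithZero.log (v.valuation ℓ.bot.field (f : ℓ.bot.field))) := by
  have h1 := ℓ.bot.capit_isDivS_toQS f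
  have h2 : ℓ.bot.IsDivS (F4Cf.cnorm (QSx S) p ℓ.σ t)
      (fun v => -(WithZero.log (v.valuation ℓ.bot.field (f : ℓ.bot.field)))) := by
    have h3 := OpenS.IsDivS.add_sUnit ℓ.bot h1 ((sUnitsAdd S).neg_mem hf)
    have e : ℓ.bot.toQS f + -(ℓ.bot.toQS f - F4Cf.cnorm (QSx S) p ℓ.σ t) =
        F4Cf.cnorm (QSx S) p ℓ.σ t := by abel
    rwa [e] at h3
  exact ℓ.dvd_of_inert ht h2 v hv hin

end LayerS

end Fermat.Agent.F4
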