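import Fermat.Agent.F4.Dict.KappaPres
import Fermat.Agent.F4.Dict.DivNorm
import Fermat.Agent.F4.Dict.DivFin
import Fermat.Agent.F4.Dict.LocNorm
import Fermat.Agent.F4.Recip.ArtinSym
import Fermat.Agent.F4.Recip.Distinct

/-!
# F4 / Dict / Artin : the derivation (DER) of `dict_first` / `dict_distinct` from reciprocity
(seat ART + DER, helper14)

`ℓ : LayerS p S` a cyclic layer `V ⊴ U` of degree `p`, `F = ℓ.bot.field ⊂ M = ℓ.top.field`,
`A` the Artin map of `M/F` (`F4Rec.artin_core`).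

* `KForm.norm_kernel` : (abstract K1 step) if `pr (d t) = N (pr (x' + d t'))`, `x' ∈ J^V`, then
  `f := ε - (t - N t')` is fixed by `U` and `d f = N (-x')`, for some `ε ∈ E`;
* `LayerS.der_core` : **(DER)** if `P ∉ T_F` is a prime with `A P ≠ 1`, and `t ∈ (ℚ_S)ˣ` has divisor
  `m • [P]` with `p ∤ m`, then `CMk (diagJ t)` is NOT a norm from `C^V`.

Inputs taken as hypotheses until they land: `LayerS.InertDiv` (seat INERT-DIV, helper31) and
`F4Rec.UnramOutside F M T_F` (seat UNR, helper49).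
-/

set_option autoImplicit false
set_option synthInstance.maxHeartbeats 400000
set_option linter.unusedSectionVars false
set_option linter.style.haveILetI false

open CategoryTheory groupCohomology ExtCitation
open scoped Pointwise
open NumberField IsDedekindDomain

namespace Fermat.Agent.F4

open Fermat.Agent.F4Cf Fermat.Agent.F4Rec

/-! ### The abstract step -/

namespace KForm

variable {G : Type} [Group G] (K : KForm G)

/-- **K1 for a norm equation**: if `pr (d t)` is the norm of `pr (x' + d t')`, `x' ∈ J^V`, then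
`ε - (t - N t')` lies in `Q^U` and maps to `N (-x')`, for some `ε ∈ E`. -/
theorem norm_kernel {p : ℕ} [Fact p.Prime] {U V : Subgroup G} {σ : G} (hc : IsCyc p U V σ)
    {t : K.Q}
    {x' : K.J} (hx' : x' ∈ K.JU V) {t' : K.Q}
    (h : K.pr (K.d t) = cnorm K.C p σ (K.pr (x' + K.d t'))) :
    ∃ ε ∈ K.E, ε - (t - cnorm K.Q p σ t') ∈ K.QU U ∧
      K.d (ε - (t - cnorm K.Q p σ t')) = cnorm K.J p σ (-x') := by
  rw [K.cnorm_pr, cnorm_add, K.cnorm_d] at h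
  have h' : K.pr (0 + K.d t) = K.pr (cnorm K.J p σ x' + K.d (cnorm K.Q p σ t')) := by
    rw [zero_add]
    exact h
  obtain ⟨ε, hε, he⟩ := K.pr_eq_iff.1 h'
  have he' : K.d (ε - (t - cnorm K.Q p σ t')) = cnorm K.J p σ (-x') := by
    rw [← he, cnorm_neg, zero_sub]
  refine ⟨ε, hε, ?_, he'⟩
  rw [← K.d_mem_JU_iff, he']
  exact acf3_fix_cnorm hc (fun g hg => by rw [map_neg, hx' g hg])

end KForm

/-! ### Multiplicities of primes -/

section Mult

variable {R : Type*} [CommRing R] [IsDedekindDomain R]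

lemma der_multiplicity_self (P : HeightOneSpectrum R) : multiplicity P.asIdeal P.asIdeal = 1 :=
  multiplicity_self

lemma der_multiplicity_ne {v P : HeightOneSpectrum R} (h : v ≠ P) :
    multiplicity v.asIdeal P.asIdeal = 0 := by
  apply multiplicity_eq_zero.mpr
  intro hdvd
  apply h
  have hle : P.asIdeal ≤ v.asIdeal := Ideal.le_of_dvd hdvd
  exact HeightOneSpectrum.ext (P.isMaximal.eq_of_le v.isPrime.ne_top hle).symm

end Mult

namespace LayerS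

variable {p : ℕ} [Fact p.Prime] {S : Finset Nat.Primes} (ℓ : LayerS p S)

/-- **(INERT-DIV)** the divisor of a norm is divisible by `p` at the inert primes. -/
def InertDiv : Prop :=
  ∀ (t : QSx S), t ∈ ℓ.top.TU → ∀ d : HeightOneSpectrum (𝓞 ℓ.bot.field) → ℤ,
    ℓ.bot.IsDivS (cnorm (QSx S) p ℓ.σ t) d →
    ∀ v : HeightOneSpectrum (𝓞 ℓ.bot.field), v ∉ ℓ.bot.T →
    (∀ Q Q' : Ideal (𝓞 ℓ.top.field), Q.IsPrime → Q'.IsPrime → Q ≠ ⊥ → Q' ≠ ⊥ →
      Q.under (𝓞 ℓ.bot.field) = v.asIdeal → Q'.under (𝓞 ℓ.bot.field) = v.asIdeal → Q' = Q) →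
    (p : ℤ) ∣ d v

/-- `T_F` is nonempty (`p ∈ S`). -/
lemma der_T_nonempty (L : OpenS S) (q : Nat.Primes) (hq : q ∈ S) : L.T.Nonempty :=
  ⟨_, L.primeOf_emb_mem_T_of_mem q hq 1⟩

/-- **(DER)** the class of a prime `P` with nontrivial Artin symbol is not a norm. -/
theorem der_core (hp2 : p ≠ 2) (hpS : pPrime p ∈ S) (hID : ℓ.InertDiv)
    (hunr : UnramOutside ℓ.bot.field ℓ.top.field ℓ.bot.T) :
    ∃ A : Ideal (𝓞 ℓ.bot.field) → (ℓ.top.field ≃ₐ[ℓ.bot.field] ℓ.top.field),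
      (∀ Q : Ideal (𝓞 ℓ.top.field), Q.IsPrime → Q ≠ ⊥ →
        IsFrobRel (A (Q.under (𝓞 ℓ.bot.field))) Q
          (Ideal.absNorm (Q.under (𝓞 ℓ.bot.field)))) ∧
      ∀ P : HeightOneSpectrum (𝓞 ℓ.bot.field), P ∉ ℓ.bot.T → A P.asIdeal ≠ 1 →
        ∀ (t : QSx S) (m : ℕ), ¬ p ∣ m →
          ℓ.bot.IsDivS t (fun v => ((m * multiplicity v.asIdeal P.asIdeal : ℕ) : ℤ)) →
          ¬ IsNormFrom (Crep S) p ℓ.top.U ℓ.σ (CMk S (diagJ S t)) := by
  classical
  have hp : p.Prime := Fact.out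
  have hS : S.Nonempty := ⟨_, hpS⟩
  obtain ⟨A, k₀, hfrob, hcore⟩ := artin_core p ℓ.bot.T hp hp2 ℓ.finrank_eq
    (der_T_nonempty ℓ.bot _ hpS) hunr
  refine ⟨A, hfrob, ?_⟩
  rintro P hP hAP t m hm hdiv ⟨c', hc'fix, hc'⟩
  -- K1 for `V`
  obtain ⟨x', hx', t', ht', rfl⟩ := kappa_pres S hS ℓ.top.U ℓ.top.isOpen c' hc'fix
  obtain ⟨ε, hε, hfU, hfd⟩ := (kfS S hS).norm_kernel ℓ.cyc hx' hc'
  obtain ⟨f, hf⟩ := ℓ.bot.exists_toQS_of_fixed _ hfU
  -- `f` is a local norm on `T_F`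
  have hx'n : -x' ∈ ℓ.top.JU := ℓ.top.JU.neg_mem hx'
  have hfd' : diagJ S (ℓ.bot.toQS f) = cnorm (Jrep S) p ℓ.σ (-x') := by
    rw [hf]
    exact hfd
  obtain ⟨y, hy⟩ := ℓ.exists_norm_oneMod hx'n f hfd' k₀
  have hloc : f ∈ Fermat.Agent.F4G.localNormsAt ℓ.bot.field ℓ.top.field ℓ.bot.T k₀ :=
    Fermat.Agent.F4G.mem_localNormsAt.mpr fun v hv =>
      Fermat.Agent.F4G.mem_localNormGroup.mpr ⟨y, hy v hv⟩
  -- divisors
  obtain ⟨dN, hdN⟩ := ℓ.bot.exists_isDivS _ (ℓ.cnorm_mem_bot_TU ht')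
  have hdf : ℓ.bot.IsDivS (ℓ.bot.toQS f)
      (0 - ((fun v => ((m * multiplicity v.asIdeal P.asIdeal : ℕ) : ℤ)) - dN)) := by
    rw [hf]
    exact (ℓ.bot.isDivS_of_mem_sUnitsAdd hε).sub (hdiv.sub hdN)
  have hord : ∀ v : HeightOneSpectrum (𝓞 ℓ.bot.field), v ∉ ℓ.bot.T →
      ordV v f = 0 - (((m * multiplicity v.asIdeal P.asIdeal : ℕ) : ℤ) - dN v) := by
    intro v hv
    obtain ⟨q, hq, B, hB, rfl⟩ := ℓ.bot.exists_primeBelowAt v hv
    exact OpenS.IsDivS.eq_of_primeBelow (ℓ.bot.capit_isDivS_toQS f) hdf q hq B hB _ rfl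
  -- inert primes
  have hinert : ∀ v : HeightOneSpectrum (𝓞 ℓ.bot.field), v ∉ ℓ.bot.T → A v.asIdeal ≠ 1 →
      (p : ℤ) ∣ dN v := by
    intro v hv hAv
    refine hID t' ht' dN hdN v hv fun Q Q' hQ hQ' hQ0 _ hQv hQ'v => ?_
    have hn : Ideal.absNorm v.asIdeal ≠ 0 := by
      rw [Ne, Ideal.absNorm_eq_zero_iff]
      exact v.ne_bot
    have hfr := hfrob Q hQ hQ0
    rw [hQv] at hfr
    exact artin_inert hp ℓ.finrank_eq hAv hn hQ hQ0 hQ' hfr (hQ'v.trans hQv.symm)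
  -- reciprocity
  have hfin := hcore f hloc P hP hAP (fun v hv hvP => by
    by_cases hAv : A v.asIdeal = 1
    · exact Or.inl hAv
    · right
      rw [hord v hv, der_multiplicity_ne hvP, Nat.mul_zero, Nat.cast_zero, zero_sub, zero_sub,
        neg_neg]
      exact hinert v hv hAv)
  rw [hord P hP, der_multiplicity_self, Nat.mul_one] at hfin
  have h1 := hinert P hP hAP
  have h2 : (p : ℤ) ∣ (m : ℤ) := by
    have h3 : (m : ℤ) = dN P - (0 - ((m : ℤ) - dN P)) := by ring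
    rw [h3]
    exact dvd_sub h1 hfin
  exact hm (Int.natCast_dvd_natCast.mp h2)

/-- **First inequality** for the layer `ℓ` (derivation): there is a class in `C^U` which is not
a norm from `C^V`, namely the class of a prime of `F` which is inert in `M`. -/
theorem first_of (hp2 : p ≠ 2) (hpS : pPrime p ∈ S) (hID : ℓ.InertDiv)
    (hunr : UnramOutside ℓ.bot.field ℓ.top.field ℓ.bot.T) :
    ∃ a : Crep S, Fix (Crep S) ℓ.bot.U a ∧ ¬ IsNormFrom (Crep S) p ℓ.top.U ℓ.σ a := by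
  classical
  have hp : p.Prime := Fact.out
  have hS : S.Nonempty := ⟨_, hpS⟩
  obtain ⟨A, hfrob, hder⟩ := ℓ.der_core hp2 hpS hID hunr
  -- an inert prime
  obtain ⟨Q, hQ, hQ0, -, -, -, hcop, hAQ⟩ := distinct_prime (F := ℓ.bot.field)
    (M := ℓ.bot.field) (M' := ℓ.top.field) (N := ℓ.top.field) hp ℓ.finrank_eq
    (fun g hg => AlgEquiv.ext fun y => hg y) ℓ.bot.T hunr ∅ A hfrob
  have hPp : (Q.under (𝓞 ℓ.bot.field)).IsPrime := Ideal.comap_isPrime _ _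
  have hP0 : Q.under (𝓞 ℓ.bot.field) ≠ ⊥ := Ideal.under_ne_bot (𝓞 ℓ.bot.field) hQ0
  have hPT : (⟨Q.under (𝓞 ℓ.bot.field), hPp, hP0⟩ : HeightOneSpectrum (𝓞 ℓ.bot.field)) ∉
      ℓ.bot.T := fun hmem => rg_ne_of_sup_eq_top le_rfl hPp.ne_top hcop _ hmem rfl
  obtain ⟨m, hm, hcap⟩ := ℓ.bot.capit (p := p) hpS
  obtain ⟨t, ht, htdiv⟩ := hcap (Q.under (𝓞 ℓ.bot.field)) hP0
  refine ⟨CMk S (diagJ S t), ?_, hder ⟨Q.under (𝓞 ℓ.bot.field), hPp, hP0⟩ hPT hAQ t m hm htdiv⟩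
  have h := kappa_fix S hS ℓ.bot.U (x := 0) (kpJU S hS ℓ.bot.U).zero_mem (t := t) ht
  have e : (0 : Jrep S) + diagJ S t = diagJ S t := zero_add _
  rw [e] at h
  exact h

end LayerS

/-- **`dict_first`** (derivation), modulo the inputs (INERT-DIV) and (UNR). -/
theorem dict_first_of {p : ℕ} [Fact p.Prime] {S : Finset Nat.Primes} (hp2 : p ≠ 2)
    (hpS : pPrime p ∈ S) (U V : Subgroup GQ) (σ : GQ) (hV : (levelsS S).IsOpen V)
    (hc : IsCyc p U V σ)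
    (hID : (LayerS.ofCyc hV hc).InertDiv)
    (hunr : UnramOutside (LayerS.ofCyc hV hc).bot.field (LayerS.ofCyc hV hc).top.field
      (LayerS.ofCyc hV hc).bot.T) :
    ∃ a : Crep S, Fix (Crep S) U a ∧ ¬ IsNormFrom (Crep S) p V σ a :=
  (LayerS.ofCyc hV hc).first_of hp2 hpS hID hunr

end Fermat.Agent.F4
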