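import Fermat.Agent.F4.Dict.Artin

/-!
# F4 / Dict / ArtinDistinct : the derivation of `dict_distinct` (seat ART + DER, helper14)

Two cyclic layers `V, V' ⊴ U` of degree `p`, `V ≠ V'`; `F ⊂ M, M'` their fields, `N = M M'` the
field of `V ⊓ V'`.  By `F4Rec.distinct_prime` there is a prime `Q` of `M` of degree one over `F`
such that the Artin symbol of `M'/F` at `P = Q ∩ F` is nontrivial; `y := cl_V(Q)` has norm
`cl_U(P)`, which is not a norm from `M'` (`LayerS.der_core`).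

* `isCyc_of_not_mem` : every element of `U \ V` generates `U / V`;
* `isCyc_not_le` : distinct layers are not comparable;
* `isCyc_inf` : `V ⊓ V' ⊴ V` is a cyclic layer of degree `p`;
* `LayerS.distinct_of`, `dict_distinct_of`.
-/

set_option autoImplicit false
set_option synthInstance.maxHeartbeats 400000
set_option linter.unusedSectionVars false
set_option linter.style.haveILetI false

open CategoryTheory groupCohomology ExtCitation
open scoped Pointwise
open NumberField IsDedekindDomain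

namespace Fermat.Agent.F4

open Fermat.Agent.F4Cf Fermat.Agent.F4Rec

/-! ### Group theory of cyclic layers -/

section Grp

variable {G : Type} [Group G] {p : ℕ}

/-- The quotient `U / V` of a cyclic layer has `p` elements. -/
lemma isCyc_card_quot (hp : p.Prime) {U V : Subgroup G} {σ : G} (hc : IsCyc p U V σ) :
    Nat.card (↥U ⧸ V.subgroupOf U) = p := by
  have h := isCyc_relIndex_eq hp hc
  unfold Subgroup.relIndex Subgroup.index at h
  exact h

lemma isCyc_normal_subgroupOf {U V : Subgroup G} {σ : G} (hc : IsCyc p U V σ) :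
    (V.subgroupOf U).Normal :=
  ⟨fun n hn g => hc.normal g.1 g.2 n.1 hn⟩

/-- Every element of `U \ V` generates `U / V`. -/
theorem isCyc_of_not_mem (hp : p.Prime) {U V : Subgroup G} {σ : G} (hc : IsCyc p U V σ)
    {τ : G} (hτ : τ ∈ U) (hτV : τ ∉ V) : IsCyc p U V τ := by
  have hpF : Fact p.Prime := ⟨hp⟩
  haveI := isCyc_normal_subgroupOf hc
  have hcard := isCyc_card_quot hp hc
  set x : ↥U ⧸ V.subgroupOf U := QuotientGroup.mk ⟨τ, hτ⟩ with hx
  have hx1 : x ≠ 1 := by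
    intro h
    apply hτV
    have := (QuotientGroup.eq_one_iff (N := V.subgroupOf U) (⟨τ, hτ⟩ : ↥U)).1 h
    exact this
  have hxp : x ^ p = 1 := by
    rw [← hcard]
    exact pow_card_eq_one'
  have hord : orderOf x = p := orderOf_eq_prime hxp hx1
  refine ⟨hc.le, hc.normal, hτ, hτV, ?_, ?_⟩
  · have h1 : (QuotientGroup.mk ((⟨τ, hτ⟩ : ↥U) ^ p) : ↥U ⧸ V.subgroupOf U) = 1 := by
      rw [QuotientGroup.mk_pow]
      exact hxp
    have := (QuotientGroup.eq_one_iff (N := V.subgroupOf U) ((⟨τ, hτ⟩ : ↥U) ^ p)).1 h1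
    rw [Subgroup.mem_subgroupOf, Subgroup.coe_pow] at this
    exact this
  · intro u hu
    have hmem : (QuotientGroup.mk ⟨u, hu⟩ : ↥U ⧸ V.subgroupOf U) ∈ Subgroup.zpowers x :=
      mem_zpowers_of_prime_card hcard hx1
    obtain ⟨k, hk⟩ := hmem
    have hk' : x ^ (k % (p : ℤ)) = QuotientGroup.mk ⟨u, hu⟩ := by
      have := zpow_mod_orderOf x k
      rw [hord] at this
      rw [this]
      exact hk
    have hp0 : (p : ℤ) ≠ 0 := by exact_mod_cast hp.ne_zero
    have hnn : 0 ≤ k % (p : ℤ) := Int.emod_nonneg k hp0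
    have hlt : k % (p : ℤ) < p := Int.emod_lt_of_pos k (by exact_mod_cast hp.pos)
    obtain ⟨i, hi⟩ := Int.eq_ofNat_of_zero_le hnn
    rw [hi, zpow_natCast] at hk'
    refine ⟨i, by omega, ?_⟩
    have h2 : (QuotientGroup.mk ((⟨τ, hτ⟩ : ↥U) ^ i) : ↥U ⧸ V.subgroupOf U) =
        QuotientGroup.mk ⟨u, hu⟩ := by
      rw [QuotientGroup.mk_pow]
      exact hk'
    have h3 := QuotientGroup.eq.1 h2
    rw [Subgroup.mem_subgroupOf] at h3
    simpa using h3

/-- Distinct cyclic layers of degree `p` of `U` are not comparable. -/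
theorem isCyc_not_le (hp : p.Prime) {U V V' : Subgroup G} {σ σ' : G} (hc : IsCyc p U V σ)
    (hc' : IsCyc p U V' σ') (hne : V ≠ V') : ¬ V ≤ V' := by
  intro hle
  apply hne
  refine le_antisymm hle ?_
  have h1 := Subgroup.relIndex_mul_relIndex V V' U hle hc'.le
  rw [isCyc_relIndex_eq hp hc', isCyc_relIndex_eq hp hc] at h1
  have h2 : V.relIndex V' = 1 := by
    have hp0 : 0 < p := hp.pos
    have : V.relIndex V' * p = 1 * p := by rw [h1, one_mul]
    exact Nat.eq_of_mul_eq_mul_right hp0 this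
  exact Subgroup.relIndex_eq_one.mp h2

/-- `V ⊓ V' ⊴ V` is a cyclic layer of degree `p`, generated by any `τ ∈ V \ V'`. -/
theorem isCyc_inf (hp : p.Prime) {U V V' : Subgroup G} {σ σ' : G} (hc : IsCyc p U V σ)
    (hc' : IsCyc p U V' σ') {τ : G} (hτ : τ ∈ V) (hτV : τ ∉ V') : IsCyc p V (V ⊓ V') τ := by
  have hc₂ := isCyc_of_not_mem hp hc' (hc.le hτ) hτV
  refine ⟨inf_le_left, ?_, hτ, fun h => hτV h.2, ?_, ?_⟩
  · intro u hu v hv
    exact ⟨V.mul_mem (V.mul_mem hu hv.1) (V.inv_mem hu), hc'.normal u (hc.le hu) v hv.2⟩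
  · exact ⟨V.pow_mem hτ p, hc₂.pow_mem⟩
  · intro u hu
    obtain ⟨i, hi, hmem⟩ := hc₂.gen u (hc.le hu)
    exact ⟨i, hi, V.mul_mem (V.inv_mem (V.pow_mem hτ i)) hu, hmem⟩

end Grp

/-- The intersection of two open subgroups is open. -/
lemma der_isOpen_inf {G : Type} [Group G] (𝓤 : Levels G) {V V' : Subgroup G}
    (hV : 𝓤.IsOpen V) (hV' : 𝓤.IsOpen V') : 𝓤.IsOpen (V ⊓ V') := by
  obtain ⟨W, hW, hWV⟩ := hV
  obtain ⟨W', hW', hWV'⟩ := hV'
  obtain ⟨W'', hW'', hle⟩ := 𝓤.directed W hW W' hW'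
  exact ⟨W'', hW'', hle.trans (inf_le_inf hWV hWV')⟩

namespace LayerS

variable {p : ℕ} [Fact p.Prime] {S : Finset Nat.Primes}

/-- **Reciprocity** (derivation): a cyclic layer `V ⊴ U` of degree `p` different from the layer
`ℓ'` (`V' ⊴ U`) contains a class `y ∈ C^V` whose norm is not a norm from `C^{V'}`. -/
theorem distinct_of (ℓ' : LayerS p S) (hp2 : p ≠ 2) (hpS : pPrime p ∈ S) (hID : ℓ'.InertDiv)
    (hunr : UnramOutside ℓ'.bot.field ℓ'.top.field ℓ'.bot.T)
    (V : OpenS S) (σ : GQ) (hc : IsCyc p ℓ'.bot.U V.U σ) (hne : V.U ≠ ℓ'.top.U) :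
    ∃ y : Crep S, Fix (Crep S) V.U y ∧
      ¬ IsNormFrom (Crep S) p ℓ'.top.U ℓ'.σ (cnorm (Crep S) p σ y) := by
  classical
  have hp : p.Prime := Fact.out
  have hS : S.Nonempty := ⟨_, hpS⟩
  -- the layers
  set ℓ : LayerS p S := ⟨ℓ'.bot, V, σ, hc⟩ with hℓ
  obtain ⟨σ₂, hσ₂V, hσ₂V'⟩ := SetLike.not_le_iff_exists.mp (isCyc_not_le hp hc ℓ'.cyc hne)
  have hc₂ : IsCyc p ℓ'.bot.U ℓ'.top.U σ₂ := isCyc_of_not_mem hp ℓ'.cyc (hc.le hσ₂V) hσ₂V'
  set W : OpenS S := ⟨V.U ⊓ ℓ'.top.U, der_isOpen_inf _ V.isOpen ℓ'.top.isOpen⟩ with hW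
  set ℓ₂ : LayerS p S := ⟨V, W, σ₂, isCyc_inf hp hc ℓ'.cyc hσ₂V hσ₂V'⟩ with hℓ₂
  have hM'N : ℓ'.top.field ≤ W.field := by
    intro x hx
    rw [OpenS.mem_field_iff] at hx ⊢
    exact fun g hg => hx g hg.2
  have hFN : ℓ'.bot.field ≤ W.field := ℓ'.field_le.trans hM'N
  letI instM'N : Algebra ℓ'.top.field W.field :=
    (IntermediateField.inclusion hM'N).toRingHom.toAlgebra
  letI instFN : Algebra ℓ'.bot.field W.field :=
    (IntermediateField.inclusion hFN).toRingHom.toAlgebra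
  letI instFM : Algebra ℓ'.bot.field V.field := ℓ.algebra
  letI instMN : Algebra V.field W.field := ℓ₂.algebra
  have towerFMN : @IsScalarTower ℓ'.bot.field V.field W.field ℓ.algebra.toSMul
      ℓ₂.algebra.toSMul instFN.toSMul :=
    @IsScalarTower.of_algebraMap_eq ℓ'.bot.field V.field W.field _ _ _ ℓ.algebra ℓ₂.algebra
      instFN (fun _ => rfl)
  have towerFM'N : @IsScalarTower ℓ'.bot.field ℓ'.top.field W.field ℓ'.algebra.toSMul
      instM'N.toSMul instFN.toSMul :=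
    @IsScalarTower.of_algebraMap_eq ℓ'.bot.field ℓ'.top.field W.field _ _ _ ℓ'.algebra instM'N
      instFN (fun _ => rfl)
  -- `N` is generated by `M'` over `M`
  have hgen : ∀ g : W.field ≃ₐ[V.field] W.field,
      (∀ y : ℓ'.top.field, g (algebraMap ℓ'.top.field W.field y) =
        algebraMap ℓ'.top.field W.field y) → g = 1 := by
    intro g hg
    obtain ⟨i, hi, rfl⟩ := ℓ₂.exists_gen_pow g
    have hmem : σ₂ ^ i ∈ ℓ'.top.U := by
      rw [← ℓ'.top.fixingSubgroup_field, IntermediateField.mem_fixingSubgroup_iff]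
      intro x hx
      have h1 := congrArg (fun z : W.field => (z : AlgebraicClosure ℚ)) (hg ⟨x, hx⟩)
      simp only [ℓ₂.coe_gen_pow] at h1
      exact h1
    have hi0 : i = 0 := by
      by_contra h0
      exact isCyc_pow_not_mem hp hc₂ i (Nat.pos_of_ne_zero h0) hi hmem
    rw [hi0, pow_zero]
  -- the Artin map of `M'/F` and a prime of degree one of `M`
  obtain ⟨A, hfrob, hder⟩ := ℓ'.der_core hp2 hpS hID hunr
  obtain ⟨Q, hQ, hQ0, -, -, hrel, hcop, hAQ⟩ :=
    @distinct_prime p ℓ'.bot.field V.field ℓ'.top.field W.field _ _ _ _ _ _ _ _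
      ℓ.algebra ℓ'.algebra instFN ℓ₂.algebra instM'N towerFMN towerFM'N ℓ'.isGalois ℓ₂.isGalois
      hp ℓ₂.finrank_eq hgen ℓ'.bot.T hunr ∅ A hfrob
  have hPp : (Q.under (𝓞 ℓ'.bot.field)).IsPrime := Ideal.comap_isPrime _ _
  have hP0 : Q.under (𝓞 ℓ'.bot.field) ≠ ⊥ := Ideal.under_ne_bot (𝓞 ℓ'.bot.field) hQ0
  have hPT : (⟨Q.under (𝓞 ℓ'.bot.field), hPp, hP0⟩ : HeightOneSpectrum (𝓞 ℓ'.bot.field)) ∉
      ℓ'.bot.T := fun hmem => rg_ne_of_sup_eq_top le_rfl hPp.ne_top hcop _ hmem rfl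
  -- the class of `Q`
  obtain ⟨m, hm, hcap⟩ := V.capit (p := p) hpS
  obtain ⟨s, hs, hsdiv⟩ := hcap Q hQ0
  have hN := ℓ.isDivS_bot_cnorm Q hQ0 m hsdiv
  rw [hrel] at hN
  have hnot := hder ⟨Q.under (𝓞 ℓ'.bot.field), hPp, hP0⟩ hPT hAQ _ m hm hN
  refine ⟨CMk S (diagJ S s), ?_, ?_⟩
  · have h := kappa_fix S hS V.U (x := 0) (kpJU S hS V.U).zero_mem (t := s) hs
    have e : (0 : Jrep S) + diagJ S s = diagJ S s := zero_add _
    rw [e] at h
    exact h
  · have e : cnorm (Crep S) p σ (CMk S (diagJ S s)) =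
        CMk S (diagJ S (cnorm (QSx S) p σ s)) := by
      have h1 := (kfS S hS).cnorm_pr p σ (diagJ S s)
      have h2 := (kfS S hS).cnorm_d p σ s
      exact h1.trans (congrArg (CMk S) h2)
    rw [e]
    exact hnot

end LayerS

/-- **`dict_distinct`** (derivation), modulo the inputs (INERT-DIV) and (UNR) for the layer
`(U, V', σ')`. -/
theorem dict_distinct_of {p : ℕ} [Fact p.Prime] {S : Finset Nat.Primes} (hp2 : p ≠ 2)
    (hpS : pPrime p ∈ S) (U V V' : Subgroup GQ) (σ σ' : GQ)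
    (hV : (levelsS S).IsOpen V) (hV' : (levelsS S).IsOpen V')
    (hc : IsCyc p U V σ) (hc' : IsCyc p U V' σ') (hne : V ≠ V')
    (hID : (LayerS.ofCyc hV' hc').InertDiv)
    (hunr : UnramOutside (LayerS.ofCyc hV' hc').bot.field (LayerS.ofCyc hV' hc').top.field
      (LayerS.ofCyc hV' hc').bot.T) :
    ∃ y : Crep S, Fix (Crep S) V y ∧ ¬ IsNormFrom (Crep S) p V' σ' (cnorm (Crep S) p σ y) :=
  (LayerS.ofCyc hV' hc').distinct_of hp2 hpS hID hunr ⟨V, hV⟩ σ hc hne

end Fermat.Agent.F4
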