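import Fermat.Agent.F4.Dict.ArtinDistinct
import Fermat.Agent.F4.Dict.InertDiv

/-!
# F4 / Dict / ArtinWire : `dict_first` and `dict_distinct`, modulo (UNR) only
(seat ART + DER, helper14)

* `LayerS.inertDiv` : the input (INERT-DIV) (helper31's `LayerS.dvd_of_inert`);
* `dict_first_unr`, `dict_distinct_unr` : the two statements of `F4/Cf/Dict.lean`, with the
  single hypothesis that the layer is unramified outside `T_F` (seat UNR).
-/

set_option autoImplicit false
set_option synthInstance.maxHeartbeats 400000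
set_option linter.unusedSectionVars false

open CategoryTheory groupCohomology ExtCitation
open NumberField IsDedekindDomain

namespace Fermat.Agent.F4

open Fermat.Agent.F4Cf Fermat.Agent.F4Rec

variable {p : ℕ} [Fact p.Prime] {S : Finset Nat.Primes}

/-- (INERT-DIV) holds. -/
theorem LayerS.inertDiv (ℓ : LayerS p S) : ℓ.InertDiv :=
  fun _ ht _ hd v hv hin => ℓ.dvd_of_inert ht hd v hv hin

/-- **`dict_first`**, modulo (UNR). -/
theorem dict_first_unr (hp2 : p ≠ 2) (hpS : pPrime p ∈ S) (U V : Subgroup GQ) (σ : GQ)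
    (hV : (levelsS S).IsOpen V) (hc : IsCyc p U V σ)
    (hunr : UnramOutside (LayerS.ofCyc hV hc).bot.field (LayerS.ofCyc hV hc).top.field
      (LayerS.ofCyc hV hc).bot.T) :
    ∃ a : Crep S, Fix (Crep S) U a ∧ ¬ IsNormFrom (Crep S) p V σ a :=
  dict_first_of hp2 hpS U V σ hV hc (LayerS.ofCyc hV hc).inertDiv hunr

/-- **`dict_distinct`**, modulo (UNR). -/
theorem dict_distinct_unr (hp2 : p ≠ 2) (hpS : pPrime p ∈ S) (U V V' : Subgroup GQ)
    (σ σ' : GQ) (hV : (levelsS S).IsOpen V) (hV' : (levelsS S).IsOpen V')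
    (hc : IsCyc p U V σ) (hc' : IsCyc p U V' σ') (hne : V ≠ V')
    (hunr : UnramOutside (LayerS.ofCyc hV' hc').bot.field (LayerS.ofCyc hV' hc').top.field
      (LayerS.ofCyc hV' hc').bot.T) :
    ∃ y : Crep S, Fix (Crep S) V y ∧ ¬ IsNormFrom (Crep S) p V' σ' (cnorm (Crep S) p σ y) :=
  dict_distinct_of hp2 hpS U V V' σ σ' hV hV' hc hc' hne (LayerS.ofCyc hV' hc').inertDiv hunr

end Fermat.Agent.F4
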