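import Fermat.Agent.F4.Dict.SUnits
import Fermat.Agent.Lib.KFin.Bridge

/-!
# F4 / Dict / Ord : orders of elements of `ℚ_S` at the places outside `S` (seat DK-ORD, helper74)

`ℚ_S/ℚ` is unramified outside `S`: for `A` over `q ∉ S` the value group of `A ∩ ℚ_S` is generated
by the value of `q`.  (`Lib/KFin/Bridge.lean`: `ramificationIdx_eq_one_of_inertia_le`.)

* `exists_hasOrdAt` : every `x ∈ (ℚ_S)ˣ` has an order at `A` over `q ∉ S`;
* `hasOrdAt_unique` : the order of `x ≠ 0` is unique (for `x = 0` every `n` is an order, since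
  `IsUnitAt A 0` holds);
* `HasOrdAt.mul`, `HasOrdAt.inv`, `HasOrdAt.map`, `isSUnit_iff_hasOrdAt_zero`.
-/

set_option autoImplicit false
set_option linter.unusedSectionVars false
set_option linter.style.haveILetI false
set_option linter.unusedVariables false

open CategoryTheory groupCohomology ExtCitation
open scoped Pointwise
open NumberField IsDedekindDomain

namespace Fermat.Agent.F4

theorem isUnitAt_iff_valuation_eq_one (A : ValuationSubring (AlgebraicClosure ℚ))
    {u : AlgebraicClosure ℚ} (hu : u ≠ 0) : IsUnitAt A u ↔ A.valuation u = 1 := by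
  have hv0 : 0 < A.valuation u := zero_lt_iff.mpr ((Valuation.ne_zero_iff _).mpr hu)
  unfold IsUnitAt
  rw [← ValuationSubring.valuation_le_one_iff, ← ValuationSubring.valuation_le_one_iff,
    map_inv₀, inv_le_one₀ hv0]
  exact ⟨fun h => le_antisymm h.1 h.2, fun h => ⟨h.le, h.ge⟩⟩

section Bridge

variable (F : IntermediateField ℚ (AlgebraicClosure ℚ)) [NumberField F]
  (A : ValuationSubring (AlgebraicClosure ℚ))

/-- Elements of `F` which are integral at the prime below `A` belong to `A`. -/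
theorem ord_mem_of_valuation_le_one (v : HeightOneSpectrum (𝓞 F))
    (hv : v.asIdeal = Fermat.Agent.KFin.primeBelow F A) (y : F)
    (hy : v.valuation F y ≤ 1) : ((y : F) : AlgebraicClosure ℚ) ∈ A := by
  obtain ⟨n, ⟨d, hd⟩, hnd⟩ := v.exists_primeCompl_mul_eq_of_integer y hy
  have hd' : d ∉ Fermat.Agent.KFin.primeBelow F A := by
    rw [← hv]
    exact hd
  rw [Fermat.Agent.KFin.mem_primeBelow_iff, ValuationSubring.mem_nonunits_iff_or, not_or,
    not_not] at hd'
  have hnA : (((n : F)) : AlgebraicClosure ℚ) ∈ A :=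
    Fermat.Agent.FrobExists.mem_valuationSubring_of_isIntegral A
      (n.isIntegral_coe.map (IsScalarTower.toAlgHom ℤ F (AlgebraicClosure ℚ)))
  have e : ((y : F) : AlgebraicClosure ℚ) =
      (((n : F)) : AlgebraicClosure ℚ) * (((d : F)) : AlgebraicClosure ℚ)⁻¹ := by
    rw [eq_mul_inv_iff_mul_eq₀ hd'.1]
    have := congrArg (fun z : F => (z : AlgebraicClosure ℚ)) hnd
    simpa using this
  rw [e]
  exact A.mul_mem _ _ hnA hd'.2

/-- Elements of `F` which are units at the prime below `A` are units of `A`. -/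
theorem ord_isUnitAt_of_valuation_eq_one (v : HeightOneSpectrum (𝓞 F))
    (hv : v.asIdeal = Fermat.Agent.KFin.primeBelow F A) (y : F)
    (hy : v.valuation F y = 1) : IsUnitAt A ((y : F) : AlgebraicClosure ℚ) := by
  refine ⟨ord_mem_of_valuation_le_one F A v hv y hy.le, ?_⟩
  have h := ord_mem_of_valuation_le_one F A v hv y⁻¹ (by rw [map_inv₀, hy, inv_one])
  simpa using h

/-- The valuation of `q` at an unramified prime above `q` is `exp (-1)`. -/
theorem ord_valuation_natCast (q : ℕ) (hq : q.Prime) (v : HeightOneSpectrum (𝓞 F))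
    (hqv : (q : 𝓞 F) ∈ v.asIdeal) (he : v.asIdeal.ramificationIdx ℤ = 1) :
    v.valuation F (q : F) = WithZero.exp (-1 : ℤ) := by
  have hqfact : Fact q.Prime := ⟨hq⟩
  have hpmax : (Ideal.span {(q : ℤ)}).IsMaximal := Int.ideal_span_isMaximal_of_prime q
  have hp0 : (Ideal.span {(q : ℤ)}) ≠ ⊥ := by
    rw [Ne, Ideal.span_singleton_eq_bot]
    exact_mod_cast hq.ne_zero
  let v₀ : HeightOneSpectrum ℤ := ⟨Ideal.span {(q : ℤ)}, hpmax.isPrime, hp0⟩
  haveI hlo : v.asIdeal.LiesOver v₀.asIdeal :=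
    Fermat.Agent.KFin.liesOver_span_of_natCast_mem q hq v.asIdeal hqv
  have h1 : v₀.asIdeal.ramificationIdx' v.asIdeal = 1 := by
    rw [Ideal.ramificationIdx'_eq_ramificationIdx _ v.asIdeal hp0]
    exact he
  have h2 := HeightOneSpectrum.valuation_liesOver (K := ℚ) F v₀ v (q : ℚ)
  rw [h1, pow_one] at h2
  have h3 : v₀.valuation ℚ (q : ℚ) = WithZero.exp (-1 : ℤ) := by
    have : (q : ℚ) = algebraMap ℤ ℚ (q : ℤ) := by simp
    rw [this, HeightOneSpectrum.valuation_of_algebraMap]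
    exact v₀.intValuation_singleton (by exact_mod_cast hq.ne_zero) rfl
  rw [h3] at h2
  rw [h2]
  simp

end Bridge

variable (S : Finset Nat.Primes)

/-- Existence of the order (seat DK-ORD). -/
theorem exists_hasOrdAt (x : (AlgebraicClosure ℚ)ˣ) (hx : x ∈ smUnitsSub (levelsS S) galAct)
    (q : Nat.Primes) (hq : q ∉ S) (A : ValuationSubring (AlgebraicClosure ℚ))
    (hA : A.LiesOverPrime (q : ℕ)) : ∃ n : ℤ, HasOrdAt A q (x : AlgebraicClosure ℚ) n := by
  have hgalQ := isGalois_Qbar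
  obtain ⟨F, hF, hst, hxF⟩ := (mem_smUnitsSub_levelsS_iff S x).mp hx
  haveI hfd : FiniteDimensional ℚ F := hF.1
  haveI hgal : IsGalois ℚ F :=
    (InfiniteGalois.normal_iff_isGalois F).mp hst.normal_fixingSubgroup
  haveI hnf : NumberField F :=
    { to_charZero := inferInstance, to_finiteDimensional := inferInstance }
  have hqP := Fermat.Agent.KFin.natCast_mem_primeBelow F A q hA
  have hP0 : Fermat.Agent.KFin.primeBelow F A ≠ ⊥ := by
    intro h0
    rw [h0, Ideal.mem_bot] at hqP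
    exact q.2.ne_zero (by exact_mod_cast hqP)
  let v : HeightOneSpectrum (𝓞 F) := ⟨Fermat.Agent.KFin.primeBelow F A, inferInstance, hP0⟩
  have he : v.asIdeal.ramificationIdx ℤ = 1 :=
    Fermat.Agent.KFin.ramificationIdx_eq_one_of_inertia_le F q q.2 (hF.2 q hq)
      (Fermat.Agent.KFin.primeBelow F A) hqP
  have hvq := ord_valuation_natCast F (q : ℕ) q.2 v hqP he
  set xF : F := ⟨(x : AlgebraicClosure ℚ), hxF⟩ with hxFdef
  have hxF0 : xF ≠ 0 := by
    intro h
    have := congrArg (fun z : F => (z : AlgebraicClosure ℚ)) h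
    exact x.ne_zero this
  have hvx0 : v.valuation F xF ≠ 0 := (Valuation.ne_zero_iff _).mpr hxF0
  refine ⟨-(WithZero.log (v.valuation F xF)), ?_⟩
  have hval : v.valuation F (xF * (q : F) ^ (-(-(WithZero.log (v.valuation F xF))))) = 1 := by
    rw [neg_neg, map_mul, map_zpow₀, hvq, ← WithZero.exp_zsmul]
    conv_lhs => rw [← WithZero.exp_log hvx0]
    rw [← WithZero.exp_add]
    simp
  have := ord_isUnitAt_of_valuation_eq_one F A v rfl _ hval
  unfold HasOrdAt
  have e : ((xF * (q : F) ^ (-(-(WithZero.log (v.valuation F xF)))) : F) : AlgebraicClosure ℚ) =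
      (x : AlgebraicClosure ℚ) * ((q : ℕ) : AlgebraicClosure ℚ) ^
        (-(-(WithZero.log (v.valuation F xF)))) := by
    have h1 : ∀ z : F, ((z : F) : AlgebraicClosure ℚ) = algebraMap F (AlgebraicClosure ℚ) z :=
      fun _ => rfl
    rw [h1, map_mul, map_zpow₀, map_natCast]
    rfl
  rw [← e]
  exact this

/-- Uniqueness of the order (seat DK-ORD); `x ≠ 0` is needed (`0` is a "unit" for `IsUnitAt`). -/
theorem hasOrdAt_unique {A : ValuationSubring (AlgebraicClosure ℚ)} {q : ℕ} (hq : q.Prime)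
    (hA : A.LiesOverPrime q) {x : AlgebraicClosure ℚ} (hx : x ≠ 0) {n m : ℤ}
    (hn : HasOrdAt A q x n) (hm : HasOrdAt A q x m) : n = m := by
  have hq0 : (q : AlgebraicClosure ℚ) ≠ 0 := by exact_mod_cast hq.ne_zero
  have hvq : A.valuation (q : AlgebraicClosure ℚ) < 1 :=
    (ValuationSubring.mem_nonunits_iff A).mp hA
  have hvq0 : 0 < A.valuation (q : AlgebraicClosure ℚ) :=
    zero_lt_iff.mpr ((Valuation.ne_zero_iff _).mpr hq0)
  unfold HasOrdAt at hn hm
  rw [isUnitAt_iff_valuation_eq_one A (mul_ne_zero hx (zpow_ne_zero _ hq0)), map_mul,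
    map_zpow₀] at hn hm
  have h1 : A.valuation (q : AlgebraicClosure ℚ) ^ (-n) =
      A.valuation (q : AlgebraicClosure ℚ) ^ (-m) := by
    have hx0 : A.valuation x ≠ 0 := (Valuation.ne_zero_iff _).mpr hx
    exact mul_left_cancel₀ hx0 (hn.trans hm.symm)
  have h2 := zpow_right_injective₀ hvq0 hvq.ne h1
  exact neg_injective h2

theorem HasOrdAt.mul {A : ValuationSubring (AlgebraicClosure ℚ)} {q : ℕ} (hq : q.Prime)
    {x y : AlgebraicClosure ℚ} {n m : ℤ}
    (hn : HasOrdAt A q x n) (hm : HasOrdAt A q y m) : HasOrdAt A q (x * y) (n + m) := by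
  have hq0 : (q : AlgebraicClosure ℚ) ≠ 0 := by exact_mod_cast hq.ne_zero
  unfold HasOrdAt at *
  have e : x * y * (q : AlgebraicClosure ℚ) ^ (-(n + m)) =
      (x * (q : AlgebraicClosure ℚ) ^ (-n)) * (y * (q : AlgebraicClosure ℚ) ^ (-m)) := by
    rw [neg_add, zpow_add₀ hq0]
    ring
  rw [e]
  exact IsUnitAt.mul hn hm

theorem HasOrdAt.inv {A : ValuationSubring (AlgebraicClosure ℚ)} {q : ℕ} (hq : q.Prime)
    {x : AlgebraicClosure ℚ} {n : ℤ} (hn : HasOrdAt A q x n) : HasOrdAt A q x⁻¹ (-n) := by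
  unfold HasOrdAt at *
  have e : x⁻¹ * (q : AlgebraicClosure ℚ) ^ (-(-n)) = (x * (q : AlgebraicClosure ℚ) ^ (-n))⁻¹ := by
    rw [mul_inv, zpow_neg, zpow_neg, inv_inv]
  rw [e]
  exact IsUnitAt.inv hn

theorem HasOrdAt.map {A : ValuationSubring (AlgebraicClosure ℚ)} {q : ℕ}
    {x : AlgebraicClosure ℚ} {n : ℤ} (σ : GQ) (hn : HasOrdAt A q x n) :
    HasOrdAt (σ • A) q (σ x) n := by
  unfold HasOrdAt at *
  have e : σ x * (q : AlgebraicClosure ℚ) ^ (-n) = σ (x * (q : AlgebraicClosure ℚ) ^ (-n)) := by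
    rw [map_mul, map_zpow₀, map_natCast]
  rw [e, isUnitAt_map_iff, inv_smul_smul]
  exact hn

/-- `x` is an `S`-unit iff all its orders outside `S` vanish. -/
theorem isSUnit_iff_hasOrdAt_zero (x : AlgebraicClosure ℚ) :
    IsSUnit S x ↔ ∀ q : Nat.Primes, q ∉ S → ∀ A : ValuationSubring (AlgebraicClosure ℚ),
      A.LiesOverPrime (q : ℕ) → HasOrdAt A q x 0 := by
  unfold IsSUnit HasOrdAt
  simp only [neg_zero, zpow_zero, mul_one]

end Fermat.Agent.F4
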