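import Fermat.Agent.F4.Dict.Kummer
import Fermat.Agent.F4.Dict.Ord

/-!
# F4 / Dict / Capit : `p`-capitulation of the ideals prime to `S` in `ℚ_S` (seat K2ii)

`p ∈ S`, `U` open in `G_S`, `F = ℚ̄^U` (a number field inside `ℚ_S`), `h = p ^ k * m` its class
number, `p ∤ m`.  For a nonzero ideal `I` of `𝓞 F`, `I ^ h = (x)`; a `p ^ k`-th root `t` of `x`
lies in `ℚ_S` (`root_mem_QS`), `(g - 1) t` is a root of unity for `g ∈ U`, and the order of `t` at
`A` over `q ∉ S` is `m * ord_v(I)`, `v` the prime of `F` below `A`: "`I ^ m = a_t`".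

* `capit_hasOrdAt` : bridge, the order at `A` of `y ∈ Fˣ` is its `v`-adic order (`F` need not
  be Galois over `ℚ`);
* `capit_root` : the root form (`x ∈ Fˣ` with all orders outside `S` divisible by `p ^ k`);
* `capit` : the ideal form.
-/

set_option autoImplicit false

open CategoryTheory groupCohomology ExtCitation
open scoped Pointwise nonZeroDivisors
open NumberField IsDedekindDomain

namespace Fermat.Agent.F4

/-! ### Bridge: orders at `A` and `v`-adic valuations, `F` not necessarily Galois -/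

section Bridge

variable (F : IntermediateField ℚ (AlgebraicClosure ℚ)) [NumberField F]
  (A : ValuationSubring (AlgebraicClosure ℚ))

/-- The valuation of `q` at the prime of `F` below `A` is `exp (-1)`, as soon as the elements of
`F` have an order at `A` (a multiple of the order of `q`). -/
theorem capit_valuation_natCast (q : ℕ) (hq : q.Prime) (hA : A.LiesOverPrime q)
    (v : HeightOneSpectrum (𝓞 F)) (hv : v.asIdeal = Fermat.Agent.KFin.primeBelow F A)
    (hord : ∀ y : F, y ≠ 0 → ∃ n : ℤ, HasOrdAt A q ((y : F) : AlgebraicClosure ℚ) n) :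
    v.valuation F (q : F) = WithZero.exp (-1 : ℤ) := by
  have hq0 : (q : F) ≠ 0 := Nat.cast_ne_zero.2 hq.ne_zero
  have hq0' : ((q : ℕ) : 𝓞 F) ≠ 0 := Nat.cast_ne_zero.2 hq.ne_zero
  have hqv : ((q : ℕ) : 𝓞 F) ∈ v.asIdeal := by
    rw [hv]
    exact Fermat.Agent.KFin.natCast_mem_primeBelow F A q hA
  -- `v(q) = exp (-e)`, `e ≥ 1`
  obtain ⟨e, he⟩ : ∃ e : ℕ, v.valuation F (q : F) = WithZero.exp (-(e : ℤ)) := by
    classical
    have h1 : (q : F) = algebraMap (𝓞 F) F ((q : ℕ) : 𝓞 F) := by simp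
    rw [h1, HeightOneSpectrum.valuation_of_algebraMap, v.intValuation_if_neg hq0']
    exact ⟨_, rfl⟩
  have he0 : e ≠ 0 := by
    rintro rfl
    have h1 : (q : F) = algebraMap (𝓞 F) F ((q : ℕ) : 𝓞 F) := by simp
    rw [h1, HeightOneSpectrum.valuation_of_algebraMap] at he
    have h2 := (v.intValuation_lt_one_iff_mem _).2 hqv
    rw [he] at h2
    simp at h2
  -- a uniformizer
  obtain ⟨π, hπ⟩ := v.valuation_exists_uniformizer F
  have hπ0 : π ≠ 0 := by
    rintro rfl
    rw [map_zero] at hπ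
    exact WithZero.exp_ne_zero.symm hπ
  have hz : v.valuation F (π ^ e * ((q : F))⁻¹) = 1 := by
    rw [map_mul, map_pow, map_inv₀, hπ, he, ← WithZero.exp_nsmul, ← WithZero.exp_neg,
      ← WithZero.exp_add]
    simp
  have hzu := ord_isUnitAt_of_valuation_eq_one F A v hv _ hz
  have h1 : HasOrdAt A q (((π ^ e : F) : F) : AlgebraicClosure ℚ) 1 := by
    unfold HasOrdAt
    have e1 : (((π ^ e * ((q : F))⁻¹ : F) : F) : AlgebraicClosure ℚ) =
        (((π ^ e : F) : F) : AlgebraicClosure ℚ) * ((q : ℕ) : AlgebraicClosure ℚ) ^ (-(1 : ℤ)) := by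
      have h1 : ∀ z : F, ((z : F) : AlgebraicClosure ℚ) = algebraMap F (AlgebraicClosure ℚ) z :=
        fun _ => rfl
      rw [h1, h1, map_mul, map_inv₀, map_natCast, zpow_neg, zpow_one]
    rw [← e1]
    exact hzu
  obtain ⟨j, hj⟩ := hord π hπ0
  have h2 : HasOrdAt A q (((π ^ e : F) : F) : AlgebraicClosure ℚ) ((e : ℤ) * j) := by
    unfold HasOrdAt at hj ⊢
    have e2 : (((π ^ e : F) : F) : AlgebraicClosure ℚ) *
        ((q : ℕ) : AlgebraicClosure ℚ) ^ (-((e : ℤ) * j)) =
        (((π : F) : AlgebraicClosure ℚ) * ((q : ℕ) : AlgebraicClosure ℚ) ^ (-j)) ^ e := by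
      rw [mul_pow, ← zpow_natCast (((q : ℕ) : AlgebraicClosure ℚ) ^ (-j)), ← zpow_mul]
      congr 2
      ring
    rw [e2]
    exact hj.pow e
  have hπe0 : (((π ^ e : F) : F) : AlgebraicClosure ℚ) ≠ 0 := by
    have : (π ^ e : F) ≠ 0 := pow_ne_zero _ hπ0
    exact fun h => this (Subtype.ext h)
  have h3 : (1 : ℤ) = (e : ℤ) * j := hasOrdAt_unique hq hA hπe0 h1 h2
  have h4 : (e : ℤ) = 1 :=
    Int.eq_one_of_dvd_one (Int.natCast_nonneg e) ⟨j, h3⟩
  rw [he, h4]

/-- The order at `A` of `y ∈ Fˣ` is its order at the prime of `F` below `A`. -/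
theorem capit_hasOrdAt (q : ℕ) (hq : q.Prime) (hA : A.LiesOverPrime q)
    (v : HeightOneSpectrum (𝓞 F)) (hv : v.asIdeal = Fermat.Agent.KFin.primeBelow F A)
    (hord : ∀ y : F, y ≠ 0 → ∃ n : ℤ, HasOrdAt A q ((y : F) : AlgebraicClosure ℚ) n)
    (y : F) (hy : y ≠ 0) :
    HasOrdAt A q ((y : F) : AlgebraicClosure ℚ) (-(WithZero.log (v.valuation F y))) := by
  have hvq := capit_valuation_natCast F A q hq hA v hv hord
  have hvy0 : v.valuation F y ≠ 0 := (Valuation.ne_zero_iff _).mpr hy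
  have hval : v.valuation F (y * (q : F) ^ (-(-(WithZero.log (v.valuation F y))))) = 1 := by
    rw [neg_neg, map_mul, map_zpow₀, hvq, ← WithZero.exp_zsmul]
    conv_lhs => rw [← WithZero.exp_log hvy0]
    rw [← WithZero.exp_add]
    simp
  have := ord_isUnitAt_of_valuation_eq_one F A v hv _ hval
  unfold HasOrdAt
  have e : ((y * (q : F) ^ (-(-(WithZero.log (v.valuation F y)))) : F) : AlgebraicClosure ℚ) =
      (y : AlgebraicClosure ℚ) * ((q : ℕ) : AlgebraicClosure ℚ) ^
        (-(-(WithZero.log (v.valuation F y)))) := by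
    have h1 : ∀ z : F, ((z : F) : AlgebraicClosure ℚ) = algebraMap F (AlgebraicClosure ℚ) z :=
      fun _ => rfl
    rw [h1, map_mul, map_zpow₀, map_natCast]
    rfl
  rw [← e]
  exact this

end Bridge

/-! ### The root form -/

section Root

variable {p : ℕ} [Fact p.Prime] (S : Finset Nat.Primes)

/-- The fixed field of an open subgroup of `G_S` lies in a level field. -/
lemma capit_exists_level (U : Subgroup GQ) (hU : (levelsS S).IsOpen U) :
    ∃ F₁ : IntermediateField ℚ (AlgebraicClosure ℚ), F₁.IsUnramifiedOutside S ∧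
      IsStableField F₁ ∧ IntermediateField.fixedField U ≤ F₁ := by
  have := isGalois_Qbar
  obtain ⟨V, ⟨F₁, hF₁, hst, rfl⟩, hVU⟩ := hU
  refine ⟨F₁, hF₁, hst, ?_⟩
  intro x hx
  have hx' : x ∈ IntermediateField.fixedField F₁.fixingSubgroup := by
    rw [IntermediateField.mem_fixedField_iff] at hx ⊢
    exact fun g hg => hx g (hVU hg)
  have := hF₁.1
  rwa [InfiniteGalois.fixedField_fixingSubgroup] at hx'

/-- The elements of the fixed field of an open subgroup of `G_S` lie in `ℚ_S`. -/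
lemma capit_mem_smUnitsSub (U : Subgroup GQ) (hU : (levelsS S).IsOpen U)
    (x : (AlgebraicClosure ℚ)ˣ) (hxU : ∀ g ∈ U, g (x : AlgebraicClosure ℚ) = x) :
    x ∈ smUnitsSub (levelsS S) galAct := by
  obtain ⟨F₁, hF₁, hst, hle⟩ := capit_exists_level S U hU
  refine (mem_smUnitsSub_levelsS_iff S x).2 ⟨F₁, hF₁, hst, hle ?_⟩
  rw [IntermediateField.mem_fixedField_iff]
  exact hxU

/-- A root of unity is an `S`-unit. -/
lemma capit_isSUnit_of_pow_eq_one {ζ : AlgebraicClosure ℚ} {n : ℕ} (hn : n ≠ 0)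
    (hζ : ζ ^ n = 1) : IsSUnit S ζ :=
  fun _ _ A _ => dk1_isUnitAt_of_pow hn (by rw [hζ]; exact IsUnitAt.one A)

/-- The order of a root. -/
lemma capit_hasOrdAt_root {A : ValuationSubring (AlgebraicClosure ℚ)} {q : ℕ}
    {x w : AlgebraicClosure ℚ} {N : ℕ} (hN : N ≠ 0) (hw : w ^ N = x) {n : ℤ}
    (h : HasOrdAt A q x ((N : ℤ) * n)) : HasOrdAt A q w n := by
  unfold HasOrdAt at h ⊢
  refine dk1_isUnitAt_of_pow hN ?_
  have e : (w * ((q : ℕ) : AlgebraicClosure ℚ) ^ (-n)) ^ N =
      x * ((q : ℕ) : AlgebraicClosure ℚ) ^ (-((N : ℤ) * n)) := by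
    rw [mul_pow, hw, ← zpow_natCast (((q : ℕ) : AlgebraicClosure ℚ) ^ (-n)), ← zpow_mul]
    congr 2
    ring
  rw [e]
  exact h

/-- **`p`-capitulation, root form**: if `x ∈ Fˣ` (`F = ℚ̄^U`, `U` open in `G_S`) has all its
orders outside `S` divisible by `p ^ k`, then `x = t ^ p ^ k` with `t ∈ ℚ_S`,
`(g - 1) t ∈ E` for `g ∈ U` and `ord_A t = ord_A x / p ^ k`. -/
theorem capit_root (hpS : pPrime p ∈ S) (U : Subgroup GQ) (hU : (levelsS S).IsOpen U) (k : ℕ)
    (x : (AlgebraicClosure ℚ)ˣ) (hxU : ∀ g ∈ U, g (x : AlgebraicClosure ℚ) = x)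
    (n : Nat.Primes → ValuationSubring (AlgebraicClosure ℚ) → ℤ)
    (hord : ∀ q : Nat.Primes, q ∉ S → ∀ A : ValuationSubring (AlgebraicClosure ℚ),
      A.LiesOverPrime (q : ℕ) → HasOrdAt A q (x : AlgebraicClosure ℚ) ((p : ℤ) ^ k * n q A)) :
    ∃ t : QSx S, smUnits.val t ^ p ^ k = x ∧
      (∀ g ∈ U, (QSx S).ρ g t - t ∈ sUnitsAdd S) ∧
      ∀ q : Nat.Primes, q ∉ S → ∀ A : ValuationSubring (AlgebraicClosure ℚ),
        A.LiesOverPrime (q : ℕ) →
          HasOrdAt A q ((smUnits.val t : (AlgebraicClosure ℚ)ˣ) : AlgebraicClosure ℚ) (n q A) := by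
  have hp : p.Prime := Fact.out
  have hpk : p ^ k ≠ 0 := pow_ne_zero _ hp.ne_zero
  have hx := capit_mem_smUnitsSub S U hU x hxU
  obtain ⟨w0, hw0⟩ := IsAlgClosed.exists_pow_nat_eq (x : AlgebraicClosure ℚ)
    (Nat.pos_of_ne_zero hpk)
  have hw0ne : w0 ≠ 0 := by
    rintro rfl
    rw [zero_pow hpk] at hw0
    exact x.ne_zero hw0.symm
  have hw : (Units.mk0 w0 hw0ne) ^ p ^ k = x := by
    apply Units.ext
    rw [Units.val_pow_eq_pow_val]
    exact hw0
  have hwmem := root_mem_QS S hpS k x (Units.mk0 w0 hw0ne) hx hw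
    (fun q hq A hA => ⟨n q A, hord q hq A hA⟩)
  refine ⟨smUnits.mk _ hwmem, ?_, fun g hg => ?_, fun q hq A hA => ?_⟩
  · rw [smUnits.val_mk]
    exact hw
  · show IsSUnit S ((smUnits.val ((QSx S).ρ g (smUnits.mk _ hwmem) - smUnits.mk _ hwmem) :
      (AlgebraicClosure ℚ)ˣ) : AlgebraicClosure ℚ)
    rw [sub_eq_add_neg, smUnits.val_add, smUnits.val_neg, Units.val_mul,
      Units.val_inv_eq_inv_val, smUnits.val_ρ, smUnits.val_mk]
    refine capit_isSUnit_of_pow_eq_one S hpk ?_
    show (g w0 * w0⁻¹) ^ p ^ k = 1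
    rw [mul_pow, ← map_pow, inv_pow, hw0, hxU g hg]
    exact mul_inv_cancel₀ x.ne_zero
  · rw [smUnits.val_mk]
    refine capit_hasOrdAt_root hpk hw0 ?_
    have := hord q hq A hA
    push_cast
    exact this

end Root

/-! ### The ideal form -/

section Ideals

/-- The class number kills the class of every ideal. -/
lemma capit_exists_generator (F : Type) [Field F] [NumberField F] (I : Ideal (𝓞 F))
    (hI : I ≠ ⊥) :
    ∃ x : 𝓞 F, x ≠ 0 ∧ I ^ Fintype.card (ClassGroup (𝓞 F)) = Ideal.span {x} := by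
  have hI0 : I ∈ (Ideal (𝓞 F))⁰ := mem_nonZeroDivisors_iff_ne_zero.2 hI
  have hI1 : I ^ Fintype.card (ClassGroup (𝓞 F)) ∈ (Ideal (𝓞 F))⁰ :=
    pow_mem hI0 _
  have h1 : ClassGroup.mk0 (⟨I, hI0⟩ : (Ideal (𝓞 F))⁰) ^ Fintype.card (ClassGroup (𝓞 F)) = 1 :=
    pow_card_eq_one
  have h2 : ClassGroup.mk0 (⟨I ^ Fintype.card (ClassGroup (𝓞 F)), hI1⟩ : (Ideal (𝓞 F))⁰) = 1 := by
    rw [← h1, ← map_pow]
    rfl
  rw [ClassGroup.mk0_eq_one_iff] at h2
  obtain ⟨x, hx⟩ := h2.principal
  refine ⟨x, ?_, hx⟩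
  rintro rfl
  have h3 : I ^ Fintype.card (ClassGroup (𝓞 F)) = ⊥ := by
    rw [hx]
    simp
  exact (pow_ne_zero _ hI) h3

/-- The valuation of a generator of `I ^ h`. -/
lemma capit_valuation_generator (F : Type) [Field F] [NumberField F]
    (v : HeightOneSpectrum (𝓞 F)) (I : Ideal (𝓞 F)) (hI : I ≠ ⊥) (h : ℕ) (x : 𝓞 F)
    (hx0 : x ≠ 0) (hx : I ^ h = Ideal.span {x}) :
    -(WithZero.log (v.valuation F (algebraMap (𝓞 F) F x))) =
      ((h * multiplicity v.asIdeal I : ℕ) : ℤ) := by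
  have hfin : FiniteMultiplicity v.asIdeal I := FiniteMultiplicity.of_prime_left v.prime hI
  rw [HeightOneSpectrum.valuation_of_algebraMap, v.intValuation_eq_exp_neg_multiplicity hx0,
    WithZero.log_exp, neg_neg, ← hx, hfin.multiplicity_pow v.prime]

variable {p : ℕ} [Fact p.Prime] (S : Finset Nat.Primes)

/-- The fixed field of an open subgroup of `G_S` is a number field. -/
lemma capit_numberField (U : Subgroup GQ) (hU : (levelsS S).IsOpen U) :
    NumberField ↥(IntermediateField.fixedField U) := by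
  obtain ⟨F₁, hF₁, -, hle⟩ := capit_exists_level S U hU
  have := hF₁.1
  have : FiniteDimensional ℚ ↥(IntermediateField.fixedField U) :=
    FiniteDimensional.of_injective (IntermediateField.inclusion hle).toLinearMap
      (IntermediateField.inclusion_injective hle)
  exact { to_charZero := inferInstance, to_finiteDimensional := inferInstance }

/-- The elements of `F = ℚ̄^U` have an order at every place outside `S`. -/
lemma capit_exists_hasOrdAt (U : Subgroup GQ) (hU : (levelsS S).IsOpen U)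
    (q : Nat.Primes) (hq : q ∉ S) (A : ValuationSubring (AlgebraicClosure ℚ))
    (hA : A.LiesOverPrime (q : ℕ)) (y : ↥(IntermediateField.fixedField U)) (hy : y ≠ 0) :
    ∃ n : ℤ, HasOrdAt A q ((y : ↥(IntermediateField.fixedField U)) : AlgebraicClosure ℚ) n := by
  have hy0 : (y : AlgebraicClosure ℚ) ≠ 0 := fun h => hy (Subtype.ext h)
  have hmem := capit_mem_smUnitsSub S U hU (Units.mk0 _ hy0) (fun g hg => by
    have := y.2
    rw [IntermediateField.mem_fixedField_iff] at this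
    exact this g hg)
  exact exists_hasOrdAt S (Units.mk0 _ hy0) hmem q hq A hA

/-- **`p`-capitulation** (seat K2ii): there is `m` prime to `p` such that for every nonzero ideal
`I` of `F = ℚ̄^U` (`U` open in `G_S`) there is `t ∈ ℚ_S` with `(g - 1) t ∈ E` for `g ∈ U` whose
order at every `A` over `q ∉ S` is `m * ord_v(I)`, `v` the prime of `F` below `A`
("`I ^ m = a_t`"). -/
theorem capit (hpS : pPrime p ∈ S) (U : Subgroup GQ) (hU : (levelsS S).IsOpen U) :
    ∃ m : ℕ, ¬ p ∣ m ∧ ∀ I : Ideal (𝓞 ↥(IntermediateField.fixedField U)), I ≠ ⊥ →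
      ∃ t : QSx S, (∀ g ∈ U, (QSx S).ρ g t - t ∈ sUnitsAdd S) ∧
        ∀ q : Nat.Primes, q ∉ S → ∀ A : ValuationSubring (AlgebraicClosure ℚ),
          A.LiesOverPrime (q : ℕ) →
            HasOrdAt A q ((smUnits.val t : (AlgebraicClosure ℚ)ˣ) : AlgebraicClosure ℚ)
              ((m * multiplicity (Fermat.Agent.KFin.primeBelow (IntermediateField.fixedField U) A)
                I : ℕ) : ℤ) := by
  have hp : p.Prime := Fact.out
  have hnf := capit_numberField S U hU
  have hh0 : Fintype.card (ClassGroup (𝓞 ↥(IntermediateField.fixedField U))) ≠ 0 :=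
    Fintype.card_ne_zero
  obtain ⟨k, m, hm, hkm⟩ := Nat.exists_eq_pow_mul_and_not_dvd hh0 p hp.ne_one
  refine ⟨m, hm, fun I hI => ?_⟩
  obtain ⟨x, hx0, hx⟩ := capit_exists_generator ↥(IntermediateField.fixedField U) I hI
  have hxF0 : (algebraMap (𝓞 ↥(IntermediateField.fixedField U))
      ↥(IntermediateField.fixedField U) x) ≠ 0 := by
    intro h
    exact hx0 ((map_eq_zero_iff _ (IsFractionRing.injective _ _)).1 h)
  have hxQ0 : (((algebraMap (𝓞 ↥(IntermediateField.fixedField U))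
      ↥(IntermediateField.fixedField U) x : ↥(IntermediateField.fixedField U))) :
      AlgebraicClosure ℚ) ≠ 0 := fun h => hxF0 (Subtype.ext h)
  have hxU : ∀ g ∈ U, g ((Units.mk0 _ hxQ0 : (AlgebraicClosure ℚ)ˣ) : AlgebraicClosure ℚ) =
      ((Units.mk0 _ hxQ0 : (AlgebraicClosure ℚ)ˣ) : AlgebraicClosure ℚ) := by
    intro g hg
    have := (algebraMap (𝓞 ↥(IntermediateField.fixedField U))
      ↥(IntermediateField.fixedField U) x).2
    rw [IntermediateField.mem_fixedField_iff] at this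
    exact this g hg
  obtain ⟨t, -, ht1, ht2⟩ := capit_root S hpS U hU k (Units.mk0 _ hxQ0) hxU
    (fun q A => ((m * multiplicity
      (Fermat.Agent.KFin.primeBelow (IntermediateField.fixedField U) A) I : ℕ) : ℤ))
    (fun q hq A hA => by
      have hqP := Fermat.Agent.KFin.natCast_mem_primeBelow (IntermediateField.fixedField U) A q hA
      have hP0 : Fermat.Agent.KFin.primeBelow (IntermediateField.fixedField U) A ≠ ⊥ := by
        intro h0
        rw [h0, Ideal.mem_bot] at hqP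
        exact q.2.ne_zero (by exact_mod_cast hqP)
      have h1 := capit_hasOrdAt (IntermediateField.fixedField U) A q q.2 hA
        ⟨Fermat.Agent.KFin.primeBelow (IntermediateField.fixedField U) A, inferInstance, hP0⟩ rfl
        (capit_exists_hasOrdAt S U hU q hq A hA) _ hxF0
      rw [capit_valuation_generator ↥(IntermediateField.fixedField U)
        ⟨Fermat.Agent.KFin.primeBelow (IntermediateField.fixedField U) A, inferInstance, hP0⟩
        I hI _ x hx0 hx, hkm] at h1
      have e : (((p ^ k * m * multiplicity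
          (Fermat.Agent.KFin.primeBelow (IntermediateField.fixedField U) A) I : ℕ)) : ℤ) =
          (p : ℤ) ^ k * ((m * multiplicity
          (Fermat.Agent.KFin.primeBelow (IntermediateField.fixedField U) A) I : ℕ) : ℤ) := by
        push_cast
        ring
      rw [← e]
      exact h1)
  exact ⟨t, ht1, ht2⟩

end Ideals

end Fermat.Agent.F4
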