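import Fermat.Agent.F4.Dict.LocNorm
import Fermat.Agent.F4.Dict.KappaPres

/-!
# F4 / Dict / FirstAn : the first analysis of a norm relation (helper55)

`ℓ : LayerS p S` a cyclic layer `(U, V, σ)`, `F = ℓ.bot.field`, `M = ℓ.top.field`.

* `KForm.firstAn` : abstract form (presented formation `K`);
* `LayerS.firstAn` : if `j ∈ J^U` and `CMk j` is a norm from `C^V`, then for every precision `k`
  there are `f ∈ Fˣ`, `u ∈ J^U` close to `1` (`NearOne u k`) and `t ∈ T_V` with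

      `diagJ (toQS f) = j - u`   and   `toQS f - N t ∈ E`

  (K1 for `V`, the merged norm lemma `LayerS.cnorm_eq_diagJ_add` and the kernel of `CMk`).
  So `f` is `j` up to `J_(k)` at the places over `S`, and the divisor of `f` outside `S` is the
  norm of the divisor of `t`.
-/

set_option autoImplicit false
set_option synthInstance.maxHeartbeats 400000

open CategoryTheory groupCohomology ExtCitation

namespace Fermat.Agent.F4

open Fermat.Agent.F4Cf

namespace KForm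

variable {G : Type} [Group G] (K : KForm G)

/-- **First analysis**, abstract form. -/
theorem firstAn {p : ℕ} {U V : Subgroup G} {σ : G} (_hc : IsCyc p U V σ)
    (hpres : ∀ c : K.C, Fix K.C V c → ∃ x ∈ K.JU V, ∃ t ∈ K.TU V, c = K.pr (x + K.d t))
    (P : K.J → Prop)
    (hnm : ∀ x ∈ K.JU V, ∃ y ∈ K.QU V, ∃ u ∈ K.JU U, P u ∧
      cnorm K.J p σ x = K.d (cnorm K.Q p σ y) + u)
    {j : K.J} (hj : j ∈ K.JU U) (hN : IsNormFrom K.C p V σ (K.pr j)) :
    ∃ s ∈ K.QU U, ∃ u ∈ K.JU U, ∃ t ∈ K.TU V, P u ∧ K.d s = j - u ∧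
      s - cnorm K.Q p σ t ∈ K.E := by
  obtain ⟨c', hc', hjc⟩ := hN
  obtain ⟨x', hx', t', ht', rfl⟩ := hpres c' hc'
  obtain ⟨y, hy, u, hu, hPu, hxu⟩ := hnm x' hx'
  -- `pr j = pr (N x' + d (N t'))`
  have h1 : K.pr j = K.pr (cnorm K.J p σ x' + K.d (cnorm K.Q p σ t')) := by
    rw [hjc, K.cnorm_pr, cnorm_add, K.cnorm_d]
  have h2 : K.pr (j - (cnorm K.J p σ x' + K.d (cnorm K.Q p σ t'))) = 0 := by
    rw [K.pr_sub, h1, sub_self]
  obtain ⟨e, he, hde⟩ := (K.pr_ker _).1 h2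
  have hyT : y ∈ K.TU V := K.QU_le_TU V hy
  refine ⟨cnorm K.Q p σ (t' + y) + e, ?_, u, hu, t' + y, (K.TU V).add_mem ht' hyT, hPu, ?_, ?_⟩
  · -- fixed by `U`, since its image is
    have hds : K.d (cnorm K.Q p σ (t' + y) + e) = j - u := by
      rw [K.d_add, cnorm_add, K.d_add, hde, hxu]
      abel
    rw [← K.d_mem_JU_iff, hds]
    exact (K.JU U).sub_mem hj hu
  · rw [K.d_add, cnorm_add, K.d_add, hde, hxu]
    abel
  · have e1 : cnorm K.Q p σ (t' + y) + e - cnorm K.Q p σ (t' + y) = e := by abel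
    rw [e1]
    exact he

end KForm

namespace LayerS

variable {p : ℕ} {S : Finset Nat.Primes}

/-- **First analysis**: if `CMk j`, `j ∈ J^U`, is a norm from the layer, then
`j = diagJ f + u` with `u` close to `1` and `f ∈ Fˣ` whose divisor outside `S` is a norm. -/
theorem firstAn (ℓ : LayerS p S) [Fact p.Prime] (hS : S.Nonempty) {j : Jrep S}
    (hj : j ∈ ℓ.bot.JU) (hN : IsNormFrom (Crep S) p ℓ.top.U ℓ.σ (CMk S j)) (k : ℕ) :
    ∃ (f : (ℓ.bot.field)ˣ) (u : Jrep S) (t : QSx S), u ∈ ℓ.bot.JU ∧ NearOne u k ∧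
      t ∈ ℓ.top.TU ∧ diagJ S (ℓ.bot.toQS f) = j - u ∧
      ℓ.bot.toQS f - cnorm (QSx S) p ℓ.σ t ∈ sUnitsAdd S := by
  obtain ⟨s, hs, u, hu, t, ht, hPu, hds, hst⟩ :=
    (kfS S hS).firstAn (p := p) (U := ℓ.bot.U) (V := ℓ.top.U) (σ := ℓ.σ) ℓ.cyc
      (fun c hc => kappa_pres S hS ℓ.top.U ℓ.top.isOpen c hc)
      (fun u => NearOne u k)
      (fun x hx => by
        obtain ⟨y, u, hu, hun, he⟩ := ℓ.cnorm_eq_diagJ_add (x := x) hx k
        refine ⟨ℓ.top.toQS y, fun g hg => ℓ.top.toQS_fixed y g hg, u, hu, hun, ?_⟩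
        show cnorm (Jrep S) p ℓ.σ x =
          diagJ S (cnorm (QSx S) p ℓ.σ (ℓ.top.toQS y)) + u
        rw [he, ℓ.toQS_norm])
      (j := j) hj hN
  obtain ⟨f, hf⟩ := ℓ.bot.exists_toQS_of_fixed s hs
  refine ⟨f, u, t, hu, hPu, ht, ?_, ?_⟩
  · rw [hf]; exact hds
  · rw [hf]; exact hst

end LayerS

end Fermat.Agent.F4
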