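import Fermat.Agent.F4.Dict.HasseAbs
import Fermat.Agent.F4.Dict.KappaPres
import Fermat.Agent.F4.Dict.DivNorm
import Fermat.Agent.F4.Dict.DivFin
import Fermat.Agent.F4.Dict.PlaceSurj
import Fermat.Agent.F4.Glob.HasseFull

/-!
# F4 / Dict / HasseNorm : the Hasse norm theorem for the layers of `ℚ_S` (piece D' of
`dict_hasse`; helper56)

`ℓ : LayerS p S` a cyclic layer `F = ℓ.bot.field ⊂ M = ℓ.top.field` of degree `p` inside `ℚ_S`.

* `LayerS.comap_primeBelow`      : the prime of `F` below `A ∩ M` is `A ∩ F`;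
* `LayerS.ramificationIdx_eq_one`: `M / F` is unramified outside `S` (U1);
* `LayerS.valuation_eq_exp_of_not_split` : the order of `a ∈ Fˣ` at a non-split prime outside `S`
  is divisible by `p`, if the ideal of `a` is a norm (U3);
* `LayerS.hasseNormAt_of`        : `HasseNormAt` of `HasseAbs.lean` for `kfS`, from the local norm
  property `LocNormAt` (K3iv, `F4/Dict/LocNorm.lean`) and `F4G.hasseNormFull`.
-/

set_option autoImplicit false
set_option synthInstance.maxHeartbeats 400000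
set_option linter.unusedSectionVars false
set_option linter.style.haveILetI false
set_option linter.unusedVariables false

open CategoryTheory groupCohomology ExtCitation
open scoped Pointwise
open NumberField IsDedekindDomain

namespace Fermat.Agent.F4

open Fermat.Agent.F4Cf

namespace LayerS

variable {p : ℕ} {S : Finset Nat.Primes} (ℓ : LayerS p S)

/-- The prime of `F` below the prime `A ∩ M` of `M` is `A ∩ F`. -/
lemma comap_primeBelow (A : ValuationSubring (AlgebraicClosure ℚ)) :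
    (Fermat.Agent.KFin.primeBelow ℓ.top.field A).comap
        (algebraMap (𝓞 ℓ.bot.field) (𝓞 ℓ.top.field)) =
      Fermat.Agent.KFin.primeBelow ℓ.bot.field A := by
  ext x
  rw [Ideal.mem_comap, Fermat.Agent.KFin.mem_primeBelow_iff, Fermat.Agent.KFin.mem_primeBelow_iff]
  rfl

/-- `exp (-1) ^ e = exp (-1)` forces `e = 1`. -/
lemma exp_neg_one_pow_eq {e : ℕ} (h : (WithZero.exp (-1 : ℤ)) ^ e = WithZero.exp (-1 : ℤ)) :
    e = 1 := by
  rw [← WithZero.exp_nsmul] at h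
  have h1 := WithZero.exp_injective h
  simp only [nsmul_eq_mul] at h1
  omega

/-- **U1**: `M / F` is unramified outside `S`. -/
theorem ramificationIdx_eq_one (w : HeightOneSpectrum (𝓞 ℓ.top.field))
    (hw : w ∉ Fermat.Agent.S14SI.primesAboveSet ℓ.bot.field ℓ.top.field
      (ℓ.bot.T : Set (HeightOneSpectrum (𝓞 ℓ.bot.field)))) :
    w.asIdeal.ramificationIdx (𝓞 ℓ.bot.field) = 1 := by
  set v : HeightOneSpectrum (𝓞 ℓ.bot.field) :=
    Fermat.Agent.S14SI.primeBelow (F := ℓ.bot.field) w with hv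
  have hvT : v ∉ ℓ.bot.T := by
    intro h
    apply hw
    rw [Fermat.Agent.S14SI.mem_primesAboveSet_iff]
    exact h
  obtain ⟨q, hqS, hq⟩ := ℓ.bot.exists_natCast_mem_of_not_mem_T v hvT
  have hqw : (((q : ℕ) : ℕ) : 𝓞 ℓ.top.field) ∈ w.asIdeal := by
    have h1 : algebraMap (𝓞 ℓ.bot.field) (𝓞 ℓ.top.field) (((q : ℕ) : ℕ) : 𝓞 ℓ.bot.field) ∈
        w.asIdeal := hq
    rwa [map_natCast] at h1
  obtain ⟨A, hA, hwA⟩ := ℓ.top.exists_primeBelowAt_of_mem w q hqw
  have hwA' : w.asIdeal = Fermat.Agent.KFin.primeBelow ℓ.top.field A := by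
    rw [hwA]; rfl
  have hvA : v.asIdeal = Fermat.Agent.KFin.primeBelow ℓ.bot.field A := by
    rw [← ℓ.comap_primeBelow A, ← hwA']
    rfl
  have h1 := ℓ.top.capit_valuation_natCast_field q hqS A hA w hwA'
  have h2 := ℓ.bot.capit_valuation_natCast_field q hqS A hA v hvA
  haveI : w.asIdeal.LiesOver v.asIdeal := ⟨rfl⟩
  have h3 := HeightOneSpectrum.valuation_liesOver (K := ℓ.bot.field) ℓ.top.field v w
    ((q : ℕ) : ℓ.bot.field)
  have e : algebraMap ℓ.bot.field ℓ.top.field ((q : ℕ) : ℓ.bot.field) =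
      ((q : ℕ) : ℓ.top.field) := map_natCast _ _
  rw [e, h1, h2] at h3
  rw [← Ideal.ramificationIdx'_eq_ramificationIdx v.asIdeal w.asIdeal v.ne_bot]
  exact exp_neg_one_pow_eq h3

/-- The prime of `F` below `g⁻¹ • A` is the prime below `A`, for `g ∈ U`. -/
lemma primeBelow_bot_inv_smul (g : GQ) (hg : g ∈ ℓ.bot.U)
    (A : ValuationSubring (AlgebraicClosure ℚ)) :
    Fermat.Agent.KFin.primeBelow ℓ.bot.field (g⁻¹ • A) =
      Fermat.Agent.KFin.primeBelow ℓ.bot.field A := by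
  ext x
  rw [Fermat.Agent.KFin.mem_primeBelow_iff, Fermat.Agent.KFin.mem_primeBelow_iff]
  have hx : g (((x : ℓ.bot.field) : AlgebraicClosure ℚ)) =
      ((x : ℓ.bot.field) : AlgebraicClosure ℚ) :=
    (ℓ.bot.mem_field_iff _).1 (x : ℓ.bot.field).2 g hg
  constructor
  · intro h1
    have := Fermat.Agent.KFin.kf_smul_mem_nonunits (g⁻¹ • A) g h1
    rwa [smul_inv_smul, hx] at this
  · intro h1
    have := Fermat.Agent.KFin.kf_smul_mem_nonunits A g⁻¹ h1
    have e : g⁻¹ (((x : ℓ.bot.field) : AlgebraicClosure ℚ)) =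
        ((x : ℓ.bot.field) : AlgebraicClosure ℚ) := by
      conv_lhs => rw [← hx]
      exact g.symm_apply_apply _
    rwa [e] at this

/-- **U3**: if the ideal of `a ∈ Fˣ` is a norm from `M` outside `S`, the order of `a` at a
non-split prime outside `S` is divisible by `p`. -/
theorem valuation_eq_exp_of_not_split [Fact p.Prime] (a : (ℓ.bot.field)ˣ) {t : QSx S}
    (ht : t ∈ ℓ.top.TU) (hat : ℓ.bot.toQS a + cnorm (QSx S) p ℓ.σ t ∈ sUnitsAdd S)
    (v : HeightOneSpectrum (𝓞 ℓ.bot.field)) (hv : v ∉ ℓ.bot.T)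
    (hns : ¬ Fermat.Agent.S14SI.SplitsCompletely ℓ.bot.field ℓ.top.field v) :
    ∃ n : ℤ, v.valuation ℓ.bot.field (a : ℓ.bot.field) = WithZero.exp ((p : ℤ) * n) := by
  obtain ⟨q, hq, A, hA, rfl⟩ := ℓ.bot.exists_primeBelowAt v hv
  obtain ⟨d, hd⟩ := ℓ.top.exists_isDivS t ht
  have h1 := ℓ.hasOrdAt_cnorm hd q hq A hA
  have h2 := ℓ.bot.capit_isDivS_toQS a q hq A hA (ℓ.bot.primeBelowAt q A hA) rfl
  have h3 := ℓ.bot.isDivS_of_mem_sUnitsAdd hat q hq A hA (ℓ.bot.primeBelowAt q A hA) rfl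
  have h4 := HasOrdAt.mul q.2 h2 h1
  rw [← Units.val_mul, ← smUnits.val_add] at h4
  have h5 := hasOrdAt_unique q.2 hA (smUnits.val _).ne_zero h4 h3
  -- the unique prime above `v`
  have hfib : (Fermat.Agent.S14TH.fiber ℓ.bot.field ℓ.top.field
      (ℓ.bot.primeBelowAt q A hA)).ncard = 1 := by
    rcases Fermat.Agent.S14TH.ncard_fiber_eq (F := ℓ.bot.field) (M := ℓ.top.field)
      (Fact.out : p.Prime) ℓ.finrank_eq (ℓ.bot.primeBelowAt q A hA) with h | h
    · exact absurd h.1 hns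
    · exact h.2
  obtain ⟨w₀, hw₀⟩ := Set.ncard_eq_one.mp hfib
  have hwi : ∀ i : ℕ, ℓ.top.primeBelowAt q ((ℓ.σ ^ i)⁻¹ • A) (liesOverPrime_smul A _ q hA) =
      w₀ := by
    intro i
    have hmem : ℓ.top.primeBelowAt q ((ℓ.σ ^ i)⁻¹ • A) (liesOverPrime_smul A _ q hA) ∈
        Fermat.Agent.S14TH.fiber ℓ.bot.field ℓ.top.field (ℓ.bot.primeBelowAt q A hA) := by
      show (Fermat.Agent.KFin.primeBelow ℓ.top.field ((ℓ.σ ^ i)⁻¹ • A)).comap
        (algebraMap (𝓞 ℓ.bot.field) (𝓞 ℓ.top.field)) =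
          Fermat.Agent.KFin.primeBelow ℓ.bot.field A
      rw [ℓ.comap_primeBelow]
      exact ℓ.primeBelow_bot_inv_smul _ (ℓ.bot.U.pow_mem ℓ.cyc.mem i) A
    rw [hw₀] at hmem
    exact hmem
  have hsum : (∑ i ∈ Finset.range p,
      d (ℓ.top.primeBelowAt q ((ℓ.σ ^ i)⁻¹ • A) (liesOverPrime_smul A _ q hA))) =
      (p : ℤ) * d w₀ := by
    rw [Finset.sum_congr rfl (fun i _ => by rw [hwi i]), Finset.sum_const, Finset.card_range,
      nsmul_eq_mul]
  rw [hsum] at h5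
  refine ⟨d w₀, ?_⟩
  have ha0 : (ℓ.bot.primeBelowAt q A hA).valuation ℓ.bot.field (a : ℓ.bot.field) ≠ 0 :=
    (Valuation.ne_zero_iff _).mpr a.ne_zero
  have h6 : WithZero.log ((ℓ.bot.primeBelowAt q A hA).valuation ℓ.bot.field (a : ℓ.bot.field)) =
      (p : ℤ) * d w₀ := by
    have h7 : -(WithZero.log ((ℓ.bot.primeBelowAt q A hA).valuation ℓ.bot.field
      (a : ℓ.bot.field))) + (p : ℤ) * d w₀ = 0 := h5
    linarith
  rw [← h6, WithZero.exp_log ha0]

/-- **K3iv** in the form used here: an element of `Fˣ` which is a norm from `J^V` is a local norm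
to every precision at the primes over `S`. -/
def LocNormAt (ℓ : LayerS p S) : Prop :=
  ∀ x ∈ ℓ.top.JU, ∀ f : (ℓ.bot.field)ˣ, diagJ S (ℓ.bot.toQS f) = cnorm (Jrep S) p ℓ.σ x →
    ∀ v ∈ ℓ.bot.T, ∀ k : ℕ, f ∈ Fermat.Agent.F4G.localNormGroup ℓ.bot.field ℓ.top.field v k

/-- **The Hasse norm theorem** for the layer `ℓ` of `ℚ_S` (piece D' of `dict_hasse`). -/
theorem hasseNormAt_of [Fact p.Prime] (hp2 : p ≠ 2) (hS : S.Nonempty) (hloc : ℓ.LocNormAt) :
    (kfS S hS).HasseNormAt p ℓ.bot.U ℓ.top.U ℓ.σ := by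
  intro (f : QSx S) hf hx ht
  obtain ⟨x, hx, hNx⟩ := hx
  obtain ⟨t, ht, hft⟩ := ht
  have hx' : x ∈ ℓ.top.JU := hx
  have ht' : t ∈ ℓ.top.TU := ht
  have hNx' : cnorm (Jrep S) p ℓ.σ x = diagJ S f := hNx
  have hft' : f + cnorm (QSx S) p ℓ.σ t ∈ sUnitsAdd S := hft
  have hf' : ∀ g ∈ ℓ.bot.U, (QSx S).ρ g f = f := hf
  obtain ⟨a, rfl⟩ := ℓ.bot.exists_toQS_of_fixed f hf'
  have hnorm : a ∈ (Fermat.Agent.S14SI.normUnits ℓ.bot.field ℓ.top.field).range :=
    Fermat.Agent.F4G.hasseNormFull (Fact.out : p.Prime) hp2 ℓ.finrank_eq ℓ.bot.T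
      (fun w hw => ℓ.ramificationIdx_eq_one w hw) a
      (fun v hv k => hloc x hx' a hNx'.symm v hv k)
      (fun v hv hns => ℓ.valuation_eq_exp_of_not_split a ht' hft' v hv hns)
  obtain ⟨b, hb⟩ := hnorm
  refine ⟨ℓ.top.toQS b, fun g hg => ℓ.top.toQS_fixed b g hg, ?_⟩
  show cnorm (QSx S) p ℓ.σ (ℓ.top.toQS b) = ℓ.bot.toQS a
  rw [← ℓ.toQS_norm, ← hb]
  rfl

end LayerS

end Fermat.Agent.F4
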