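import Fermat.Agent.F4.Dict.JApprox
import Fermat.Agent.F4.Recip.Statements

/-!
# F4 / Dict / JApproxInt : K3iii in the ray forms used by the derivations (helper86)

`L : OpenS S`, `F = L.field`.  For a nonzero integer `a ∈ 𝓞 F`:

* `OpenS.nearOne_diagJ_of_dvd` : if `N` is divisible by all `q ∈ S` and
  `a - 1 ∈ (N ^ (k + 1))` then `diagJ a ∈ J_(k)`;
* `OpenS.nearOne_diagJ_of_pow_mem` : for every `k` there is `k'` such that
  `a - 1 ∈ v ^ k'` for all `v ∈ L.T` implies `diagJ a ∈ J_(k)`;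
* `OpenS.nearOne_diagJ_of_modT` : the same for `a - 1 ∈ F4Rec.modT L.T k'`.
-/

set_option autoImplicit false
set_option synthInstance.maxHeartbeats 400000
set_option linter.style.haveILetI false

open CategoryTheory groupCohomology ExtCitation
open NumberField IsDedekindDomain

namespace Fermat.Agent.F4

attribute [local instance] fact_prime_coe86

variable {S : Finset Nat.Primes}

namespace OpenS

variable (L : OpenS S)

/-- The unit of `F` attached to a nonzero integer. -/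
noncomputable def intUnit (a : 𝓞 L.field) (ha : a ≠ 0) : (L.field)ˣ :=
  Units.mk0 (a : L.field) (by
    intro h
    exact ha ((RingOfIntegers.coe_eq_zero_iff (K := L.field)).1 h))

@[simp] lemma coe_intUnit (a : 𝓞 L.field) (ha : a ≠ 0) :
    ((L.intUnit a ha : (L.field)ˣ) : L.field) = (a : L.field) := rfl

/-- `‖j N‖ ≤ q⁻¹` when `q ∣ N`. -/
lemma norm_emb_natCast_le (q : Nat.Primes) (g : GQ) {N : ℕ} (hN : (q : ℕ) ∣ N) :
    ‖L.emb q g (N : L.field)‖ ≤ (((q : ℕ) : ℕ) : ℝ)⁻¹ := by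
  obtain ⟨m, rfl⟩ := hN
  have e : (((q : ℕ) * m : ℕ) : L.field) = (((q : ℕ) : ℕ) : L.field) * (((m : 𝓞 L.field)) : L.field) := by
    push_cast
    rfl
  rw [e, map_mul, norm_mul, ja_norm_emb_natCast]
  have h1 : ‖L.emb q g ((m : 𝓞 L.field) : L.field)‖ ≤ 1 :=
    F4G.norm_map_integer_le_one (L.emb q g) (m : 𝓞 L.field)
  have hq : (0 : ℝ) ≤ (((q : ℕ) : ℕ) : ℝ)⁻¹ := inv_nonneg.2 (Nat.cast_nonneg _)
  calc (((q : ℕ) : ℕ) : ℝ)⁻¹ * ‖L.emb q g ((m : 𝓞 L.field) : L.field)‖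
      ≤ (((q : ℕ) : ℕ) : ℝ)⁻¹ * 1 := mul_le_mul_of_nonneg_left h1 hq
    _ = _ := mul_one _

/-- **K3iii, integer form**: if every `q ∈ S` divides `N` and `a ≡ 1 mod N ^ (k + 1)` then
`diagJ a ∈ J_(k)`. -/
theorem nearOne_diagJ_of_dvd {N : ℕ} (hN : ∀ q ∈ S, ((q : Nat.Primes) : ℕ) ∣ N) (k : ℕ)
    (a : 𝓞 L.field) (ha : a ≠ 0) (h : a - 1 ∈ Ideal.span {((N : 𝓞 L.field)) ^ (k + 1)}) :
    NearOne (diagJ S (L.toQS (L.intUnit a ha))) k := by
  intro q g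
  rw [L.Jval_diagJ_toQS, coe_intUnit]
  obtain ⟨b, hb⟩ := Ideal.mem_span_singleton'.1 h
  have hqR : (0 : ℝ) < (((q.1 : ℕ) : ℕ) : ℝ) := by exact_mod_cast q.1.2.pos
  have hq1 : (1 : ℝ) < (((q.1 : ℕ) : ℕ) : ℝ) := by exact_mod_cast q.1.2.one_lt
  have e : L.emb q.1 g (a : L.field) - 1 =
      L.emb q.1 g ((b : L.field)) * L.emb q.1 g (N : L.field) ^ (k + 1) := by
    rw [← map_pow, ← map_mul, ← map_one (L.emb q.1 g), ← map_sub]
    congr 1
    have := congrArg (fun z : 𝓞 L.field => (z : L.field)) hb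
    simp only [map_mul, map_pow, map_natCast, map_sub, map_one] at this
    exact this.symm
  rw [e, norm_mul, norm_pow]
  have h1 : ‖L.emb q.1 g ((b : L.field))‖ ≤ 1 := F4G.norm_map_integer_le_one (L.emb q.1 g) b
  have h2 := L.norm_emb_natCast_le q.1 g (hN q.1 q.2)
  have h3 : ‖L.emb q.1 g (N : L.field)‖ ^ (k + 1) ≤ ((((q.1 : ℕ) : ℕ) : ℝ)⁻¹) ^ (k + 1) :=
    pow_le_pow_left₀ (norm_nonneg _) h2 _
  have h4 : ((((q.1 : ℕ) : ℕ) : ℝ)⁻¹) ^ (k + 1) < (((q.1 : ℕ) : ℕ) : ℝ) ^ (-(k : ℤ)) := by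
    rw [zpow_neg, zpow_natCast, inv_pow]
    exact inv_strictAnti₀ (pow_pos hqR k) (pow_lt_pow_right₀ hq1 (Nat.lt_succ_self k))
  calc ‖L.emb q.1 g ((b : L.field))‖ * ‖L.emb q.1 g (N : L.field)‖ ^ (k + 1)
      ≤ 1 * ((((q.1 : ℕ) : ℕ) : ℝ)⁻¹) ^ (k + 1) :=
        mul_le_mul h1 h3 (pow_nonneg (norm_nonneg _) _) zero_le_one
    _ = ((((q.1 : ℕ) : ℕ) : ℝ)⁻¹) ^ (k + 1) := one_mul _
    _ < _ := h4

/-- **K3iii, prime-power form**: for every `k` there is `k'` such that `a ≡ 1 mod v ^ k'` for all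
`v ∈ L.T` implies `diagJ a ∈ J_(k)`. -/
theorem nearOne_diagJ_of_pow_mem (k : ℕ) :
    ∃ k' : ℕ, ∀ (a : 𝓞 L.field) (ha : a ≠ 0), (∀ v ∈ L.T, a - 1 ∈ v.asIdeal ^ k') →
      NearOne (diagJ S (L.toQS (L.intUnit a ha))) k := by
  obtain ⟨k₁, hk₁⟩ := L.nearOne_diagJ_of_oneMod k
  refine ⟨k₁ + 1, fun a ha h => hk₁ _ fun v hv => ?_⟩
  rw [F4G.mem_oneModSubgroup, coe_intUnit]
  have h1 : v.intValuation (a - 1) ≤ WithZero.exp (-((k₁ + 1 : ℕ) : ℤ)) :=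
    (v.intValuation_le_pow_iff_mem _ _).2 (h v hv)
  have h2 : v.valuation L.field ((a : L.field) - 1) = v.intValuation (a - 1) := by
    rw [← v.valuation_of_algebraMap (K := L.field)]
    congr 1
  rw [h2]
  refine h1.trans_lt (WithZero.exp_lt_exp.2 ?_)
  push_cast
  omega

/-- **K3iii, modulus form**: for every `k` there is `k'` such that `a ≡ 1 mod ∏_{v ∈ L.T} v ^ k'`
implies `diagJ a ∈ J_(k)`. -/
theorem nearOne_diagJ_of_modT (k : ℕ) :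
    ∃ k' : ℕ, ∀ k'' : ℕ, k' ≤ k'' → ∀ (a : 𝓞 L.field) (ha : a ≠ 0),
      a - 1 ∈ F4Rec.modT L.T k'' → NearOne (diagJ S (L.toQS (L.intUnit a ha))) k := by
  classical
  obtain ⟨k', hk'⟩ := L.nearOne_diagJ_of_pow_mem k
  refine ⟨k', fun k'' hle a ha h => hk' a ha fun v hv => ?_⟩
  have h1 : F4Rec.modT L.T k'' ≤ v.asIdeal ^ k'' := by
    unfold F4Rec.modT
    exact Ideal.le_of_dvd (Finset.dvd_prod_of_mem (fun v : HeightOneSpectrum (𝓞 L.field) =>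
      v.asIdeal ^ k'') hv)
  exact Ideal.pow_le_pow_right hle (h1 h)

end OpenS

end Fermat.Agent.F4
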