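import Fermat.Agent.F4.Dict.FirstAn
import Fermat.Agent.F4.Dict.PlacesWire
import Fermat.Agent.F4.Recip.ArtinSym

/-!
# F4 / Dict / LocalCore : the core of the derivation of `dict_local` (seat R-C2, helper55)

`ℓ : LayerS p S` a cyclic layer `(U, V, σ)`, `F = ℓ.bot.field`, `M = ℓ.top.field`; `Tp` a set of
primes of `F` over `S` outside of which `M / F` is unramified (the primes over `p` for the
cyclotomic layers), `P ∉ Tp` a prime of `F` whose Frobenius elements are non-trivial.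

`LayerS.not_isNormFrom_core` : an idèle `j ∈ J^U` which is
* equal to a global element `c ∈ Fˣ` at the places of `Tp`,
* of the same absolute value as `c` at the other places over `S`, except at `P`,
* such that `c` is a unit outside `S`, except at `P`,
* and such that the order at `P` of `f / c` is prime to `p` for every `f ∈ Fˣ` with
  `|f|_P = |j|_P` (if `P` is over `S`) resp. `p ∣ ord_P f` (if `P` is outside `S`),
has a class `CMk j` which is NOT a norm from `C^V`.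

Inputs: the first analysis (`LayerS.firstAn`), the pointwise reciprocity law of helper14
(`F4Rec.artin_core`, `F4Rec.artin_inert`) and the divisibility of the norm of a divisor at an
inert prime (`LayerS.LcInertDiv`, helper31's `InertDiv.lean`).
-/

set_option autoImplicit false
set_option synthInstance.maxHeartbeats 400000
set_option linter.style.haveILetI false

open CategoryTheory groupCohomology ExtCitation
open NumberField IsDedekindDomain

namespace Fermat.Agent.F4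

open Fermat.Agent.F4Cf

attribute [local instance] fact_prime_coe86

variable {p : ℕ} {S : Finset Nat.Primes}

/-! ### Norm facts in `PadicAlgCl q` -/

lemma lc_norm_eq_one {q : ℕ} [Fact q.Prime] {y : PadicAlgCl q} (h : ‖y - 1‖ < 1) : ‖y‖ = 1 := by
  have h1 : ‖y‖ ≤ 1 := by
    have := IsUltrametricDist.norm_add_le_max (y - 1) 1
    rw [sub_add_cancel, norm_one] at this
    exact this.trans (max_le h.le le_rfl)
  have h2 : (1 : ℝ) ≤ ‖y‖ := by
    by_contra hlt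
    rw [not_le] at hlt
    have := IsUltrametricDist.norm_add_le_max (1 - y) y
    rw [sub_add_cancel, norm_one, norm_sub_rev] at this
    exact absurd this (not_le.2 (max_lt h hlt))
  exact le_antisymm h1 h2

lemma lc_norm_inv_sub_one {q : ℕ} [Fact q.Prime] {y : PadicAlgCl q} {ε : ℝ} (hε : ε ≤ 1)
    (h : ‖y - 1‖ < ε) : ‖y⁻¹ - 1‖ < ε := by
  have h1 : ‖y‖ = 1 := lc_norm_eq_one (h.trans_le hε)
  have hy : y ≠ 0 := fun h0 => by rw [h0, norm_zero] at h1; exact zero_ne_one h1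
  have e : y⁻¹ - 1 = -((y - 1) * y⁻¹) := by
    field_simp
    ring
  rw [e, norm_neg, norm_mul, norm_inv, h1, inv_one, mul_one]
  exact h

lemma lc_zpow_le_one (q : Nat.Primes) (k : ℕ) : (((q : ℕ) : ℝ)) ^ (-(k : ℤ)) ≤ 1 := by
  have hq1 : (1 : ℝ) ≤ ((q : ℕ) : ℝ) := by exact_mod_cast q.2.one_lt.le
  rw [zpow_neg, zpow_natCast]
  exact inv_le_one_of_one_le₀ (one_le_pow₀ hq1)

/-! ### Place-wise form of K3iii -/

/-- If `‖ι (g f) - 1‖ < q ^ (-k)` then `f ≡ 1 mod v ^ (k + 1)`, `v` the prime of `(q, g)`. -/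
theorem OpenS.lc_oneMod_of_norm_lt (L : OpenS S) (q : Nat.Primes) (g : GQ) (k : ℕ)
    (f : (L.field)ˣ)
    (h1 : ‖L.emb q g (f : L.field) - 1‖ < (((q : ℕ) : ℕ) : ℝ) ^ (-(k : ℤ))) :
    f ∈ F4G.oneModSubgroup L.field (F4G.primeOf (L.emb q g)) k := by
  have hqR : (0 : ℝ) < (((q : ℕ) : ℕ) : ℝ) := by exact_mod_cast q.2.pos
  have hq0 : ((((q : ℕ) : ℕ) : L.field)) ^ k ≠ 0 :=
    pow_ne_zero _ (Nat.cast_ne_zero.2 q.2.ne_zero)
  have h2 : ‖L.emb q g (((f : L.field) - 1) / (((q : ℕ) : ℕ) : L.field) ^ k)‖ < 1 := by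
    rw [map_div₀, norm_div, map_sub, map_one, map_pow, norm_pow, ja_norm_emb_natCast,
      div_lt_one (pow_pos (inv_pos.2 hqR) _), inv_pow, ← zpow_natCast, ← zpow_neg]
    exact h1
  have h3 := (F4G.norm_lt_one_iff (L.emb q g) _).1 h2
  rw [map_div₀, div_lt_one₀ (zero_lt_iff.2 ((Valuation.ne_zero_iff _).2 hq0)), map_pow] at h3
  rw [F4G.mem_oneModSubgroup]
  refine h3.trans_le ?_
  calc (F4G.primeOf (L.emb q g)).valuation L.field (((q : ℕ) : ℕ) : L.field) ^ k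
      ≤ WithZero.exp (-1 : ℤ) ^ k := pow_le_pow_left₀ zero_le (ja_valuation_natCast_le L q g) k
    _ = WithZero.exp (-(k : ℤ)) := by
        rw [← WithZero.exp_nsmul]
        congr 1
        simp

/-! ### Orders -/

lemma lc_ordV_div {F : Type} [Field F] [NumberField F] (v : HeightOneSpectrum (𝓞 F))
    (x y : Fˣ) : F4Rec.ordV v (x / y) = F4Rec.ordV v x - F4Rec.ordV v y := by
  have h := F4Rec.ordV_mul v (x / y) y
  rw [div_mul_cancel] at h
  rw [h]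
  ring

namespace LayerS

/-- **INERT-DIV** (helper31, `F4/Dict/InertDiv.lean`): at a prime `v` of `F` outside `S` with a
unique prime of `M` above it, the order of `f ∈ Fˣ`, `f ≡ N t` modulo `S`-units, is divisible by
`p`. -/
def LcInertDiv (ℓ : LayerS p S) : Prop :=
  ∀ (t : QSx S), t ∈ ℓ.top.TU → ∀ (f : (ℓ.bot.field)ˣ),
    ℓ.bot.toQS f - cnorm (QSx S) p ℓ.σ t ∈ sUnitsAdd S →
    ∀ v : HeightOneSpectrum (𝓞 ℓ.bot.field), v ∉ ℓ.bot.T →
    (∀ Q Q' : Ideal (𝓞 ℓ.top.field), Q.IsPrime → Q'.IsPrime → Q ≠ ⊥ → Q' ≠ ⊥ →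
      Q.under (𝓞 ℓ.bot.field) = v.asIdeal → Q'.under (𝓞 ℓ.bot.field) = v.asIdeal → Q' = Q) →
    (p : ℤ) ∣ F4Rec.ordV v f

/-- **The core of `dict_local`.** -/
theorem not_isNormFrom_core (ℓ : LayerS p S) [Fact p.Prime] (hp2 : p ≠ 2) (hS : S.Nonempty)
    (hID : ℓ.LcInertDiv)
    (Tp : Finset (HeightOneSpectrum (𝓞 ℓ.bot.field))) (hTp : Tp.Nonempty)
    (hTsub : Tp ⊆ ℓ.bot.T)
    (hunr : F4Rec.UnramOutside ℓ.bot.field ℓ.top.field Tp)
    (P : HeightOneSpectrum (𝓞 ℓ.bot.field)) (hP : P ∉ Tp)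
    (Q : Ideal (𝓞 ℓ.top.field)) (hQ : Q.IsPrime) (hQ0 : Q ≠ ⊥)
    (hQP : Q.under (𝓞 ℓ.bot.field) = P.asIdeal)
    (hFr : ∀ τ : ℓ.top.field ≃ₐ[ℓ.bot.field] ℓ.top.field,
      F4Rec.IsFrobRel τ Q (Ideal.absNorm (Q.under (𝓞 ℓ.bot.field))) → τ ≠ 1)
    {j : Jrep S} (hj : j ∈ ℓ.bot.JU) (c : (ℓ.bot.field)ˣ)
    (hjTp : ∀ (q : ↥S) (g : GQ), F4G.primeOf (ℓ.bot.emb q.1 g) ∈ Tp →
      Jval j q g = ℓ.bot.emb q.1 g (c : ℓ.bot.field))
    (hjT : ∀ (q : ↥S) (g : GQ), F4G.primeOf (ℓ.bot.emb q.1 g) ∉ Tp →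
      F4G.primeOf (ℓ.bot.emb q.1 g) ≠ P →
      ‖Jval j q g‖ = ‖ℓ.bot.emb q.1 g (c : ℓ.bot.field)‖)
    (hc : ∀ v : HeightOneSpectrum (𝓞 ℓ.bot.field), v ∉ ℓ.bot.T → v ≠ P → F4Rec.ordV v c = 0)
    (hPj : ∀ f : (ℓ.bot.field)ˣ,
      (∀ (q : ↥S) (g : GQ), F4G.primeOf (ℓ.bot.emb q.1 g) = P →
        ‖ℓ.bot.emb q.1 g (f : ℓ.bot.field)‖ = ‖Jval j q g‖) →
      (P ∉ ℓ.bot.T → (p : ℤ) ∣ F4Rec.ordV P f) → ¬ (p : ℤ) ∣ F4Rec.ordV P (f / c)) :
    ¬ IsNormFrom (Crep S) p ℓ.top.U ℓ.σ (CMk S j) := by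
  intro hN
  have hp : p.Prime := Fact.out
  obtain ⟨A, k₀, hfrob, hcore⟩ := F4Rec.artin_core p Tp hp hp2 ℓ.finrank_eq hTp hunr
  obtain ⟨f, u, t, hu, hun, ht, hfd, hfe⟩ := ℓ.firstAn hS hj hN k₀
  -- the values of `f`
  have hval : ∀ (q : ↥S) (g : GQ),
      ℓ.bot.emb q.1 g (f : ℓ.bot.field) = Jval j q g * (Jval u q g)⁻¹ := by
    intro q g
    rw [← ℓ.bot.Jval_diagJ_toQS, hfd, ja_Jval_sub, div_eq_mul_inv]
  have hunorm : ∀ (q : ↥S) (g : GQ), ‖Jval u q g‖ = 1 := fun q g =>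
    lc_norm_eq_one ((hun q g).trans_le (lc_zpow_le_one q.1 k₀))
  have hcne : ∀ (q : ↥S) (g : GQ), ℓ.bot.emb q.1 g (c : ℓ.bot.field) ≠ 0 := fun q g =>
    (map_ne_zero _).2 c.ne_zero
  -- (1) `f / c` is a local norm at `Tp`
  have h1 : f / c ∈ F4G.localNormsAt ℓ.bot.field ℓ.top.field Tp k₀ := by
    rw [F4G.mem_localNormsAt]
    intro v hv
    apply F4G.oneModSubgroup_le_localNormGroup
    obtain ⟨q, g, rfl⟩ := ℓ.bot.placesSurj v (hTsub hv)
    apply ℓ.bot.lc_oneMod_of_norm_lt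
    have e : ℓ.bot.emb q.1 g ((f / c : (ℓ.bot.field)ˣ) : ℓ.bot.field) = (Jval u q g)⁻¹ := by
      rw [Units.val_div_eq_div_val, map_div₀, hval, hjTp q g hv]
      field_simp [hcne q g]
    rw [e]
    exact lc_norm_inv_sub_one (lc_zpow_le_one q.1 k₀) (hun q g)
  -- (2) the Frobenius at `P`
  have h2 : A P.asIdeal ≠ 1 := by
    have h := hFr _ (hfrob Q hQ hQ0)
    rwa [hQP] at h
  -- primes with non-trivial Frobenius are inert
  have hinert : ∀ v : HeightOneSpectrum (𝓞 ℓ.bot.field), A v.asIdeal ≠ 1 →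
      ∀ Q₁ Q₂ : Ideal (𝓞 ℓ.top.field), Q₁.IsPrime → Q₂.IsPrime → Q₁ ≠ ⊥ → Q₂ ≠ ⊥ →
        Q₁.under (𝓞 ℓ.bot.field) = v.asIdeal → Q₂.under (𝓞 ℓ.bot.field) = v.asIdeal →
        Q₂ = Q₁ := by
    intro v hv Q₁ Q₂ h₁ h₂ h₁0 _ e₁ e₂
    have hf1 := hfrob Q₁ h₁ h₁0
    have hn : Ideal.absNorm (Q₁.under (𝓞 ℓ.bot.field)) ≠ 0 := by
      rw [Ne, Ideal.absNorm_eq_zero_iff]
      exact Ideal.under_ne_bot (𝓞 ℓ.bot.field) h₁0
    refine F4Rec.artin_inert hp ℓ.finrank_eq ?_ hn h₁ h₁0 h₂ hf1 (e₂.trans e₁.symm)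
    rw [e₁]
    exact hv
  -- (3) the other primes
  have h3 : ∀ v : HeightOneSpectrum (𝓞 ℓ.bot.field), v ∉ Tp → v ≠ P →
      A v.asIdeal = 1 ∨ (p : ℤ) ∣ F4Rec.ordV v (f / c) := by
    intro v hvT hvP
    by_cases hvS : v ∈ ℓ.bot.T
    · right
      obtain ⟨q, g, rfl⟩ := ℓ.bot.placesSurj v hvS
      have hn : ‖ℓ.bot.emb q.1 g ((f / c : (ℓ.bot.field)ˣ) : ℓ.bot.field)‖ = 1 := by
        rw [Units.val_div_eq_div_val, map_div₀, norm_div, hval, norm_mul, norm_inv, hunorm,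
          inv_one, mul_one, hjT q g hvT hvP]
        exact div_self (norm_ne_zero_iff.2 (hcne q g))
      rw [F4Rec.ordV_eq_zero_of_valuation_eq_one _ _ ((F4G.norm_eq_one_iff _ _).1 hn)]
      exact dvd_zero _
    · by_cases hA : A v.asIdeal = 1
      · exact Or.inl hA
      · right
        rw [lc_ordV_div, hc v hvS hvP, sub_zero]
        exact hID t ht f hfe v hvS (hinert v hA)
  have h4 := hcore (f / c) h1 P hP h2 h3
  refine hPj f ?_ ?_ h4
  · intro q g _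
    rw [hval, norm_mul, norm_inv, hunorm, inv_one, mul_one]
  · intro hPT
    exact hID t ht f hfe P hPT (hinert P h2)

end LayerS

end Fermat.Agent.F4
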