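import Fermat.Agent.F4.Loc.Krasner

/-!
# F4 / Dict / NearRoot : the canonical `p`-th root near `1` in `PadicAlgCl q`
(seat K3ii of DICT, local part; owner helper49)

`Ω = PadicAlgCl q` (algebraically closed, non-archimedean norm, not complete).  For `p > 0`:

* `exists_rootRadius`   : `c ∈ (0, 1]` with `‖ζ - 1‖ ≥ c` for every `p`-th root of unity `ζ ≠ 1`;
* `exists_nearRoot`     : `‖u - 1‖ < c ^ p  ⇒  ∃ w, w ^ p = u ∧ ‖w - 1‖ < c`;
* `nearRoot_unique`     : such a `w` is unique;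
* `nearRoot_fixed`      : hence fixed by every `ℚ_q`-automorphism fixing `u`, and more generally
  `nearRoot_equivariant`.
No completeness is used: existence comes from `Ω` algebraically closed and
`1 - u = ∏ (1 - w)` over the roots `w` of `X ^ p - u`.
-/

set_option autoImplicit false

open Polynomial

namespace Fermat.Agent.F4

variable {q : ℕ} [Fact q.Prime]

/-- A lower bound for `‖ζ - 1‖`, `ζ ≠ 1` a `p`-th root of unity. -/
theorem exists_rootRadius (p : ℕ) (hp : 0 < p) :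
    ∃ c : ℝ, 0 < c ∧ c ≤ 1 ∧ ∀ ζ : PadicAlgCl q, ζ ^ p = 1 → ζ ≠ 1 → c ≤ ‖ζ - 1‖ := by
  classical
  set s : Finset (PadicAlgCl q) := (nthRootsFinset p (1 : PadicAlgCl q)).erase 1 with hs
  by_cases hne : s.Nonempty
  · obtain ⟨ζ₀, hζ₀, hmin⟩ := Finset.exists_min_image s (fun ζ => ‖ζ - 1‖) hne
    have hζ₀1 : ζ₀ ≠ 1 := (Finset.mem_erase.1 hζ₀).1
    refine ⟨min 1 ‖ζ₀ - 1‖, lt_min one_pos (norm_pos_iff.2 (sub_ne_zero.2 hζ₀1)),
      min_le_left _ _, fun ζ hζ hζ1 => ?_⟩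
    have hmem : ζ ∈ s := by
      rw [hs, Finset.mem_erase]
      exact ⟨hζ1, (mem_nthRootsFinset hp 1).2 hζ⟩
    exact (min_le_right _ _).trans (hmin ζ hmem)
  · refine ⟨1, one_pos, le_rfl, fun ζ hζ hζ1 => ?_⟩
    exfalso
    apply hne
    refine ⟨ζ, ?_⟩
    rw [hs, Finset.mem_erase]
    exact ⟨hζ1, (mem_nthRootsFinset hp 1).2 hζ⟩

/-- A product of `n` numbers `≥ c ≥ 0` is `≥ c ^ n`. -/
lemma pow_card_le_prod_map {α : Type*} (m : Multiset α) (f : α → ℝ) {c : ℝ} (hc : 0 ≤ c)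
    (h : ∀ a ∈ m, c ≤ f a) : c ^ Multiset.card m ≤ (m.map f).prod := by
  induction m using Multiset.induction_on with
  | empty => simp
  | cons a m ih =>
    rw [Multiset.card_cons, Multiset.map_cons, Multiset.prod_cons, pow_succ']
    have h1 : c ≤ f a := h a (Multiset.mem_cons_self a m)
    have h2 : c ^ Multiset.card m ≤ (m.map f).prod :=
      ih fun b hb => h b (Multiset.mem_cons_of_mem hb)
    exact mul_le_mul h1 h2 (pow_nonneg hc _) (hc.trans h1)

/-- **Existence** of a `p`-th root near `1`. -/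
theorem exists_nearRoot {p : ℕ} (hp : 0 < p) {c : ℝ} (hc : 0 < c) {u : PadicAlgCl q}
    (hu : ‖u - 1‖ < c ^ p) : ∃ w : PadicAlgCl q, w ^ p = u ∧ ‖w - 1‖ < c := by
  by_contra hcon
  push Not at hcon
  set f : (PadicAlgCl q)[X] := X ^ p - C u with hf
  have hmon : f.Monic := monic_X_pow_sub_C u hp.ne'
  have hsplit : f.Splits := IsAlgClosed.splits f
  have hdeg : f.natDegree = p := natDegree_X_pow_sub_C
  have hcard : Multiset.card f.roots = p := by rw [← hsplit.natDegree_eq_card_roots, hdeg]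
  have heval : f.eval 1 = (f.roots.map (1 - ·)).prod := hsplit.eval_eq_prod_roots_of_monic hmon 1
  have heval1 : f.eval 1 = 1 - u := by simp [hf]
  have hroot : ∀ w ∈ f.roots, c ≤ ‖1 - w‖ := by
    intro w hw
    have hw' : w ^ p = u := by
      have := (mem_roots hmon.ne_zero).1 hw
      rw [IsRoot.def, hf, eval_sub, eval_pow, eval_X, eval_C, sub_eq_zero] at this
      exact this
    rw [← norm_neg, neg_sub]
    exact hcon w hw'
  have hnorm : ‖(f.roots.map (1 - ·)).prod‖ = (f.roots.map (fun w => ‖1 - w‖)).prod := by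
    rw [← normHom_apply, map_multiset_prod, Multiset.map_map]
    rfl
  have hge : c ^ p ≤ ‖1 - u‖ := by
    rw [← heval1, heval, hnorm, ← hcard]
    exact pow_card_le_prod_map _ _ hc.le hroot
  rw [← norm_neg, neg_sub] at hge
  exact absurd hu (not_lt.2 hge)

/-- **Uniqueness** of the `p`-th root near `1`. -/
theorem nearRoot_unique {p : ℕ} {c : ℝ} (hc1 : c ≤ 1)
    (hc : ∀ ζ : PadicAlgCl q, ζ ^ p = 1 → ζ ≠ 1 → c ≤ ‖ζ - 1‖) {w w' : PadicAlgCl q}
    (hpow : w ^ p = w' ^ p) (hw : ‖w - 1‖ < c) (hw' : ‖w' - 1‖ < c) : w = w' := by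
  have hwn : ‖w‖ = 1 := by
    have e : w = (w - 1) + 1 := by ring
    have h1 : ‖w - 1‖ < ‖(1 : PadicAlgCl q)‖ := by rw [norm_one]; exact hw.trans_le hc1
    rw [e, IsUltrametricDist.norm_add_eq_max_of_norm_ne_norm h1.ne, norm_one]
    exact max_eq_right (by rw [← norm_one (α := PadicAlgCl q)]; exact h1.le)
  have hw0 : w ≠ 0 := by
    intro h
    rw [h, norm_zero] at hwn
    exact zero_ne_one hwn
  by_contra hne
  set ζ : PadicAlgCl q := w' / w with hζ
  have hζp : ζ ^ p = 1 := by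
    rw [hζ, div_pow, ← hpow, div_self (pow_ne_zero p hw0)]
  have hζ1 : ζ ≠ 1 := by
    intro h
    rw [hζ, div_eq_one_iff_eq hw0] at h
    exact hne h.symm
  have h2 : ‖ζ - 1‖ = ‖w' - w‖ := by
    have e : ζ - 1 = (w' - w) / w := by
      rw [hζ]
      field_simp
    rw [e, norm_div, hwn, div_one]
  have h3 : ‖w' - w‖ < c := by
    have e : w' - w = (w' - 1) + (-(w - 1)) := by ring
    rw [e]
    exact (IsUltrametricDist.norm_add_le_max _ _).trans_lt (max_lt hw' (by rw [norm_neg]; exact hw))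
  exact absurd (hc ζ hζp hζ1) (not_le.2 (h2 ▸ h3))

/-- The `p`-th root near `1` of `u` is fixed by the automorphisms fixing `u`; more generally it is
carried to the root near `1` of `σ u`. -/
theorem nearRoot_equivariant {p : ℕ} {c : ℝ} (hc1 : c ≤ 1)
    (hc : ∀ ζ : PadicAlgCl q, ζ ^ p = 1 → ζ ≠ 1 → c ≤ ‖ζ - 1‖)
    (σ : PadicAlgCl q ≃ₐ[ℚ_[q]] PadicAlgCl q) {w w' : PadicAlgCl q}
    (hpow : σ (w ^ p) = w' ^ p) (hw : ‖w - 1‖ < c) (hw' : ‖w' - 1‖ < c) : σ w = w' := by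
  refine nearRoot_unique hc1 hc (by rw [← map_pow]; exact hpow) ?_ hw'
  have e : σ w - 1 = σ (w - 1) := by rw [map_sub, map_one]
  rw [e, Loc.kras_norm_algEquiv q σ]
  exact hw

end Fermat.Agent.F4
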