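import Fermat.Agent.F4.Dict.Level

/-!
# F4 / Dict / Places : the elements of `J^U` as families of local elements (layer DICT, P3)

`J = ∏_{q ∈ S} coInd_{D_q → G_ℚ} L_q`; the value of `x ∈ J` at `(q, g)` is `Jval x q g`
(`F4/Dict/Level.lean`).  For `U` open, `x ∈ J^U` is a family of local elements indexed by the
double cosets `D_q g U`, i.e. by the places of `F = ℚ̄^U` over `S`:

* `Jval_mul_left`, `Jval_mul_right` : `Jval x q (r d * g * u) = d (Jval x q g)`;
* `Jval_add`, `Jval_zero`, `Jval_neg`, `Jval_nsmul`, `Jval_ρ`, `Jrep_ext` : calculus of values;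
* `OpenS.Dsub q g` : the decomposition group of the place `D_q g U`, as a subgroup of the local
  group (`{d | g⁻¹ r(d) g ∈ U}`);
* `OpenS.Jval_fixed` : the value of `x ∈ J^U` at `(q, g)` is fixed by `Dsub q g`;
* `OpenS.exists_single` : for `y` fixed by `Dsub q g₀` there is `x ∈ J^U` with value `y` at
  `(q, g₀)`, and `1` outside the double coset `D_q g₀ U` and at the other primes.
-/

set_option autoImplicit false
set_option synthInstance.maxHeartbeats 400000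
set_option linter.unusedSectionVars false

open CategoryTheory groupCohomology ExtCitation
open NumberField IsDedekindDomain

namespace Fermat.Agent.F4

variable {S : Finset Nat.Primes}

/-- The component of `x ∈ J` at `q`, as a function. -/
noncomputable def Jfun (x : Jrep S) (q : ↥S) : GQ → LqS S q.1 :=
  ((x q : ↥(coIndSub (primeLocalToGlobal q.1) (levelsS S) (LqS S q.1))) : GQ → LqS S q.1)

lemma Jval_def (x : Jrep S) (q : ↥S) (g : GQ) :
    Jval x q g = ((smUnits.val (Jfun x q g) :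
      (@PadicAlgCl ((q : Nat.Primes) : ℕ) ⟨(q : Nat.Primes).2⟩)ˣ) :
      @PadicAlgCl ((q : Nat.Primes) : ℕ) ⟨(q : Nat.Primes).2⟩) := rfl

lemma Jfun_mul_left (x : Jrep S) (q : ↥S) (d : primeLocalGaloisGroup q.1) (g : GQ) :
    Jfun x q (primeLocalToGlobal q.1 d * g) = (LqS S q.1).ρ d (Jfun x q g) :=
  coIndSub_equivariant (x q) d g

lemma Jfun_ρ (x : Jrep S) (q : ↥S) (h g : GQ) :
    Jfun ((Jrep S).ρ h x) q g = Jfun x q (g * h) := rfl

lemma Jfun_add (x y : Jrep S) (q : ↥S) (g : GQ) :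
    Jfun (x + y) q g = Jfun x q g + Jfun y q g := rfl

lemma Jfun_zero (q : ↥S) (g : GQ) : Jfun (0 : Jrep S) q g = 0 := rfl

lemma Jfun_neg (x : Jrep S) (q : ↥S) (g : GQ) : Jfun (-x) q g = -Jfun x q g := rfl

lemma Jrep_ext {x y : Jrep S} (h : ∀ q g, Jfun x q g = Jfun y q g) : x = y := by
  funext q
  apply Subtype.ext
  funext g
  exact h q g

lemma Jval_ne_zero (x : Jrep S) (q : ↥S) (g : GQ) : Jval x q g ≠ 0 :=
  (smUnits.val (Jfun x q g)).ne_zero

lemma Jval_mul_left (x : Jrep S) (q : ↥S) (d : primeLocalGaloisGroup q.1) (g : GQ) :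
    Jval x q (primeLocalToGlobal q.1 d * g) = locAct q.1 d (Jval x q g) := by
  rw [Jval_def, Jfun_mul_left, smUnits.val_ρ]
  rfl

lemma Jval_ρ (x : Jrep S) (q : ↥S) (h g : GQ) :
    Jval ((Jrep S).ρ h x) q g = Jval x q (g * h) := rfl

lemma Jval_add (x y : Jrep S) (q : ↥S) (g : GQ) :
    Jval (x + y) q g = Jval x q g * Jval y q g := by
  rw [Jval_def, Jfun_add, smUnits.val_add, Units.val_mul]
  rfl

lemma Jval_zero (q : ↥S) (g : GQ) : Jval (0 : Jrep S) q g = 1 := rfl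

lemma Jval_neg (x : Jrep S) (q : ↥S) (g : GQ) : Jval (-x) q g = (Jval x q g)⁻¹ := by
  rw [Jval_def, Jfun_neg, smUnits.val_neg, Units.val_inv_eq_inv_val]
  rfl

lemma Jval_nsmul (n : ℕ) (x : Jrep S) (q : ↥S) (g : GQ) :
    Jval (n • x) q g = Jval x q g ^ n := by
  induction n with
  | zero => rw [zero_smul, pow_zero, Jval_zero]
  | succ k ih => rw [succ_nsmul, Jval_add, ih, pow_succ]

lemma Jval_ext {x y : Jrep S} (h : ∀ q g, Jval x q g = Jval y q g) : x = y :=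
  Jrep_ext fun q g => smUnits.val_injective (Units.ext (h q g))

namespace OpenS

variable (L : OpenS S)

lemma Jfun_mul_right {x : Jrep S} (hx : x ∈ L.JU) (q : ↥S) (g u : GQ) (hu : u ∈ L.U) :
    Jfun x q (g * u) = Jfun x q g := by
  have h := hx u hu
  rw [← Jfun_ρ, h]

lemma Jval_mul_right {x : Jrep S} (hx : x ∈ L.JU) (q : ↥S) (g u : GQ) (hu : u ∈ L.U) :
    Jval x q (g * u) = Jval x q g := by
  rw [Jval_def, L.Jfun_mul_right hx q g u hu]
  rfl

lemma mem_JU_iff (x : Jrep S) :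
    x ∈ L.JU ↔ ∀ (q : ↥S) (g u : GQ), u ∈ L.U → Jfun x q (g * u) = Jfun x q g := by
  constructor
  · intro hx q g u hu
    exact L.Jfun_mul_right hx q g u hu
  · intro h u hu
    exact Jrep_ext fun q g => (Jfun_ρ x q u g).trans (h q g u hu)

/-- The decomposition group of the place `D_q g U` of `F`: `{d | g⁻¹ r(d) g ∈ U}`. -/
def Dsub (q : Nat.Primes) (g : GQ) : Subgroup (primeLocalGaloisGroup q) where
  carrier := {d | g⁻¹ * primeLocalToGlobal q d * g ∈ L.U}
  one_mem' := by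
    show g⁻¹ * primeLocalToGlobal q 1 * g ∈ L.U
    rw [map_one, mul_one, inv_mul_cancel]
    exact L.U.one_mem
  mul_mem' := by
    intro a b ha hb
    show g⁻¹ * primeLocalToGlobal q (a * b) * g ∈ L.U
    have e : g⁻¹ * primeLocalToGlobal q (a * b) * g =
        (g⁻¹ * primeLocalToGlobal q a * g) * (g⁻¹ * primeLocalToGlobal q b * g) := by
      rw [map_mul]; group
    rw [e]
    exact L.U.mul_mem ha hb
  inv_mem' := by
    intro a ha
    show g⁻¹ * primeLocalToGlobal q a⁻¹ * g ∈ L.U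
    have e : g⁻¹ * primeLocalToGlobal q a⁻¹ * g = (g⁻¹ * primeLocalToGlobal q a * g)⁻¹ := by
      rw [map_inv]; group
    rw [e]
    exact L.U.inv_mem ha

lemma mem_Dsub (q : Nat.Primes) (g : GQ) (d : primeLocalGaloisGroup q) :
    d ∈ L.Dsub q g ↔ g⁻¹ * primeLocalToGlobal q d * g ∈ L.U := Iff.rfl

/-- The value of `x ∈ J^U` at `(q, g)` is fixed by the decomposition group `Dsub q g`. -/
lemma Jfun_fixed {x : Jrep S} (hx : x ∈ L.JU) (q : ↥S) (g : GQ)
    (d : primeLocalGaloisGroup q.1) (hd : d ∈ L.Dsub q.1 g) :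
    (LqS S q.1).ρ d (Jfun x q g) = Jfun x q g := by
  rw [← Jfun_mul_left]
  have e : primeLocalToGlobal q.1 d * g = g * (g⁻¹ * primeLocalToGlobal q.1 d * g) := by group
  rw [e]
  exact L.Jfun_mul_right hx q g _ hd

lemma Jval_fixed {x : Jrep S} (hx : x ∈ L.JU) (q : ↥S) (g : GQ)
    (d : primeLocalGaloisGroup q.1) (hd : d ∈ L.Dsub q.1 g) :
    locAct q.1 d (Jval x q g) = Jval x q g := by
  rw [← Jval_mul_left]
  have e : primeLocalToGlobal q.1 d * g = g * (g⁻¹ * primeLocalToGlobal q.1 d * g) := by group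
  rw [e]
  exact L.Jval_mul_right hx q g _ hd

/-- The double coset `D_q g₀ U`. -/
def InDC (q : Nat.Primes) (g₀ g : GQ) : Prop :=
  ∃ (d : primeLocalGaloisGroup q) (u : GQ), u ∈ L.U ∧ g = primeLocalToGlobal q d * g₀ * u

/-- An element of `(PadicAlgCl q)ˣ` fixed by `Dsub q g₀` is a smooth unit. -/
lemma mem_smUnitsSub_of_fixed (q : Nat.Primes) (g₀ : GQ)
    (y : (@PadicAlgCl (q : ℕ) ⟨q.2⟩)ˣ)
    (hy : ∀ d ∈ L.Dsub q g₀, locAct q d (y : @PadicAlgCl (q : ℕ) ⟨q.2⟩) = y) :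
    y ∈ smUnitsSub (locLevelsS S q) (locAct q) := by
  obtain ⟨W, hW, hle⟩ := L.isOpen
  refine ⟨W.comap (primeLocalToGlobal q), ⟨W, hW, rfl⟩, fun d hd => hy d ?_⟩
  rw [mem_Dsub]
  apply hle
  have hn : W.Normal := (levelsS S).normal W hW
  have := hn.conj_mem _ hd g₀⁻¹
  rwa [inv_inv] at this

section Single

variable (q : ↥S) (g₀ : GQ) (y : (@PadicAlgCl ((q : Nat.Primes) : ℕ) ⟨(q : Nat.Primes).2⟩)ˣ)
  (hy : ∀ d ∈ L.Dsub q.1 g₀,
    locAct q.1 d (y : @PadicAlgCl ((q : Nat.Primes) : ℕ) ⟨(q : Nat.Primes).2⟩) = y)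

/-- `y` as an element of `L_q`. -/
noncomputable def singleVal : LqS S q.1 := smUnits.mk y (L.mem_smUnitsSub_of_fixed q.1 g₀ y hy)

open Classical in
/-- The function `r(d) g₀ u ↦ d y`, `0` outside the double coset. -/
noncomputable def singleFun : GQ → LqS S q.1 := fun g =>
  if h : L.InDC q.1 g₀ g then (LqS S q.1).ρ h.choose (L.singleVal q g₀ y hy) else 0

lemma singleVal_fixed (d : primeLocalGaloisGroup q.1) (hd : d ∈ L.Dsub q.1 g₀) :
    (LqS S q.1).ρ d (L.singleVal q g₀ y hy) = L.singleVal q g₀ y hy := by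
  rw [smUnits.ρ_eq_iff]
  exact hy d hd

lemma singleFun_eq (d : primeLocalGaloisGroup q.1) (u : GQ) (hu : u ∈ L.U) :
    L.singleFun q g₀ y hy (primeLocalToGlobal q.1 d * g₀ * u) =
      (LqS S q.1).ρ d (L.singleVal q g₀ y hy) := by
  have h : L.InDC q.1 g₀ (primeLocalToGlobal q.1 d * g₀ * u) := ⟨d, u, hu, rfl⟩
  unfold singleFun
  rw [dif_pos h]
  obtain ⟨u', hu', he⟩ := h.choose_spec
  set d' := h.choose with hd'
  -- d'⁻¹ d ∈ Dsub
  have hmem : d'⁻¹ * d ∈ L.Dsub q.1 g₀ := by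
    rw [mem_Dsub, map_mul, map_inv]
    have e : g₀⁻¹ * ((primeLocalToGlobal q.1 d')⁻¹ * primeLocalToGlobal q.1 d) * g₀ =
        u' * u⁻¹ := by
      have h1 : primeLocalToGlobal q.1 d * g₀ = primeLocalToGlobal q.1 d' * g₀ * u' * u⁻¹ := by
        rw [← he]; group
      calc g₀⁻¹ * ((primeLocalToGlobal q.1 d')⁻¹ * primeLocalToGlobal q.1 d) * g₀
          = g₀⁻¹ * (primeLocalToGlobal q.1 d')⁻¹ * (primeLocalToGlobal q.1 d * g₀) := by group
        _ = g₀⁻¹ * (primeLocalToGlobal q.1 d')⁻¹ *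
              (primeLocalToGlobal q.1 d' * g₀ * u' * u⁻¹) := by rw [h1]
        _ = u' * u⁻¹ := by group
    rw [e]
    exact L.U.mul_mem hu' (L.U.inv_mem hu)
  have h2 := L.singleVal_fixed q g₀ y hy _ hmem
  have h3 : (LqS S q.1).ρ d (L.singleVal q g₀ y hy) =
      (LqS S q.1).ρ d' ((LqS S q.1).ρ (d'⁻¹ * d) (L.singleVal q g₀ y hy)) := by
    rw [← Module.End.mul_apply, ← map_mul, mul_inv_cancel_left]
  rw [h3, h2]

lemma singleFun_of_not (g : GQ) (h : ¬ L.InDC q.1 g₀ g) : L.singleFun q g₀ y hy g = 0 := by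
  unfold singleFun
  rw [dif_neg h]

lemma inDC_mul_left (d : primeLocalGaloisGroup q.1) (g : GQ) :
    L.InDC q.1 g₀ (primeLocalToGlobal q.1 d * g) ↔ L.InDC q.1 g₀ g := by
  constructor
  · rintro ⟨d₁, u, hu, he⟩
    refine ⟨d⁻¹ * d₁, u, hu, ?_⟩
    rw [map_mul, map_inv, mul_assoc, mul_assoc, ← mul_assoc _ g₀ u, ← he]
    group
  · rintro ⟨d₁, u, hu, he⟩
    refine ⟨d * d₁, u, hu, ?_⟩
    rw [he, map_mul]
    group

lemma inDC_mul_right (g u : GQ) (hu : u ∈ L.U) :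
    L.InDC q.1 g₀ (g * u) ↔ L.InDC q.1 g₀ g := by
  constructor
  · rintro ⟨d₁, u₁, hu₁, he⟩
    refine ⟨d₁, u₁ * u⁻¹, L.U.mul_mem hu₁ (L.U.inv_mem hu), ?_⟩
    rw [← mul_assoc, ← he]
    group
  · rintro ⟨d₁, u₁, hu₁, he⟩
    refine ⟨d₁, u₁ * u, L.U.mul_mem hu₁ hu, ?_⟩
    rw [he]
    group

lemma inDC_self : L.InDC q.1 g₀ g₀ := ⟨1, 1, L.U.one_mem, by rw [map_one, one_mul, mul_one]⟩

lemma singleFun_mul_left (d : primeLocalGaloisGroup q.1) (g : GQ) :
    L.singleFun q g₀ y hy (primeLocalToGlobal q.1 d * g) =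
      (LqS S q.1).ρ d (L.singleFun q g₀ y hy g) := by
  by_cases h : L.InDC q.1 g₀ g
  · obtain ⟨d₁, u, hu, rfl⟩ := h
    have e : primeLocalToGlobal q.1 d * (primeLocalToGlobal q.1 d₁ * g₀ * u) =
        primeLocalToGlobal q.1 (d * d₁) * g₀ * u := by
      rw [map_mul]; group
    rw [e, singleFun_eq _ _ _ _ _ _ _ hu, singleFun_eq _ _ _ _ _ _ _ hu, map_mul,
      Module.End.mul_apply]
  · rw [L.singleFun_of_not q g₀ y hy g h,
      L.singleFun_of_not q g₀ y hy _ (fun h' => h ((L.inDC_mul_left q g₀ d g).1 h')), map_zero]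

lemma singleFun_mul_right (g u : GQ) (hu : u ∈ L.U) :
    L.singleFun q g₀ y hy (g * u) = L.singleFun q g₀ y hy g := by
  by_cases h : L.InDC q.1 g₀ g
  · obtain ⟨d₁, u₁, hu₁, rfl⟩ := h
    have e : primeLocalToGlobal q.1 d₁ * g₀ * u₁ * u = primeLocalToGlobal q.1 d₁ * g₀ * (u₁ * u) := by
      group
    rw [e, singleFun_eq _ _ _ _ _ _ _ (L.U.mul_mem hu₁ hu), singleFun_eq _ _ _ _ _ _ _ hu₁]
  · rw [L.singleFun_of_not q g₀ y hy g h,
      L.singleFun_of_not q g₀ y hy _ (fun h' => h ((L.inDC_mul_right q g₀ g u hu).1 h'))]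

lemma singleFun_mem :
    L.singleFun q g₀ y hy ∈ coIndSub (primeLocalToGlobal q.1) (levelsS S) (LqS S q.1) := by
  refine ⟨fun d g => L.singleFun_mul_left q g₀ y hy d g, ?_⟩
  obtain ⟨W, hW, hle⟩ := L.isOpen
  exact ⟨W, hW, fun g s hs => L.singleFun_mul_right q g₀ y hy g s (hle hs)⟩

open Classical in
/-- The element of `J` with component `singleFun` at `q` and `0` elsewhere. -/
noncomputable def single : Jrep S := fun q' =>
  if h : q' = q then h ▸ (⟨L.singleFun q g₀ y hy, L.singleFun_mem q g₀ y hy⟩ :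
    ↥(coIndSub (primeLocalToGlobal q.1) (levelsS S) (LqS S q.1))) else 0

lemma Jfun_single_self (g : GQ) : Jfun (L.single q g₀ y hy) q g = L.singleFun q g₀ y hy g := by
  unfold Jfun single
  rw [dif_pos rfl]

lemma Jfun_single_of_ne (q' : ↥S) (hq : q' ≠ q) (g : GQ) :
    Jfun (L.single q g₀ y hy) q' g = 0 := by
  unfold Jfun single
  rw [dif_neg hq]
  rfl

lemma single_mem_JU : L.single q g₀ y hy ∈ L.JU := by
  rw [mem_JU_iff]
  intro q' g u hu
  by_cases hq : q' = q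
  · subst hq
    rw [Jfun_single_self, Jfun_single_self]
    exact L.singleFun_mul_right q' g₀ y hy g u hu
  · rw [Jfun_single_of_ne _ _ _ _ _ _ hq, Jfun_single_of_ne _ _ _ _ _ _ hq]

include hy in
/-- **P3 (construction)**: the element of `J^U` with value `y` at the place `D_q g₀ U` and `1` at
the other places over `S`. -/
theorem exists_single :
    ∃ x : Jrep S, x ∈ L.JU ∧
      (∀ (d : primeLocalGaloisGroup q.1) (u : GQ), u ∈ L.U →
        Jval x q (primeLocalToGlobal q.1 d * g₀ * u) =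
          locAct q.1 d (y : @PadicAlgCl ((q : Nat.Primes) : ℕ) ⟨(q : Nat.Primes).2⟩)) ∧
      (∀ g, ¬ L.InDC q.1 g₀ g → Jval x q g = 1) ∧
      ∀ q' : ↥S, q' ≠ q → ∀ g, Jval x q' g = 1 := by
  refine ⟨L.single q g₀ y hy, L.single_mem_JU q g₀ y hy, fun d u hu => ?_, fun g hg => ?_,
    fun q' hq g => ?_⟩
  · rw [Jval_def, Jfun_single_self, singleFun_eq _ _ _ _ _ _ _ hu, smUnits.val_ρ]
    rfl
  · rw [Jval_def, Jfun_single_self, L.singleFun_of_not q g₀ y hy g hg]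
    rfl
  · rw [Jval_def, Jfun_single_of_ne _ _ _ _ _ _ hq]
    rfl

end Single

end OpenS

end Fermat.Agent.F4
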