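import Fermat.Agent.F4.Dict.Places
import Fermat.Agent.F4.Dict.PlacesB.Conj
import Fermat.Agent.F4.Dict.PlacesB.Trans

/-!
# F4 / Dict / PlacesB : the places of `F = ℚ̄^U` over `S` are the double cosets `D_q g U`
(layer DICT, seats P1 + P2, helper90)

`L : OpenS S`, `F = L.field`, `q` a prime, `g : G_ℚ`; `L.emb q g : F → PadicAlgCl q`,
`a ↦ ι (g a)`, cuts out the prime `primeOf (L.emb q g)` of `F` (helper86's `F4/Glob/Compl`).

* `OpenS.primeOf_emb_mem_T_of_mem` (P1) : for `q ∈ S` the prime `primeOf (L.emb q g)` lies in `L.T`;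
* `OpenS.exists_primeOf_emb_eq` (P1) : every `v ∈ L.T` is `primeOf (L.emb q g)` for some
  `q ∈ S`, `g : G_ℚ`;
* `OpenS.primeOf_emb_eq_iff` (P2) : `primeOf (L.emb q g) = primeOf (L.emb q g')` iff
  `g' ∈ D_q g U` (`L.InDC q g g'`);
* `OpenS.norm_emb_eq_of_inDC`, `OpenS.exists_locAct_emb_eq` : the norm / the conjugating
  element of the local group.
-/

set_option autoImplicit false
set_option synthInstance.maxHeartbeats 400000
set_option linter.unusedSectionVars false
set_option linter.style.haveILetI false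

open CategoryTheory groupCohomology ExtCitation
open NumberField IsDedekindDomain

namespace Fermat.Agent.F4

variable {S : Finset Nat.Primes}

namespace OpenS

variable (L : OpenS S)

/-- Membership in the prime cut out by `L.emb q g`. -/
lemma mem_primeOf_emb (q : Nat.Primes) (g : GQ) (x : 𝓞 L.field) :
    letI : Fact (q : ℕ).Prime := ⟨q.2⟩
    x ∈ (F4G.primeOf (L.emb q g)).asIdeal ↔
      ‖padicEmbedding (q : ℕ) (g (((x : L.field)) : AlgebraicClosure ℚ))‖ < 1 := by
  letI : Fact (q : ℕ).Prime := ⟨q.2⟩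
  exact Iff.rfl

/-- **P1.**  The prime cut out by `L.emb q g`, `q ∈ S`, is a prime of `F` over `S`. -/
theorem primeOf_emb_mem_T_of_mem (q : Nat.Primes) (hq : q ∈ S) (g : GQ) :
    letI : Fact (q : ℕ).Prime := ⟨q.2⟩
    F4G.primeOf (L.emb q g) ∈ L.T := by
  letI : Fact (q : ℕ).Prime := ⟨q.2⟩
  rw [L.mem_T]
  exact ⟨q, hq, F4G.natCast_mem_primeOf (L.emb q g)⟩

/-- **P1.**  Every prime of `F` over `S` is cut out by some `L.emb q g`, `q ∈ S`. -/
theorem exists_primeOf_emb_eq (v : HeightOneSpectrum (𝓞 L.field)) (hv : v ∈ L.T) :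
    ∃ q ∈ S, ∃ g : GQ,
      letI : Fact (q : ℕ).Prime := ⟨q.2⟩
      F4G.primeOf (L.emb q g) = v := by
  obtain ⟨q, hq, hqv⟩ := (L.mem_T v).1 hv
  letI : Fact (q : ℕ).Prime := ⟨q.2⟩
  obtain ⟨g, hg⟩ := F4G.plb_exists_gal (q := (q : ℕ)) L.field v hqv
  refine ⟨q, hq, g, ?_⟩
  apply HeightOneSpectrum.ext
  ext x
  rw [hg x]
  exact L.mem_primeOf_emb q g x

/-- The norm of `L.emb q g a` depends only on the double coset `D_q g U`. -/
theorem norm_emb_eq_of_inDC (q : Nat.Primes) {g g' : GQ} (h : L.InDC q g g') (a : L.field) :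
    letI : Fact (q : ℕ).Prime := ⟨q.2⟩
    ‖L.emb q g' a‖ = ‖L.emb q g a‖ := by
  letI : Fact (q : ℕ).Prime := ⟨q.2⟩
  obtain ⟨d, u, hu, rfl⟩ := h
  have hua : u (a : AlgebraicClosure ℚ) = a := (L.mem_field_iff _).1 a.2 u hu
  have h1 : L.emb q (primeLocalToGlobal q d * g * u) a = locAct q d (L.emb q g a) := by
    rw [emb_apply, emb_apply, ← locEmb_primeLocalToGlobal]
    show locEmb q (primeLocalToGlobal q d (g (u (a : AlgebraicClosure ℚ)))) = _
    rw [hua]
  rw [h1]
  have h2 := nnnorm_padicAlgCl_algEquiv (q : ℕ) d (L.emb q g a)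
  exact congrArg NNReal.toReal h2

/-- Two embeddings `L.emb q g`, `L.emb q g'` with the same prime are conjugate under the local
Galois group. -/
theorem exists_locAct_emb_eq (q : Nat.Primes) (g g' : GQ)
    (h : letI : Fact (q : ℕ).Prime := ⟨q.2⟩
      F4G.primeOf (L.emb q g) = F4G.primeOf (L.emb q g')) :
    ∃ d : primeLocalGaloisGroup q, ∀ a : L.field, locAct q d (L.emb q g a) = L.emb q g' a := by
  letI : Fact (q : ℕ).Prime := ⟨q.2⟩
  obtain ⟨d, hd⟩ := F4G.plb_exists_algEquiv_of_primeOf_eq (L.emb q g) (L.emb q g') h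
  exact ⟨d, hd⟩

/-- **P2.**  `L.emb q g` and `L.emb q g'` cut out the same prime of `F` iff `g' ∈ D_q g U`. -/
theorem primeOf_emb_eq_iff (q : Nat.Primes) (g g' : GQ) :
    letI : Fact (q : ℕ).Prime := ⟨q.2⟩
    F4G.primeOf (L.emb q g) = F4G.primeOf (L.emb q g') ↔ L.InDC q g g' := by
  letI : Fact (q : ℕ).Prime := ⟨q.2⟩
  constructor
  · intro h
    obtain ⟨d, hd⟩ := L.exists_locAct_emb_eq q g g' h
    refine ⟨d, (primeLocalToGlobal q d * g)⁻¹ * g', ?_, by group⟩
    rw [← L.fixingSubgroup_field, IntermediateField.mem_fixingSubgroup_iff]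
    intro a ha
    have h1 := hd ⟨a, ha⟩
    rw [emb_apply, emb_apply, ← locEmb_primeLocalToGlobal] at h1
    have h2 : primeLocalToGlobal q d (g a) = g' a := locEmb_injective q h1
    show (primeLocalToGlobal q d * g)⁻¹ (g' a) = a
    rw [← h2]
    exact (primeLocalToGlobal q d * g).symm_apply_apply a
  · intro h
    apply HeightOneSpectrum.ext
    ext x
    rw [F4G.mem_primeOf, F4G.mem_primeOf, L.norm_emb_eq_of_inDC q h]

end OpenS

end Fermat.Agent.F4
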