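import Fermat.Agent.F4.Dict.Places
import Fermat.Agent.F4.Glob.Compl.Pow

/-!
# F4 / Dict / PlacesC : the values of `x ∈ J^U` lie in the completions of `F` (layer DICT, P3c)

For `L : OpenS S` (`F = L.field`), `q` a prime and `g : G_ℚ`, the completion of `F` at the place
`D_q g U` is `complOf (L.emb q g) = ℚ_q (ι (g F)) ⊂ PadicAlgCl q` (helper86's `F4/Glob/Compl`).

* `OpenS.mem_complOf_iff_fixed` : `y ∈ complOf (L.emb q g) ↔ y` is fixed by `Dsub q g`;
* `OpenS.Jval_mem_complOf` : the value at `(q, g)` of `x ∈ J^U` lies in `complOf (L.emb q g)`.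
-/

set_option autoImplicit false
set_option synthInstance.maxHeartbeats 400000
set_option linter.unusedSectionVars false
set_option linter.style.haveILetI false

open CategoryTheory groupCohomology ExtCitation
open NumberField IsDedekindDomain

namespace Fermat.Agent.F4

variable {S : Finset Nat.Primes}

namespace OpenS

variable (L : OpenS S)

/-- An element of the local group which fixes `ι (g F)` lies in `Dsub q g`. -/
lemma mem_Dsub_of_fixes (q : Nat.Primes) (g : GQ) (d : primeLocalGaloisGroup q)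
    (h : ∀ a : L.field, locAct q d (L.emb q g a) = L.emb q g a) : d ∈ L.Dsub q g := by
  rw [mem_Dsub, ← L.fixingSubgroup_field, IntermediateField.mem_fixingSubgroup_iff]
  intro a ha
  have h1 := h ⟨a, ha⟩
  rw [emb_apply, ← locEmb_primeLocalToGlobal] at h1
  have h2 : primeLocalToGlobal q d (g a) = g a := locEmb_injective q h1
  show g⁻¹ (primeLocalToGlobal q d (g a)) = a
  rw [h2]
  show g.symm (g a) = a
  simp

/-- An element of `Dsub q g` fixes `ι (g F)`. -/
lemma fixes_of_mem_Dsub (q : Nat.Primes) (g : GQ) (d : primeLocalGaloisGroup q)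
    (hd : d ∈ L.Dsub q g) (a : L.field) : locAct q d (L.emb q g a) = L.emb q g a := by
  rw [emb_apply, ← locEmb_primeLocalToGlobal]
  congr 1
  have h1 : (g⁻¹ * primeLocalToGlobal q d * g) (a : AlgebraicClosure ℚ) = a :=
    (L.mem_field_iff _).1 a.2 _ hd
  have h2 : g ((g⁻¹ * primeLocalToGlobal q d * g) (a : AlgebraicClosure ℚ)) =
      primeLocalToGlobal q d (g a) := by
    show g (g⁻¹ (primeLocalToGlobal q d (g a))) = _
    show g (g.symm (primeLocalToGlobal q d (g a))) = _
    simp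
  rw [← h2, h1]

/-- **P3c**: the completion of `F` at the place `D_q g U` is the fixed field of `Dsub q g`. -/
theorem mem_complOf_iff_fixed (q : Nat.Primes) (g : GQ) (y : @PadicAlgCl (q : ℕ) ⟨q.2⟩) :
    letI : Fact (q : ℕ).Prime := ⟨q.2⟩
    y ∈ F4G.complOf (L.emb q g) ↔ ∀ d ∈ L.Dsub q g, locAct q d y = y := by
  letI : Fact (q : ℕ).Prime := ⟨q.2⟩
  haveI hgal : IsGalois ℚ_[(q : ℕ)] (PadicAlgCl (q : ℕ)) := inferInstance
  haveI hfd : FiniteDimensional ℚ_[(q : ℕ)] ↥(F4G.complOf (L.emb q g)) :=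
    F4G.finiteDimensional_complOf (L.emb q g)
  constructor
  · intro hy d hd
    -- `d` fixes the generators, hence the field they generate
    have hle : F4G.complOf (L.emb q g) ≤
        IntermediateField.fixedField (Subgroup.zpowers
          (show PadicAlgCl (q : ℕ) ≃ₐ[ℚ_[(q : ℕ)]] PadicAlgCl (q : ℕ) from d)) := by
      rw [IntermediateField.adjoin_le_iff]
      rintro _ ⟨a, rfl⟩
      rintro ⟨τ, hτ⟩
      obtain ⟨n, rfl⟩ := Subgroup.mem_zpowers_iff.mp hτ
      have hfix : (show PadicAlgCl (q : ℕ) ≃ₐ[ℚ_[(q : ℕ)]] PadicAlgCl (q : ℕ) from d) ∈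
          MulAction.stabilizer (PadicAlgCl (q : ℕ) ≃ₐ[ℚ_[(q : ℕ)]] PadicAlgCl (q : ℕ))
            (L.emb q g a) := L.fixes_of_mem_Dsub q g d hd a
      exact Subgroup.zpow_mem _ hfix n
    exact hle hy ⟨_, Subgroup.mem_zpowers _⟩
  · intro h
    rw [← InfiniteGalois.fixedField_fixingSubgroup (F4G.complOf (L.emb q g))]
    rintro ⟨d, hd⟩
    refine h d (L.mem_Dsub_of_fixes q g d fun a => ?_)
    exact (IntermediateField.mem_fixingSubgroup_iff _ _).1 hd _ (F4G.map_mem_complOf _ a)

/-- The value at `(q, g)` of `x ∈ J^U` lies in the completion `complOf (L.emb q g)`. -/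
theorem Jval_mem_complOf {x : Jrep S} (hx : x ∈ L.JU) (q : ↥S) (g : GQ) :
    letI : Fact ((q : Nat.Primes) : ℕ).Prime := ⟨(q : Nat.Primes).2⟩
    Jval x q g ∈ F4G.complOf (L.emb q.1 g) :=
  (L.mem_complOf_iff_fixed q.1 g _).2 fun d hd => L.Jval_fixed hx q g d hd

end OpenS

end Fermat.Agent.F4
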