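import Fermat.Agent.F4.Dict.Units
import Fermat.Agent.F4.Hull.Basic
import Fermat.Agent.Lib.KFin.Inertia

/-!
# F4 / Dict / SUnits : sub-representations, `S`-units of `ℚ_S`, orders outside `S` (layer DICT, D0)

* `subRep A R hR` : the sub-representation of a `ℤ[G]`-module on a stable subgroup;
* `IsSUnit S u` : `u ∈ ℚ̄` is a unit at every valuation subring of `ℚ̄` over a prime outside `S`;
* `EsRep S` : the `S`-units of `ℚ_S` as a `ℤ[G_ℚ]`-module (`E` of the blueprint), `EsIncl : E → (ℚ_S)ˣ`;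
* `HasOrdAt A q x n` : `x / q ^ n` is a unit of `A` (the order of `x` at an unramified place over `q`).
-/

set_option autoImplicit false

open CategoryTheory groupCohomology ExtCitation
open scoped Pointwise

namespace Fermat.Agent.F4

/-! ### Sub-representations -/

section Sub

variable {G : Type} [Group G] (A : Rep.{0} ℤ G) (R : AddSubgroup A)
  (hR : ∀ (g : G) (x : A), x ∈ R → A.ρ g x ∈ R)

/-- The action of `g` on a stable subgroup. -/
def subAct (g : G) : ↥R →+ ↥R where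
  toFun x := ⟨A.ρ g x.1, hR g x.1 x.2⟩
  map_zero' := Subtype.ext (map_zero _)
  map_add' x y := Subtype.ext (map_add _ _ _)

/-- The representation of `G` on a stable subgroup. -/
def subRepr : Representation ℤ G ↥R where
  toFun g := (subAct A R hR g).toIntLinearMap
  map_one' := by
    refine LinearMap.ext fun x => Subtype.ext ?_
    show A.ρ 1 x.1 = x.1
    rw [map_one]; rfl
  map_mul' g h := by
    refine LinearMap.ext fun x => Subtype.ext ?_
    show A.ρ (g * h) x.1 = A.ρ g (A.ρ h x.1)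
    rw [map_mul]; rfl

/-- A stable subgroup as a representation. -/
abbrev subRep : Rep.{0} ℤ G := Rep.of (subRepr A R hR)

/-- The inclusion. -/
def subIncl : subRep A R hR →+ A := R.subtype

lemma subIncl_injective : Function.Injective (subIncl A R hR) := Subtype.val_injective

lemma subIncl_comm (g : G) (x : subRep A R hR) :
    subIncl A R hR ((subRep A R hR).ρ g x) = A.ρ g (subIncl A R hR x) := rfl

lemma subIncl_mem (x : subRep A R hR) : subIncl A R hR x ∈ R := x.2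

lemma exists_subIncl_eq {a : A} (ha : a ∈ R) : ∃ x : subRep A R hR, subIncl A R hR x = a :=
  ⟨⟨a, ha⟩, rfl⟩

lemma subRep_smooth (𝓤 : Levels G) (hA : IsSmooth 𝓤 A) : IsSmooth 𝓤 (subRep A R hR) := by
  intro x
  obtain ⟨U, hU, h⟩ := hA (subIncl A R hR x)
  exact ⟨U, hU, fun g hg => Subtype.ext (h g hg)⟩

end Sub

/-! ### `S`-units -/

section SUnits

/-- `u` is a unit of the valuation subring `A`. -/
def IsUnitAt (A : ValuationSubring (AlgebraicClosure ℚ)) (u : AlgebraicClosure ℚ) : Prop :=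
  u ∈ A ∧ u⁻¹ ∈ A

lemma IsUnitAt.one (A : ValuationSubring (AlgebraicClosure ℚ)) : IsUnitAt A 1 :=
  ⟨A.one_mem, by rw [inv_one]; exact A.one_mem⟩

lemma IsUnitAt.mul {A : ValuationSubring (AlgebraicClosure ℚ)} {u v : AlgebraicClosure ℚ}
    (hu : IsUnitAt A u) (hv : IsUnitAt A v) : IsUnitAt A (u * v) :=
  ⟨A.mul_mem _ _ hu.1 hv.1, by rw [mul_inv]; exact A.mul_mem _ _ hu.2 hv.2⟩

lemma IsUnitAt.inv {A : ValuationSubring (AlgebraicClosure ℚ)} {u : AlgebraicClosure ℚ}
    (hu : IsUnitAt A u) : IsUnitAt A u⁻¹ :=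
  ⟨hu.2, by rw [inv_inv]; exact hu.1⟩

lemma IsUnitAt.pow {A : ValuationSubring (AlgebraicClosure ℚ)} {u : AlgebraicClosure ℚ}
    (hu : IsUnitAt A u) (n : ℕ) : IsUnitAt A (u ^ n) :=
  ⟨pow_mem hu.1 n, by rw [← inv_pow]; exact pow_mem hu.2 n⟩

/-- `σ u` is a unit of `A` iff `u` is a unit of `σ⁻¹ • A`. -/
lemma isUnitAt_map_iff (A : ValuationSubring (AlgebraicClosure ℚ)) (σ : GQ)
    (u : AlgebraicClosure ℚ) : IsUnitAt A (σ u) ↔ IsUnitAt (σ⁻¹ • A) u := by
  have key : ∀ x : AlgebraicClosure ℚ, x ∈ σ⁻¹ • A ↔ σ x ∈ A := by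
    intro x
    rw [ValuationSubring.mem_pointwise_smul_iff_inv_smul_mem, inv_inv]
    rfl
  unfold IsUnitAt
  rw [key, key, map_inv₀]

variable (S : Finset Nat.Primes)

/-- `u` is a unit at every valuation subring of `ℚ̄` lying over a prime outside `S`. -/
def IsSUnit (u : AlgebraicClosure ℚ) : Prop :=
  ∀ q : Nat.Primes, q ∉ S → ∀ A : ValuationSubring (AlgebraicClosure ℚ),
    A.LiesOverPrime (q : ℕ) → IsUnitAt A u

variable {S}

lemma IsSUnit.one : IsSUnit S 1 := fun _ _ A _ => IsUnitAt.one A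

lemma IsSUnit.mul {u v : AlgebraicClosure ℚ} (hu : IsSUnit S u) (hv : IsSUnit S v) :
    IsSUnit S (u * v) := fun q hq A hA => (hu q hq A hA).mul (hv q hq A hA)

lemma IsSUnit.inv {u : AlgebraicClosure ℚ} (hu : IsSUnit S u) : IsSUnit S u⁻¹ :=
  fun q hq A hA => (hu q hq A hA).inv

/-- Valuation subrings over `q` are permuted by `Gal(ℚ̄/ℚ)`. -/
lemma liesOverPrime_smul (A : ValuationSubring (AlgebraicClosure ℚ)) (σ : GQ) (q : ℕ)
    (hA : A.LiesOverPrime q) : (σ • A).LiesOverPrime q :=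
  Fermat.Agent.KFin.kf_liesOverPrime_smul A σ q hA

lemma IsSUnit.map (σ : GQ) {u : AlgebraicClosure ℚ} (hu : IsSUnit S u) : IsSUnit S (σ u) :=
  fun q hq A hA => (isUnitAt_map_iff A σ u).2 (hu q hq _ (liesOverPrime_smul A σ⁻¹ q hA))

variable (S)

/-- The `S`-units of `ℚ_S`, as a subgroup of `(ℚ_S)ˣ` (written additively). -/
def sUnitsAdd : AddSubgroup (QSx S) where
  carrier := {x | IsSUnit S ((smUnits.val x : (AlgebraicClosure ℚ)ˣ) : AlgebraicClosure ℚ)}
  zero_mem' := IsSUnit.one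
  add_mem' := fun {a b} ha hb => by
    show IsSUnit S (((smUnits.val (a + b) : (AlgebraicClosure ℚ)ˣ)) : AlgebraicClosure ℚ)
    rw [smUnits.val_add, Units.val_mul]
    exact IsSUnit.mul ha hb
  neg_mem' := fun {a} ha => by
    show IsSUnit S (((smUnits.val (-a) : (AlgebraicClosure ℚ)ˣ)) : AlgebraicClosure ℚ)
    rw [smUnits.val_neg, Units.val_inv_eq_inv_val]
    exact IsSUnit.inv ha

lemma mem_sUnitsAdd_iff (x : QSx S) :
    x ∈ sUnitsAdd S ↔
      IsSUnit S ((smUnits.val x : (AlgebraicClosure ℚ)ˣ) : AlgebraicClosure ℚ) := Iff.rfl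

lemma sUnitsAdd_stable (g : GQ) (x : QSx S) (hx : x ∈ sUnitsAdd S) :
    (QSx S).ρ g x ∈ sUnitsAdd S := by
  show IsSUnit S ((smUnits.val ((QSx S).ρ g x) : (AlgebraicClosure ℚ)ˣ) : AlgebraicClosure ℚ)
  rw [smUnits.val_ρ]
  exact IsSUnit.map g hx

/-- **`E`**: the `S`-units of `ℚ_S` as a `ℤ[G_ℚ]`-module. -/
noncomputable abbrev EsRep : Rep.{0} ℤ GQ := subRep (QSx S) (sUnitsAdd S) (sUnitsAdd_stable S)

/-- The inclusion `E → (ℚ_S)ˣ`. -/
noncomputable def EsIncl : EsRep S →+ QSx S := subIncl (QSx S) (sUnitsAdd S) (sUnitsAdd_stable S)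

lemma EsRep_smooth : IsSmooth (levelsS S) (EsRep S) :=
  subRep_smooth _ _ _ _ smUnits_smooth

/-- `x / q ^ n` is a unit of `A`: the order of `x` at `A` is `n` (for `A` over `q`, unramified). -/
def HasOrdAt (A : ValuationSubring (AlgebraicClosure ℚ)) (q : ℕ) (x : AlgebraicClosure ℚ)
    (n : ℤ) : Prop :=
  IsUnitAt A (x * (q : AlgebraicClosure ℚ) ^ (-n))

end SUnits

end Fermat.Agent.F4
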