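import Fermat.Agent.F4.Cf.Defs
import Fermat.Agent.F4.Datum

/-!
# F4 / Dict / TwoKummer : the cyclic layer cut out by a `p`-th root (seat TWO, algebra part)

`U ≤ G_ℚ` a subgroup fixing the `p`-th roots of unity, `α ∈ ℚ̄ˣ` with `α ^ p` fixed by `U`.
Then `two_stab U α = {g ∈ U | g α = α}` is either `U` or a cyclic layer of degree `p` of `U`
(`two_isCyc`), and two such layers coincide only if `α₂ = α₁ ^ b * β` with `β` fixed by `U`
(`two_eq_of_stab_eq`).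
-/

set_option autoImplicit false

open CategoryTheory groupCohomology

namespace Fermat.Agent.F4Cf

open Fermat.Agent.F4

/-- The subgroup of `U` fixing `α`. -/
def two_stab (U : Subgroup GQ) (α : AlgebraicClosure ℚ) : Subgroup GQ where
  carrier := {g | g ∈ U ∧ g α = α}
  one_mem' := ⟨U.one_mem, rfl⟩
  mul_mem' := fun {a b} ha hb => ⟨U.mul_mem ha.1 hb.1, by
    show a (b α) = α
    rw [hb.2, ha.2]⟩
  inv_mem' := fun {a} ha => ⟨U.inv_mem ha.1, by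
    show a.symm α = α
    rw [AlgEquiv.symm_apply_eq]
    exact ha.2.symm⟩

lemma two_mem_stab {U : Subgroup GQ} {α : AlgebraicClosure ℚ} {g : GQ} :
    g ∈ two_stab U α ↔ g ∈ U ∧ g α = α := Iff.rfl

lemma two_stab_le (U : Subgroup GQ) (α : AlgebraicClosure ℚ) : two_stab U α ≤ U :=
  fun _ hg => hg.1

section Layer

variable {p : ℕ} {U : Subgroup GQ} {α : AlgebraicClosure ℚ}

/-- `g α = ω α` with `ω ^ p = 1`. -/
lemma two_exists_root (hα : α ≠ 0) {g : GQ} (hg : g (α ^ p) = α ^ p) :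
    ∃ ω : AlgebraicClosure ℚ, ω ^ p = 1 ∧ g α = ω * α := by
  refine ⟨g α * α⁻¹, ?_, ?_⟩
  · rw [mul_pow, ← map_pow, hg, inv_pow]
    exact mul_inv_cancel₀ (pow_ne_zero _ hα)
  · rw [mul_assoc, inv_mul_cancel₀ hα, mul_one]

/-- `σ ^ i α = ω ^ i α` if `σ` fixes `ω`. -/
lemma two_pow_apply {σ : GQ} {ω : AlgebraicClosure ℚ} (hω : σ ω = ω) (hσ : σ α = ω * α)
    (i : ℕ) : (σ ^ i) α = ω ^ i * α := by
  induction i with
  | zero => simp
  | succ i ih =>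
    rw [pow_succ]
    show (σ ^ i) (σ α) = _
    rw [hσ, map_mul, ih]
    have h1 : (σ ^ i) ω = ω := by
      clear ih
      induction i with
      | zero => rfl
      | succ j ihj =>
        rw [pow_succ]
        show (σ ^ j) (σ ω) = ω
        rw [hω, ihj]
    rw [h1, pow_succ]
    ring

/-- A nontrivial `p`-th root of unity generates all of them (`p` prime). -/
lemma two_exists_pow (hp : p.Prime) {ω₀ ω : AlgebraicClosure ℚ} (h₀ : ω₀ ^ p = 1)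
    (hne : ω₀ ≠ 1) (hω : ω ^ p = 1) : ∃ i : ℕ, i < p ∧ ω = ω₀ ^ i := by
  have : Fact p.Prime := ⟨hp⟩
  have hord : orderOf ω₀ = p := orderOf_eq_prime h₀ hne
  have hprim : IsPrimitiveRoot ω₀ p := by
    have := IsPrimitiveRoot.orderOf ω₀
    rwa [hord] at this
  obtain ⟨i, hi, h⟩ := hprim.eq_pow_of_pow_eq_one hω
  exact ⟨i, hi, h.symm⟩

variable (hp : p.Prime) (hμ : ∀ g ∈ U, ∀ t : AlgebraicClosure ℚ, t ^ p = 1 → g t = t)
  (hα : α ≠ 0) (hx : ∀ g ∈ U, g (α ^ p) = α ^ p)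

include hp hμ hα hx

/-- **The Kummer layer.**  If `σ ∈ U` moves `α`, then `{g ∈ U | g α = α}` is a cyclic layer of
degree `p` of `U`, generated by `σ`. -/
theorem two_isCyc {σ : GQ} (hσU : σ ∈ U) (hσ : σ α ≠ α) : IsCyc p U (two_stab U α) σ := by
  obtain ⟨ω₀, hω₀, hσα⟩ := two_exists_root hα (hx σ hσU)
  have hω₀ne : ω₀ ≠ 1 := by
    rintro rfl
    rw [one_mul] at hσα
    exact hσ hσα
  have hσω₀ : σ ω₀ = ω₀ := hμ σ hσU ω₀ hω₀
  refine ⟨two_stab_le U α, ?_, hσU, fun h => hσ h.2, ?_, ?_⟩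
  · intro u hu v hv
    refine ⟨U.mul_mem (U.mul_mem hu hv.1) (U.inv_mem hu), ?_⟩
    obtain ⟨ω, hω, huα⟩ := two_exists_root hα (hx u⁻¹ (U.inv_mem hu))
    show u (v (u⁻¹ α)) = α
    rw [huα, map_mul, hμ v hv.1 ω hω, hv.2, ← huα]
    exact u.apply_symm_apply α
  · refine ⟨U.pow_mem hσU p, ?_⟩
    rw [two_pow_apply hσω₀ hσα, hω₀, one_mul]
  · intro u hu
    obtain ⟨ω, hω, huα⟩ := two_exists_root hα (hx u hu)
    obtain ⟨i, hi, hωi⟩ := two_exists_pow hp hω₀ hω₀ne hω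
    refine ⟨i, hi, U.mul_mem (U.inv_mem (U.pow_mem hσU i)) hu, ?_⟩
    show (σ ^ i)⁻¹ (u α) = α
    rw [huα, hωi, ← two_pow_apply hσω₀ hσα]
    exact (σ ^ i).symm_apply_apply α

omit hx in
/-- **Distinct Kummer classes give distinct layers.**  If the layers of `α₁` and `α₂` coincide,
then `α₂ = α₁ ^ b * β` with `β` fixed by `U`. -/
theorem two_eq_of_stab_eq {α₂ : AlgebraicClosure ℚ} (hx₁ : ∀ g ∈ U, g (α ^ p) = α ^ p)
    (hα₂ : α₂ ≠ 0) (hx₂ : ∀ g ∈ U, g (α₂ ^ p) = α₂ ^ p)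
    (heq : two_stab U α = two_stab U α₂) {σ : GQ} (hσU : σ ∈ U) (hσ : σ α ≠ α) :
    ∃ (b : ℕ) (β : AlgebraicClosure ℚ), (∀ g ∈ U, g β = β) ∧ α₂ = α ^ b * β := by
  have hcyc := two_isCyc hp hμ hα hx₁ hσU hσ
  obtain ⟨ω₁, hω₁, hσα₁⟩ := two_exists_root hα (hx₁ σ hσU)
  obtain ⟨ω₂, hω₂, hσα₂⟩ := two_exists_root hα₂ (hx₂ σ hσU)
  have hω₁ne : ω₁ ≠ 1 := by
    rintro rfl
    rw [one_mul] at hσα₁
    exact hσ hσα₁
  obtain ⟨b, -, hb⟩ := two_exists_pow hp hω₁ hω₁ne hω₂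
  have hαb : α ^ b ≠ 0 := pow_ne_zero _ hα
  refine ⟨b, α₂ * (α ^ b)⁻¹, ?_, ?_⟩
  · -- `σ` fixes `β`
    have hσβ : σ (α₂ * (α ^ b)⁻¹) = α₂ * (α ^ b)⁻¹ := by
      rw [map_mul, map_inv₀, map_pow, hσα₁, hσα₂, hb, mul_pow]
      have hω₁b : ω₁ ^ b ≠ 0 := by
        apply pow_ne_zero
        intro h0
        rw [h0, zero_pow hp.ne_zero] at hω₁
        exact zero_ne_one hω₁
      field_simp
    have hσiβ : ∀ i : ℕ, (σ ^ i) (α₂ * (α ^ b)⁻¹) = α₂ * (α ^ b)⁻¹ := by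
      intro i
      induction i with
      | zero => rfl
      | succ j ihj =>
        rw [pow_succ]
        show (σ ^ j) (σ (α₂ * (α ^ b)⁻¹)) = _
        rw [hσβ, ihj]
    intro u hu
    obtain ⟨i, -, hmem⟩ := hcyc.gen u hu
    have hv₁ : ((σ ^ i)⁻¹ * u) α = α := hmem.2
    have hv₂ : ((σ ^ i)⁻¹ * u) α₂ = α₂ := by
      have : (σ ^ i)⁻¹ * u ∈ two_stab U α₂ := heq ▸ hmem
      exact this.2
    have hvβ : ((σ ^ i)⁻¹ * u) (α₂ * (α ^ b)⁻¹) = α₂ * (α ^ b)⁻¹ := by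
      rw [map_mul, map_inv₀, map_pow, hv₁, hv₂]
    have hu' : u = σ ^ i * ((σ ^ i)⁻¹ * u) := by group
    rw [hu']
    show (σ ^ i) (((σ ^ i)⁻¹ * u) (α₂ * (α ^ b)⁻¹)) = _
    rw [hvβ, hσiβ]
  · field_simp

end Layer

end Fermat.Agent.F4Cf
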